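import Mathlib

/-!
# S37-ES (CHI), abstract part: the characteristic polynomial as a product over embeddings

For a finite separable field extension `L / K` of degree `n` and `n` pairwise distinct
`K`-embeddings `σ i : L → Ω` into a field `Ω`, the characteristic polynomial of multiplication by
`x : L` maps to `∏ i, (X - σ i x)` in `Ω[X]`.
-/

set_option autoImplicit false

open Polynomial

namespace Fermat.Agent.S37

/-- The characteristic polynomial of multiplication by `x`, mapped to an algebraically closed
field, is the product over all embeddings. -/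
theorem s37_ec_charpoly_map_eq_prod_algHom {K L E : Type*} [Field K] [Field L] [Field E]
    [Algebra K L] [Algebra K E] [FiniteDimensional K L] [Algebra.IsSeparable K L] [IsAlgClosed E]
    [Infinite K] (x : L) :
    (LinearMap.mulLeft K x).charpoly.map (algebraMap K E) = ∏ σ : L →ₐ[K] E, (X - C (σ x)) := by
  classical
  apply Polynomial.eq_of_infinite_eval_eq _ _
  refine Set.Infinite.mono ?_ (Set.infinite_range_of_injective (algebraMap K E).injective)
  rintro _ ⟨c, rfl⟩
  show _ = _
  rw [Polynomial.eval_map, Polynomial.eval₂_at_apply, LinearMap.eval_charpoly,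
    Polynomial.eval_prod]
  have h1 : (algebraMap K (Module.End K L) c - LinearMap.mulLeft K x) =
      Algebra.lmul K L (algebraMap K L c - x) := by
    ext y
    simp [Algebra.smul_def]
  rw [h1, ← Algebra.norm_apply, Algebra.norm_eq_prod_embeddings K E]
  refine Finset.prod_congr rfl (fun σ _ => ?_)
  rw [map_sub, AlgHom.commutes, Polynomial.eval_sub, Polynomial.eval_X, Polynomial.eval_C]

/-- The characteristic polynomial of multiplication by `x`, mapped along `f : K →+* Ω`, is the
product over `n = [L : K]` pairwise distinct ring homomorphisms `σ i : L →+* Ω` extending `f`. -/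
theorem s37_ec_charpoly_map_eq_prod {K L Ω : Type*} [Field K] [Field L] [Field Ω]
    [Algebra K L] [FiniteDimensional K L] [Algebra.IsSeparable K L] [Infinite K]
    {ι : Type*} [Fintype ι] (f : K →+* Ω) (σ : ι → L →+* Ω)
    (hf : ∀ i, (σ i).comp (algebraMap K L) = f) (hσ : Function.Injective σ)
    (hcard : Fintype.card ι = Module.finrank K L) (x : L) :
    (LinearMap.mulLeft K x).charpoly.map f = ∏ i, (X - C (σ i x)) := by
  classical
  let E := AlgebraicClosure Ω
  let _ : Algebra K Ω := f.toAlgebra
  let τ : ι → L →ₐ[K] E := fun i =>
    { ((algebraMap Ω E).comp (σ i)) with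
      commutes' := fun k => by
        show algebraMap Ω E (σ i (algebraMap K L k)) = algebraMap Ω E (f k)
        have := congrArg (fun g : K →+* Ω => g k) (hf i)
        exact congrArg (algebraMap Ω E) this }
  have hτ : Function.Injective τ := by
    intro i j hij
    apply hσ
    ext y
    have h1 : τ i y = τ j y := by rw [hij]
    exact (algebraMap Ω E).injective h1
  have hcard' : Fintype.card ι = Fintype.card (L →ₐ[K] E) := by
    rw [hcard, AlgHom.card K L E]
  have hbij : Function.Bijective τ := (Fintype.bijective_iff_injective_and_card τ).2 ⟨hτ, hcard'⟩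
  have h1 := s37_ec_charpoly_map_eq_prod_algHom (K := K) (L := L) (E := E) x
  have h2 : ∏ σ' : L →ₐ[K] E, (X - C (σ' x)) = ∏ i, (X - C (τ i x)) :=
    (Fintype.prod_bijective τ hbij _ _ (fun _ => rfl)).symm
  rw [h2] at h1
  apply Polynomial.map_injective (algebraMap Ω E) (algebraMap Ω E).injective
  rw [Polynomial.map_map, Polynomial.map_prod]
  have h3 : (algebraMap Ω E).comp f = algebraMap K E :=
    (IsScalarTower.algebraMap_eq K Ω E).symm
  rw [h3, h1]
  refine Finset.prod_congr rfl (fun i _ => ?_)
  rw [Polynomial.map_sub, Polynomial.map_X, Polynomial.map_C]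
  rfl

end Fermat.Agent.S37
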