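import Fermat.Agent.S37.EsSwap
import Fermat.Agent.S18.NormDescent

/-!
# S37, block ES1 (DEG): `[F̄(N ℓ) : β(F̄(N))] = ℓ + 1`

The Atkin–Lehner swap `W` (`EsSwap.lean`) carries the `β`-structure of `F̄(N ℓ)` over `F̄(N)` to
the `α`-structure, whose degree is `ψ(N ℓ)/ψ(N) = ℓ + 1` (S18 `NormDescent`).
-/

set_option autoImplicit false
set_option linter.style.haveILetI false

open ModularCurve AlgebraicCurve

noncomputable section

namespace Fermat.Agent.S37

open Fermat.Agent.S24

/-- Two embeddings which differ by an automorphism of the target have the same degree. -/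
theorem s37_ew_along_congr {K F F' : Type*} [Field K] [Field F] [Field F'] [Algebra K F]
    [Algebra K F'] (φ ψ : F →ₐ[K] F') (W : F' ≃ₐ[K] F') (h : ∀ x, W (φ x) = ψ x) :
    (FiniteAlong K φ → FiniteAlong K ψ) ∧ finrankAlong K φ = finrankAlong K ψ := by
  have e : @LinearEquiv F F _ _ (RingHom.id F) (RingHom.id F) _ _ F' F' _ _
      (algebraAlong φ).toModule (algebraAlong ψ).toModule :=
    @LinearEquiv.mk F F _ _ (RingHom.id F) (RingHom.id F) _ _ F' F' _ _
      (algebraAlong φ).toModule (algebraAlong ψ).toModule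
      (@LinearMap.mk F F _ _ (RingHom.id F) F' F' _ _
        (algebraAlong φ).toModule (algebraAlong ψ).toModule
        ⟨W, map_add W⟩
        (fun a x => by
          show W (φ a * x) = ψ a * W x
          rw [map_mul, h]))
      W.symm W.left_inv W.right_inv
  exact ⟨fun hfin => @Module.Finite.equiv F F' F' _ _ (algebraAlong φ).toModule _
      (algebraAlong ψ).toModule hfin e,
    @LinearEquiv.finrank_eq F F' F' _ _ (algebraAlong φ).toModule _
      (algebraAlong ψ).toModule e⟩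

/-- The degree along an inclusion of intermediate fields is the relative rank. -/
theorem s37_ew_finrankAlong_inclusion {K L : Type*} [Field K] [Field L] [Algebra K L]
    {A B : IntermediateField K L} (h : A ≤ B) :
    finrankAlong K (IntermediateField.inclusion h) = A.relfinrank B := by
  rw [IntermediateField.relfinrank_eq_finrank_of_le h]
  letI := algebraAlong (IntermediateField.inclusion h)
  show Module.finrank A B = _
  refine LinearEquiv.finrank_eq ?_
  exact
    { toFun := fun x => ⟨x.1, x.2⟩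
      invFun := fun x => ⟨x.1, x.2⟩
      map_add' := fun _ _ => rfl
      map_smul' := fun _ _ => rfl
      left_inv := fun _ => rfl
      right_inv := fun _ => rfl }

/-- The degree of the inclusion `α : F̄(N) → F̄(N ℓ)`. -/
theorem s37_es_finrank_alpha (N ℓ : ℕ) [NeZero N] [NeZero ℓ] (hℓ : ℓ.Prime) (hℓN : ¬ ℓ ∣ N) :
    FiniteAlong (AlgebraicClosure ℚ) (heckeAlphaBar (AlgebraicClosure ℚ) N ℓ) ∧
      finrankAlong (AlgebraicClosure ℚ) (heckeAlphaBar (AlgebraicClosure ℚ) N ℓ) = ℓ + 1 := by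
  have h1 : finrankAlong (AlgebraicClosure ℚ) (heckeAlphaBar (AlgebraicClosure ℚ) N ℓ) = ℓ + 1 := by
    have hle : modularFunctionFieldBar N ≤ modularFunctionFieldBar (N * ℓ) :=
      Fermat.Agent.S18.s18_d5_le (Dvd.intro ℓ rfl)
    rw [heckeAlphaBar_eq_inclusion N ℓ hle, s37_ew_finrankAlong_inclusion hle]
    exact Fermat.Agent.S18.s18_d5_relfinrank_mul_prime N ℓ hℓ hℓN
  refine ⟨?_, h1⟩
  letI := algebraAlong (heckeAlphaBar (AlgebraicClosure ℚ) N ℓ)
  show Module.Finite (modularFunctionFieldBar N) (modularFunctionFieldBar (N * ℓ))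
  apply Module.finite_of_finrank_pos
  have h2 : Module.finrank (modularFunctionFieldBar N) (modularFunctionFieldBar (N * ℓ)) = ℓ + 1 :=
    h1
  rw [h2]
  exact Nat.succ_pos ℓ

/-- **(DEG)**: the degree of `β : F̄(N) → F̄(N ℓ)`, `f(q) ↦ f(q^ℓ)`, is `ℓ + 1`. -/
theorem s37_es_finrank_beta (N ℓ : ℕ) [NeZero N] [NeZero ℓ] (hℓ : ℓ.Prime) (hℓN : ¬ ℓ ∣ N) :
    FiniteAlong (AlgebraicClosure ℚ) (heckeBetaBar (AlgebraicClosure ℚ) N ℓ) ∧
      finrankAlong (AlgebraicClosure ℚ) (heckeBetaBar (AlgebraicClosure ℚ) N ℓ) = ℓ + 1 := by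
  have hcop : Nat.Coprime ℓ N := (Nat.Prime.coprime_iff_not_dvd hℓ).mpr hℓN
  obtain ⟨W, hWα, hWβ⟩ := s37_es_swap N ℓ hcop
  obtain ⟨hfinα, hdegα⟩ := s37_es_finrank_alpha N ℓ hℓ hℓN
  obtain ⟨hfin, hdeg⟩ := s37_ew_along_congr _ _ W hWα
  exact ⟨hfin hfinα, by rw [← hdeg, hdegα]⟩

end Fermat.Agent.S37
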