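import Mathlib
import Fermat.Prelude.Def_AlgebraicCurve_BaseChangeGalois
import Fermat.Agent.S24.Fiber

/-!
# S37, block R, part A (helper24): evaluation of functions at places

For a function field `F/K` all of whose places have residue field `K` (`s37_r_Rational K F`; true
for `K` algebraically closed and `F` finite over `K(x)`), every place `P` has an evaluation
ring homomorphism `s37_r_ev P : O_P →+* K` (the residue map).  `s37_r_val P f : K` is the value
of `f : F` at `P` (junk value `0` if `f ∉ O_P`).

* `s37_r_val_spec`, `s37_r_val_eq_of_sub_mem` : characterisation `f - val ∈ 𝔪_P`;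
* `s37_r_val_add`, `s37_r_val_mul`, `s37_r_val_algebraMap`, `s37_r_val_inv`;
* `s37_r_val_eq_zero_iff`, `s37_r_val_eq_zero_iff_ord_pos`;
* `s37_r_dichotomy` : for a valuation subring `A` of `K` and `t : F`, either
  `t ∈ O_P ∧ t(P) ∈ A` or `t⁻¹ ∈ O_P ∧ t⁻¹(P) ∈ 𝔪_A`;
* `s37_r_integral` : elements integral over a subring of `O_P` with values in `A` are in `O_P`
  with value in `A`;
* `s37_r_val_smul` : transport along semilinear automorphisms,
  `(g • f)(g • P) = baseAut g (f(P))`.
-/

set_option autoImplicit false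

open AlgebraicCurve
open scoped IntermediateField

noncomputable section

namespace Fermat.Agent.S37

section Eval

variable {K F : Type*} [Field K] [Field F] [Algebra K F]

/-- Every place of `F/K` has residue field `K`. -/
class s37_r_Rational (K F : Type*) [Field K] [Field F] [Algebra K F] : Prop where
  exists_const : ∀ (P : Place K F) (f : F), f ∈ P.toValuationSubring →
    ∃ c : K, f - algebraMap K F c ∈ P.toValuationSubring.nonunits

/-- Places of a function field of one variable over an algebraically closed field are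
rational. -/
theorem s37_r_rational_of_finite [IsAlgClosed K] (x : F) (hx : Transcendental K x)
    [FiniteDimensional K⟮x⟯ F] : s37_r_Rational K F :=
  ⟨fun P f hf => Fermat.Agent.S24.fib_exists_const_sub_mem_nonunits x hx P f hf⟩

/-- membership in the maximal ideal, in terms of `nonunits`. -/
theorem s37_r_mem_maximalIdeal_iff (V : ValuationSubring F) (x : V) :
    x ∈ IsLocalRing.maximalIdeal V ↔ (x : F) ∈ V.nonunits := by
  rw [ValuationSubring.mem_nonunits_iff_exists_mem_maximalIdeal]
  exact ⟨fun h => ⟨x.2, h⟩, fun ⟨_, h⟩ => h⟩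

/-- The nonunits of a valuation subring are closed under subtraction. -/
theorem s37_r_nonunits_sub (V : ValuationSubring F) {x y : F} (hx : x ∈ V.nonunits)
    (hy : y ∈ V.nonunits) : x - y ∈ V.nonunits := by
  obtain ⟨hx1, hx2⟩ := ValuationSubring.mem_nonunits_iff_exists_mem_maximalIdeal.mp hx
  obtain ⟨hy1, hy2⟩ := ValuationSubring.mem_nonunits_iff_exists_mem_maximalIdeal.mp hy
  exact ValuationSubring.mem_nonunits_iff_exists_mem_maximalIdeal.mpr
    ⟨V.sub_mem hx1 hy1, (IsLocalRing.maximalIdeal V).sub_mem hx2 hy2⟩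

theorem s37_r_nonunits_add (V : ValuationSubring F) {x y : F} (hx : x ∈ V.nonunits)
    (hy : y ∈ V.nonunits) : x + y ∈ V.nonunits := by
  obtain ⟨hx1, hx2⟩ := ValuationSubring.mem_nonunits_iff_exists_mem_maximalIdeal.mp hx
  obtain ⟨hy1, hy2⟩ := ValuationSubring.mem_nonunits_iff_exists_mem_maximalIdeal.mp hy
  exact ValuationSubring.mem_nonunits_iff_exists_mem_maximalIdeal.mpr
    ⟨V.add_mem _ _ hx1 hy1, (IsLocalRing.maximalIdeal V).add_mem hx2 hy2⟩

theorem s37_r_nonunits_mul_mem (V : ValuationSubring F) {x y : F} (hx : x ∈ V.nonunits)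
    (hy : y ∈ V) : x * y ∈ V.nonunits := by
  obtain ⟨hx1, hx2⟩ := ValuationSubring.mem_nonunits_iff_exists_mem_maximalIdeal.mp hx
  exact ValuationSubring.mem_nonunits_iff_exists_mem_maximalIdeal.mpr
    ⟨V.mul_mem _ _ hx1 hy, (IsLocalRing.maximalIdeal V).mul_mem_right ⟨y, hy⟩ hx2⟩

theorem s37_r_nonunits_mem (V : ValuationSubring F) {x : F} (hx : x ∈ V.nonunits) : x ∈ V :=
  (ValuationSubring.mem_nonunits_iff_exists_mem_maximalIdeal.mp hx).1

/-- coercion of `u * u⁻¹ = 1` for a unit of a valuation subring. -/
theorem s37_r_coe_unit_mul_inv {L : Type*} [Field L] (V : ValuationSubring L) (u : Vˣ) :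
    ((u : V) : L) * ((u⁻¹ : Vˣ) : L) = 1 := by
  have h := congrArg (fun x : V => (x : L)) u.mul_inv
  exact h

/-- a nonzero constant is not in the maximal ideal of a place. -/
theorem s37_r_const_notMem_nonunits (P : Place K F) {c : K} (hc : c ≠ 0) :
    algebraMap K F c ∉ P.toValuationSubring.nonunits := by
  intro h
  obtain ⟨h1, h2⟩ := ValuationSubring.mem_nonunits_iff_exists_mem_maximalIdeal.mp h
  have hu : IsUnit (⟨algebraMap K F c, h1⟩ : P.toValuationSubring) :=
    IsUnit.of_mul_eq_one ⟨algebraMap K F c⁻¹, P.algebraMap_mem' c⁻¹⟩ (Subtype.ext (by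
      show algebraMap K F c * algebraMap K F c⁻¹ = 1
      rw [← map_mul, mul_inv_cancel₀ hc, map_one]))
  exact (IsLocalRing.mem_maximalIdeal _).mp h2 hu

/-- the value of `f` at `P` (junk `0` if there is none). -/
def s37_r_val (P : Place K F) (f : F) : K := by
  classical
  exact if h : ∃ c : K, f - algebraMap K F c ∈ P.toValuationSubring.nonunits then h.choose else 0

/-- uniqueness of the value. -/
theorem s37_r_val_eq_of_sub_mem (P : Place K F) {f : F} {c : K}
    (h : f - algebraMap K F c ∈ P.toValuationSubring.nonunits) : s37_r_val P f = c := by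
  classical
  have hex : ∃ c : K, f - algebraMap K F c ∈ P.toValuationSubring.nonunits := ⟨c, h⟩
  have h1 : s37_r_val P f = hex.choose := by
    unfold s37_r_val
    rw [dif_pos hex]
  rw [h1]
  by_contra hne
  have h2 := s37_r_nonunits_sub _ h hex.choose_spec
  have h3 : f - algebraMap K F c - (f - algebraMap K F hex.choose) =
      algebraMap K F (hex.choose - c) := by
    rw [map_sub]; ring
  rw [h3] at h2
  exact s37_r_const_notMem_nonunits P (sub_ne_zero.mpr hne) h2

theorem s37_r_val_algebraMap (P : Place K F) (c : K) : s37_r_val P (algebraMap K F c) = c := by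
  apply s37_r_val_eq_of_sub_mem
  rw [sub_self]
  exact ValuationSubring.mem_nonunits_iff_exists_mem_maximalIdeal.mpr
    ⟨zero_mem _, (IsLocalRing.maximalIdeal _).zero_mem⟩

theorem s37_r_val_zero (P : Place K F) : s37_r_val P (0 : F) = 0 := by
  have := s37_r_val_algebraMap P (0 : K)
  rwa [map_zero] at this

theorem s37_r_val_one (P : Place K F) : s37_r_val P (1 : F) = 1 := by
  have := s37_r_val_algebraMap P (1 : K)
  rwa [map_one] at this

/-- elements of the maximal ideal have value `0`. -/
theorem s37_r_val_of_mem_nonunits (P : Place K F) {f : F}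
    (h : f ∈ P.toValuationSubring.nonunits) : s37_r_val P f = 0 := by
  apply s37_r_val_eq_of_sub_mem
  rwa [map_zero, sub_zero]

variable [s37_r_Rational K F]

theorem s37_r_val_spec (P : Place K F) {f : F} (hf : f ∈ P.toValuationSubring) :
    f - algebraMap K F (s37_r_val P f) ∈ P.toValuationSubring.nonunits := by
  obtain ⟨c, hc⟩ := s37_r_Rational.exists_const P f hf
  rw [s37_r_val_eq_of_sub_mem P hc]
  exact hc

theorem s37_r_val_add (P : Place K F) {f g : F} (hf : f ∈ P.toValuationSubring)
    (hg : g ∈ P.toValuationSubring) : s37_r_val P (f + g) = s37_r_val P f + s37_r_val P g := by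
  apply s37_r_val_eq_of_sub_mem
  have h := s37_r_nonunits_add _ (s37_r_val_spec P hf) (s37_r_val_spec P hg)
  have e : f + g - algebraMap K F (s37_r_val P f + s37_r_val P g) =
      f - algebraMap K F (s37_r_val P f) + (g - algebraMap K F (s37_r_val P g)) := by
    rw [map_add]; ring
  rwa [e]

theorem s37_r_val_mul (P : Place K F) {f g : F} (hf : f ∈ P.toValuationSubring)
    (hg : g ∈ P.toValuationSubring) : s37_r_val P (f * g) = s37_r_val P f * s37_r_val P g := by
  apply s37_r_val_eq_of_sub_mem
  have h1 := s37_r_nonunits_mul_mem _ (s37_r_val_spec P hf) hg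
  have h2 := s37_r_nonunits_mul_mem _ (s37_r_val_spec P hg)
    (P.algebraMap_mem' (s37_r_val P f))
  have h := s37_r_nonunits_add _ h1 h2
  have e : f * g - algebraMap K F (s37_r_val P f * s37_r_val P g) =
      (f - algebraMap K F (s37_r_val P f)) * g +
        (g - algebraMap K F (s37_r_val P g)) * algebraMap K F (s37_r_val P f) := by
    rw [map_mul]; ring
  rwa [e]

theorem s37_r_val_neg (P : Place K F) {f : F} (hf : f ∈ P.toValuationSubring) :
    s37_r_val P (-f) = - s37_r_val P f := by
  have h := s37_r_val_mul P (P.algebraMap_mem' (-1)) hf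
  rw [s37_r_val_algebraMap] at h
  rw [map_neg, map_one, neg_one_mul] at h
  rw [h, neg_one_mul]

theorem s37_r_val_sub (P : Place K F) {f g : F} (hf : f ∈ P.toValuationSubring)
    (hg : g ∈ P.toValuationSubring) : s37_r_val P (f - g) = s37_r_val P f - s37_r_val P g := by
  rw [sub_eq_add_neg, s37_r_val_add P hf (neg_mem hg), s37_r_val_neg P hg, sub_eq_add_neg]

theorem s37_r_val_eq_zero_iff (P : Place K F) {f : F} (hf : f ∈ P.toValuationSubring) :
    s37_r_val P f = 0 ↔ f ∈ P.toValuationSubring.nonunits := by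
  constructor
  · intro h
    have := s37_r_val_spec P hf
    rwa [h, map_zero, sub_zero] at this
  · exact s37_r_val_of_mem_nonunits P

theorem s37_r_val_eq_zero_iff_ord_pos (P : Place K F) {f : F} (hf : f ∈ P.toValuationSubring)
    (hf0 : f ≠ 0) : s37_r_val P f = 0 ↔ 0 < P.ord f := by
  rw [s37_r_val_eq_zero_iff P hf, Fermat.Agent.S24.mem_nonunits_iff_ord_pos P hf0]

/-- a function with nonzero value is a unit of the local ring. -/
theorem s37_r_inv_mem_of_val_ne_zero (P : Place K F) {f : F} (hf : f ∈ P.toValuationSubring)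
    (h : s37_r_val P f ≠ 0) : f⁻¹ ∈ P.toValuationSubring := by
  by_contra hinv
  apply h
  rw [s37_r_val_eq_zero_iff P hf]
  rw [ValuationSubring.mem_nonunits_iff_exists_mem_maximalIdeal]
  refine ⟨hf, ?_⟩
  rw [IsLocalRing.mem_maximalIdeal, mem_nonunits_iff]
  intro hu
  obtain ⟨u, hu⟩ := hu
  apply hinv
  have h1 : ((u⁻¹ : (P.toValuationSubring)ˣ) : F) = f⁻¹ := by
    have h2 : ((u : P.toValuationSubring) : F) * ((u⁻¹ : (P.toValuationSubring)ˣ) : F) = 1 :=
      s37_r_coe_unit_mul_inv _ u
    rw [hu] at h2
    exact eq_inv_of_mul_eq_one_right h2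
  rw [← h1]
  exact (u⁻¹ : (P.toValuationSubring)ˣ).1.2

theorem s37_r_val_inv (P : Place K F) {f : F} (hf : f ∈ P.toValuationSubring)
    (h : s37_r_val P f ≠ 0) : s37_r_val P f⁻¹ = (s37_r_val P f)⁻¹ := by
  have hinv := s37_r_inv_mem_of_val_ne_zero P hf h
  have hf0 : f ≠ 0 := by
    rintro rfl
    exact h (s37_r_val_zero P)
  have h1 := s37_r_val_mul P hf hinv
  rw [mul_inv_cancel₀ hf0, s37_r_val_one] at h1
  exact eq_inv_of_mul_eq_one_right h1.symm

theorem s37_r_val_pow (P : Place K F) {f : F} (hf : f ∈ P.toValuationSubring) (n : ℕ) :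
    s37_r_val P (f ^ n) = s37_r_val P f ^ n := by
  induction n with
  | zero => rw [pow_zero, pow_zero, s37_r_val_one]
  | succ n ih => rw [pow_succ, pow_succ, s37_r_val_mul P (pow_mem hf n) hf, ih]

/-- The evaluation ring homomorphism `O_P →+* K`. -/
def s37_r_ev (P : Place K F) : P.toValuationSubring →+* K where
  toFun x := s37_r_val P (x : F)
  map_one' := s37_r_val_one P
  map_mul' x y := s37_r_val_mul P x.2 y.2
  map_zero' := s37_r_val_zero P
  map_add' x y := s37_r_val_add P x.2 y.2

theorem s37_r_ev_apply (P : Place K F) (x : P.toValuationSubring) :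
    s37_r_ev P x = s37_r_val P (x : F) := rfl

/-- **Dichotomy.** For a valuation subring `A` of the constants, a function `t` is either
integral at `P` with value in `A`, or `t⁻¹` is integral at `P` with value in the maximal ideal of
`A`. -/
theorem s37_r_dichotomy (P : Place K F) (A : ValuationSubring K) (t : F) :
    (t ∈ P.toValuationSubring ∧ s37_r_val P t ∈ A) ∨
      (t⁻¹ ∈ P.toValuationSubring ∧ s37_r_val P t⁻¹ ∈ A.nonunits) := by
  have hzero : (0 : K) ∈ A.nonunits :=
    ValuationSubring.mem_nonunits_iff_exists_mem_maximalIdeal.mpr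
      ⟨zero_mem _, (IsLocalRing.maximalIdeal _).zero_mem⟩
  by_cases ht : t ∈ P.toValuationSubring
  · by_cases hv : s37_r_val P t ∈ A
    · exact Or.inl ⟨ht, hv⟩
    · right
      have hne : s37_r_val P t ≠ 0 := fun h0 => hv (h0 ▸ zero_mem _)
      refine ⟨s37_r_inv_mem_of_val_ne_zero P ht hne, ?_⟩
      rw [s37_r_val_inv P ht hne]
      have hinvA : (s37_r_val P t)⁻¹ ∈ A := (A.mem_or_inv_mem _).resolve_left hv
      rw [ValuationSubring.mem_nonunits_iff_exists_mem_maximalIdeal]
      refine ⟨hinvA, ?_⟩
      rw [IsLocalRing.mem_maximalIdeal, mem_nonunits_iff]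
      intro hu
      obtain ⟨u, hu⟩ := hu
      apply hv
      have h2 : ((u : A) : K) * ((u⁻¹ : Aˣ) : K) = 1 := s37_r_coe_unit_mul_inv A u
      rw [hu] at h2
      have h3 : ((u⁻¹ : Aˣ) : K) = s37_r_val P t := by
        have := eq_inv_of_mul_eq_one_right h2
        rw [inv_inv] at this
        exact this
      rw [← h3]
      exact (u⁻¹ : Aˣ).1.2
  · right
    have hinv : t⁻¹ ∈ P.toValuationSubring := (P.toValuationSubring.mem_or_inv_mem t).resolve_left ht
    refine ⟨hinv, ?_⟩
    have hnu : t⁻¹ ∈ P.toValuationSubring.nonunits := by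
      rw [ValuationSubring.mem_nonunits_iff_exists_mem_maximalIdeal]
      refine ⟨hinv, ?_⟩
      rw [IsLocalRing.mem_maximalIdeal, mem_nonunits_iff]
      intro hu
      obtain ⟨u, hu⟩ := hu
      apply ht
      have h2 : ((u : P.toValuationSubring) : F) * ((u⁻¹ : (P.toValuationSubring)ˣ) : F) = 1 :=
        s37_r_coe_unit_mul_inv _ u
      rw [hu] at h2
      have h3 : ((u⁻¹ : (P.toValuationSubring)ˣ) : F) = t := by
        have := eq_inv_of_mul_eq_one_right h2
        rw [inv_inv] at this
        exact this
      rw [← h3]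
      exact (u⁻¹ : (P.toValuationSubring)ˣ).1.2
    rw [s37_r_val_of_mem_nonunits P hnu]
    exact hzero

/-- **Integrality.** If `S` is a subring of `F` contained in `O_P` whose values lie in the
valuation subring `A` of `K`, then every `x : F` integral over `S` lies in `O_P` and has value in
`A`. -/
theorem s37_r_integral (P : Place K F) (A : ValuationSubring K) (S : Subring F)
    (hS : ∀ s ∈ S, s ∈ P.toValuationSubring ∧ s37_r_val P s ∈ A) (x : F) (hx : IsIntegral S x) :
    x ∈ P.toValuationSubring ∧ s37_r_val P x ∈ A := by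
  obtain ⟨p, hp, hpx⟩ := hx
  -- the inclusion `S → O_P`
  let incl : S →+* P.toValuationSubring :=
    { toFun := fun s => ⟨(s : F), (hS s s.2).1⟩
      map_one' := rfl
      map_mul' := fun _ _ => rfl
      map_zero' := rfl
      map_add' := fun _ _ => rfl }
  have hxV : x ∈ P.toValuationSubring := by
    have hint : IsIntegral P.toValuationSubring x := by
      refine ⟨p.map incl, hp.map incl, ?_⟩
      rw [Polynomial.eval₂_map]
      have : (algebraMap P.toValuationSubring F).comp incl = algebraMap S F := rfl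
      rw [this]
      exact hpx
    obtain ⟨y, hy⟩ := (IsIntegrallyClosed.isIntegral_iff (R := P.toValuationSubring) (K := F)).mp hint
    rw [← hy]
    exact y.2
  refine ⟨hxV, ?_⟩
  -- the evaluation `S → A`
  let evS : S →+* A :=
    { toFun := fun s => ⟨s37_r_val P (s : F), (hS s s.2).2⟩
      map_one' := Subtype.ext (s37_r_val_one P)
      map_mul' := fun a b => Subtype.ext (s37_r_val_mul P (hS a a.2).1 (hS b b.2).1)
      map_zero' := Subtype.ext (s37_r_val_zero P)
      map_add' := fun a b => Subtype.ext (s37_r_val_add P (hS a a.2).1 (hS b b.2).1) }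
  have hcomp : (algebraMap A K).comp evS = (s37_r_ev P).comp incl := rfl
  have hint : IsIntegral A (s37_r_val P x) := by
    refine ⟨p.map evS, hp.map evS, ?_⟩
    rw [Polynomial.eval₂_map, hcomp]
    have h1 : Polynomial.eval₂ ((s37_r_ev P).comp incl) (s37_r_val P x) p =
        s37_r_ev P (Polynomial.eval₂ incl (⟨x, hxV⟩ : P.toValuationSubring) p) := by
      rw [Polynomial.hom_eval₂]; rfl
    rw [h1]
    have h2 : Polynomial.eval₂ incl (⟨x, hxV⟩ : P.toValuationSubring) p = 0 := by
      apply Subtype.ext
      have h3 : ((Polynomial.eval₂ incl (⟨x, hxV⟩ : P.toValuationSubring) p :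
          P.toValuationSubring) : F) = Polynomial.eval₂ (algebraMap S F) x p := by
        have := Polynomial.hom_eval₂ p incl (algebraMap P.toValuationSubring F)
          (⟨x, hxV⟩ : P.toValuationSubring)
        exact this
      rw [h3, hpx]; rfl
    rw [h2, map_zero]
  obtain ⟨y, hy⟩ := (IsIntegrallyClosed.isIntegral_iff (R := A) (K := K)).mp hint
  rw [← hy]
  exact y.2

end Eval

section Galois

variable {K F : Type*} [Field K] [Field F] [Algebra K F]

/-- Transport of values along a semilinear automorphism. -/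
theorem s37_r_val_smul [s37_r_Rational K F] (g : SemilinearAut K F) (P : Place K F) {f : F}
    (hf : f ∈ P.toValuationSubring) :
    s37_r_val (g • P) (g • f) = SemilinearAut.baseAut g (s37_r_val P f) := by
  apply s37_r_val_eq_of_sub_mem
  have h := s37_r_val_spec P hf
  obtain ⟨h1, h2⟩ := ValuationSubring.mem_nonunits_iff_exists_mem_maximalIdeal.mp h
  have e : g • f - algebraMap K F (SemilinearAut.baseAut g (s37_r_val P f)) =
      g • (f - algebraMap K F (s37_r_val P f)) := by
    rw [smul_sub, SemilinearAut.smul_algebraMap]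
  rw [e]
  rw [ValuationSubring.mem_nonunits_iff_exists_mem_maximalIdeal]
  have hmem : g • (f - algebraMap K F (s37_r_val P f)) ∈ (g • P).toValuationSubring :=
    ValuationSubring.smul_mem_pointwise_smul g _ P.toValuationSubring h1
  refine ⟨hmem, ?_⟩
  rw [IsLocalRing.mem_maximalIdeal, mem_nonunits_iff]
  intro hu
  have h3 : IsUnit ((SemilinearAut.smulValuationSubringEquiv g P.toValuationSubring).symm
      ⟨g • (f - algebraMap K F (s37_r_val P f)), hmem⟩) := hu.map _
  have h4 : (SemilinearAut.smulValuationSubringEquiv g P.toValuationSubring).symm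
      ⟨g • (f - algebraMap K F (s37_r_val P f)), hmem⟩ =
      ⟨f - algebraMap K F (s37_r_val P f), h1⟩ := by
    rw [RingEquiv.symm_apply_eq]
    rfl
  rw [h4] at h3
  exact (IsLocalRing.mem_maximalIdeal _).mp h2 h3

theorem s37_r_mem_smul_iff (g : SemilinearAut K F) (P : Place K F) (f : F) :
    g • f ∈ (g • P).toValuationSubring ↔ f ∈ P.toValuationSubring := by
  rw [SemilinearAut.smul_toValuationSubring,
    ValuationSubring.mem_pointwise_smul_iff_inv_smul_mem, inv_smul_smul]

end Galois

end Fermat.Agent.S37
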