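import Mathlib
import Fermat.Agent.S37.REval
import Fermat.Agent.S18.NumField
import Fermat.Agent.S18.UnramMod
import Fermat.Agent.S18.Setup

/-!
# S37, block R (RAT), Galois side (helper15): rationality of places over number fields

* `s37_rr_exists_fixing` : every place `P` of `Q̄ · F_N` is fixed by the open subgroup
  `Gal(Q̄/K₁)` for a suitable finite Galois extension `K₁/ℚ`;
* `s37_rr_val_mem` : if `P` is fixed by `Gal(Q̄/K₁)`, then functions defined over `K₁` take values
  in `K₁` at `P`.
-/

set_option autoImplicit false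
set_option synthInstance.maxHeartbeats 400000

open AlgebraicCurve ModularCurve
open Fermat.Agent.S18

noncomputable section

namespace Fermat.Agent.S37

local notation "Qb" => AlgebraicClosure ℚ

/-- `Q̄ · F_N` has rational places. -/
theorem s37_rr_rational (N : ℕ) [NeZero N] :
    s37_r_Rational Qb (modularFunctionFieldBar N) := by
  haveI := (Fermat.Agent.S24.asm_generic N).1
  exact s37_r_rational_of_finite (Fermat.Agent.S24.jF N) (Fermat.Agent.S24.transcendental_jF N)

/-- An automorphism fixing `K₁` fixes the functions defined over `K₁`. -/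
theorem s37_rr_smul_baseIncl (N : ℕ) [NeZero N] (K₁ : IntermediateField ℚ Qb)
    (σ : Qb ≃ₐ[ℚ] Qb) (hσ : ∀ c ∈ K₁, σ c = c) (x : s18_F1 K₁ N) :
    arithmeticGalois (modularFunctionFieldFull N) σ • s18_baseIncl K₁ N x =
      s18_baseIncl K₁ N x := by
  apply Subtype.ext
  rw [coe_arithmeticGalois_smul, s18_baseIncl_coe, coeffMap_coeffMap]
  exact coeffMap_congr (RingHom.ext fun c => hσ _ c.2) _

/-- An automorphism fixing `K₁` fixes the series defined over `K₁`. -/
theorem s37_rr_smul_definedOver (N : ℕ) [NeZero N] (K₁ : IntermediateField ℚ Qb)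
    (σ : Qb ≃ₐ[ℚ] Qb) (hσ : ∀ c ∈ K₁, σ c = c) (f : modularFunctionFieldBar N)
    (hf : s18_d1_DefinedOver (modularFunctionFieldFull N) K₁ (f : LaurentSeries Qb)) :
    arithmeticGalois (modularFunctionFieldFull N) σ • f = f := by
  obtain ⟨y, hy, hyf⟩ := hf
  have h := s37_rr_smul_baseIncl N K₁ σ hσ ⟨y, hy⟩
  have e : s18_baseIncl K₁ N ⟨y, hy⟩ = f := Subtype.ext hyf
  rwa [e] at h

/-- **(RAT-b)** If `P` is fixed by `Gal(Q̄/K₁)`, functions defined over `K₁` which are regular at
`P` take values in `K₁` at `P`. -/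
theorem s37_rr_val_mem (N : ℕ) [NeZero N] (K₁ : IntermediateField ℚ Qb)
    (P : Place Qb (modularFunctionFieldBar N))
    (hfix : ∀ σ : Qb ≃ₐ[ℚ] Qb, (∀ c ∈ K₁, σ c = c) →
      arithmeticGalois (modularFunctionFieldFull N) σ • P = P)
    (x : s18_F1 K₁ N) (hx : s18_baseIncl K₁ N x ∈ P.toValuationSubring) :
    ∃ c : K₁, s37_r_val P (s18_baseIncl K₁ N x) = algebraMap K₁ Qb c := by
  haveI := s37_rr_rational N
  haveI : Algebra.IsAlgebraic ℚ Qb := AlgebraicClosure.isAlgebraic ℚ
  haveI : IsAlgClosure ℚ Qb := ⟨inferInstance, inferInstance⟩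
  haveI : IsGalois ℚ Qb := inferInstance
  set c₀ := s37_r_val P (s18_baseIncl K₁ N x) with hc₀
  have hmem : c₀ ∈ IntermediateField.fixedField (K₁.fixingSubgroup) := by
    rw [IntermediateField.mem_fixedField_iff]
    intro σ hσ
    have hσ' : ∀ c ∈ K₁, σ c = c := fun c hc =>
      (IntermediateField.mem_fixingSubgroup_iff K₁ σ).mp hσ c hc
    have h1 := s37_r_val_smul (arithmeticGalois (modularFunctionFieldFull N) σ) P hx
    rw [hfix σ hσ', s37_rr_smul_baseIncl N K₁ σ hσ' x, baseAut_arithmeticGalois] at h1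
    exact h1.symm
  rw [InfiniteGalois.fixedField_fixingSubgroup K₁] at hmem
  exact ⟨⟨c₀, hmem⟩, rfl⟩

/-- Two distinct places: there is a function regular at the first and not at the second. -/
theorem s37_rr_exists_separating {K F : Type*} [Field K] [Field F] [Algebra K F]
    (P P' : Place K F) (h : P' ≠ P) :
    ∃ g : F, g ∈ P.toValuationSubring ∧ g ∉ P'.toValuationSubring := by
  by_contra hcon
  push Not at hcon
  have hle : P.toValuationSubring ≤ P'.toValuationSubring := fun g hg => hcon g hg
  exact h (Place.ext (ValuationSubring.eq_of_le_of_ne_top _ hle P'.ne_top')).symm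

/-- **(RAT-a)** Every place of `Q̄ · F_N` is fixed by `Gal(Q̄/K₁)` for some finite Galois
`K₁/ℚ`. -/
theorem s37_rr_exists_fixing (N : ℕ) [NeZero N] (P : Place Qb (modularFunctionFieldBar N)) :
    ∃ K₁ : IntermediateField ℚ Qb, s18_d1_IsGaloisNF K₁ ∧
      ∀ σ : Qb ≃ₐ[ℚ] Qb, (∀ c ∈ K₁, σ c = c) →
        arithmeticGalois (modularFunctionFieldFull N) σ • P = P := by
  classical
  -- a non-zero function vanishing at `P`
  obtain ⟨x, hx⟩ : ∃ x : modularFunctionFieldBar N, x ∉ P.toValuationSubring := by
    by_contra hall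
    push Not at hall
    exact P.ne_top' (eq_top_iff.mpr fun x _ => hall x)
  have hx0 : x ≠ 0 := fun h0 => hx (h0 ▸ P.toValuationSubring.zero_mem)
  set f : modularFunctionFieldBar N := x⁻¹ with hf
  have hf0 : f ≠ 0 := inv_ne_zero hx0
  have hfP : f ∈ P.toValuationSubring.nonunits :=
    P.toValuationSubring.inv_mem_nonunits_iff.mpr (Or.inr hx)
  -- its finitely many zeros and poles
  have hfin := s18_d3_finite_support N f hf0
  set Z : Finset (Place Qb (modularFunctionFieldBar N)) := hfin.toFinset with hZ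
  -- separating functions
  have hsep : ∀ P' : Place Qb (modularFunctionFieldBar N), P' ≠ P →
      ∃ g : modularFunctionFieldBar N, g ∈ P.toValuationSubring ∧ g ∉ P'.toValuationSubring :=
    fun P' h => s37_rr_exists_separating P P' h
  let g : Place Qb (modularFunctionFieldBar N) → modularFunctionFieldBar N := fun P' =>
    if h : P' ≠ P then (hsep P' h).choose else 0
  have hg : ∀ P' : Place Qb (modularFunctionFieldBar N), P' ≠ P →
      g P' ∈ P.toValuationSubring ∧ g P' ∉ P'.toValuationSubring := by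
    intro P' h
    simp only [g, dif_pos h]
    exact (hsep P' h).choose_spec
  -- a common field of definition
  set S : Finset (LaurentSeries Qb) :=
    insert (f : LaurentSeries Qb) (Z.image fun P' => ((g P' : modularFunctionFieldBar N) :
      LaurentSeries Qb)) with hS
  obtain ⟨K₁, hK₁, hdef⟩ := s18_d1_exists_finset (F₀ := modularFunctionFieldFull N) S (by
    intro y hy
    rw [hS, Finset.mem_insert, Finset.mem_image] at hy
    rcases hy with rfl | ⟨P', -, rfl⟩
    · exact f.2
    · exact (g P').2)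
  refine ⟨K₁, hK₁, fun σ hσ => ?_⟩
  set γ := arithmeticGalois (modularFunctionFieldFull N) σ with hγ
  have hγf : γ • f = f := s37_rr_smul_definedOver N K₁ σ hσ f
    (hdef _ (by rw [hS]; exact Finset.mem_insert_self _ _))
  -- `γ • P` is again a zero of `f`
  have hmemZ : γ • P ∈ Z := by
    rw [hZ, Set.Finite.mem_toFinset]; show (γ • P).ord f ≠ 0
    have h1 : (γ • P).ord (γ • f) = P.ord f := SemilinearAut.ord_smul γ P f
    rw [hγf] at h1
    rw [h1]
    exact ((Fermat.Agent.S24.mem_nonunits_iff_ord_pos P hf0).mp hfP).ne'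
  by_contra hne
  obtain ⟨h1, h2⟩ := hg (γ • P) hne
  have hγg : γ • g (γ • P) = g (γ • P) := s37_rr_smul_definedOver N K₁ σ hσ _
    (hdef _ (by
      rw [hS]
      exact Finset.mem_insert_of_mem (Finset.mem_image_of_mem _ hmemZ)))
  apply h2
  rw [← hγg]
  exact (s37_r_mem_smul_iff γ P _).mpr h1

end Fermat.Agent.S37
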