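import Mathlib
import Fermat.Agent.S37.RRat

/-!
# S37, block R2 (F1): a common open subgroup fixing finitely many places

Finset induction on `s37_rr_exists_fixing`, using that the compositum of two finite Galois
subextensions of `ℚ̄/ℚ` is finite Galois.
-/

set_option autoImplicit false
set_option synthInstance.maxHeartbeats 400000

open AlgebraicCurve ModularCurve
open Fermat.Agent.S18

noncomputable section

namespace Fermat.Agent.S37

local notation "Qb" => AlgebraicClosure ℚ

/-- **(F1)** Finitely many places of `Q̄ · F_N` are simultaneously fixed by `Gal(Q̄/K₀)` for a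
suitable finite Galois extension `K₀/ℚ`. -/
theorem s37_rf_exists_fixing (N : ℕ) [NeZero N]
    (T : Finset (Place Qb (modularFunctionFieldBar N))) :
    ∃ K₀ : IntermediateField ℚ Qb, s18_d1_IsGaloisNF K₀ ∧
      ∀ P ∈ T, ∀ σ : Qb ≃ₐ[ℚ] Qb, (∀ c ∈ K₀, σ c = c) →
        arithmeticGalois (modularFunctionFieldFull N) σ • P = P := by
  classical
  induction T using Finset.induction_on with
  | empty =>
    obtain ⟨K₁, hK₁, -⟩ := s18_d1_exists_galois (0 : Qb)
    exact ⟨K₁, hK₁, fun P hP => absurd hP (Finset.notMem_empty P)⟩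
  | insert P T _ ih =>
    obtain ⟨K₁, hK₁, h₁⟩ := ih
    obtain ⟨K₂, hK₂, h₂⟩ := s37_rr_exists_fixing N P
    refine ⟨K₁ ⊔ K₂, hK₁.sup hK₂, fun Q hQ σ hσ => ?_⟩
    rcases Finset.mem_insert.mp hQ with rfl | hQT
    · exact h₂ σ fun c hc => hσ c ((le_sup_right : K₂ ≤ K₁ ⊔ K₂) hc)
    · exact h₁ Q hQT σ fun c hc => hσ c ((le_sup_left : K₁ ≤ K₁ ⊔ K₂) hc)

end Fermat.Agent.S37
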