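import Mathlib

/-!
# S37, block ASM (formal part, generic)

`s37_formal`: given a module `J` over a commutative ring `R` with a commuting action of a group
`G`, a subgroup `I` ("inertia") normalised by an element `σ0` ("Frobenius"), an element `T : R`
and an additive "detector" `ψ : J →+ M` which is `I`-invariant, kills
`σ0² x - T σ0 x + ℓ x` and is injective on a set `Tor`, the quotient of `J` by the
`R`-submodule generated by `τ x - x` (`τ ∈ I`) and `σ0² x - T σ0 x + ℓ x` carries all the data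
of a "specialization".
-/

set_option autoImplicit false

namespace Fermat.Agent.S37

section Formal

variable {R : Type*} [CommRing R] {G : Type*} [Group G] {J : Type} [AddCommGroup J]
  [Module R J] [DistribMulAction G J] [SMulCommClass G R J]

/-- the generating set of the kernel -/
def s37_gens (I : Subgroup G) (σ0 : G) (T : R) (ℓ : ℕ) : Set J :=
  {y | (∃ τ ∈ I, ∃ x : J, y = τ • x - x) ∨ ∃ x : J, y = σ0 • σ0 • x - T • (σ0 • x) + ℓ • x}

theorem s37_gens_smul (I : Subgroup G) (σ0 : G) (T : R) (ℓ : ℕ) (t : R) {y : J}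
    (hy : y ∈ s37_gens I σ0 T ℓ) : t • y ∈ s37_gens I σ0 T ℓ := by
  rcases hy with ⟨τ, hτ, x, rfl⟩ | ⟨x, rfl⟩
  · refine Or.inl ⟨τ, hτ, t • x, ?_⟩
    rw [smul_sub, smul_comm τ t x]
  · refine Or.inr ⟨t • x, ?_⟩
    rw [smul_add, smul_sub, smul_comm σ0 t x, smul_comm σ0 t (σ0 • x), smul_comm t T,
      smul_comm t ℓ x]

theorem s37_gens_frob (I : Subgroup G) (σ0 : G) (hnorm : ∀ τ ∈ I, σ0 * τ * σ0⁻¹ ∈ I) (T : R)
    (ℓ : ℕ) {y : J} (hy : y ∈ s37_gens I σ0 T ℓ) : σ0 • y ∈ s37_gens I σ0 T ℓ := by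
  rcases hy with ⟨τ, hτ, x, rfl⟩ | ⟨x, rfl⟩
  · refine Or.inl ⟨σ0 * τ * σ0⁻¹, hnorm τ hτ, σ0 • x, ?_⟩
    rw [smul_sub, mul_smul, mul_smul, inv_smul_smul]
  · refine Or.inr ⟨σ0 • x, ?_⟩
    rw [smul_add, smul_sub, smul_comm σ0 T (σ0 • x), smul_comm σ0 ℓ x]

/-- the kernel as an `R`-submodule -/
def s37_ker (I : Subgroup G) (σ0 : G) (T : R) (ℓ : ℕ) : Submodule R J where
  carrier := ((AddSubgroup.closure (s37_gens I σ0 T ℓ) : AddSubgroup J) : Set J)
  add_mem' := fun ha hb => AddSubgroup.add_mem _ ha hb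
  zero_mem' := AddSubgroup.zero_mem _
  smul_mem' := by
    intro t y hy
    change y ∈ (AddSubgroup.closure (s37_gens I σ0 T ℓ) : AddSubgroup J) at hy
    change t • y ∈ (AddSubgroup.closure (s37_gens I σ0 T ℓ) : AddSubgroup J)
    induction hy using AddSubgroup.closure_induction with
    | mem y hy => exact AddSubgroup.subset_closure (s37_gens_smul I σ0 T ℓ t hy)
    | zero => rw [smul_zero]; exact AddSubgroup.zero_mem _
    | add a b _ _ ha hb => rw [smul_add]; exact AddSubgroup.add_mem _ ha hb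
    | neg a _ ha => rw [smul_neg]; exact AddSubgroup.neg_mem _ ha

theorem s37_mem_ker_iff (I : Subgroup G) (σ0 : G) (T : R) (ℓ : ℕ) (y : J) :
    y ∈ s37_ker I σ0 T ℓ ↔
      y ∈ (AddSubgroup.closure (s37_gens I σ0 T ℓ) : AddSubgroup J) := Iff.rfl

theorem s37_ker_frob (I : Subgroup G) (σ0 : G) (hnorm : ∀ τ ∈ I, σ0 * τ * σ0⁻¹ ∈ I) (T : R)
    (ℓ : ℕ) {y : J} (hy : y ∈ s37_ker I σ0 T ℓ) : σ0 • y ∈ s37_ker I σ0 T ℓ := by
  rw [s37_mem_ker_iff] at hy ⊢
  induction hy using AddSubgroup.closure_induction with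
  | mem y hy => exact AddSubgroup.subset_closure (s37_gens_frob I σ0 hnorm T ℓ hy)
  | zero => rw [smul_zero]; exact AddSubgroup.zero_mem _
  | add a b _ _ ha hb => rw [smul_add]; exact AddSubgroup.add_mem _ ha hb
  | neg a _ ha => rw [smul_neg]; exact AddSubgroup.neg_mem _ ha

theorem s37_ker_detect (I : Subgroup G) (σ0 : G) (T : R) (ℓ : ℕ) {M : Type*} [AddCommGroup M]
    (ψ : J →+ M) (h1 : ∀ τ ∈ I, ∀ x, ψ (τ • x) = ψ x)
    (h2 : ∀ x, ψ (σ0 • σ0 • x - T • (σ0 • x) + ℓ • x) = 0) {y : J}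
    (hy : y ∈ s37_ker I σ0 T ℓ) : ψ y = 0 := by
  rw [s37_mem_ker_iff] at hy
  induction hy using AddSubgroup.closure_induction with
  | mem y hy =>
    rcases hy with ⟨τ, hτ, x, rfl⟩ | ⟨x, rfl⟩
    · rw [map_sub, h1 τ hτ, sub_self]
    · exact h2 x
  | zero => exact map_zero ψ
  | add a b _ _ ha hb => rw [map_add, ha, hb, add_zero]
  | neg a _ ha => rw [map_neg, ha, neg_zero]

/-- **Formal reduction of S37.** -/
theorem s37_formal (I : Subgroup G) (σ0 : G) (hnorm : ∀ τ ∈ I, σ0 * τ * σ0⁻¹ ∈ I) (T : R)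
    (ℓ : ℕ) (Tor : Set J) {M : Type*} [AddCommGroup M] (ψ : J →+ M)
    (h1 : ∀ τ ∈ I, ∀ x, ψ (τ • x) = ψ x)
    (h2 : ∀ x, ψ (σ0 • σ0 • x - T • (σ0 • x) + ℓ • x) = 0)
    (h3 : ∀ x ∈ Tor, ψ x = 0 → x = 0) :
    ∃ (J' : Type) (_ : AddCommGroup J') (_ : Module R J') (sp : J →+ J') (F : J' →+ J'),
      (∀ (t : R) (x : J), sp (t • x) = t • sp x) ∧
      (∀ τ ∈ I, ∀ x, sp (τ • x) = sp x) ∧
      (∀ σ : G, σ * σ0⁻¹ ∈ I → ∀ x, sp (σ • x) = F (sp x)) ∧
      (∀ x ∈ Tor, sp x = 0 → x = 0) ∧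
      (∀ y : J', F (F y) - T • F y + ℓ • y = 0) := by
  classical
  set K : Submodule R J := s37_ker I σ0 T ℓ with hK
  -- the map induced by σ0 on the quotient
  let f0 : J →+ J := DistribSMul.toAddMonoidHom J σ0
  have hf0 : ∀ x, f0 x = σ0 • x := fun x => rfl
  let F : (J ⧸ K) →+ (J ⧸ K) :=
    QuotientAddGroup.map K.toAddSubgroup K.toAddSubgroup f0
      (fun y hy => s37_ker_frob I σ0 hnorm T ℓ hy)
  have hF : ∀ x : J, F (Submodule.Quotient.mk x) = Submodule.Quotient.mk (σ0 • x) :=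
    fun x => rfl
  refine ⟨J ⧸ K, inferInstance, inferInstance, K.mkQ.toAddMonoidHom, F, ?_, ?_, ?_, ?_, ?_⟩
  · intro t x
    rfl
  · intro τ hτ x
    show (Submodule.Quotient.mk (τ • x) : J ⧸ K) = Submodule.Quotient.mk x
    rw [Submodule.Quotient.eq, hK, s37_mem_ker_iff]
    exact AddSubgroup.subset_closure (Or.inl ⟨τ, hτ, x, rfl⟩)
  · intro σ hσ x
    show (Submodule.Quotient.mk (σ • x) : J ⧸ K) = F (Submodule.Quotient.mk x)
    rw [hF, Submodule.Quotient.eq, hK, s37_mem_ker_iff]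
    refine AddSubgroup.subset_closure (Or.inl ⟨σ * σ0⁻¹, hσ, σ0 • x, ?_⟩)
    rw [mul_smul, inv_smul_smul]
  · intro x hx hsp
    have hxK : x ∈ K := (Submodule.Quotient.mk_eq_zero K).mp hsp
    exact h3 x hx (s37_ker_detect I σ0 T ℓ ψ h1 h2 hxK)
  · intro y
    obtain ⟨x, rfl⟩ := Submodule.Quotient.mk_surjective K y
    rw [hF, hF, ← Submodule.Quotient.mk_smul, ← Submodule.Quotient.mk_sub]
    have h4 : (ℓ • (Submodule.Quotient.mk x : J ⧸ K)) = Submodule.Quotient.mk (ℓ • x) := rfl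
    rw [h4, ← Submodule.Quotient.mk_add, Submodule.Quotient.mk_eq_zero, hK, s37_mem_ker_iff]
    exact AddSubgroup.subset_closure (Or.inr ⟨x, rfl⟩)

end Formal

end Fermat.Agent.S37
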