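import Mathlib
import Fermat.Prelude.Def_ModularCurve_HeckeModule
import Fermat.Agent.S54.Frobenius
import Fermat.Agent.S37.Formal

/-!
# S37, block ASM: the formal reduction at the exact Prelude types

* `s37_exists_frob` : a Frobenius element exists at every `A` over `ℓ`.
* `s37_frob_mul_inv_mem` : two Frobenius elements differ by inertia.
* `s37_inertia_conj` : the decomposition group normalises inertia.
* `s37_of_detector` : `SpecializationExists` for `JZero N` from the existence, for every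
  `ℓ ∤ N p`, `A` over `ℓ` and every Frobenius `σ0` at `A`, of an additive detector
  `ψ : JZero N →+ M` which is inertia invariant, kills `σ0² x - T_ℓ σ0 x + ℓ x` and is injective
  on `p`-power torsion.
-/

set_option autoImplicit false

open scoped Pointwise

namespace Fermat.Agent.S37

open ModularCurve AlgebraicCurve

noncomputable section

local notation "Qb" => AlgebraicClosure ℚ
local notation "Γ" => (AlgebraicClosure ℚ ≃ₐ[ℚ] AlgebraicClosure ℚ)
local notation "Zb" => integralClosure ℤ (AlgebraicClosure ℚ)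

open Fermat.Agent.S54 in
/-- A Frobenius element exists at every valuation subring of `Qbar` over `ℓ`. -/
theorem s37_exists_frob (A : ValuationSubring Qb) (ℓ : ℕ) (hℓ : ℓ.Prime)
    (hA : A.LiesOverPrime ℓ) : ∃ σ : Γ, A.IsFrobeniusAt σ ℓ := by
  have hA' : (ℓ : Qb) ∈ A.nonunits := hA
  have := qbar_isAlgebraic
  have := qbar_isAlgClosure
  have := qbar_isGalois
  have := zbar_isInvariant
  let _ : TopologicalSpace Zb := zbarTopology
  have := zbar_discrete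
  have := zbar_continuousSMul
  have := centerIdeal_isPrime A
  obtain ⟨⟨σ, hσ⟩, hF⟩ := Ideal.Quotient.stabilizerHom_surjective_of_profinite (G := Γ)
    ((centerIdeal A).under ℤ) (centerIdeal A) (frobAlgEquiv A ℓ hℓ hA')
  have hσA : σ • A = A := smul_eq_of_smul_centerIdeal A σ hσ
  have key : ∀ b : Zb, (σ • b) - b ^ ℓ ∈ centerIdeal A := by
    intro b
    have h1 := congrArg (fun f => f (Ideal.Quotient.mk (centerIdeal A) b)) hF
    simp only [Ideal.Quotient.stabilizerHom_apply, frobAlgEquiv_apply] at h1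
    rw [← map_pow, Ideal.Quotient.eq] at h1
    exact h1
  refine ⟨σ, hσA, ?_⟩
  intro x
  obtain ⟨a, rfl⟩ := IsLocalRing.residue_surjective x
  rw [← IsLocalRing.ResidueField.residue_smul, ← map_pow, ← sub_eq_zero, ← map_sub,
    IsLocalRing.residue_eq_zero_iff, ← ValuationSubring.coe_mem_nonunits_iff]
  show σ (a : Qb) - (a : Qb) ^ ℓ ∈ A.nonunits
  obtain ⟨b, s, hs, has⟩ := exists_mul_eq A (a : Qb) a.2
  have hq2 : σ (b : Qb) - (b : Qb) ^ ℓ ∈ A.nonunits := key b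
  have hq1 : σ (s : Qb) - (s : Qb) ^ ℓ ∈ A.nonunits := key s
  have hs' : σ • s ∉ centerIdeal A := by
    intro h
    apply hs
    have hσ' : σ • centerIdeal A = centerIdeal A := hσ
    rw [← hσ'] at h
    exact Ideal.smul_mem_pointwise_smul_iff.mp h
  rw [not_mem_centerIdeal_iff_val, coe_smul_zbar] at hs'
  have hprod : (σ (a : Qb) - (a : Qb) ^ ℓ) * σ (s : Qb) ∈ A.nonunits := by
    have h1 : σ (a : Qb) * σ (s : Qb) = σ (b : Qb) := by rw [← map_mul, has]
    have h2 : (σ (a : Qb) - (a : Qb) ^ ℓ) * σ (s : Qb) =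
        (σ (b : Qb) - (b : Qb) ^ ℓ) - (a : Qb) ^ ℓ * (σ (s : Qb) - (s : Qb) ^ ℓ) := by
      have h3 : (b : Qb) ^ ℓ = (a : Qb) ^ ℓ * (s : Qb) ^ ℓ := by rw [← has, mul_pow]
      linear_combination h1 + h3
    rw [h2]
    exact A.nonunits.sub_mem hq2 (val_mul_lt_one A (pow_mem a.2 ℓ) hq1)
  rw [A.mem_nonunits_iff] at hprod ⊢
  rwa [map_mul, hs', mul_one] at hprod

/-- Two Frobenius elements at `A` differ by an element of inertia. -/
theorem s37_frob_mul_inv_mem {A : ValuationSubring Qb} {ℓ : ℕ} {σ σ0 : Γ}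
    (hσ : A.IsFrobeniusAt σ ℓ) (hσ0 : A.IsFrobeniusAt σ0 ℓ) :
    σ * σ0⁻¹ ∈ A.inertiaSubgroupIn ℚ := by
  obtain ⟨h, hx⟩ := hσ
  obtain ⟨h0, hx0⟩ := hσ0
  set g : A.decompositionSubgroup ℚ := ⟨σ, h⟩ with hg
  set g0 : A.decompositionSubgroup ℚ := ⟨σ0, h0⟩ with hg0
  refine ⟨g * g0⁻¹, ?_, rfl⟩
  show g * g0⁻¹ ∈ A.inertiaSubgroup ℚ
  rw [ValuationSubring.inertiaSubgroup, MonoidHom.mem_ker]
  ext x
  show (g * g0⁻¹) • x = x
  rw [mul_smul, hx]
  have h1 : g0 • (g0⁻¹ • x) = x := smul_inv_smul g0 x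
  rw [hx0] at h1
  exact h1

/-- The decomposition group normalises the inertia group. -/
theorem s37_inertia_conj {A : ValuationSubring Qb} {σ0 : Γ}
    (hσ0 : σ0 ∈ A.decompositionSubgroup ℚ) {τ : Γ} (hτ : τ ∈ A.inertiaSubgroupIn ℚ) :
    σ0 * τ * σ0⁻¹ ∈ A.inertiaSubgroupIn ℚ := by
  obtain ⟨t, ht, rfl⟩ := hτ
  set g0 : A.decompositionSubgroup ℚ := ⟨σ0, hσ0⟩ with hg0
  refine ⟨g0 * t * g0⁻¹, ?_, rfl⟩
  have ht' : t ∈ A.inertiaSubgroup ℚ := ht
  have hn : (A.inertiaSubgroup ℚ).Normal := by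
    rw [ValuationSubring.inertiaSubgroup]
    infer_instance
  exact hn.conj_mem t ht' g0

/-- **S37 from a detector.**  `SpecializationExists` for `JZero N` follows from the existence,
for every prime `ℓ ∤ N p`, every `A` over `ℓ` and every Frobenius element `σ0` at `A`, of an
additive map `ψ` out of `JZero N` which is invariant under inertia, kills
`σ0² x - T_ℓ (σ0 x) + ℓ x` and is injective on `p`-power torsion. -/
theorem s37_of_detector (N p : ℕ) [NeZero N] (hcomm : HeckeOperatorsCommuteBar N)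
    (hdet : ∀ (ℓ : ℕ) (hℓ : ℓ.Prime), ¬ ℓ ∣ N * p → ∀ A : ValuationSubring Qb,
      A.LiesOverPrime ℓ → ∀ σ0 : Γ, A.IsFrobeniusAt σ0 ℓ →
      ∃ (M : Type) (_ : AddCommGroup M) (ψ : JZero N →+ M),
        (∀ τ ∈ A.inertiaSubgroupIn ℚ, ∀ x : JZero N, ψ (τ • x) = ψ x) ∧
        (∀ x : JZero N,
          ψ (σ0 • σ0 • x - heckeOperatorBar N ⟨ℓ, hℓ⟩ (σ0 • x) + ℓ • x) = 0) ∧
        (∀ x : JZero N, (∃ n : ℕ, p ^ n • x = 0) → ψ x = 0 → x = 0)) :
    letI := heckeModuleBar N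
    ∀ (_ : SMulCommClass Γ HeckeAlg (JZero N)),
      SpecializationExists (K := ℚ) (L := Qb) N p (JZero N) := by
  let _ := heckeModuleBar N
  intro _ ℓ hℓ hℓNp A hA
  obtain ⟨σ0, hσ0⟩ := s37_exists_frob A ℓ hℓ hA
  obtain ⟨M, _, ψ, h1, h2, h3⟩ := hdet ℓ hℓ hℓNp A hA σ0 hσ0
  have h2' : ∀ x : JZero N,
      ψ (σ0 • σ0 • x - heckeGen ⟨ℓ, hℓ⟩ • (σ0 • x) + ℓ • x) = 0 := by
    intro x
    have e : heckeGen ⟨ℓ, hℓ⟩ • (σ0 • x) = heckeOperatorBar N ⟨ℓ, hℓ⟩ (σ0 • x) :=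
      heckeModuleBar_heckeGen_smul hcomm ⟨ℓ, hℓ⟩ (σ0 • x)
    have h := h2 x
    rw [← e] at h
    exact h
  obtain ⟨J', i1, i2, sp, F, hsp1, hsp2, hsp3, hsp4, hsp5⟩ :=
    s37_formal (R := HeckeAlg) (G := Γ) (J := JZero N) (A.inertiaSubgroupIn ℚ) σ0
      (fun τ hτ => s37_inertia_conj hσ0.mem_decompositionSubgroup hτ)
      (heckeGen ⟨ℓ, hℓ⟩) ℓ {x | ∃ n : ℕ, p ^ n • x = 0} ψ h1 h2' (fun x hx => h3 x hx)
  exact ⟨J', i1, i2, sp, F,
    ⟨hsp1, hsp2, fun σ hσ x => hsp3 σ (s37_frob_mul_inv_mem hσ hσ0) x,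
      fun x hx hx0 => hsp4 x hx hx0⟩, hsp5⟩

end

end Fermat.Agent.S37
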