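import Mathlib
import Fermat.Prelude.Def_ModularCurve_HeckeModule
import Fermat.Agent.S37.REval
import Fermat.Agent.S18.HauptField

/-!
# S37: the reduction map of places (shared definitions, interface of block R)

Level `N` (with a Hauptmodul `t` of level `M ∈ {2,3}`, `M ∣ N`), `A` a valuation subring of
`Qb := AlgebraicClosure ℚ` over `ℓ ∤ N`, `κ` its residue field.

* `s37_chartBase A t` : the subring `A[t]` of the function field.
* `s37_IsChartFn A t G` : `G` is integral over `A[t]` ("chart function").
* `s37_chartDom A t` : the places `P` at which `t` is regular with value in `A`.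
* `s37_red N A t P` : the **residue profile** of the place `P`: the chart bit
  (`true` iff `t(P) ∈ A`) together with the function sending an `A`-integral `q`-expansion `g` of
  a chart function `G` (of the chart of `P`) to the residue class of `G(P)`.  Two places have the
  same profile iff they have the same reduction on the two-chart model; no model is needed for
  the definition.
* `s37_IsHaupt M t` : `t` is the Hauptmodul `t₂` or `t₃`.
-/

set_option autoImplicit false

namespace Fermat.Agent.S37

open AlgebraicCurve ModularCurve

noncomputable section

local notation "Qb" => AlgebraicClosure ℚ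

section Chart

variable {F : Type*} [Field F] [Algebra Qb F]

/-- the subring `A[t]` of `F` -/
def s37_chartBase (A : ValuationSubring Qb) (t : F) : Subring F :=
  Subring.closure (Set.range (fun a : A => algebraMap Qb F (a : Qb)) ∪ {t})

/-- chart functions for the coordinate `t`: the elements of `F` integral over `A[t]` -/
def s37_IsChartFn (A : ValuationSubring Qb) (t : F) (G : F) : Prop :=
  IsIntegral (s37_chartBase A t) G

/-- chart domain of the coordinate `t`: places where `t` is regular with value in `A` -/
def s37_chartDom (A : ValuationSubring Qb) (t : F) : Set (Place Qb F) :=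
  {P | t ∈ P.toValuationSubring ∧ s37_r_val P t ∈ A}

end Chart

/-- the residue class of an element of `Qb` (`0` outside `A`) -/
def s37_resQb (A : ValuationSubring Qb) (c : Qb) : IsLocalRing.ResidueField A :=
  open Classical in if h : c ∈ A then IsLocalRing.residue A ⟨c, h⟩ else 0

theorem s37_resQb_of_mem (A : ValuationSubring Qb) {c : Qb} (h : c ∈ A) :
    s37_resQb A c = IsLocalRing.residue A ⟨c, h⟩ := by
  rw [s37_resQb, dif_pos h]

theorem s37_resQb_coe (A : ValuationSubring Qb) (a : A) :
    s37_resQb A (a : Qb) = IsLocalRing.residue A a :=
  s37_resQb_of_mem A a.2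

variable (N : ℕ) (A : ValuationSubring Qb)

open Classical in
/-- the residues of the values at `P` of the chart functions for the coordinate `t'`, as a
function of their `A`-integral `q`-expansions (`0` on series which are not expansions of chart
functions) -/
def s37_profile (t' : modularFunctionFieldBar N) (P : Place Qb (modularFunctionFieldBar N)) :
    LaurentSeries A → IsLocalRing.ResidueField A :=
  fun g =>
    if h : ∃ hg : coeffMap A.subtype g ∈ modularFunctionFieldBar N,
        s37_IsChartFn A t' (⟨_, hg⟩ : modularFunctionFieldBar N) then
      s37_resQb A (s37_r_val P (⟨_, h.choose⟩ : modularFunctionFieldBar N))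
    else 0

theorem s37_profile_apply (t' : modularFunctionFieldBar N)
    (P : Place Qb (modularFunctionFieldBar N)) (g : LaurentSeries A)
    (hg : coeffMap A.subtype g ∈ modularFunctionFieldBar N)
    (hint : s37_IsChartFn A t' (⟨_, hg⟩ : modularFunctionFieldBar N)) :
    s37_profile N A t' P g =
      s37_resQb A (s37_r_val P (⟨_, hg⟩ : modularFunctionFieldBar N)) := by
  have h : ∃ hg : coeffMap A.subtype g ∈ modularFunctionFieldBar N,
      s37_IsChartFn A t' (⟨_, hg⟩ : modularFunctionFieldBar N) := ⟨hg, hint⟩
  rw [s37_profile, dif_pos h]

open Classical in
/-- **The reduction map of places** (residue profile): chart bit + residues of chart functions.-/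
def s37_red (t : modularFunctionFieldBar N) (P : Place Qb (modularFunctionFieldBar N)) :
    Bool × (LaurentSeries A → IsLocalRing.ResidueField A) :=
  if P ∈ s37_chartDom A t then (true, s37_profile N A t P) else (false, s37_profile N A t⁻¹ P)

theorem s37_red_of_mem (t : modularFunctionFieldBar N) (P : Place Qb (modularFunctionFieldBar N))
    (h : P ∈ s37_chartDom A t) : s37_red N A t P = (true, s37_profile N A t P) := by
  rw [s37_red, if_pos h]

theorem s37_red_of_not_mem (t : modularFunctionFieldBar N)
    (P : Place Qb (modularFunctionFieldBar N))
    (h : P ∉ s37_chartDom A t) : s37_red N A t P = (false, s37_profile N A t⁻¹ P) := by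
  rw [s37_red, if_neg h]

/-- `t` is (the base change to `Qb` of) the Hauptmodul of level `M ∈ {2, 3}` -/
def s37_IsHaupt (M : ℕ) {N : ℕ} (t : modularFunctionFieldBar N) : Prop :=
  (M = 2 ∧ (t : LaurentSeries Qb) = Fermat.Agent.S18.s18_t2R Qb) ∨
  (M = 3 ∧ (t : LaurentSeries Qb) = Fermat.Agent.S18.s18_t3R Qb)

end

end Fermat.Agent.S37
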