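import Fermat.Agent.S37.DetEs
import Fermat.Agent.S37.RedDefs

/-!
# S37: assembly of the detector at a level (DET') from its four inputs

For an abstract place map `r` (in the application `r = s37_red N A t`, the residue profile), the
detector `ψ = s37_di_det r : J₀(N) → (Y →₀ ℤ) ⧸ r_*(principal divisors)` satisfies the three
clauses of `s37_detector_level` as soon as

* (P1) `r` is invariant under inertia,
* (ES) the pointwise Eichler–Shimura relation holds for `r`,
* (R2) = (CONS) and (R3) = (GEN).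
-/

set_option autoImplicit false
set_option synthInstance.maxHeartbeats 400000

open ModularCurve AlgebraicCurve

noncomputable section

namespace Fermat.Agent.S37

local notation "Qb" => AlgebraicClosure ℚ
local notation "Γ" => (AlgebraicClosure ℚ ≃ₐ[ℚ] AlgebraicClosure ℚ)

/-- generic: if `r` is invariant under `g` on places, then `r_*` is invariant under `g` on
divisors. -/
theorem s37_dl_map_smul {K F : Type*} [Field K] [Field F] [Algebra K F] {Y : Type*}
    (r : Place K F → Y) (g : SemilinearAut K F) (h : ∀ P : Place K F, r (g • P) = r P)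
    (D : Divisor K F) : Finsupp.mapDomain r (g • D) = Finsupp.mapDomain r D := by
  induction D using Finsupp.induction_linear with
  | zero => rw [smul_zero]
  | add D E hD hE =>
      have e1 : g • (D + E) = g • D + g • E := smul_add g D E
      rw [e1, Finsupp.mapDomain_add, hD, hE, Finsupp.mapDomain_add]
  | single P n =>
      rw [SemilinearAut.smul_single, Finsupp.mapDomain_single, Finsupp.mapDomain_single, h P]

/-- generic: if `r` is invariant under `g` on places, then the detector of `r` is invariant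
under `g`. -/
theorem s37_dl_inv_gen {K F : Type*} [Field K] [Field F] [Algebra K F] {Y : Type*}
    (r : Place K F → Y) (g : SemilinearAut K F) (h : ∀ P : Place K F, r (g • P) = r P)
    (x : Pic0 K F) : s37_di_det r (g • x) = s37_di_det r x := by
  obtain ⟨D, rfl⟩ := Pic0.mk_surjective x
  rw [SemilinearAut.pic0_smul_mk, s37_di_det_mk, s37_di_det_mk, SemilinearAut.coe_degZeroSMulHom,
    s37_dl_map_smul r g h]

/-- (P1) for the detector: invariance under a Galois element fixing `r`. -/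
theorem s37_dl_inv (N : ℕ) [NeZero N] {Y : Type*}
    (r : Place Qb (modularFunctionFieldBar N) → Y) (τ : Γ)
    (h : ∀ P : Place Qb (modularFunctionFieldBar N),
      r (arithmeticGalois (modularFunctionFieldFull N) τ • P) = r P)
    (x : JZero N) : s37_di_det r (τ • x) = s37_di_det r x := by
  rw [galois_smul_pic0_def]
  exact s37_dl_inv_gen r _ h x

/-- **(DET') from its inputs**, for an abstract place map `r` with values in a `Type`. -/
theorem s37_dl_level (N ℓ : ℕ) [NeZero N] [NeZero ℓ] (hℓ : ℓ.Prime) (hℓN : ¬ ℓ ∣ N)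
    (A : ValuationSubring Qb) (hA : A.LiesOverPrime ℓ) (σ0 : Γ) {Y : Type}
    (r : Place Qb (modularFunctionFieldBar N) → Y)
    (hP1 : ∀ τ ∈ A.inertiaSubgroupIn ℚ, ∀ P : Place Qb (modularFunctionFieldBar N),
      r (arithmeticGalois (modularFunctionFieldFull N) τ • P) = r P)
    (hES : ∀ (hα : HeckeAlphaBarIntegral Qb N ℓ) (hβ : HeckeBetaBarIntegral Qb N ℓ)
      [HasPrincipalDivisors Qb (modularFunctionFieldBar (N * ℓ))]
      (P : Place Qb (modularFunctionFieldBar N)),
      Finsupp.mapDomain r (heckeDivBar hα hβ (Finsupp.single P 1)) =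
        Finsupp.single (r (arithmeticGalois (modularFunctionFieldFull N) σ0 • P)) 1 +
          Finsupp.single (r (arithmeticGalois (modularFunctionFieldFull N) σ0⁻¹ • P)) (ℓ : ℤ))
    (hcons : ∀ (y₁ y₂ : LaurentSeries A)
      (h₁ : coeffMap A.subtype y₁ ∈ modularFunctionFieldBar N)
      (h₂ : coeffMap A.subtype y₂ ∈ modularFunctionFieldBar N),
      coeffMap (IsLocalRing.residue A) y₁ ≠ 0 → coeffMap (IsLocalRing.residue A) y₂ ≠ 0 →
      ∀ D : Divisor Qb (modularFunctionFieldBar N),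
        (∀ P, D P = P.ord ((⟨_, h₁⟩ : modularFunctionFieldBar N) / ⟨_, h₂⟩)) →
        Finsupp.mapDomain r D = 0 →
        ∃ c : IsLocalRing.ResidueField A, c ≠ 0 ∧
          coeffMap (IsLocalRing.residue A) y₁ =
            HahnSeries.C c * coeffMap (IsLocalRing.residue A) y₂)
    (hgen : ∀ f : modularFunctionFieldBar N, f ≠ 0 →
      ∃ (c : Qb) (y₁ y₂ : LaurentSeries A)
        (h₁ : coeffMap A.subtype y₁ ∈ modularFunctionFieldBar N)
        (h₂ : coeffMap A.subtype y₂ ∈ modularFunctionFieldBar N),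
        c ≠ 0 ∧ coeffMap (IsLocalRing.residue A) y₁ ≠ 0 ∧
        coeffMap (IsLocalRing.residue A) y₂ ≠ 0 ∧
        f = algebraMap Qb (modularFunctionFieldBar N) c *
          ((⟨_, h₁⟩ : modularFunctionFieldBar N) / ⟨_, h₂⟩)) :
    ∃ (M' : Type) (_ : AddCommGroup M') (ψ : JZero N →+ M'),
      (∀ τ ∈ A.inertiaSubgroupIn ℚ, ∀ x : JZero N, ψ (τ • x) = ψ x) ∧
      (∀ x : JZero N, ψ (σ0 • σ0 • x - heckeOperatorAlong Qb N ℓ (σ0 • x) + ℓ • x) = 0) ∧
      (∀ (x : JZero N) (m : ℕ), ¬ ℓ ∣ m → m • x = 0 → ψ x = 0 → x = 0) := by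
  have : Fact ℓ.Prime := ⟨hℓ⟩
  obtain ⟨hα, hβ, hP, -, -, -⟩ := s37_h_heckeInputsAlong N ℓ
  refine ⟨s37_di_group r, inferInstance, s37_di_det r, ?_, ?_, ?_⟩
  · intro τ hτ x
    exact s37_dl_inv N r τ (hP1 τ hτ) x
  · intro x
    exact s37_de_glue N ℓ r σ0 hα hβ (fun P => hES hα hβ P) x
  · intro x m hm hmx hψ
    exact s37_di_inj N hℓN A hA r hcons hgen x m hm hmx hψ

/-- The Hauptmodul `t₂` (`M = 2`) resp. `t₃` (`M = 3`) exists at every level divisible by
`M`. -/
theorem s37_dl_haupt_exists (N M : ℕ) [NeZero N] (hM : M = 2 ∨ M = 3) (hMN : M ∣ N) :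
    ∃ t : modularFunctionFieldBar N, s37_IsHaupt M t := by
  rcases hM with rfl | rfl
  · refine ⟨⟨coeffEmb Qb (Fermat.Agent.S18.s18_t2R ℚ),
      coeffEmb_mem_laurentBaseChange Qb (Fermat.Agent.S18.s18_t2Q_mem N hMN)⟩, Or.inl ⟨rfl, ?_⟩⟩
    show coeffEmb Qb (Fermat.Agent.S18.s18_t2R ℚ) = _
    rw [coeffEmb, Fermat.Agent.S18.s18_coeffMap_t2R]
  · refine ⟨⟨coeffEmb Qb (Fermat.Agent.S18.s18_t3R ℚ),
      coeffEmb_mem_laurentBaseChange Qb (Fermat.Agent.S18.s18_t3Q_mem N hMN)⟩, Or.inr ⟨rfl, ?_⟩⟩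
    show coeffEmb Qb (Fermat.Agent.S18.s18_t3R ℚ) = _
    rw [coeffEmb, Fermat.Agent.S18.s18_coeffMap_t3R]

end Fermat.Agent.S37
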