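import Mathlib
import Fermat.Agent.S37.REval
import Fermat.Agent.S18.UnramMod
import Fermat.Agent.S18.Setup

/-!
# S37, block R, (RAT) valuation side (helper24): rational places and constant field extension

Generic setting: `ι : F1 →+* Fb` an extension of constants `K1 ⊆ Ω` of function fields
(`Fb` is generated by `Ω` and `ι F1`), all places of `Fb/Ω` rational.

* `s37_rv_nontrivial` : no place of `Fb/Ω` is trivial on `ι F1`;
* `s37_rv_core` : if `P` is `K1`-rational (values of functions of `F1` at `P` lie in `K1`), then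
  for every place `P'` with the same restriction to `F1` the order functions of `P`, `P'` are
  both integer multiples of a common function; hence
* `s37_rv_unique` : `P = P'`;
* `s37_rv_restrict` : the restriction of a place `P` of `Fb` to `F1` is a place `Q` of `F1/K1`
  with `ord_P (ι x) = e * ord_Q x`, and `e = 1` if `P` is `K1`-rational (`s37_rv_restrict_rat`).

Modular specialisations (roster names): `s37_rr_unique`, `s37_rr_restrict`,
`s37_rr_restrict_rat`.
-/

set_option autoImplicit false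
set_option synthInstance.maxHeartbeats 400000
set_option linter.unusedSectionVars false

open ModularCurve AlgebraicCurve

noncomputable section

namespace Fermat.Agent.S37

open Fermat.Agent.S24 (mem_iff_ord_nonneg mem_nonunits_iff_ord_pos ord_algebraMap ord_pow
  ord_add_ge place_ext_ord ord_unit_eq_zero exists_place_of_ord)

section Generic

variable {K1 Ω F1 Fb : Type*} [Field K1] [Field Ω] [Field F1] [Field Fb]
  [Algebra K1 Ω] [Algebra K1 F1] [Algebra Ω Fb]

/-- Elements of the `Ω`-span of `ι F1` are integral over `ι F1`. -/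
theorem s37_rv_isIntegralElem_span [Algebra.IsAlgebraic K1 Ω] (ι : F1 →+* Fb)
    (hι : ∀ c : K1, ι (algebraMap K1 F1 c) = algebraMap Ω Fb (algebraMap K1 Ω c))
    (a : Fb) (ha : a ∈ Submodule.span Ω (Set.range ι)) : ι.IsIntegralElem a := by
  induction ha using Submodule.span_induction with
  | mem y hy =>
      obtain ⟨x, rfl⟩ := hy
      exact ι.isIntegralElem_map
  | zero => exact ι.isIntegralElem_zero
  | add x y _ _ hx hy => exact RingHom.IsIntegralElem.add ι hx hy
  | smul c x _ hx =>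
      rw [Algebra.smul_def]
      refine RingHom.IsIntegralElem.mul ι ?_ hx
      have hc : IsIntegral K1 c := Algebra.IsIntegral.isIntegral c
      refine ⟨(minpoly K1 c).map (algebraMap K1 F1), (minpoly.monic hc).map _, ?_⟩
      rw [Polynomial.eval₂_map]
      have h1 : ι.comp (algebraMap K1 F1) = (algebraMap Ω Fb).comp (algebraMap K1 Ω) :=
        RingHom.ext hι
      rw [h1, ← Polynomial.hom_eval₂, ← Polynomial.aeval_def, minpoly.aeval, map_zero]

theorem s37_rv_isIntegralElem_inv (ι : F1 →+* Fb) (a : Fb) (ha : ι.IsIntegralElem a) :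
    ι.IsIntegralElem a⁻¹ := by
  let _ := ι.toAlgebra
  have h1 : IsIntegral F1 a := ha
  exact h1.inv

theorem s37_rv_mem_of_isIntegralElem (ι : F1 →+* Fb) (P : Place Ω Fb)
    (h : ∀ x : F1, ι x ∈ P.toValuationSubring) (a : Fb) (ha : ι.IsIntegralElem a) :
    a ∈ P.toValuationSubring := by
  obtain ⟨p, hp, hpa⟩ := ha
  let incl : F1 →+* P.toValuationSubring :=
    { toFun := fun x => ⟨ι x, h x⟩
      map_one' := Subtype.ext (map_one ι)
      map_mul' := fun a b => Subtype.ext (map_mul ι a b)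
      map_zero' := Subtype.ext (map_zero ι)
      map_add' := fun a b => Subtype.ext (map_add ι a b) }
  have hint : IsIntegral P.toValuationSubring a := by
    refine ⟨p.map incl, hp.map incl, ?_⟩
    rw [Polynomial.eval₂_map]
    have h2 : (algebraMap P.toValuationSubring Fb).comp incl = ι := rfl
    rw [h2]
    exact hpa
  obtain ⟨y, hy⟩ :=
    (IsIntegrallyClosed.isIntegral_iff (R := P.toValuationSubring) (K := Fb)).mp hint
  rw [← hy]
  exact y.2

/-- No place of `Fb/Ω` is trivial on `ι F1`. -/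
theorem s37_rv_nontrivial [Algebra.IsAlgebraic K1 Ω] (ι : F1 →+* Fb)
    (hι : ∀ c : K1, ι (algebraMap K1 F1 c) = algebraMap Ω Fb (algebraMap K1 Ω c))
    (hgen : ∀ y : Fb, ∃ a b : Fb, a ∈ Submodule.span Ω (Set.range ι) ∧
      b ∈ Submodule.span Ω (Set.range ι) ∧ b ≠ 0 ∧ y = a / b)
    (P : Place Ω Fb) : ∃ x : F1, x ≠ 0 ∧ P.ord (ι x) ≠ 0 := by
  by_contra hcon
  push Not at hcon
  have hall : ∀ x : F1, ι x ∈ P.toValuationSubring := by
    intro x
    rw [mem_iff_ord_nonneg]
    rcases eq_or_ne x 0 with rfl | hx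
    · simp
    · rw [hcon x hx]
  have hunit : ∀ a ∈ Submodule.span Ω (Set.range ι), a ≠ 0 → P.ord a = 0 := by
    intro a ha _
    have h1 := s37_rv_isIntegralElem_span ι hι a ha
    exact ord_unit_eq_zero P (s37_rv_mem_of_isIntegralElem ι P hall a h1)
      (s37_rv_mem_of_isIntegralElem ι P hall _ (s37_rv_isIntegralElem_inv ι a h1))
  obtain ⟨π, hπ⟩ := IsDiscreteValuationRing.exists_irreducible P.toValuationSubring
  have h1 := P.ord_coe_irreducible hπ
  obtain ⟨a, b, ha, hb, hb0, hab⟩ := hgen (π : Fb)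
  have ha0 : a ≠ 0 := by
    rintro rfl
    rw [zero_div] at hab
    rw [hab] at h1
    simp at h1
  rw [hab, div_eq_mul_inv, P.ord_mul ha0 (inv_ne_zero hb0), P.ord_inv, hunit a ha ha0,
    hunit b hb hb0] at h1
  simp at h1

/-- **Core.** If `P` is `K1`-rational and `P'` has the same restriction to `F1`, the order
functions of `P` and `P'` are integer multiples of a common function. -/
theorem s37_rv_core [s37_r_Rational Ω Fb] (ι : F1 →+* Fb)
    (hι : ∀ c : K1, ι (algebraMap K1 F1 c) = algebraMap Ω Fb (algebraMap K1 Ω c))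
    (hgen : ∀ y : Fb, ∃ a b : Fb, a ∈ Submodule.span Ω (Set.range ι) ∧
      b ∈ Submodule.span Ω (Set.range ι) ∧ b ≠ 0 ∧ y = a / b)
    (P P' : Place Ω Fb)
    (hPP' : ∀ x : F1, ι x ∈ P.toValuationSubring ↔ ι x ∈ P'.toValuationSubring)
    (hrat : ∀ x : F1, ι x ∈ P.toValuationSubring →
      ∃ c : K1, s37_r_val P (ι x) = algebraMap K1 Ω c)
    (hnt : ∃ x : F1, x ≠ 0 ∧ P.ord (ι x) ≠ 0) :
    ∃ w : F1, 0 < P.ord (ι w) ∧ 0 < P'.ord (ι w) ∧
      ∀ y : Fb, y ≠ 0 → ∃ k : ℤ, P.ord y = k * P.ord (ι w) ∧ P'.ord y = k * P'.ord (ι w) := by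
  classical
  -- a function of `F1` of minimal positive order at `P`
  have hpos : ∃ n : ℕ, ∃ x : F1, x ≠ 0 ∧ P.ord (ι x) = (n : ℤ) + 1 := by
    obtain ⟨x, hx0, hx⟩ := hnt
    rcases lt_or_gt_of_ne hx with h | h
    · refine ⟨(-P.ord (ι x) - 1).toNat, x⁻¹, inv_ne_zero hx0, ?_⟩
      rw [map_inv₀, P.ord_inv]
      omega
    · exact ⟨(P.ord (ι x) - 1).toNat, x, hx0, by omega⟩
  obtain ⟨w, hw0, hw⟩ := Nat.find_spec hpos
  have hmin : ∀ x : F1, x ≠ 0 → 0 < P.ord (ι x) → P.ord (ι w) ≤ P.ord (ι x) := by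
    intro x hx0 hx
    by_contra hlt
    push Not at hlt
    have h1 : (P.ord (ι x) - 1).toNat < Nat.find hpos := by omega
    exact Nat.find_min hpos h1 ⟨x, hx0, by omega⟩
  have he : 0 < P.ord (ι w) := by omega
  have hιw0 : ι w ≠ 0 := (map_ne_zero ι).mpr hw0
  have hne : ∀ x : F1, x ≠ 0 → ι x ≠ 0 := fun x hx => (map_ne_zero ι).mpr hx
  -- the `Ω`-span of the `P`-integral functions of `F1`
  set S : Submodule Ω Fb :=
    Submodule.span Ω {y : Fb | ∃ x : F1, ι x ∈ P.toValuationSubring ∧ ι x = y} with hS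
  have hdecomp : ∀ s ∈ S, ∃ (c : Ω) (s' : Fb), s' ∈ S ∧ s = algebraMap Ω Fb c + ι w * s' := by
    intro s hs
    induction hs using Submodule.span_induction with
    | mem y hy =>
        obtain ⟨x, hx, rfl⟩ := hy
        obtain ⟨a, ha⟩ := hrat x hx
        have hspec := s37_r_val_spec P hx
        rw [ha, ← hι, ← map_sub] at hspec
        refine ⟨algebraMap K1 Ω a, ι ((x - algebraMap K1 F1 a) / w),
          Submodule.subset_span ⟨_, ?_, rfl⟩, ?_⟩
        · rcases eq_or_ne (x - algebraMap K1 F1 a) 0 with h0 | h0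
          · rw [h0, zero_div, map_zero]
            exact zero_mem _
          · rw [mem_iff_ord_nonneg, map_div₀, div_eq_mul_inv,
              P.ord_mul (hne _ h0) (inv_ne_zero hιw0), P.ord_inv]
            have h1 := hmin _ h0 ((mem_nonunits_iff_ord_pos P (hne _ h0)).mp hspec)
            omega
        · rw [← hι, ← map_mul, ← map_add, mul_div_cancel₀ _ hw0, add_sub_cancel]
    | zero => exact ⟨0, 0, zero_mem _, by simp⟩
    | add x y _ _ hx hy =>
        obtain ⟨c1, s1, hs1, rfl⟩ := hx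
        obtain ⟨c2, s2, hs2, rfl⟩ := hy
        exact ⟨c1 + c2, s1 + s2, add_mem hs1 hs2, by rw [map_add]; ring⟩
    | smul r x _ hx =>
        obtain ⟨c1, s1, hs1, rfl⟩ := hx
        exact ⟨r * c1, r • s1, Submodule.smul_mem _ _ hs1, by
          rw [Algebra.smul_def, Algebra.smul_def, map_mul]; ring⟩
  have hSP : ∀ P'' : Place Ω Fb,
      (∀ x : F1, ι x ∈ P.toValuationSubring → ι x ∈ P''.toValuationSubring) →
      ∀ s ∈ S, s ∈ P''.toValuationSubring := by
    intro P'' h s hs
    induction hs using Submodule.span_induction with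
    | mem y hy =>
        obtain ⟨x, hx, rfl⟩ := hy
        exact h x hx
    | zero => exact zero_mem _
    | add x y _ _ hx hy => exact add_mem hx hy
    | smul r x _ hx =>
        rw [Algebra.smul_def]
        exact mul_mem (P''.algebraMap_mem' r) hx
  have hS1 := hSP P (fun _ h => h)
  have hS2 := hSP P' (fun x h => (hPP' x).mp h)
  have he' : 0 < P'.ord (ι w) := by
    have h1 : ι w⁻¹ ∉ P.toValuationSubring := by
      rw [mem_iff_ord_nonneg, map_inv₀, P.ord_inv]
      omega
    have h2 : ι w⁻¹ ∉ P'.toValuationSubring := fun h => h1 ((hPP' _).mpr h)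
    rw [mem_iff_ord_nonneg, map_inv₀, P'.ord_inv] at h2
    omega
  have hunit : ∀ P'' : Place Ω Fb, (∀ s ∈ S, s ∈ P''.toValuationSubring) →
      0 < P''.ord (ι w) → ∀ (c : Ω) (s' : Fb), c ≠ 0 → s' ∈ S →
      P''.ord (algebraMap Ω Fb c + ι w * s') = 0 := by
    intro P'' hS'' hw'' c s' hc hs'
    have hmem : ι w * s' ∈ P''.toValuationSubring.nonunits :=
      s37_r_nonunits_mul_mem _ ((mem_nonunits_iff_ord_pos P'' hιw0).mpr hw'') (hS'' s' hs')
    have hsum : algebraMap Ω Fb c + ι w * s' ∈ P''.toValuationSubring :=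
      add_mem (P''.algebraMap_mem' c) (s37_r_nonunits_mem _ hmem)
    have hval : s37_r_val P'' (algebraMap Ω Fb c + ι w * s') = c := by
      apply s37_r_val_eq_of_sub_mem
      rw [add_sub_cancel_left]
      exact hmem
    exact ord_unit_eq_zero P'' hsum
      (s37_r_inv_mem_of_val_ne_zero P'' hsum (by rw [hval]; exact hc))
  have hB : ∀ n : ℕ, ∀ s ∈ S, s ≠ 0 → P.ord s < n →
      ∃ k : ℕ, P.ord s = k * P.ord (ι w) ∧ P'.ord s = k * P'.ord (ι w) := by
    intro n
    induction n with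
    | zero =>
        intro s hs _ hlt
        have := (mem_iff_ord_nonneg P s).mp (hS1 s hs)
        simp only [Nat.cast_zero] at hlt
        omega
    | succ n ih =>
        intro s hs hs0 hlt
        obtain ⟨c, s', hs', rfl⟩ := hdecomp s hs
        by_cases hc : c = 0
        · subst hc
          rw [map_zero, zero_add] at hs0 hlt ⊢
          have hs'0 : s' ≠ 0 := right_ne_zero_of_mul hs0
          rw [P.ord_mul hιw0 hs'0] at hlt
          obtain ⟨k, hk1, hk2⟩ := ih s' hs' hs'0 (by push_cast at hlt; omega)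
          refine ⟨k + 1, ?_, ?_⟩
          · rw [P.ord_mul hιw0 hs'0, hk1]
            push_cast
            ring
          · rw [P'.ord_mul hιw0 hs'0, hk2]
            push_cast
            ring
        · exact ⟨0, by rw [hunit P hS1 he c s' hc hs']; simp,
            by rw [hunit P' hS2 he' c s' hc hs']; simp⟩
  have hSw : ∀ s ∈ S, ι w * s ∈ S := by
    intro s hs
    induction hs using Submodule.span_induction with
    | mem y hy =>
        obtain ⟨x, hx, rfl⟩ := hy
        refine Submodule.subset_span ⟨w * x, ?_, by rw [map_mul]⟩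
        rw [map_mul]
        exact mul_mem ((mem_iff_ord_nonneg P _).mpr he.le) hx
    | zero =>
        rw [mul_zero]
        exact zero_mem _
    | add x y _ _ hx hy =>
        rw [mul_add]
        exact add_mem hx hy
    | smul r x _ hx =>
        rw [mul_smul_comm]
        exact Submodule.smul_mem _ _ hx
  have hSwpow : ∀ m : ℕ, ∀ s ∈ S, ι w ^ m * s ∈ S := by
    intro m
    induction m with
    | zero =>
        intro s hs
        simpa using hs
    | succ m ih =>
        intro s hs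
        rw [pow_succ, mul_assoc]
        exact ih _ (hSw s hs)
  have hclear : ∀ a ∈ Submodule.span Ω (Set.range ι), ∃ m : ℕ, ι w ^ m * a ∈ S := by
    intro a ha
    induction ha using Submodule.span_induction with
    | mem y hy =>
        obtain ⟨x, rfl⟩ := hy
        refine ⟨(-P.ord (ι x)).toNat,
          Submodule.subset_span ⟨w ^ (-P.ord (ι x)).toNat * x, ?_, by rw [map_mul, map_pow]⟩⟩
        rcases eq_or_ne x 0 with rfl | hx0
        · simp [zero_mem]
        · rw [mem_iff_ord_nonneg, map_mul, map_pow,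
            P.ord_mul (pow_ne_zero _ hιw0) (hne _ hx0), ord_pow]
          have h1 : -P.ord (ι x) ≤ ((-P.ord (ι x)).toNat : ℤ) := Int.self_le_toNat _
          have h2 : (0 : ℤ) ≤ ((-P.ord (ι x)).toNat : ℤ) := Int.natCast_nonneg _
          nlinarith [mul_nonneg h2 (show (0 : ℤ) ≤ P.ord (ι w) - 1 by omega)]
    | zero => exact ⟨0, by simp⟩
    | add x y _ _ hx hy =>
        obtain ⟨m1, h1⟩ := hx
        obtain ⟨m2, h2⟩ := hy
        refine ⟨m1 + m2, ?_⟩
        have h3 : ι w ^ (m1 + m2) * (x + y) =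
            ι w ^ m2 * (ι w ^ m1 * x) + ι w ^ m1 * (ι w ^ m2 * y) := by ring
        rw [h3]
        exact add_mem (hSwpow _ _ h1) (hSwpow _ _ h2)
    | smul r x _ hx =>
        obtain ⟨m, h⟩ := hx
        exact ⟨m, by rw [mul_smul_comm]; exact Submodule.smul_mem _ _ h⟩
  have hspan : ∀ a ∈ Submodule.span Ω (Set.range ι), a ≠ 0 →
      ∃ k : ℤ, P.ord a = k * P.ord (ι w) ∧ P'.ord a = k * P'.ord (ι w) := by
    intro a ha ha0
    obtain ⟨m, hm⟩ := hclear a ha
    have hne0 : ι w ^ m * a ≠ 0 := mul_ne_zero (pow_ne_zero _ hιw0) ha0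
    obtain ⟨k, hk1, hk2⟩ := hB ((P.ord (ι w ^ m * a)).toNat + 1) _ hm hne0 (by
      push_cast
      have := Int.self_le_toNat (P.ord (ι w ^ m * a))
      omega)
    rw [P.ord_mul (pow_ne_zero _ hιw0) ha0, ord_pow] at hk1
    rw [P'.ord_mul (pow_ne_zero _ hιw0) ha0, ord_pow] at hk2
    exact ⟨(k : ℤ) - m, by rw [sub_mul]; linarith, by rw [sub_mul]; linarith⟩
  refine ⟨w, he, he', fun y hy0 => ?_⟩
  obtain ⟨a, b, ha, hb, hb0, rfl⟩ := hgen y
  have ha0 : a ≠ 0 := fun h => hy0 (by rw [h, zero_div])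
  obtain ⟨k1, h1, h1'⟩ := hspan a ha ha0
  obtain ⟨k2, h2, h2'⟩ := hspan b hb hb0
  refine ⟨k1 - k2, ?_, ?_⟩
  · rw [div_eq_mul_inv, P.ord_mul ha0 (inv_ne_zero hb0), P.ord_inv, h1, h2]
    ring
  · rw [div_eq_mul_inv, P'.ord_mul ha0 (inv_ne_zero hb0), P'.ord_inv, h1', h2']
    ring

/-- **Uniqueness** of the place above a `K1`-rational restriction. -/
theorem s37_rv_unique [s37_r_Rational Ω Fb] [Algebra.IsAlgebraic K1 Ω] (ι : F1 →+* Fb)
    (hι : ∀ c : K1, ι (algebraMap K1 F1 c) = algebraMap Ω Fb (algebraMap K1 Ω c))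
    (hgen : ∀ y : Fb, ∃ a b : Fb, a ∈ Submodule.span Ω (Set.range ι) ∧
      b ∈ Submodule.span Ω (Set.range ι) ∧ b ≠ 0 ∧ y = a / b)
    (P P' : Place Ω Fb)
    (hPP' : ∀ x : F1, ι x ∈ P.toValuationSubring ↔ ι x ∈ P'.toValuationSubring)
    (hrat : ∀ x : F1, ι x ∈ P.toValuationSubring →
      ∃ c : K1, s37_r_val P (ι x) = algebraMap K1 Ω c) : P = P' := by
  obtain ⟨w, he, he', hk⟩ := s37_rv_core ι hι hgen P P' hPP' hrat
    (s37_rv_nontrivial ι hι hgen P)
  apply place_ext_ord
  intro f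
  rcases eq_or_ne f 0 with rfl | hf
  · simp
  obtain ⟨k, h1, h2⟩ := hk f hf
  rw [h1, h2]
  constructor
  · intro h
    have hk0 : 0 ≤ k := by
      by_contra hneg
      push Not at hneg
      nlinarith
    positivity
  · intro h
    have hk0 : 0 ≤ k := by
      by_contra hneg
      push Not at hneg
      nlinarith
    positivity

/-- **Restriction** of a place of `Fb/Ω` to `F1/K1`. -/
theorem s37_rv_restrict [Algebra.IsAlgebraic K1 Ω] (ι : F1 →+* Fb)
    (hι : ∀ c : K1, ι (algebraMap K1 F1 c) = algebraMap Ω Fb (algebraMap K1 Ω c))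
    (hgen : ∀ y : Fb, ∃ a b : Fb, a ∈ Submodule.span Ω (Set.range ι) ∧
      b ∈ Submodule.span Ω (Set.range ι) ∧ b ≠ 0 ∧ y = a / b)
    (P : Place Ω Fb) :
    ∃ (Q : Place K1 F1) (e : ℕ), 0 < e ∧
      (∀ x : F1, x ∈ Q.toValuationSubring ↔ ι x ∈ P.toValuationSubring) ∧
      ∀ x : F1, P.ord (ι x) = e * Q.ord x := by
  have hne : ∀ x : F1, x ≠ 0 → ι x ≠ 0 := fun x hx => (map_ne_zero ι).mpr hx
  obtain ⟨Q, e, he, hQ⟩ := exists_place_of_ord (K := K1) (F := F1) (fun x => P.ord (ι x))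
    (fun f g hf hg => by
      show P.ord (ι (f * g)) = _
      rw [map_mul, P.ord_mul (hne f hf) (hne g hg)])
    (fun f g hf hg hfg => by
      show _ ≤ P.ord (ι (f + g))
      rw [map_add]
      exact ord_add_ge P (by rw [← map_add]; exact hne _ hfg))
    (fun c hc => by
      show P.ord (ι (algebraMap K1 F1 c)) = 0
      rw [hι]
      exact ord_algebraMap P _)
    (s37_rv_nontrivial ι hι hgen P)
  have hord : ∀ x : F1, P.ord (ι x) = e * Q.ord x := by
    intro x
    rcases eq_or_ne x 0 with rfl | hx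
    · simp
    · exact hQ x hx
  refine ⟨Q, e.toNat, by omega, fun x => ?_, fun x => ?_⟩
  · rw [mem_iff_ord_nonneg, mem_iff_ord_nonneg, hord x]
    constructor
    · intro h
      positivity
    · intro h
      by_contra hneg
      push Not at hneg
      nlinarith
  · rw [hord x, Int.toNat_of_nonneg he.le]

/-- **Restriction, rational case**: no ramification. -/
theorem s37_rv_restrict_rat [s37_r_Rational Ω Fb] [Algebra.IsAlgebraic K1 Ω] (ι : F1 →+* Fb)
    (hι : ∀ c : K1, ι (algebraMap K1 F1 c) = algebraMap Ω Fb (algebraMap K1 Ω c))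
    (hgen : ∀ y : Fb, ∃ a b : Fb, a ∈ Submodule.span Ω (Set.range ι) ∧
      b ∈ Submodule.span Ω (Set.range ι) ∧ b ≠ 0 ∧ y = a / b)
    (P : Place Ω Fb)
    (hrat : ∀ x : F1, ι x ∈ P.toValuationSubring →
      ∃ c : K1, s37_r_val P (ι x) = algebraMap K1 Ω c) :
    ∃ Q : Place K1 F1,
      (∀ x : F1, x ∈ Q.toValuationSubring ↔ ι x ∈ P.toValuationSubring) ∧
      ∀ x : F1, P.ord (ι x) = Q.ord x := by
  obtain ⟨Q, e, he, hQ1, hQ2⟩ := s37_rv_restrict ι hι hgen P
  obtain ⟨w, hw, -, hk⟩ := s37_rv_core ι hι hgen P P (fun _ => Iff.rfl) hrat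
    (s37_rv_nontrivial ι hι hgen P)
  obtain ⟨π, hπ⟩ := IsDiscreteValuationRing.exists_irreducible P.toValuationSubring
  have h1 := P.ord_coe_irreducible hπ
  have hπ0 : (π : Fb) ≠ 0 := by
    intro h0
    rw [h0] at h1
    simp at h1
  obtain ⟨k, hk1, -⟩ := hk (π : Fb) hπ0
  rw [h1] at hk1
  have hw1 : P.ord (ι w) = 1 := by
    have h2 : P.ord (ι w) ∣ 1 := ⟨k, by rw [hk1]; ring⟩
    exact Int.eq_one_of_dvd_one hw.le h2
  have he1 : (e : ℤ) = 1 := by
    have h2 : (e : ℤ) ∣ 1 := ⟨Q.ord w, by rw [← hQ2 w, hw1]⟩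
    exact Int.eq_one_of_dvd_one (by positivity) h2
  refine ⟨Q, hQ1, fun x => ?_⟩
  rw [hQ2 x, he1, one_mul]

end Generic

section Modular

local notation "Qb" => AlgebraicClosure ℚ

variable (N : ℕ) [NeZero N] (K₁ : IntermediateField ℚ (AlgebraicClosure ℚ))

/-- All places of `Q̄ · F_N` are rational. -/
instance s37_rv_rational_bar : s37_r_Rational (AlgebraicClosure ℚ) (modularFunctionFieldBar N) :=
  ⟨fun P f hf => Fermat.Agent.S18.s18_d3_residue N P f hf⟩

/-- (RAT)(c): a `K₁`-rational place of `Q̄ · F_N` is the unique place above its restriction to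
`K₁ · F_N`. -/
theorem s37_rr_unique (P P' : Place Qb (modularFunctionFieldBar N))
    (hPP' : ∀ x : Fermat.Agent.S18.s18_F1 K₁ N,
      Fermat.Agent.S18.s18_baseIncl K₁ N x ∈ P.toValuationSubring ↔
        Fermat.Agent.S18.s18_baseIncl K₁ N x ∈ P'.toValuationSubring)
    (hrat : ∀ x : Fermat.Agent.S18.s18_F1 K₁ N,
      Fermat.Agent.S18.s18_baseIncl K₁ N x ∈ P.toValuationSubring →
        ∃ c : K₁, s37_r_val P (Fermat.Agent.S18.s18_baseIncl K₁ N x) = algebraMap K₁ Qb c) :
    P = P' := by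
  have := Fermat.Agent.S18.s18_isAlgebraic_bar K₁
  exact s37_rv_unique (Fermat.Agent.S18.s18_baseIncl K₁ N)
    (Fermat.Agent.S18.s18_baseIncl_algebraMap K₁ N) (Fermat.Agent.S18.s18_baseIncl_gen K₁ N)
    P P' hPP' hrat

/-- (RAT)(d): the restriction of a place of `Q̄ · F_N` to `K₁ · F_N`. -/
theorem s37_rr_restrict (P : Place Qb (modularFunctionFieldBar N)) :
    ∃ (Q : Place K₁ (Fermat.Agent.S18.s18_F1 K₁ N)) (e : ℕ), 0 < e ∧
      (∀ x : Fermat.Agent.S18.s18_F1 K₁ N, x ∈ Q.toValuationSubring ↔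
        Fermat.Agent.S18.s18_baseIncl K₁ N x ∈ P.toValuationSubring) ∧
      ∀ x : Fermat.Agent.S18.s18_F1 K₁ N,
        P.ord (Fermat.Agent.S18.s18_baseIncl K₁ N x) = e * Q.ord x := by
  have := Fermat.Agent.S18.s18_isAlgebraic_bar K₁
  exact s37_rv_restrict (Fermat.Agent.S18.s18_baseIncl K₁ N)
    (Fermat.Agent.S18.s18_baseIncl_algebraMap K₁ N) (Fermat.Agent.S18.s18_baseIncl_gen K₁ N) P

/-- (RAT)(d), rational case: `e = 1`. -/
theorem s37_rr_restrict_rat (P : Place Qb (modularFunctionFieldBar N))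
    (hrat : ∀ x : Fermat.Agent.S18.s18_F1 K₁ N,
      Fermat.Agent.S18.s18_baseIncl K₁ N x ∈ P.toValuationSubring →
        ∃ c : K₁, s37_r_val P (Fermat.Agent.S18.s18_baseIncl K₁ N x) = algebraMap K₁ Qb c) :
    ∃ Q : Place K₁ (Fermat.Agent.S18.s18_F1 K₁ N),
      (∀ x : Fermat.Agent.S18.s18_F1 K₁ N, x ∈ Q.toValuationSubring ↔
        Fermat.Agent.S18.s18_baseIncl K₁ N x ∈ P.toValuationSubring) ∧
      ∀ x : Fermat.Agent.S18.s18_F1 K₁ N,
        P.ord (Fermat.Agent.S18.s18_baseIncl K₁ N x) = Q.ord x := by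
  have := Fermat.Agent.S18.s18_isAlgebraic_bar K₁
  exact s37_rv_restrict_rat (Fermat.Agent.S18.s18_baseIncl K₁ N)
    (Fermat.Agent.S18.s18_baseIncl_algebraMap K₁ N) (Fermat.Agent.S18.s18_baseIncl_gen K₁ N)
    P hrat

end Modular

end Fermat.Agent.S37
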