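import Fermat.Agent.S37.RcNorm
import Fermat.Agent.S37.RedDefs
import Fermat.Agent.S37.RRatVal
import Fermat.Agent.S18.ChAlgFg
import Fermat.Agent.S18.ChartZFin
import Fermat.Agent.S18.ChartZHaupt
import Fermat.Agent.S18.ResField
import Fermat.Agent.S28.Core

/-!
# S37, block R: (R1) a chart function with vanishing reduction has values in the maximal ideal

* `s37_rc_isChartFn` : the elements of the chart `s18_chAlg N ℓ A t` over a valuation ring `A` of
  `Q̄` are chart functions (integral over `A[t]`);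
* `s37_rc_chart_val` : they are regular with value in `A` at the places of the chart domain;
* `s37_rc_mem_chart` : conversely a chart function with `A`-integral `q`-expansion lies in the
  chart;
* `s37_rc_wd`, `s37_r_wd` : (R1).
-/

set_option autoImplicit false
set_option synthInstance.maxHeartbeats 400000
set_option linter.unusedSectionVars false
set_option linter.unusedVariables false

open ModularCurve ModularCurve.IgusaScheme AlgebraicCurve Fermat.Agent.S28 Fermat.Agent.S18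
  Polynomial

noncomputable section

namespace Fermat.Agent.S37

section Wd

variable {N : ℕ} [NeZero N] {ℓ : ℕ} [Fact ℓ.Prime]
variable (A : ValuationSubring (AlgebraicClosure ℚ)) {t : modularFunctionFieldFull N}

local notation "Qb" => AlgebraicClosure ℚ
local notation "Fb" => modularFunctionFieldBar N

omit [Fact ℓ.Prime] in
theorem s37_rc_const_mem_chartBase (t' : Fb) (a : A) :
    algebraMap Qb Fb (a : Qb) ∈ s37_chartBase A t' :=
  Subring.subset_closure (Or.inl ⟨a, rfl⟩)

omit [Fact ℓ.Prime] in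
theorem s37_rc_self_mem_chartBase (t' : Fb) : t' ∈ s37_chartBase A t' :=
  Subring.subset_closure (Or.inr rfl)

/-- Polynomials in the coordinate with coefficients in `A` lie in `A[t]`. -/
theorem s37_rc_aeval_mem_chartBase (P : A[X]) :
    ((aeval (s18_coordB ℓ A t) P : s18_chAlg N ℓ A t) : Fb) ∈
      s37_chartBase A (s18_coord Qb t) := by
  induction P using Polynomial.induction_on with
  | C a =>
    rw [aeval_C]
    exact s37_rc_const_mem_chartBase A _ a
  | add p q hp hq =>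
    rw [map_add]
    exact Subring.add_mem _ hp hq
  | monomial n a ih =>
    rw [pow_succ, ← mul_assoc, map_mul, aeval_X]
    exact Subring.mul_mem _ ih (s37_rc_self_mem_chartBase A _)

/-- The elements of the chart over `A` are chart functions. -/
theorem s37_rc_isChartFn (hℓ : ((ℓ : Qb))⁻¹ ∉ A) (h : s18_cz_Coord N ℓ t)
    {B : Subring (LaurentSeries ℚ)} (hB : CoreData N ℓ B) (z : Fb)
    (hz : z ∈ s18_chAlg N ℓ A t) : s37_IsChartFn A (s18_coord Qb t) z := by
  letI := s18_chPolyAlgebra ℓ A t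
  haveI : Module.Finite A[X] (s18_chAlg N ℓ A t) :=
    s18_chAlg_finite (A := A) (h.exists_finset_span hB) hℓ
  have h1 : IsIntegral A[X] (⟨z, hz⟩ : s18_chAlg N ℓ A t) := IsIntegral.of_finite A[X] _
  let φ : A[X] →+* s37_chartBase A (s18_coord Qb t) :=
    RingHom.codRestrict ((s18_chAlg N ℓ A t).val.toRingHom.comp
      (algebraMap A[X] (s18_chAlg N ℓ A t))) (s37_chartBase A (s18_coord Qb t))
      (fun P => s37_rc_aeval_mem_chartBase A P)
  exact IsIntegral.map_of_comp_eq φ (s18_chAlg N ℓ A t).val.toRingHom rfl h1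

omit [Fact ℓ.Prime] in
/-- The elements of `A[t']` are regular with value in `A` on the chart domain of `t'`. -/
theorem s37_rc_chartBase_val (P : Place Qb Fb) (t' : Fb) (hP : P ∈ s37_chartDom A t') :
    ∀ s ∈ s37_chartBase A t', s ∈ P.toValuationSubring ∧ s37_r_val P s ∈ A := by
  intro s hs
  induction hs using Subring.closure_induction with
  | mem x hx =>
    rcases hx with ⟨a, rfl⟩ | hx
    · refine ⟨P.algebraMap_mem' _, ?_⟩
      rw [s37_r_val_algebraMap]
      exact a.2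
    · rw [Set.mem_singleton_iff] at hx
      rw [hx]
      exact hP
  | zero =>
    refine ⟨zero_mem _, ?_⟩
    rw [s37_r_val_zero]
    exact zero_mem _
  | one =>
    refine ⟨one_mem _, ?_⟩
    rw [s37_r_val_one]
    exact one_mem _
  | add x y _ _ hx hy =>
    refine ⟨add_mem hx.1 hy.1, ?_⟩
    rw [s37_r_val_add P hx.1 hy.1]
    exact add_mem hx.2 hy.2
  | neg x _ hx =>
    refine ⟨neg_mem hx.1, ?_⟩
    rw [s37_r_val_neg P hx.1]
    exact neg_mem hx.2
  | mul x y _ _ hx hy =>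
    refine ⟨mul_mem hx.1 hy.1, ?_⟩
    rw [s37_r_val_mul P hx.1 hy.1]
    exact mul_mem hx.2 hy.2

/-- The elements of the chart over `A` are regular with value in `A` on the chart domain. -/
theorem s37_rc_chart_val (hℓ : ((ℓ : Qb))⁻¹ ∉ A) (h : s18_cz_Coord N ℓ t)
    {B : Subring (LaurentSeries ℚ)} (hB : CoreData N ℓ B) (P : Place Qb Fb)
    (hP : P ∈ s37_chartDom A (s18_coord Qb t)) (z : Fb) (hz : z ∈ s18_chAlg N ℓ A t) :
    z ∈ P.toValuationSubring ∧ s37_r_val P z ∈ A :=
  s37_r_integral P A (s37_chartBase A (s18_coord Qb t)) (s37_rc_chartBase_val A P _ hP) z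
    (s37_rc_isChartFn A hℓ h hB z hz)

/-- `A[t]` lies in the chart. -/
theorem s37_rc_chartBase_le :
    s37_chartBase A (s18_coord Qb t) ≤ (s18_chAlg N ℓ A t).toSubring := by
  rw [s37_chartBase, Subring.closure_le]
  rintro x (⟨a, rfl⟩ | hx)
  · exact (s18_chAlg N ℓ A t).algebraMap_mem a
  · rw [Set.mem_singleton_iff] at hx
    rw [hx]
    exact s18_coord_mem t

/-- A chart function with `A`-integral `q`-expansion lies in the chart. -/
theorem s37_rc_mem_chart (hA : A.LiesOverPrime ℓ) (h : s18_cz_Coord N ℓ t)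
    {B : Subring (LaurentSeries ℚ)} (hB : CoreData N ℓ B) (G : Fb)
    (hint : s37_IsChartFn A (s18_coord Qb t) G) (g : LaurentSeries A)
    (hg : coeffMap A.subtype g = (G : LaurentSeries Qb)) : G ∈ s18_chAlg N ℓ A t := by
  have hGint : IsIntegral (s18_chAlg N ℓ A t) G :=
    IsIntegral.map_of_comp_eq (Subring.inclusion (s37_rc_chartBase_le (ℓ := ℓ) A (t := t)))
      (RingHom.id Fb) rfl hint
  exact s37_rc_normal_bar A hA h hB G hGint g hg

/-- **(R1) for a coordinate `t`**: a chart function whose `A`-integral `q`-expansion reduces to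
zero has values in the maximal ideal of `A` on the chart domain. -/
theorem s37_rc_wd (hA : A.LiesOverPrime ℓ) (hℓN : ¬ ℓ ∣ N) (h : s18_cz_Coord N ℓ t)
    (g : LaurentSeries A) (hg : coeffMap A.subtype g ∈ Fb)
    (hint : s37_IsChartFn A (s18_coord Qb t) (⟨_, hg⟩ : Fb))
    (hred : coeffMap (IsLocalRing.residue A) g = 0)
    (P : Place Qb Fb) (hP : P ∈ s37_chartDom A (s18_coord Qb t)) :
    s37_r_val P (⟨_, hg⟩ : Fb) ∈ A.nonunits := by
  obtain ⟨B, hB⟩ := core N ℓ hℓN
  have hℓ : ((ℓ : Qb))⁻¹ ∉ A := s18_res_inv_notMem_bar A ℓ hA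
  have hGmem : (⟨_, hg⟩ : Fb) ∈ s18_chAlg N ℓ A t := s37_rc_mem_chart A hA h hB _ hint g rfl
  have hker := s37_rc_ker A hA h hB
  obtain ⟨c, y', hc, hy', e⟩ := hker ⟨coeffMap A.subtype g, s18_coeffMap_mem_W _ _ g⟩ hGmem (by
    rw [s37_rc_gred]
    exact (s18_red_coeffMap _ g _).trans hred)
  have hy'F : y' ∈ Fb := s37_rc_chRing_le _ hy'
  have hG : (⟨_, hg⟩ : Fb) = algebraMap Qb Fb (c : Qb) * ⟨y', hy'F⟩ := by
    apply Subtype.ext
    show coeffMap A.subtype g = algebraMap Qb (LaurentSeries Qb) (c : Qb) * y'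
    rw [algebraMap_laurentSeries_eq_single, ← HahnSeries.C_apply]
    exact e
  obtain ⟨hY'P, hY'A⟩ := s37_rc_chart_val A hℓ h hB P hP (⟨y', hy'F⟩ : Fb) hy'
  rw [hG, s37_r_val_mul P (P.algebraMap_mem' _) hY'P, s37_r_val_algebraMap,
    ValuationSubring.mem_nonunits_iff_exists_mem_maximalIdeal]
  refine ⟨A.mul_mem _ _ c.2 hY'A, ?_⟩
  have hcm : c ∈ IsLocalRing.maximalIdeal A := (IsLocalRing.residue_eq_zero_iff c).mp hc
  exact Ideal.mul_mem_right (⟨_, hY'A⟩ : A) _ hcm

omit [Fact ℓ.Prime] in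
/-- The Hauptmodul of `s37_IsHaupt` is the coordinate `t₂` resp. `t₃` of block C of S18. -/
theorem s37_rc_haupt (ℓ : ℕ) [Fact ℓ.Prime] (M : ℕ) (hMN : M ∣ N) (hℓM : ℓ ≠ M) (t : Fb)
    (ht : s37_IsHaupt M t) :
    ∃ t₀ : modularFunctionFieldFull N, s18_cz_Coord N ℓ t₀ ∧ t = s18_coord Qb t₀ := by
  rcases ht with ⟨rfl, e⟩ | ⟨rfl, e⟩
  · refine ⟨s18_cz_t2 N hMN, s18_cz_coord_t2 N ℓ hMN hℓM, Subtype.ext ?_⟩
    rw [e]
    show _ = coeffEmb Qb (s18_t2R ℚ)
    rw [coeffEmb, s18_coeffMap_t2R]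
  · refine ⟨s18_cz_t3 N hMN, s18_cz_coord_t3 N ℓ hMN hℓM, Subtype.ext ?_⟩
    rw [e]
    show _ = coeffEmb Qb (s18_t3R ℚ)
    rw [coeffEmb, s18_coeffMap_t3R]

end Wd

/-- **(R1) = (WD)**: a chart function whose `q`-expansion vanishes mod `𝔪_A` has values in `𝔪_A`
on its chart. -/
theorem s37_r_wd (N ℓ M : ℕ) [NeZero N] (hℓ : ℓ.Prime) (hℓN : ¬ ℓ ∣ N) (hℓM : ℓ ≠ M)
    (hMN : M ∣ N) (A : ValuationSubring (AlgebraicClosure ℚ)) (hA : A.LiesOverPrime ℓ)
    (t : modularFunctionFieldBar N) (ht : s37_IsHaupt M t)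
    (t' : modularFunctionFieldBar N) (ht' : t' = t ∨ t' = t⁻¹)
    (g : LaurentSeries A) (hg : coeffMap A.subtype g ∈ modularFunctionFieldBar N)
    (hint : s37_IsChartFn A t' (⟨_, hg⟩ : modularFunctionFieldBar N))
    (hred : coeffMap (IsLocalRing.residue A) g = 0)
    (P : Place (AlgebraicClosure ℚ) (modularFunctionFieldBar N)) (hP : P ∈ s37_chartDom A t') :
    s37_r_val P (⟨_, hg⟩ : modularFunctionFieldBar N) ∈ A.nonunits := by
  haveI : Fact ℓ.Prime := ⟨hℓ⟩
  obtain ⟨t₀, h, rfl⟩ := s37_rc_haupt ℓ M hMN hℓM t ht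
  rcases ht' with rfl | rfl
  · exact s37_rc_wd A hA hℓN h g hg hint hred P hP
  · rw [← s18_coord_inv] at hint hP
    exact s37_rc_wd A hA hℓN h.inv g hg hint hred P hP

end Fermat.Agent.S37
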