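import Fermat.Agent.S37.RedProfile
import Fermat.Agent.S37.RcWd

/-!
# S37, leaf (P1): inertia acts trivially on residue profiles

For `τ` in the inertia group of `A` and a place `P` of `F̄(N)`, the residue profiles of `P` and
`τ • P` coincide: `τ` fixes the Hauptmodul, preserves the chart domains, acts trivially on the
residue field, and a chart function whose `q`-expansion vanishes mod `𝔪_A` has values in `𝔪_A`
(`s37_r_wd`).
-/

set_option autoImplicit false
set_option synthInstance.maxHeartbeats 400000

open scoped Pointwise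

namespace Fermat.Agent.S37

open ModularCurve AlgebraicCurve

noncomputable section

local notation "Qb" => AlgebraicClosure ℚ
local notation "Γ" => (AlgebraicClosure ℚ ≃ₐ[ℚ] AlgebraicClosure ℚ)

/-- A place outside the chart domain of `t` lies in the chart domain of `t⁻¹`. -/
theorem s37_ei_chartDom_inv (N : ℕ) [NeZero N]
    (A : ValuationSubring Qb) (t : modularFunctionFieldBar N)
    (P : Place Qb (modularFunctionFieldBar N)) (h : P ∉ s37_chartDom A t) :
    P ∈ s37_chartDom A t⁻¹ := by
  by_cases ht : t ∈ P.toValuationSubring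
  · have hv : s37_r_val P t ∉ A := fun hv => h ⟨ht, hv⟩
    have hv0 : s37_r_val P t ≠ 0 := by
      intro h0
      exact hv (h0 ▸ zero_mem A)
    refine ⟨s37_r_inv_mem_of_val_ne_zero P ht hv0, ?_⟩
    rw [s37_r_val_inv P ht hv0]
    exact (A.mem_or_inv_mem (s37_r_val P t)).resolve_left hv
  · have hinv : t⁻¹ ∈ P.toValuationSubring :=
      (P.toValuationSubring.mem_or_inv_mem t).resolve_left ht
    refine ⟨hinv, ?_⟩
    have h0 : s37_r_val P t⁻¹ = 0 := by
      by_contra hne
      have := s37_r_inv_mem_of_val_ne_zero P hinv hne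
      rw [inv_inv] at this
      exact ht this
    rw [h0]
    exact zero_mem A

/-- The Hauptmodul is fixed by the arithmetic Galois action. -/
theorem s37_ei_haupt_fix (N M : ℕ) [NeZero N] (t : modularFunctionFieldBar N)
    (ht : s37_IsHaupt M t) (σ : Γ) :
    arithmeticGalois (modularFunctionFieldFull N) σ • t = t := by
  apply Subtype.ext
  rw [coe_arithmeticGalois_smul]
  rcases ht with ⟨_, e⟩ | ⟨_, e⟩
  · rw [e, Fermat.Agent.S18.s18_coeffMap_t2R]
  · rw [e, Fermat.Agent.S18.s18_coeffMap_t3R]

/-- The inverse of the Hauptmodul is fixed by the arithmetic Galois action. -/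
theorem s37_ei_haupt_inv_fix (N M : ℕ) [NeZero N] (t : modularFunctionFieldBar N)
    (ht : s37_IsHaupt M t) (σ : Γ) :
    arithmeticGalois (modularFunctionFieldFull N) σ • t⁻¹ = t⁻¹ := by
  rw [smul_inv'', s37_ei_haupt_fix N M t ht σ]

/-- Inertia lies in the decomposition group and acts trivially on the residue field. -/
theorem s37_ei_inertia (A : ValuationSubring Qb) (τ : Γ) (hτ : τ ∈ A.inertiaSubgroupIn ℚ) :
    ∃ hd : τ ∈ A.decompositionSubgroup ℚ, s37_pr_galK A τ hd = RingHom.id _ := by
  obtain ⟨τ', hτ', rfl⟩ := Subgroup.mem_map.mp hτ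
  refine ⟨τ'.2, RingHom.ext fun x => ?_⟩
  have h1 : MulSemiringAction.toRingAut (A.decompositionSubgroup ℚ)
      (IsLocalRing.ResidueField A) τ' = 1 := MonoidHom.mem_ker.mp hτ'
  exact RingEquiv.congr_fun h1 x

/-- **(P1)** inertia acts trivially on residue profiles. -/
theorem s37_ep_red_inertia (N ℓ M : ℕ) [NeZero N] (hℓ : ℓ.Prime) (hℓN : ¬ ℓ ∣ N) (hℓM : ℓ ≠ M)
    (hMN : M ∣ N) (A : ValuationSubring Qb) (hA : A.LiesOverPrime ℓ)
    (t : modularFunctionFieldBar N) (ht : s37_IsHaupt M t)
    (τ : Γ) (hτ : τ ∈ A.inertiaSubgroupIn ℚ) (P : Place Qb (modularFunctionFieldBar N)) :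
    s37_red N A t (arithmeticGalois (modularFunctionFieldFull N) τ • P) = s37_red N A t P := by
  obtain ⟨hd, hK⟩ := s37_ei_inertia A τ hτ
  have hτi : τ⁻¹ ∈ A.inertiaSubgroupIn ℚ := inv_mem hτ
  obtain ⟨hdi, -⟩ := s37_ei_inertia A τ⁻¹ hτi
  have hfix : ∀ t' : modularFunctionFieldBar N, (t' = t ∨ t' = t⁻¹) → ∀ σ : Γ,
      arithmeticGalois (modularFunctionFieldFull N) σ • t' = t' := by
    rintro t' (rfl | rfl) σ
    · exact s37_ei_haupt_fix N M t' ht σ
    · exact s37_ei_haupt_inv_fix N M t ht σ
  have hdom : ∀ t' : modularFunctionFieldBar N, (t' = t ∨ t' = t⁻¹) →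
      ∀ P : Place Qb (modularFunctionFieldBar N),
      (arithmeticGalois (modularFunctionFieldFull N) τ • P ∈ s37_chartDom A t' ↔
        P ∈ s37_chartDom A t') := by
    intro t' ht' P
    constructor
    · intro h
      have h1 := s37_pr_gal_chartDom τ⁻¹ hdi t' (hfix t' ht' τ⁻¹) _ h
      have e : arithmeticGalois (modularFunctionFieldFull N) (L := Qb) τ⁻¹ =
          (arithmeticGalois (modularFunctionFieldFull N) (L := Qb) τ)⁻¹ :=
        MonoidHom.map_inv _ τ
      rw [e] at h1
      have e2 : (arithmeticGalois (modularFunctionFieldFull N) (L := Qb) τ)⁻¹ •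
          (arithmeticGalois (modularFunctionFieldFull N) (L := Qb) τ • P) = P :=
        inv_smul_smul _ _
      rw [e2] at h1
      exact h1
    · exact s37_pr_gal_chartDom τ hd t' (hfix t' ht' τ) P
  have key : ∀ t' : modularFunctionFieldBar N, (t' = t ∨ t' = t⁻¹) →
      ∀ P : Place Qb (modularFunctionFieldBar N), P ∈ s37_chartDom A t' →
      s37_profile N A t' (arithmeticGalois (modularFunctionFieldFull N) τ • P) =
        s37_profile N A t' P := by
    intro t' ht' P hP
    have hQ := (hdom t' ht' P).mpr hP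
    funext g
    by_cases hg : g ∈ s37_chartRing N A t'
    · have hg' : coeffMap (s37_pr_galA A τ hd) g ∈ s37_chartRing N A t' :=
        s37_pr_gal_mem_chartRing τ hd t' (hfix t' ht' τ) hg
      have h1 : s37_profile N A t' (arithmeticGalois (modularFunctionFieldFull N) τ • P)
          (coeffMap (s37_pr_galA A τ hd) g) = s37_profile N A t' P g := by
        rw [s37_pr_profile_gal τ hd t' (hfix t' ht' τ) P hP hg, hK]
        rfl
      have h2 : s37_profile N A t' (arithmeticGalois (modularFunctionFieldFull N) τ • P)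
          (coeffMap (s37_pr_galA A τ hd) g - g) = 0 := by
        have hmem : coeffMap (s37_pr_galA A τ hd) g - g ∈ s37_chartRing N A t' :=
          sub_mem hg' hg
        obtain ⟨hgm, hint⟩ := s37_pr_mem_chartRing_iff'.mp hmem
        rw [s37_profile_apply N A t' _ _ hgm hint]
        apply s37_pr_resQb_eq_zero
        have e1 : coeffMap (IsLocalRing.residue A) (coeffMap (s37_pr_galA A τ hd) g) =
            coeffMap (IsLocalRing.residue A) g := by
          rw [s37_pr_coeffMap_residue_galA, hK, coeffMap_id]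
        have e2 : coeffMap (IsLocalRing.residue A) (coeffMap (s37_pr_galA A τ hd) g - g) = 0 :=
          (RingHom.map_sub _ _ _).trans (sub_eq_zero.mpr e1)
        exact s37_r_wd N ℓ M hℓ hℓN hℓM hMN A hA t ht t' ht' _ hgm hint e2 _ hQ
      have h3 := s37_pr_profile_sub
        (arithmeticGalois (modularFunctionFieldFull N) τ • P) hQ hg' hg
      rw [h2, h1] at h3
      exact (sub_eq_zero.mp h3.symm).symm
    · rw [s37_pr_profile_of_notMem _ hg, s37_pr_profile_of_notMem _ hg]
  by_cases hP : P ∈ s37_chartDom A t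
  · have hQ := (hdom t (Or.inl rfl) P).mpr hP
    exact (s37_red_of_mem N A t _ hQ).trans
      ((congrArg (Prod.mk true) (key t (Or.inl rfl) P hP)).trans
        (s37_red_of_mem N A t P hP).symm)
  · have hP' := s37_ei_chartDom_inv N A t P hP
    have hQ := mt (hdom t (Or.inl rfl) P).mp hP
    exact (s37_red_of_not_mem N A t _ hQ).trans
      ((congrArg (Prod.mk false) (key t⁻¹ (Or.inr rfl) P hP')).trans
        (s37_red_of_not_mem N A t P hP).symm)

end

end Fermat.Agent.S37
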