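import Mathlib
import Fermat.Prelude.Def_AlgebraicCurve_Correspondence

/-!
# S37: the characteristic polynomial along an embedding (shared definition)
-/

set_option autoImplicit false

namespace Fermat.Agent.S37

open AlgebraicCurve Polynomial

noncomputable section

/-- the characteristic polynomial of `g : F'` over `F` (along `u : F → F'`) -/
def s37_chi {K F F' : Type*} [Field K] [Field F] [Field F'] [Algebra K F] [Algebra K F']
    (u : F →ₐ[K] F') (hfin : FiniteAlong K u) (g : F') : Polynomial F :=
  letI := algebraAlong u
  haveI : Module.Finite F F' := hfin
  (LinearMap.mulLeft F g).charpoly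

end

end Fermat.Agent.S37
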