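import Mathlib
import Fermat.Agent.S37.RedDefs
import Fermat.Agent.S37.ChiDef
import Fermat.Agent.S37.EsChiAbs

/-!
# S37: (CHART-χ) — characteristic polynomials of chart functions have chart coefficients

`s37_ep_chi_chart` (helper3's exact leaf statement): for `a b : F →ₐ[Qb] F'` with `b` finite,
if `a t'` is integral over `A[b t']` (the chart is stable) and `G` is integral over `A[t']`, then
every coefficient of the characteristic polynomial of `a G` over `F` (along `b`) is integral over
`A[t']`.

Helpers: `s37_ep_isIntegral_trans` (transitivity of integrality for subrings),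
`s37_ep_chartBase_map` (`a(A[t']) = A[a t']`), `s37_ep_chi_integral` (generic form).
-/

set_option autoImplicit false
set_option linter.style.haveILetI false

namespace Fermat.Agent.S37

open ModularCurve AlgebraicCurve Polynomial

noncomputable section

local notation "Qb" => AlgebraicClosure ℚ

/-- transitivity of integrality for subrings: if every element of `R₁` is integral over `R₂`,
then an element integral over `R₁` is integral over `R₂`. -/
theorem s37_ep_isIntegral_trans {S : Type*} [CommRing S] (R₁ R₂ : Subring S)
    (h : ∀ y ∈ R₁, IsIntegral R₂ y) {x : S} (hx : IsIntegral R₁ x) : IsIntegral R₂ x := by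
  let φ : R₁ →+* integralClosure R₂ S :=
    R₁.subtype.codRestrict (integralClosure R₂ S) (fun r => h r r.2)
  have h1 : IsIntegral (integralClosure R₂ S) x := by
    have := IsIntegral.map_of_comp_eq (a := x) φ (RingHom.id S)
      (by ext r; rfl : (algebraMap (integralClosure R₂ S) S).comp φ =
        (RingHom.id S).comp (algebraMap R₁ S)) hx
    exact this
  exact isIntegral_trans (R := R₂) (A := integralClosure R₂ S) x h1

/-- the image of the chart base ring under an algebra hom -/
theorem s37_ep_chartBase_map {F F' : Type*} [Field F] [Field F'] [Algebra Qb F] [Algebra Qb F']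
    (A : ValuationSubring Qb) (a : F →ₐ[Qb] F') (t' : F) :
    (s37_chartBase A t').map a.toRingHom = s37_chartBase A (a t') := by
  rw [s37_chartBase, s37_chartBase, RingHom.map_closure]
  congr 1
  ext y
  constructor
  · rintro ⟨x, hx, rfl⟩
    rcases hx with ⟨c, rfl⟩ | hx
    · exact Or.inl ⟨c, (a.commutes _).symm⟩
    · rw [Set.mem_singleton_iff] at hx
      rw [hx]
      exact Or.inr rfl
  · rintro (⟨c, rfl⟩ | hy)
    · exact ⟨algebraMap Qb F (c : Qb), Or.inl ⟨c, rfl⟩, a.commutes _⟩
    · rw [Set.mem_singleton_iff] at hy
      rw [hy]
      exact ⟨t', Or.inr rfl, rfl⟩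

/-- generic form: the coefficients of the characteristic polynomial of `a G` over `F` are
integral over `R₀` when `G` is, provided `a(R₀)` is integral over the image of `R₀`. -/
theorem s37_ep_chi_integral {F F' : Type*} [Field F] [Field F'] [CharZero F]
    [Algebra F F'] [FiniteDimensional F F'] (R₀ : Subring F) (a : F →+* F')
    (hab : ∀ y ∈ R₀.map a, IsIntegral (R₀.map (algebraMap F F')) y) (G : F)
    (hG : IsIntegral R₀ G) (i : ℕ) :
    IsIntegral R₀ ((LinearMap.mulLeft F (a G)).charpoly.coeff i) := by
  classical
  -- `a G` is integral over `a(R₀)`, hence over the image of `R₀`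
  have h1 : IsIntegral (R₀.map a) (a G) := by
    let φ : R₀ →+* R₀.map a :=
      (a.comp R₀.subtype).codRestrict (R₀.map a) (fun r => ⟨r, r.2, rfl⟩)
    exact IsIntegral.map_of_comp_eq φ a (by ext r; rfl) hG
  have h2 : IsIntegral (R₀.map (algebraMap F F')) (a G) :=
    s37_ep_isIntegral_trans _ _ hab h1
  have hinj : Function.Injective (algebraMap F F') := (algebraMap F F').injective
  let e := R₀.equivMapOfInjective (algebraMap F F') hinj
  -- every conjugate of `a G` is integral over `R₀`
  have h3 : ∀ σ : F' →ₐ[F] AlgebraicClosure F', IsIntegral R₀ (σ (a G)) := by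
    intro σ
    refine IsIntegral.map_of_comp_eq (e.symm : _ →+* R₀) (σ : F' →+* AlgebraicClosure F') ?_ h2
    ext y
    obtain ⟨r, rfl⟩ := e.surjective y
    simp only [RingHom.comp_apply, RingEquiv.coe_toRingHom, RingEquiv.symm_apply_apply]
    show algebraMap F (AlgebraicClosure F') (r : F) = σ (algebraMap F F' (r : F))
    rw [AlgHom.commutes]
  have h4 := s37_ec_charpoly_map_eq_prod_algHom (K := F) (L := F') (E := AlgebraicClosure F')
    (a G)
  have h5 : IsIntegral R₀ (algebraMap F (AlgebraicClosure F')
      ((LinearMap.mulLeft F (a G)).charpoly.coeff i)) := by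
    rw [← Polynomial.coeff_map, h4]
    refine Polynomial.isIntegral_coeff_prod _ _ (fun σ _ j => ?_) i
    rw [coeff_sub, coeff_X, coeff_C]
    refine IsIntegral.sub ?_ ?_
    · split_ifs
      · exact isIntegral_one
      · exact isIntegral_zero
    · split_ifs
      · exact h3 σ
      · exact isIntegral_zero
  exact (isIntegral_algebraMap_iff (algebraMap F (AlgebraicClosure F')).injective).mp h5

/-- (CHART-χ) the coefficients of the characteristic polynomial of `a G` over `b(F)` are chart
functions when `G` is one and the chart is stable. -/
theorem s37_ep_chi_chart {F F' : Type*} [Field F] [Field F'] [Algebra Qb F] [Algebra Qb F']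
    (A : ValuationSubring Qb) (a b : F →ₐ[Qb] F') (hfin : FiniteAlong Qb b) (t' : F)
    (hstab : IsIntegral (s37_chartBase A (b t')) (a t')) (G : F) (hG : s37_IsChartFn A t' G)
    (i : ℕ) : s37_IsChartFn A t' ((s37_chi b hfin (a G)).coeff i) := by
  letI := algebraAlong b
  haveI : Module.Finite F F' := hfin
  haveI : CharZero F := charZero_of_injective_algebraMap (algebraMap Qb F).injective
  have hab : ∀ y ∈ (s37_chartBase A t').map a.toRingHom,
      IsIntegral ((s37_chartBase A t').map (algebraMap F F')) y := by
    have hb : (s37_chartBase A t').map (algebraMap F F') = s37_chartBase A (b t') :=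
      s37_ep_chartBase_map A b t'
    rw [hb, s37_ep_chartBase_map A a t']
    intro y hy
    induction hy using Subring.closure_induction with
    | mem y hy =>
        rcases hy with ⟨c, rfl⟩ | hy
        · have hmem : algebraMap Qb F' (c : Qb) ∈ s37_chartBase A (b t') :=
            Subring.subset_closure (Or.inl ⟨c, rfl⟩)
          exact isIntegral_algebraMap (R := s37_chartBase A (b t')) (x := ⟨_, hmem⟩)
        · rw [Set.mem_singleton_iff] at hy
          rw [hy]
          exact hstab
    | zero => exact isIntegral_zero
    | one => exact isIntegral_one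
    | add x y _ _ hx hy => exact hx.add hy
    | neg x _ hx => exact hx.neg
    | mul x y _ _ hx hy => exact hx.mul hy
  exact s37_ep_chi_integral (s37_chartBase A t') a.toRingHom hab G hG i

end

end Fermat.Agent.S37
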