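import Mathlib

/-!
# S37, block H, piece (CP), linear algebra part (helper25)

* `s37_cp_charpoly_pi`: the characteristic polynomial of a "diagonal" endomorphism of a finite
  product of finite-dimensional vector spaces is the product of the characteristic polynomials.
* `s37_cp_charpoly_of_nilpotent`: `charpoly T = (X - c) ^ dim` if `T - c` is nilpotent.
* `s37_cp_charpoly_of_embedding`: if an endomorphism `T` of `V` embeds equivariantly into a finite
  product of blocks `U i` on which `T` acts as `c i + nilpotent`, `dim U i ≤ e i` and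
  `∑ e i ≤ dim V`, then `charpoly T = ∏ (X - c i) ^ e i`.
-/

set_option autoImplicit false

open Polynomial Module

namespace Fermat.Agent.S37

universe u v v' w

/-- The characteristic polynomial of an endomorphism of a zero-dimensional space is `1`. -/
theorem s37_cp_charpoly_of_subsingleton {k : Type u} [Field k] {V : Type v} [AddCommGroup V]
    [Module k V] [Module.Finite k V] [Subsingleton V] (T : V →ₗ[k] V) : T.charpoly = 1 := by
  apply Polynomial.eq_one_of_monic_natDegree_zero T.charpoly_monic
  rw [LinearMap.charpoly_natDegree]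
  exact Module.finrank_zero_of_subsingleton

/-- The characteristic polynomial of a diagonal endomorphism of a finite product. -/
theorem s37_cp_charpoly_pi {k : Type u} [Field k] (ι : Type v') [Fintype ι] :
    ∀ (U : ι → Type w) [∀ i, AddCommGroup (U i)] [∀ i, Module k (U i)]
      [∀ i, Module.Finite k (U i)] (f : ∀ i, U i →ₗ[k] U i),
      (LinearMap.pi (fun i => (f i).comp (LinearMap.proj i)) :
        (∀ i, U i) →ₗ[k] (∀ i, U i)).charpoly = ∏ i, (f i).charpoly := by
  refine Fintype.induction_empty_option
    (P := fun ι _ => ∀ (U : ι → Type w) [∀ i, AddCommGroup (U i)] [∀ i, Module k (U i)]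
      [∀ i, Module.Finite k (U i)] (f : ∀ i, U i →ₗ[k] U i),
      (LinearMap.pi (fun i => (f i).comp (LinearMap.proj i)) :
        (∀ i, U i) →ₗ[k] (∀ i, U i)).charpoly = ∏ i, (f i).charpoly) ?_ ?_ ?_ ι
  · -- transport along an equivalence
    intro α β _ e hα U _ _ _ f
    let _ : Fintype α := Fintype.ofEquiv β e.symm
    have h1 := hα (fun a => U (e a)) (fun a => f (e a))
    let L : (∀ a, U (e a)) ≃ₗ[k] ∀ b, U b := LinearEquiv.piCongrLeft k U e
    have hconj : L.conj (LinearMap.pi (fun a => (f (e a)).comp (LinearMap.proj a)) :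
        (∀ a, U (e a)) →ₗ[k] (∀ a, U (e a)))
        = (LinearMap.pi (fun b => (f b).comp (LinearMap.proj b)) :
          (∀ b, U b) →ₗ[k] (∀ b, U b)) := by
      apply LinearMap.ext
      intro x
      funext b
      obtain ⟨a, rfl⟩ := e.surjective b
      rw [LinearEquiv.conj_apply_apply]
      show (Equiv.piCongrLeft U e) _ (e a) = _
      rw [Equiv.piCongrLeft_apply_apply]
      rfl
    rw [← hconj, LinearEquiv.charpoly_conj, h1]
    exact Fintype.prod_equiv e _ _ (fun a => rfl)
  · -- the empty product
    intro U _ _ _ f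
    rw [Finset.univ_eq_empty, Finset.prod_empty]
    exact s37_cp_charpoly_of_subsingleton _
  · -- adding one factor
    intro α _ hα U _ _ _ f
    have h1 := hα (fun a => U (some a)) (fun a => f (some a))
    let L : (∀ o, U o) ≃ₗ[k] U none × ∀ a, U (some a) := LinearEquiv.piOptionEquivProd k
    have hconj : L.conj (LinearMap.pi (fun o => (f o).comp (LinearMap.proj o)) :
        (∀ o, U o) →ₗ[k] (∀ o, U o))
        = (f none).prodMap (LinearMap.pi (fun a => (f (some a)).comp (LinearMap.proj a)) :
          (∀ a, U (some a)) →ₗ[k] (∀ a, U (some a))) := by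
      apply LinearMap.ext
      intro x
      rw [LinearEquiv.conj_apply_apply]
      rfl
    rw [← LinearEquiv.charpoly_conj L, hconj, LinearMap.charpoly_prodMap, h1,
      Fintype.prod_option]

/-- `charpoly T = (X - c) ^ dim` if `T - c` is nilpotent. -/
theorem s37_cp_charpoly_of_nilpotent {k : Type u} [Field k] {V : Type v} [AddCommGroup V]
    [Module k V] [Module.Finite k V] (T : V →ₗ[k] V) (c : k)
    (h : IsNilpotent (T - c • (1 : Module.End k V))) :
    T.charpoly = (X - C c) ^ Module.finrank k V := by
  have h1 := IsNilpotent.charpoly_eq_X_pow_finrank h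
  rw [LinearMap.charpoly_sub_smul] at h1
  have h2 : T.charpoly = (T.charpoly.comp (X + C c)).comp (X - C c) := by
    rw [Polynomial.comp_assoc]
    simp
  rw [h2, h1]
  simp

/-- Characteristic polynomial of an endomorphism which embeds equivariantly into a finite product
of blocks on which it acts as `c i + nilpotent`. -/
theorem s37_cp_charpoly_of_embedding {k : Type u} [Field k] {V : Type v} [AddCommGroup V]
    [Module k V] [Module.Finite k V] (T : V →ₗ[k] V)
    {ι : Type v'} [Fintype ι] (U : ι → Type w) [∀ i, AddCommGroup (U i)] [∀ i, Module k (U i)]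
    [∀ i, Module.Finite k (U i)] (Ti : ∀ i, U i →ₗ[k] U i) (Φ : ∀ i, V →ₗ[k] U i)
    (hΦ : ∀ i x, Φ i (T x) = Ti i (Φ i x))
    (hinj : ∀ x : V, (∀ i, Φ i x = 0) → x = 0)
    (c : ι → k) (e : ι → ℕ)
    (hnil : ∀ i, IsNilpotent (Ti i - c i • (1 : Module.End k (U i))))
    (hdim : ∀ i, Module.finrank k (U i) ≤ e i)
    (hsum : ∑ i, e i ≤ Module.finrank k V) :
    T.charpoly = ∏ i, (X - C (c i)) ^ e i := by
  classical
  let Φ' : V →ₗ[k] (∀ i, U i) := LinearMap.pi Φ
  have hΦ'inj : Function.Injective Φ' := by
    rw [← LinearMap.ker_eq_bot, LinearMap.ker_eq_bot']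
    intro x hx
    exact hinj x (fun i => congrFun hx i)
  have hle1 : Module.finrank k V ≤ Module.finrank k (∀ i, U i) :=
    LinearMap.finrank_le_finrank_of_injective hΦ'inj
  have hpi : Module.finrank k (∀ i, U i) = ∑ i, Module.finrank k (U i) :=
    Module.finrank_pi_fintype k
  have hle2 : ∑ i, Module.finrank k (U i) ≤ ∑ i, e i :=
    Finset.sum_le_sum (fun i _ => hdim i)
  have heq : ∑ i, Module.finrank k (U i) = ∑ i, e i := by omega
  have hdimeq : ∀ i, Module.finrank k (U i) = e i := by
    intro i
    exact (Finset.sum_eq_sum_iff_of_le (fun i _ => hdim i)).mp heq i (Finset.mem_univ i)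
  have hfr : Module.finrank k V = Module.finrank k (∀ i, U i) := by omega
  have hΦ'surj : Function.Surjective Φ' :=
    (LinearMap.injective_iff_surjective_of_finrank_eq_finrank hfr).mp hΦ'inj
  let L : V ≃ₗ[k] (∀ i, U i) := LinearEquiv.ofBijective Φ' ⟨hΦ'inj, hΦ'surj⟩
  have hconj : L.conj T = (LinearMap.pi (fun i => (Ti i).comp (LinearMap.proj i)) :
      (∀ i, U i) →ₗ[k] (∀ i, U i)) := by
    apply LinearMap.ext
    intro y
    obtain ⟨x, rfl⟩ := L.surjective y
    rw [LinearEquiv.conj_apply_apply, LinearEquiv.symm_apply_apply]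
    funext i
    exact hΦ i x
  rw [← LinearEquiv.charpoly_conj L, hconj, s37_cp_charpoly_pi]
  refine Finset.prod_congr rfl (fun i _ => ?_)
  rw [s37_cp_charpoly_of_nilpotent (Ti i) (c i) (hnil i), hdimeq i]

end Fermat.Agent.S37
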