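import Fermat.Agent.S37.HDict
import Fermat.Agent.S24.Fiber

/-!
# S37, block H, piece (H2): the fundamental identity `∑ e = n` (helper18)
-/

set_option autoImplicit false
set_option linter.unusedSectionVars false
set_option linter.style.haveILetI false

namespace Fermat.Agent.S37

open AlgebraicCurve IsDedekindDomain
open scoped IntermediateField

section Fund

variable {K F F' : Type*} [Field K] [Field F] [Field F'] [Algebra K F] [Algebra K F']
  [Algebra F F'] [IsScalarTower K F F'] [Algebra.IsIntegral F F'] [HasPrincipalDivisors K F']

/-- The fundamental identity over a place `v`, in terms of a model `S` of the integral closure of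
the valuation ring of `v` in `F'`. -/
theorem s37_h_sum_ramificationIndex_abs
    (hres : ∀ (w : Place K F') (f : F'), f ∈ w.toValuationSubring →
      ∃ c : K, f - algebraMap K F' c ∈ w.toValuationSubring.nonunits)
    (v : Place K F)
    (S : Type*) [CommRing S] [IsDedekindDomain S] [Algebra S F'] [IsFractionRing S F']
    [Algebra K S] [IsScalarTower K S F']
    [Algebra v.toValuationSubring S] [IsScalarTower v.toValuationSubring S F']
    [IsScalarTower K v.toValuationSubring S]
    [IsIntegralClosure S v.toValuationSubring F'] [Module.Finite v.toValuationSubring S]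
    [Module.Flat v.toValuationSubring S] :
    ∑ w ∈ v.fiber F', (w.ramificationIndex F : ℤ)
      = (Module.finrank v.toValuationSubring S : ℤ) := by
  classical
  obtain ⟨π, hπ⟩ := IsDiscreteValuationRing.exists_irreducible v.toValuationSubring
  have hpmax : IsLocalRing.maximalIdeal v.toValuationSubring = Ideal.span {π} :=
    hπ.maximalIdeal_eq
  have hordπ : v.ord (π : F) = 1 := v.ord_coe_irreducible hπ
  have hπ0 : (π : F) ≠ 0 := fun h0 => hπ.ne_zero (Subtype.ext h0)
  -- compatibility of the algebra maps
  have hRS : ∀ r : v.toValuationSubring,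
      algebraMap S F' (algebraMap v.toValuationSubring S r) = algebraMap F F' (r : F) := by
    intro r
    rw [← IsScalarTower.algebraMap_apply v.toValuationSubring S F',
      IsScalarTower.algebraMap_apply v.toValuationSubring F F']
    rfl
  have hSinj : Function.Injective (algebraMap S F') := IsFractionRing.injective S F'
  have hπS : algebraMap v.toValuationSubring S π ≠ 0 := by
    intro h0
    have h1 := hRS π
    rw [h0, map_zero] at h1
    exact hπ0 ((algebraMap F F').injective (by rw [← h1, map_zero]))
  set p : Ideal v.toValuationSubring := IsLocalRing.maximalIdeal v.toValuationSubring with hp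
  haveI hpmax' : p.IsMaximal := IsLocalRing.maximalIdeal.isMaximal _
  haveI hpprime : p.IsPrime := hpmax'.isPrime
  -- primes over `p` are nonzero
  have hq0 : ∀ q : p.primesOver S, q.1 ≠ ⊥ := by
    intro q hq
    have hl : q.1.LiesOver p := q.2.2
    have h1 : π ∈ p := by
      rw [hpmax]
      exact Ideal.mem_span_singleton_self π
    rw [hl.over, Ideal.under_def, Ideal.mem_comap, hq, Ideal.mem_bot] at h1
    exact hπS h1
  let g : p.primesOver S → Place K F' := fun q =>
    s37_h_place K (⟨q.1, q.2.1, hq0 q⟩ : HeightOneSpectrum S)
  -- elements of `S` are integral at `g q`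
  have hSmem : ∀ (q : p.primesOver S) (s : S),
      algebraMap S F' s ∈ (g q).toValuationSubring := fun q s =>
    HeightOneSpectrum.valuation_le_one _ s
  -- (i) `g q` lies over `v`
  have hgfib : ∀ q, g q ∈ v.fiber F' := by
    intro q
    rw [Place.mem_fiber]
    refine (Place.ext ?_).symm
    refine ValuationSubring.eq_of_le_of_ne_top _ ?_ ((g q).restrict F).ne_top'
    intro f hf
    rw [Place.restrict_toValuationSubring, ValuationSubring.mem_comap]
    have h1 := hSmem q (algebraMap v.toValuationSubring S ⟨f, hf⟩)
    rwa [hRS] at h1
  -- (ii) injectivity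
  have hinj : ∀ q₁ q₂, g q₁ = g q₂ → q₁ = q₂ := by
    intro q₁ q₂ h
    have h1 := s37_h_place_injective K h
    exact Subtype.ext (congrArg HeightOneSpectrum.asIdeal h1)
  -- (iii) surjectivity
  have hsurj : ∀ w ∈ v.fiber F', ∃ q, g q = w := by
    intro w hw
    rw [Place.mem_fiber] at hw
    have hRw : ∀ r : v.toValuationSubring, algebraMap F F' (r : F) ∈ w.toValuationSubring := by
      intro r
      have h1 : (r : F) ∈ (w.restrict F).toValuationSubring := by
        rw [hw]
        exact r.2
      exact h1
    have hSw : ∀ s : S, algebraMap S F' s ∈ w.toValuationSubring := by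
      intro s
      have hint : IsIntegral v.toValuationSubring (algebraMap S F' s) :=
        (IsIntegralClosure.isIntegral v.toValuationSubring F' s).algebraMap
      let φ : v.toValuationSubring →+* w.toValuationSubring :=
        (algebraMap v.toValuationSubring F').codRestrict w.toValuationSubring.toSubring
          (fun r => hRw r)
      have h2 : IsIntegral w.toValuationSubring (algebraMap S F' s) :=
        IsIntegral.map_of_comp_eq φ (RingHom.id F') (by ext r; rfl) hint
      obtain ⟨y, hy⟩ :=
        (IsIntegrallyClosed.isIntegral_iff (R := w.toValuationSubring) (K := F')).mp h2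
      rw [← hy]
      exact y.2
    obtain ⟨q', hq'⟩ := s37_h_exists_place_eq K w hSw
    have hq'mem : q'.asIdeal ∈ p.primesOver S := by
      refine ⟨q'.isPrime, ⟨?_⟩⟩
      have hπq : algebraMap v.toValuationSubring S π ∈ q'.asIdeal := by
        rw [← s37_h_place_ord_pos_iff K (F := F') q' _ hπS, hq', hRS, w.ord_restrict, hw, hordπ]
        have := w.ramificationIndex_pos (F := F)
        omega
      have hle : p ≤ q'.asIdeal.under v.toValuationSubring := by
        rw [hpmax, Ideal.span_le, Set.singleton_subset_iff]
        exact hπq
      have hne : q'.asIdeal.under v.toValuationSubring ≠ ⊤ :=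
        (Ideal.IsPrime.under _ q'.asIdeal).ne_top
      exact hpmax'.eq_of_le hne hle
    refine ⟨⟨q'.asIdeal, hq'mem⟩, ?_⟩
    rw [← hq']
  -- (iv) ramification indices
  have he : ∀ q : p.primesOver S,
      ((g q).ramificationIndex F : ℤ) = (q.1.ramificationIdx v.toValuationSubring : ℤ) := by
    intro q
    haveI : q.1.LiesOver p := q.2.2
    have hmap : p.map (algebraMap v.toValuationSubring S)
        = Ideal.span {algebraMap v.toValuationSubring S π} := by
      rw [hpmax, Ideal.map_span, Set.image_singleton]
    have hmap0 : p.map (algebraMap v.toValuationSubring S) ≠ ⊥ := by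
      rw [hmap, Ne, Ideal.span_singleton_eq_bot]
      exact hπS
    rw [Ideal.IsDedekindDomain.ramificationIdx_eq_normalizedFactors_count p q.1 hmap0, hmap]
    have h1 := s37_h_place_ord_eq_count K (F := F')
      (⟨q.1, q.2.1, hq0 q⟩ : HeightOneSpectrum S) _ hπS
    have h2 : (g q).ord (algebraMap S F' (algebraMap v.toValuationSubring S π))
        = ((g q).ramificationIndex F : ℤ) := by
      rw [hRS, (g q).ord_restrict, Place.mem_fiber.mp (hgfib q), hordπ, mul_one]
    rw [← h2]
    exact h1
  -- (v) inertia degrees
  have hf : ∀ q : p.primesOver S, q.1.inertiaDeg v.toValuationSubring = 1 := by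
    intro q
    haveI hqp : q.1.IsPrime := q.2.1
    haveI : q.1.LiesOver p := q.2.2
    haveI hqmax : q.1.IsMaximal := hqp.isMaximal (hq0 q)
    rw [Ideal.inertiaDeg_eq_of_isMaximal p q.1]
    let _ := Ideal.Quotient.field p
    have hone : (1 : S ⧸ q.1) ≠ 0 := by
      intro h
      have h' : (Ideal.Quotient.mk q.1) 1 = 0 := h
      rw [Ideal.Quotient.eq_zero_iff_mem] at h'
      exact hqp.ne_top ((Ideal.eq_top_iff_one _).mpr h')
    rw [finrank_eq_one_iff_of_nonzero' (1 : S ⧸ q.1) hone]
    intro z
    obtain ⟨b, rfl⟩ := Ideal.Quotient.mk_surjective z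
    obtain ⟨c, hc⟩ := hres (g q) (algebraMap S F' b) (hSmem q b)
    have hd : b - algebraMap K S c ∈ q.1 := by
      by_cases h0 : b - algebraMap K S c = 0
      · rw [h0]
        exact q.1.zero_mem
      · have hcoe : algebraMap S F' (b - algebraMap K S c)
            = algebraMap S F' b - algebraMap K F' c := by
          rw [map_sub, ← IsScalarTower.algebraMap_apply K S F']
        have h0' : algebraMap S F' b - algebraMap K F' c ≠ 0 := by
          rw [← hcoe]
          intro h
          exact h0 (hSinj (by rw [h, map_zero]))
        have h1 := (Fermat.Agent.S24.mem_nonunits_iff_ord_pos (g q) h0').mp hc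
        rw [← hcoe] at h1
        exact (s37_h_place_ord_pos_iff K (F := F')
          (⟨q.1, q.2.1, hq0 q⟩ : HeightOneSpectrum S) _ h0).mp h1
    refine ⟨Ideal.Quotient.mk p (algebraMap K v.toValuationSubring c), ?_⟩
    rw [Algebra.smul_def, mul_one]
    symm
    rw [← sub_eq_zero]
    have h3 : (Ideal.Quotient.mk q.1) b - (algebraMap (v.toValuationSubring ⧸ p) (S ⧸ q.1))
        ((Ideal.Quotient.mk p) (algebraMap K v.toValuationSubring c))
        = Ideal.Quotient.mk q.1 (b - algebraMap K S c) := by
      rw [map_sub, IsScalarTower.algebraMap_apply K v.toValuationSubring S]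
      rfl
    rw [h3]
    exact Ideal.Quotient.eq_zero_iff_mem.mpr hd
  have hfin : (p.primesOver S).Finite := Algebra.QuasiFinite.finite_primesOver _
  haveI : Fintype (p.primesOver S) := hfin.fintype
  have hsum := Ideal.sum_ramification_inertia_eq_finrank p S
  rw [← hsum, Nat.cast_sum]
  symm
  refine Finset.sum_bij (fun q _ => g q) (fun q _ => hgfib q) (fun q₁ _ q₂ _ h => hinj q₁ q₂ h)
    (fun w hw => ?_) (fun q _ => ?_)
  · obtain ⟨q, hq⟩ := hsurj w hw
    exact ⟨q, Finset.mem_univ q, hq⟩
  · rw [hf q, mul_one, he q]

end Fund

section Inst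

variable {K F F' : Type*} [Field K] [Field F] [Field F'] [Algebra K F] [Algebra K F']
  [Algebra F F'] [IsScalarTower K F F']

/-- Finiteness over `K(x)` passes to finite extensions. -/
theorem s37_h_finiteDimensional_map (x : F) [FiniteDimensional K⟮x⟯ F] [FiniteDimensional F F'] :
    FiniteDimensional K⟮algebraMap F F' x⟯ F' := by
  have hmap : (K⟮x⟯).map (IsScalarTower.toAlgHom K F F') = K⟮algebraMap F F' x⟯ := by
    rw [IntermediateField.adjoin_map, Set.image_singleton]
    rfl
  let e : K⟮x⟯ ≃+* K⟮algebraMap F F' x⟯ :=
    ((K⟮x⟯).equivMap (IsScalarTower.toAlgHom K F F')).toRingEquiv.trans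
      (IntermediateField.equivOfEq hmap).toRingEquiv
  haveI : Module.Finite K⟮x⟯ F' := Module.Finite.trans F F'
  refine Module.Finite.of_equiv_equiv e (RingEquiv.refl F') ?_
  ext y
  rfl

variable [IsAlgClosed K] [CharZero K] [Algebra.IsIntegral F F'] [HasPrincipalDivisors K F']

/-- (H2) The fundamental identity `∑_{w ∣ v} e(w ∣ v) deg w = [F' : F] deg v` for finite extensions
of function fields of one variable over an algebraically closed field of characteristic zero. -/
theorem s37_h_fundamentalIdentity (x : F) (hx : Transcendental K x) [FiniteDimensional K⟮x⟯ F]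
    [FiniteDimensional F F'] : FundamentalIdentity K F F' := by
  have hx' : Transcendental K (algebraMap F F' x) :=
    (transcendental_algebraMap_iff (algebraMap F F').injective).mpr hx
  haveI := s37_h_finiteDimensional_map (K := K) (F' := F') x
  refine ⟨fun v => ?_⟩
  have hdegv : (v.deg : ℤ) = 1 := by
    rw [Fermat.Agent.S24.deg_eq_one x hx v]
    rfl
  have hdegw : ∀ w : Place K F', (w.deg : ℤ) = 1 := fun w => by
    rw [Fermat.Agent.S24.deg_eq_one _ hx' w]
    rfl
  rw [hdegv, mul_one]
  have h1 : ∑ w ∈ v.fiber F', (w.ramificationIndex F : ℤ) * (w.deg : ℤ)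
      = ∑ w ∈ v.fiber F', (w.ramificationIndex F : ℤ) :=
    Finset.sum_congr rfl (fun w _ => by rw [hdegw w, mul_one])
  rw [h1]
  haveI : CharZero F := charZero_of_injective_algebraMap (algebraMap K F).injective
  haveI : Algebra.IsSeparable F F' := inferInstance
  haveI : IsDedekindDomain (integralClosure v.toValuationSubring F') :=
    integralClosure.isDedekindDomain v.toValuationSubring F F'
  haveI : IsFractionRing (integralClosure v.toValuationSubring F') F' :=
    integralClosure.isFractionRing_of_finite_extension F F'
  haveI : Module.Finite v.toValuationSubring (integralClosure v.toValuationSubring F') :=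
    IsIntegralClosure.finite v.toValuationSubring F F' (integralClosure v.toValuationSubring F')
  haveI : Module.Flat v.toValuationSubring (integralClosure v.toValuationSubring F') :=
    inferInstance
  letI : Algebra K (integralClosure v.toValuationSubring F') :=
    ((algebraMap v.toValuationSubring (integralClosure v.toValuationSubring F')).comp
      (algebraMap K v.toValuationSubring)).toAlgebra
  haveI : IsScalarTower K v.toValuationSubring (integralClosure v.toValuationSubring F') :=
    IsScalarTower.of_algebraMap_eq (fun _ => rfl)
  haveI : IsScalarTower K (integralClosure v.toValuationSubring F') F' :=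
    IsScalarTower.of_algebraMap_eq (fun c => by
      rw [IsScalarTower.algebraMap_apply K F F']
      rfl)
  have hres : ∀ (w : Place K F') (f : F'), f ∈ w.toValuationSubring →
      ∃ c : K, f - algebraMap K F' c ∈ w.toValuationSubring.nonunits := fun w f hf =>
    Fermat.Agent.S24.exists_const_sub_mem_nonunits (algebraMap F F' x) hx' w f hf
  rw [s37_h_sum_ramificationIndex_abs hres v (integralClosure v.toValuationSubring F')]
  exact_mod_cast IsIntegralClosure.rank v.toValuationSubring F F'
    (integralClosure v.toValuationSubring F')

end Inst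

end Fermat.Agent.S37
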