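import Mathlib
import Fermat.Agent.S37.CpLin
import Fermat.Agent.S37.HFundamental

/-!
# S37, block H, piece (CP): the characteristic polynomial at a place (helper25)

`F ⊆ F'` a finite extension of function fields of one variable over an algebraically closed field
`K` of characteristic zero, `v` a place of `F`, `g : F'` regular at all places `w ∣ v`, with values
`c w : K`.  Then the characteristic polynomial `χ` of multiplication by `g` on `F'/F` has
coefficients in the valuation ring of `v`, and `χ ≡ ∏_{w ∣ v} (X - c w) ^ e(w ∣ v)` modulo the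
maximal ideal of `v`.
-/

set_option autoImplicit false
set_option linter.unusedSectionVars false
set_option linter.style.haveILetI false

namespace Fermat.Agent.S37

open AlgebraicCurve IsDedekindDomain Polynomial
open scoped IntermediateField

section Cp

variable {K F F' : Type*} [Field K] [Field F] [Field F'] [Algebra K F] [Algebra K F']
  [Algebra F F'] [IsScalarTower K F F']

/-- An element of `F'` which is regular at all places over `v` is integral over the valuation ring
of `v`. -/
theorem s37_cp_isIntegral_of_fiber [CharZero K] [FiniteDimensional F F']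
    [HasPrincipalDivisors K F'] (v : Place K F) (y : F')
    (hy : ∀ w ∈ v.fiber F', y ∈ w.toValuationSubring) : IsIntegral v.toValuationSubring y := by
  haveI : CharZero F := charZero_of_injective_algebraMap (algebraMap K F).injective
  haveI : Algebra.IsSeparable F F' := inferInstance
  haveI : IsDedekindDomain (integralClosure v.toValuationSubring F') :=
    integralClosure.isDedekindDomain v.toValuationSubring F F'
  haveI : IsFractionRing (integralClosure v.toValuationSubring F') F' :=
    integralClosure.isFractionRing_of_finite_extension F F'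
  letI : Algebra K (integralClosure v.toValuationSubring F') :=
    ((algebraMap v.toValuationSubring (integralClosure v.toValuationSubring F')).comp
      (algebraMap K v.toValuationSubring)).toAlgebra
  haveI : IsScalarTower K (integralClosure v.toValuationSubring F') F' :=
    IsScalarTower.of_algebraMap_eq (fun c => by
      rw [IsScalarTower.algebraMap_apply K F F']
      rfl)
  have key : ∀ q : HeightOneSpectrum (integralClosure v.toValuationSubring F'),
      q.valuation F' y ≤ 1 := by
    intro q
    have hfib : s37_h_place K (F := F') q ∈ v.fiber F' := by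
      rw [Place.mem_fiber]
      refine (Place.ext ?_).symm
      refine ValuationSubring.eq_of_le_of_ne_top _ ?_ ((s37_h_place K q).restrict F).ne_top'
      intro f hf
      rw [Place.restrict_toValuationSubring, ValuationSubring.mem_comap]
      exact HeightOneSpectrum.valuation_le_one q
        (algebraMap v.toValuationSubring (integralClosure v.toValuationSubring F') ⟨f, hf⟩)
    exact hy _ hfib
  obtain ⟨s, hs⟩ := HeightOneSpectrum.mem_integers_of_valuation_le_one F' y key
  rw [← hs]
  exact s.2

/-- Expansion of an element of the valuation ring of a place in powers of a uniformizer, with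
constant coefficients. -/
theorem s37_cp_expand (w : Place K F')
    (hres : ∀ f : F', f ∈ w.toValuationSubring →
      ∃ c : K, f - algebraMap K F' c ∈ w.toValuationSubring.nonunits)
    (ϖ : w.toValuationSubring) (hϖ : Irreducible ϖ) (n : ℕ) (y : w.toValuationSubring) :
    ∃ (z : w.toValuationSubring) (a : ℕ → K),
      y = ∑ j ∈ Finset.range n, algebraMap K w.toValuationSubring (a j) * ϖ ^ j + ϖ ^ n * z := by
  induction n with
  | zero => exact ⟨y, fun _ => 0, by simp⟩
  | succ n ih =>
    obtain ⟨z, a, h⟩ := ih
    obtain ⟨c, hc⟩ := hres (z : F') z.2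
    obtain ⟨hmem, hmax⟩ := ValuationSubring.mem_nonunits_iff_exists_mem_maximalIdeal.mp hc
    rw [hϖ.maximalIdeal_eq, Ideal.mem_span_singleton'] at hmax
    obtain ⟨z', hz'⟩ := hmax
    have hz : z = algebraMap K w.toValuationSubring c + z' * ϖ := by
      rw [hz']
      apply Subtype.ext
      simp
    refine ⟨z', Function.update a n c, ?_⟩
    rw [Finset.sum_range_succ, Function.update_self, h]
    have hsum : ∑ j ∈ Finset.range n,
        algebraMap K w.toValuationSubring (Function.update a n c j) * ϖ ^ j
        = ∑ j ∈ Finset.range n, algebraMap K w.toValuationSubring (a j) * ϖ ^ j := by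
      refine Finset.sum_congr rfl (fun j hj => ?_)
      rw [Function.update_of_ne (Finset.mem_range.mp hj).ne]
    rw [hsum]
    conv_lhs => rw [hz]
    ring

/-- `O_w / (p)` is finite-dimensional over `K`, of dimension at most `ord_w p`. -/
theorem s37_cp_finrank_quot_le (w : Place K F')
    (hres : ∀ f : F', f ∈ w.toValuationSubring →
      ∃ c : K, f - algebraMap K F' c ∈ w.toValuationSubring.nonunits)
    (p : w.toValuationSubring) (hp0 : p ≠ 0) (e : ℕ) (hp : w.ord (p : F') = e) :
    Module.Finite K (w.toValuationSubring ⧸ Ideal.span {p}) ∧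
      Module.finrank K (w.toValuationSubring ⧸ Ideal.span {p}) ≤ e := by
  classical
  obtain ⟨ϖ, hϖ⟩ := IsDiscreteValuationRing.exists_irreducible w.toValuationSubring
  -- `ϖ ^ e ∈ (p)`
  have hpow : ϖ ^ e ∈ Ideal.span {p} := by
    obtain ⟨n, hn⟩ := IsDiscreteValuationRing.associated_pow_irreducible hp0 hϖ
    obtain ⟨u, hu⟩ := hn
    have h1 : (p : F') = ((u⁻¹ : (w.toValuationSubring)ˣ) : w.toValuationSubring) * (ϖ : F') ^ (n : ℤ) := by
      have h2 : p = ((u⁻¹ : (w.toValuationSubring)ˣ) : w.toValuationSubring) * ϖ ^ n := by
        rw [← hu]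
        simp [mul_comm, mul_assoc]
      have := congrArg (Subtype.val) h2
      rw [zpow_natCast]
      simpa using this
    have h3 : w.ord (p : F') = n := by
      rw [h1]
      exact w.ord_unit_smul_zpow _ hϖ n
    have hne : n = e := by
      rw [hp] at h3
      exact_mod_cast h3.symm
    subst hne
    rw [Ideal.mem_span_singleton']
    exact ⟨u, by rw [mul_comm]; exact hu⟩
  set s : Finset (w.toValuationSubring ⧸ Ideal.span {p}) :=
    (Finset.range e).image (fun j => Ideal.Quotient.mk (Ideal.span {p}) (ϖ ^ j)) with hs
  have hspan : Submodule.span K (s : Set (w.toValuationSubring ⧸ Ideal.span {p})) = ⊤ := by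
    rw [eq_top_iff]
    rintro u -
    obtain ⟨y, rfl⟩ := Ideal.Quotient.mk_surjective u
    obtain ⟨z, a, h⟩ := s37_cp_expand w hres ϖ hϖ e y
    have h1 : Ideal.Quotient.mk (Ideal.span {p}) y
        = ∑ j ∈ Finset.range e, a j • Ideal.Quotient.mk (Ideal.span {p}) (ϖ ^ j) := by
      rw [h, map_add, map_sum]
      have h0 : Ideal.Quotient.mk (Ideal.span {p}) (ϖ ^ e * z) = 0 :=
        Ideal.Quotient.eq_zero_iff_mem.mpr (Ideal.mul_mem_right _ _ hpow)
      rw [h0, add_zero]
      refine Finset.sum_congr rfl (fun j _ => ?_)
      rw [map_mul, Algebra.smul_def]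
      rfl
    rw [h1]
    refine Submodule.sum_mem _ (fun j hj => Submodule.smul_mem _ _ (Submodule.subset_span ?_))
    rw [hs]
    exact Finset.mem_coe.mpr (Finset.mem_image_of_mem _ hj)
  have hfin : Module.Finite K (w.toValuationSubring ⧸ Ideal.span {p}) := by
    rw [Module.finite_def, ← hspan]
    exact Submodule.fg_span s.finite_toSet
  refine ⟨hfin, ?_⟩
  have h1 : Module.finrank K (w.toValuationSubring ⧸ Ideal.span {p})
      = Module.finrank K (Submodule.span K (s : Set (w.toValuationSubring ⧸ Ideal.span {p}))) := by
    rw [hspan, finrank_top]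
  rw [h1]
  refine (finrank_span_finset_le_card s).trans ?_
  rw [hs]
  exact Finset.card_image_le.trans (by rw [Finset.card_range])


/-- The residue map `O_v → K` of a place with residue constants. -/
theorem s37_cp_exists_res (v : Place K F)
    (hres : ∀ f : F, f ∈ v.toValuationSubring →
      ∃ c : K, f - algebraMap K F c ∈ v.toValuationSubring.nonunits) :
    ∃ res : v.toValuationSubring →+* K, (∀ c : K, res (algebraMap K v.toValuationSubring c) = c) ∧
      ∀ a : v.toValuationSubring, res a = 0 ↔ a ∈ IsLocalRing.maximalIdeal v.toValuationSubring := by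
  have hbij : Function.Bijective (algebraMap K v.ResidueField) := by
    refine ⟨(algebraMap K v.ResidueField).injective, fun z => ?_⟩
    obtain ⟨a, rfl⟩ := IsLocalRing.residue_surjective z
    obtain ⟨c, hc⟩ := hres (a : F) a.2
    refine ⟨c, ?_⟩
    obtain ⟨hmem, hmax⟩ := ValuationSubring.mem_nonunits_iff_exists_mem_maximalIdeal.mp hc
    have h1 : IsLocalRing.residue v.toValuationSubring
        (a - algebraMap K v.toValuationSubring c) = 0 := by
      rw [IsLocalRing.residue_eq_zero_iff]
      exact hmax
    rw [map_sub, sub_eq_zero] at h1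
    rw [h1]
    rfl
  let eK : K ≃+* v.ResidueField := RingEquiv.ofBijective _ hbij
  refine ⟨(eK.symm : v.ResidueField →+* K).comp (IsLocalRing.residue _), fun c => ?_, fun a => ?_⟩
  · show eK.symm (IsLocalRing.residue _ (algebraMap K v.toValuationSubring c)) = c
    rw [RingEquiv.symm_apply_eq]
    rfl
  · show eK.symm (IsLocalRing.residue _ a) = 0 ↔ _
    rw [RingEquiv.symm_apply_eq, map_zero, IsLocalRing.residue_eq_zero_iff]

/-- The ideal generated by (the image of) `π` in the valuation ring of a place of `F'`. -/
noncomputable def s37_cp_ideal (π : F) (w : Place K F') : Ideal w.toValuationSubring :=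
  Ideal.span {y | (y : F') = algebraMap F F' π}

theorem s37_cp_ideal_eq (π : F) (w : Place K F') (h : algebraMap F F' π ∈ w.toValuationSubring) :
    s37_cp_ideal π w = Ideal.span {(⟨algebraMap F F' π, h⟩ : w.toValuationSubring)} := by
  unfold s37_cp_ideal
  congr 1
  ext y
  show (y : F') = algebraMap F F' π ↔ y = ⟨algebraMap F F' π, h⟩
  exact ⟨fun hy => Subtype.ext hy, fun hy => by rw [hy]⟩

theorem s37_cp_mem_ideal_iff (π : F) (hπ : π ≠ 0) (w : Place K F')
    (h : algebraMap F F' π ∈ w.toValuationSubring) (y : w.toValuationSubring) :
    y ∈ s37_cp_ideal π w ↔ (y : F') * (algebraMap F F' π)⁻¹ ∈ w.toValuationSubring := by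
  have hπ' : algebraMap F F' π ≠ 0 := by simpa using hπ
  rw [s37_cp_ideal_eq π w h, Ideal.mem_span_singleton']
  constructor
  · rintro ⟨z, hz⟩
    have h1 : (y : F') = (z : F') * algebraMap F F' π := by
      rw [← hz]
      rfl
    rw [h1, mul_assoc, mul_inv_cancel₀ hπ', mul_one]
    exact z.2
  · intro hy
    refine ⟨⟨_, hy⟩, Subtype.ext ?_⟩
    show (y : F') * (algebraMap F F' π)⁻¹ * algebraMap F F' π = y
    rw [mul_assoc, inv_mul_cancel₀ hπ', mul_one]

/-- The block `O_w / (π)`. -/
abbrev s37_cp_U (π : F) (w : Place K F') : Type _ := w.toValuationSubring ⧸ s37_cp_ideal π w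


theorem s37_cp_mem_of_fiber [FiniteDimensional F F'] [HasPrincipalDivisors K F'] {v : Place K F}
    {w : Place K F'} (hw : w ∈ v.fiber F') (a : v.toValuationSubring) :
    algebraMap F F' (a : F) ∈ w.toValuationSubring := by
  rw [Place.mem_fiber] at hw
  have h1 : (a : F) ∈ (w.restrict F).toValuationSubring := by
    rw [hw]
    exact a.2
  exact h1

theorem s37_cp_int_mem_of_fiber [FiniteDimensional F F'] [HasPrincipalDivisors K F']
    {v : Place K F} {w : Place K F'} (hw : w ∈ v.fiber F')
    (s : integralClosure v.toValuationSubring F') : (s : F') ∈ w.toValuationSubring := by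
  have hint : IsIntegral v.toValuationSubring (s : F') := s.2
  let φ : v.toValuationSubring →+* w.toValuationSubring :=
    (algebraMap v.toValuationSubring F').codRestrict w.toValuationSubring.toSubring
      (fun r => s37_cp_mem_of_fiber hw r)
  have h2 : IsIntegral w.toValuationSubring (s : F') :=
    IsIntegral.map_of_comp_eq φ (RingHom.id F') (by ext r; rfl) hint
  obtain ⟨y, hy⟩ :=
    (IsIntegrallyClosed.isIntegral_iff (R := w.toValuationSubring) (K := F')).mp h2
  rw [← hy]
  exact y.2

theorem s37_cp_ord_unif [FiniteDimensional F F'] [HasPrincipalDivisors K F'] {v : Place K F}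
    {w : Place K F'} (hw : w ∈ v.fiber F') (π : v.toValuationSubring) (hπ : Irreducible π) :
    w.ord (algebraMap F F' (π : F)) = w.ramificationIndex F := by
  rw [w.ord_restrict, Place.mem_fiber.mp hw, v.ord_coe_irreducible hπ, mul_one]

/-- The ring homomorphism `S → O_w / (π)` for a place `w` over `v`. -/
noncomputable def s37_cp_psi [FiniteDimensional F F'] [HasPrincipalDivisors K F'] {v : Place K F}
    (π : F) {w : Place K F'} (hw : w ∈ v.fiber F') :
    integralClosure v.toValuationSubring F' →+* s37_cp_U π w :=
  (Ideal.Quotient.mk (s37_cp_ideal π w)).comp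
    ((algebraMap (integralClosure v.toValuationSubring F') F').codRestrict
      w.toValuationSubring.toSubring (fun s => s37_cp_int_mem_of_fiber hw s))

theorem s37_cp_psi_eq_zero_iff [FiniteDimensional F F'] [HasPrincipalDivisors K F']
    {v : Place K F} (π : v.toValuationSubring) (hπ : π ≠ 0) {w : Place K F'}
    (hw : w ∈ v.fiber F') (s : integralClosure v.toValuationSubring F') :
    s37_cp_psi (π : F) hw s = 0 ↔
      (s : F') * (algebraMap F F' (π : F))⁻¹ ∈ w.toValuationSubring := by
  unfold s37_cp_psi
  rw [RingHom.comp_apply, Ideal.Quotient.eq_zero_iff_mem,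
    s37_cp_mem_ideal_iff (π : F) (fun h => hπ (Subtype.ext h)) w (s37_cp_mem_of_fiber hw π)]
  rfl

theorem s37_cp_psi_const [FiniteDimensional F F'] [HasPrincipalDivisors K F']
    {v : Place K F} (π : F) {w : Place K F'} (hw : w ∈ v.fiber F') (c : K) :
    s37_cp_psi π hw (algebraMap v.toValuationSubring (integralClosure v.toValuationSubring F')
      (algebraMap K v.toValuationSubring c)) = algebraMap K (s37_cp_U π w) c := by
  unfold s37_cp_psi
  rw [RingHom.comp_apply]
  show Ideal.Quotient.mk (s37_cp_ideal π w) _ = Ideal.Quotient.mk (s37_cp_ideal π w)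
    (algebraMap K w.toValuationSubring c)
  congr 1
  apply Subtype.ext
  show algebraMap F F' (algebraMap K F c) = algebraMap K F' c
  rw [← IsScalarTower.algebraMap_apply]


theorem s37_cp_psi_algebraMap [FiniteDimensional F F'] [HasPrincipalDivisors K F']
    {v : Place K F} (π : v.toValuationSubring) (hπ : Irreducible π) {w : Place K F'}
    (hw : w ∈ v.fiber F') (res : v.toValuationSubring →+* K)
    (hresc : ∀ c : K, res (algebraMap K v.toValuationSubring c) = c)
    (hres0 : ∀ a : v.toValuationSubring,
      res a = 0 ↔ a ∈ IsLocalRing.maximalIdeal v.toValuationSubring)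
    (a : v.toValuationSubring) :
    s37_cp_psi (π : F) hw (algebraMap v.toValuationSubring
      (integralClosure v.toValuationSubring F') a) = algebraMap K (s37_cp_U (π : F) w) (res a) := by
  have h1 : a - algebraMap K v.toValuationSubring (res a)
      ∈ IsLocalRing.maximalIdeal v.toValuationSubring :=
    (hres0 _).mp (by rw [map_sub, hresc, sub_self])
  rw [hπ.maximalIdeal_eq, Ideal.mem_span_singleton'] at h1
  obtain ⟨a', ha'⟩ := h1
  have h2 : a = algebraMap K v.toValuationSubring (res a) + a' * π := by
    rw [ha']
    ring
  have h3 : s37_cp_psi (π : F) hw (algebraMap v.toValuationSubring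
      (integralClosure v.toValuationSubring F') (a' * π)) = 0 := by
    rw [s37_cp_psi_eq_zero_iff π hπ.ne_zero hw]
    have hπ' : algebraMap F F' (π : F) ≠ 0 := by
      have : (π : F) ≠ 0 := fun h => hπ.ne_zero (Subtype.ext h)
      simpa using this
    have h4 : ((algebraMap v.toValuationSubring (integralClosure v.toValuationSubring F')
        (a' * π) : integralClosure v.toValuationSubring F') : F')
        = algebraMap F F' (a' : F) * algebraMap F F' (π : F) := by
      rw [← map_mul]
      rfl
    rw [h4, mul_assoc, mul_inv_cancel₀ hπ', mul_one]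
    exact s37_cp_mem_of_fiber hw a'
  conv_lhs => rw [h2]
  rw [map_add, map_add, h3, add_zero, s37_cp_psi_const]

/-- `O_w / (π)` is finite-dimensional over `K`, of dimension at most `e(w ∣ v)`. -/
theorem s37_cp_finrank_U_le [FiniteDimensional F F'] [HasPrincipalDivisors K F']
    {v : Place K F} (π : v.toValuationSubring) (hπ : Irreducible π) {w : Place K F'}
    (hw : w ∈ v.fiber F')
    (hres : ∀ f : F', f ∈ w.toValuationSubring →
      ∃ c : K, f - algebraMap K F' c ∈ w.toValuationSubring.nonunits) :
    Module.Finite K (s37_cp_U (π : F) w) ∧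
      Module.finrank K (s37_cp_U (π : F) w) ≤ w.ramificationIndex F := by
  have hπ' : algebraMap F F' (π : F) ≠ 0 := by
    have : (π : F) ≠ 0 := fun h => hπ.ne_zero (Subtype.ext h)
    simpa using this
  have h := s37_cp_finrank_quot_le w hres
    (⟨algebraMap F F' (π : F), s37_cp_mem_of_fiber hw π⟩ : w.toValuationSubring)
    (fun h0 => hπ' (congrArg Subtype.val h0)) (w.ramificationIndex F) (s37_cp_ord_unif hw π hπ)
  rw [← s37_cp_ideal_eq (π : F) w (s37_cp_mem_of_fiber hw π)] at h
  exact h


/-- Integral part: the characteristic polynomial over `F` is the image of the characteristic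
polynomial of a matrix over `O_v`. -/
theorem s37_cp_charpoly_int [CharZero K] [FiniteDimensional F F'] (v : Place K F)
    (g : integralClosure v.toValuationSubring F')
    [Module.Finite v.toValuationSubring (integralClosure v.toValuationSubring F')]
    [Module.Free v.toValuationSubring (integralClosure v.toValuationSubring F')]
    {ι : Type*} [Fintype ι] [DecidableEq ι]
    (b : Module.Basis ι v.toValuationSubring (integralClosure v.toValuationSubring F')) :
    (LinearMap.mulLeft F (g : F')).charpoly
      = (Algebra.leftMulMatrix b g).charpoly.map (algebraMap v.toValuationSubring F) := by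
  haveI : CharZero F := charZero_of_injective_algebraMap (algebraMap K F).injective
  haveI : Algebra.IsSeparable F F' := inferInstance
  haveI : IsLocalization (Algebra.algebraMapSubmonoid (integralClosure v.toValuationSubring F')
      (nonZeroDivisors v.toValuationSubring)) F' :=
    IsIntegralClosure.isLocalization v.toValuationSubring F F'
      (integralClosure v.toValuationSubring F')
  have hM := Algebra.map_leftMulMatrix_localization v.toValuationSubring (Rₘ := F) (Sₘ := F')
    (nonZeroDivisors v.toValuationSubring) b g
  rw [← Matrix.charpoly_map, ← RingHom.mapMatrix_apply, hM, Algebra.leftMulMatrix_apply,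
    LinearMap.charpoly_toMatrix]
  rfl

set_option maxHeartbeats 1000000 in
/-- **(CP)** The characteristic polynomial at a place. -/
theorem s37_cp_charpoly [IsAlgClosed K] [CharZero K] [FiniteDimensional F F']
    [HasPrincipalDivisors K F'] (x : F) (hx : Transcendental K x) [FiniteDimensional K⟮x⟯ F]
    (v : Place K F) (g : F') (c : Place K F' → K)
    (hc : ∀ w ∈ v.fiber F', g - algebraMap K F' (c w) ∈ w.toValuationSubring.nonunits) (i : ℕ) :
    (LinearMap.mulLeft F g).charpoly.coeff i
      - algebraMap K F ((∏ w ∈ v.fiber F', (X - C (c w)) ^ w.ramificationIndex F).coeff i)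
      ∈ v.toValuationSubring.nonunits := by
  classical
  haveI : CharZero F := charZero_of_injective_algebraMap (algebraMap K F).injective
  haveI : Algebra.IsSeparable F F' := inferInstance
  have hx' : Transcendental K (algebraMap F F' x) :=
    (transcendental_algebraMap_iff (algebraMap F F').injective).mpr hx
  haveI := s37_h_finiteDimensional_map (K := K) (F' := F') x
  haveI hFI : FundamentalIdentity K F F' := s37_h_fundamentalIdentity x hx
  have hresv : ∀ f : F, f ∈ v.toValuationSubring →
      ∃ c : K, f - algebraMap K F c ∈ v.toValuationSubring.nonunits := fun f hf =>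
    Fermat.Agent.S24.exists_const_sub_mem_nonunits x hx v f hf
  have hresw : ∀ (w : Place K F') (f : F'), f ∈ w.toValuationSubring →
      ∃ c : K, f - algebraMap K F' c ∈ w.toValuationSubring.nonunits := fun w f hf =>
    Fermat.Agent.S24.exists_const_sub_mem_nonunits (algebraMap F F' x) hx' w f hf
  obtain ⟨res, hresc, hres0⟩ := s37_cp_exists_res v hresv
  obtain ⟨π, hπ⟩ := IsDiscreteValuationRing.exists_irreducible v.toValuationSubring
  have hπ' : algebraMap F F' (π : F) ≠ 0 := by
    have : (π : F) ≠ 0 := fun h => hπ.ne_zero (Subtype.ext h)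
    simpa using this
  haveI : Module.Finite v.toValuationSubring (integralClosure v.toValuationSubring F') :=
    IsIntegralClosure.finite v.toValuationSubring F F' _
  haveI : Module.IsTorsionFree v.toValuationSubring
      (integralClosure v.toValuationSubring F') := inferInstance
  haveI : Module.Free v.toValuationSubring (integralClosure v.toValuationSubring F') :=
    Module.free_of_finite_type_torsion_free'
  have hrank : Module.finrank v.toValuationSubring (integralClosure v.toValuationSubring F')
      = Module.finrank F F' := IsIntegralClosure.rank v.toValuationSubring F F' _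
  have hgO : ∀ w ∈ v.fiber F', g ∈ w.toValuationSubring := by
    intro w hw
    have h1 := w.toValuationSubring.nonunits_subset (hc w hw)
    have h2 : algebraMap K F' (c w) ∈ w.toValuationSubring := w.algebraMap_mem' _
    have := w.toValuationSubring.add_mem _ _ h1 h2
    simpa using this
  let gS : integralClosure v.toValuationSubring F' := ⟨g, s37_cp_isIntegral_of_fiber v g hgO⟩
  let b := Module.Free.chooseBasis v.toValuationSubring (integralClosure v.toValuationSubring F')
  let M := Algebra.leftMulMatrix b gS
  have hMrepr : ∀ k j, M k j = b.repr (gS * b j) k := fun k j =>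
    Algebra.leftMulMatrix_eq_repr_mul b gS k j
  have hχ : (LinearMap.mulLeft F g).charpoly
      = M.charpoly.map (algebraMap v.toValuationSubring F) := s37_cp_charpoly_int v gS b
  have hred : M.charpoly.map res
      = ∏ w ∈ v.fiber F', (X - C (c w)) ^ w.ramificationIndex F := by
    have hT : (Matrix.toLin' (res.mapMatrix M)).charpoly = M.charpoly.map res := by
      rw [Matrix.charpoly_toLin', RingHom.mapMatrix_apply, Matrix.charpoly_map]
    rw [← hT, ← Finset.prod_coe_sort (v.fiber F')
      (fun w => (X - C (c w)) ^ w.ramificationIndex F)]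
    haveI hfinU : ∀ i : ↥(v.fiber F'), Module.Finite K (s37_cp_U (π : F) i.1) := fun i =>
      (s37_cp_finrank_U_le π hπ i.2 (hresw i.1)).1
    refine s37_cp_charpoly_of_embedding (k := K) (Matrix.toLin' (res.mapMatrix M))
      (fun i : ↥(v.fiber F') => s37_cp_U (π : F) i.1)
      (fun i => LinearMap.mulLeft K (s37_cp_psi (π : F) i.2 gS))
      (fun i => Fintype.linearCombination K (fun j => s37_cp_psi (π : F) i.2 (b j)))
      ?_ ?_ (fun i => c i.1) (fun i => i.1.ramificationIndex F) ?_ ?_ ?_
    · -- equivariance
      intro i y
      have hlin : (Fintype.linearCombination K (fun j => s37_cp_psi (π : F) i.2 (b j))).comp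
          (Matrix.toLin' (res.mapMatrix M))
          = (LinearMap.mulLeft K (s37_cp_psi (π : F) i.2 gS)).comp
            (Fintype.linearCombination K (fun j => s37_cp_psi (π : F) i.2 (b j))) := by
        apply (Pi.basisFun K _).ext
        intro j
        rw [LinearMap.comp_apply, LinearMap.comp_apply, Pi.basisFun_apply, Matrix.toLin'_apply,
          Matrix.mulVec_single_one, Fintype.linearCombination_apply_single, one_smul,
          Fintype.linearCombination_apply, LinearMap.mulLeft_apply]
        have h1 : gS * b j = ∑ k, M k j • b k := by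
          have h2 := b.sum_repr (gS * b j)
          rw [← h2]
          refine Finset.sum_congr rfl (fun k _ => ?_)
          rw [hMrepr]
        rw [← map_mul, h1, map_sum]
        refine Finset.sum_congr rfl (fun k _ => ?_)
        rw [Algebra.smul_def (M k j) (b k), map_mul,
          s37_cp_psi_algebraMap π hπ i.2 res hresc hres0, Algebra.smul_def]
        rfl
      exact LinearMap.congr_fun hlin y
    · -- injectivity
      intro y hy0
      set s : integralClosure v.toValuationSubring F' :=
        ∑ j, algebraMap K v.toValuationSubring (y j) • b j with hs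
      have hψ : ∀ i : ↥(v.fiber F'), s37_cp_psi (π : F) i.2 s = 0 := by
        intro i
        rw [hs, map_sum, ← hy0 i, Fintype.linearCombination_apply]
        refine Finset.sum_congr rfl (fun j _ => ?_)
        rw [Algebra.smul_def, map_mul, s37_cp_psi_const, Algebra.smul_def]
      have hint : IsIntegral v.toValuationSubring ((s : F') * (algebraMap F F' (π : F))⁻¹) := by
        apply s37_cp_isIntegral_of_fiber v
        intro w hw
        exact (s37_cp_psi_eq_zero_iff π hπ.ne_zero hw s).mp (hψ ⟨w, hw⟩)
      let s' : integralClosure v.toValuationSubring F' := ⟨_, hint⟩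
      have hss' : s = π • s' := by
        apply Subtype.ext
        have h1 : ((π • s' : integralClosure v.toValuationSubring F') : F')
            = algebraMap F F' (π : F) * ((s : F') * (algebraMap F F' (π : F))⁻¹) := by
          rw [Subalgebra.coe_smul, Algebra.smul_def]
          rfl
        rw [h1]
        field_simp
      have hrepr : ∀ j, algebraMap K v.toValuationSubring (y j) = π * b.repr s' j := by
        intro j
        have h1 : b.repr s j = algebraMap K v.toValuationSubring (y j) := by
          rw [hs, b.repr_sum_self]
        rw [← h1, hss', map_smul]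
        rfl
      funext j
      have h2 := congrArg res (hrepr j)
      rw [hresc, map_mul, (hres0 π).mpr (by
        rw [hπ.maximalIdeal_eq]; exact Ideal.mem_span_singleton_self π), zero_mul] at h2
      exact h2
    · -- nilpotency
      intro i
      have h1 : LinearMap.mulLeft K (s37_cp_psi (π : F) i.2 gS)
          - c i.1 • (1 : Module.End K (s37_cp_U (π : F) i.1))
          = LinearMap.mulLeft K (s37_cp_psi (π : F) i.2 gS
            - algebraMap K (s37_cp_U (π : F) i.1) (c i.1)) := by
        apply LinearMap.ext
        intro y
        simp [Algebra.smul_def, sub_mul]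
      rw [h1, LinearMap.isNilpotent_mulLeft_iff]
      refine ⟨i.1.ramificationIndex F, ?_⟩
      have hzmem : g - algebraMap K F' (c i.1) ∈ i.1.toValuationSubring :=
        i.1.toValuationSubring.nonunits_subset (hc i.1 i.2)
      have hz : s37_cp_psi (π : F) i.2 gS - algebraMap K (s37_cp_U (π : F) i.1) (c i.1)
          = Ideal.Quotient.mk (s37_cp_ideal (π : F) i.1)
            (⟨g - algebraMap K F' (c i.1), hzmem⟩ : i.1.toValuationSubring) := rfl
      rw [hz, ← map_pow, Ideal.Quotient.eq_zero_iff_mem,
        s37_cp_mem_ideal_iff (π : F) (fun h => hπ.ne_zero (Subtype.ext h)) i.1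
          (s37_cp_mem_of_fiber i.2 π)]
      show (g - algebraMap K F' (c i.1)) ^ (i.1.ramificationIndex F)
        * (algebraMap F F' (π : F))⁻¹ ∈ i.1.toValuationSubring
      have hepos := i.1.ramificationIndex_pos (F := F)
      by_cases hz0 : g - algebraMap K F' (c i.1) = 0
      · rw [hz0, zero_pow hepos.ne', zero_mul]
        exact zero_mem _
      · rw [Fermat.Agent.S24.mem_iff_ord_nonneg,
          i.1.ord_mul (pow_ne_zero _ hz0) (inv_ne_zero hπ'), i.1.ord_inv,
          Fermat.Agent.S24.ord_pow, s37_cp_ord_unif i.2 π hπ]
        have hpos := (Fermat.Agent.S24.mem_nonunits_iff_ord_pos i.1 hz0).mp (hc i.1 i.2)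
        have : (i.1.ramificationIndex F : ℤ)
            ≤ (i.1.ramificationIndex F : ℤ) * i.1.ord (g - algebraMap K F' (c i.1)) :=
          le_mul_of_one_le_right (Int.natCast_nonneg _) hpos
        linarith
    · -- dimensions
      intro i
      exact (s37_cp_finrank_U_le π hπ i.2 (hresw i.1)).2
    · -- the fundamental identity
      rw [Module.finrank_fintype_fun_eq_card, ← Module.finrank_eq_card_chooseBasisIndex, hrank,
        Finset.sum_coe_sort (v.fiber F') (fun w => w.ramificationIndex F)]
      have h := FundamentalIdentity.sum_ramificationIndex_mul_deg (K := K) (F := F) (F' := F') v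
      rw [Fermat.Agent.S24.deg_eq_one x hx v] at h
      have h' : ∑ w ∈ v.fiber F', (w.ramificationIndex F : ℤ) * (w.deg : ℤ)
          = ∑ w ∈ v.fiber F', (w.ramificationIndex F : ℤ) :=
        Finset.sum_congr rfl (fun w _ => by
          rw [Fermat.Agent.S24.deg_eq_one _ hx' w]; simp)
      rw [h'] at h
      have h'' : ((∑ w ∈ v.fiber F', w.ramificationIndex F : ℕ) : ℤ)
          = (Module.finrank F F' : ℤ) := by
        rw [Nat.cast_sum, h]; simp
      exact le_of_eq (by exact_mod_cast h'')
  rw [hχ, ← hred, Polynomial.coeff_map, Polynomial.coeff_map]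
  have h1 : M.charpoly.coeff i - algebraMap K v.toValuationSubring (res (M.charpoly.coeff i))
      ∈ IsLocalRing.maximalIdeal v.toValuationSubring :=
    (hres0 _).mp (by rw [map_sub, hresc, sub_self])
  exact ValuationSubring.mem_nonunits_iff_exists_mem_maximalIdeal.mpr
    ⟨(M.charpoly.coeff i - algebraMap K v.toValuationSubring (res (M.charpoly.coeff i))).2, h1⟩

end Cp

end Fermat.Agent.S37
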