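import Fermat.Agent.S37.HFundamental

/-!
# S37, block H: inertia degrees are one, `SumRamificationInertia` (helper18)
-/

set_option autoImplicit false
set_option linter.unusedSectionVars false
set_option linter.style.haveILetI false

namespace Fermat.Agent.S37

open AlgebraicCurve IsDedekindDomain
open scoped IntermediateField

section Sum

variable {K F F' : Type*} [Field K] [Field F] [Field F'] [Algebra K F] [Algebra K F']
  [Algebra F F'] [IsScalarTower K F F'] [IsAlgClosed K] [CharZero K] [Algebra.IsIntegral F F']

/-- All places of a function field over an algebraically closed field have inertia degree one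
in a finite extension. -/
theorem s37_h_inertiaDeg_eq_one (x : F) (hx : Transcendental K x) [FiniteDimensional K⟮x⟯ F]
    [FiniteDimensional F F'] (w : Place K F') : w.inertiaDeg F = 1 := by
  have hx' : Transcendental K (algebraMap F F' x) :=
    (transcendental_algebraMap_iff (algebraMap F F').injective).mpr hx
  haveI := s37_h_finiteDimensional_map (K := K) (F' := F') x
  have h1 := w.deg_restrict_mul_inertiaDeg (F := F)
  rw [Fermat.Agent.S24.deg_eq_one x hx (w.restrict F),
    Fermat.Agent.S24.deg_eq_one _ hx' w, one_mul] at h1
  exact h1

variable [HasPrincipalDivisors K F']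

/-- (H2') `∑_{w ∣ v} e(w ∣ v) f(w ∣ v) = [F' : F]`. -/
theorem s37_h_sumRamificationInertia (x : F) (hx : Transcendental K x) [FiniteDimensional K⟮x⟯ F]
    [FiniteDimensional F F'] : SumRamificationInertia K F F' := by
  haveI := s37_h_fundamentalIdentity (K := K) (F' := F') x hx
  refine ⟨fun v => ?_⟩
  have h1 := FundamentalIdentity.sum_ramificationIndex_mul_deg (K := K) (F := F) (F' := F') v
  have hx' : Transcendental K (algebraMap F F' x) :=
    (transcendental_algebraMap_iff (algebraMap F F').injective).mpr hx
  haveI := s37_h_finiteDimensional_map (K := K) (F' := F') x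
  rw [Fermat.Agent.S24.deg_eq_one x hx v] at h1
  rw [← mul_one (Module.finrank F F' : ℤ)]
  rw [show ((1 : ℕ) : ℤ) = 1 from rfl] at h1
  rw [← h1]
  refine Finset.sum_congr rfl (fun w _ => ?_)
  rw [s37_h_inertiaDeg_eq_one x hx w, Fermat.Agent.S24.deg_eq_one _ hx' w]

end Sum

end Fermat.Agent.S37
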