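import Fermat.Agent.S37.HHecke
import Fermat.Agent.S37.HSum

/-!
# S37, block H, piece (H6): functoriality of pull-back and push-forward (helper18)

`s37_h_IsFF K F`: `F` is a function field of one variable over `K` (finite over `K(x)` for some
transcendental `x`).  For `K`-algebra homomorphisms between such fields (`K` algebraically closed
of characteristic zero):

* everything is finite/integral, inertia degrees are one, `∑ e = n`;
* `restrictAlong`, `ramificationIndexAlong`, `pullbackAlong`, `pushforwardAlong` are functorial;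
* `π_* π^* = deg π`.
-/

set_option autoImplicit false
set_option linter.unusedSectionVars false
set_option linter.style.haveILetI false

namespace Fermat.Agent.S37

open AlgebraicCurve IsDedekindDomain ModularCurve
open scoped IntermediateField

/-- `F` is a function field of one variable over `K`. -/
def s37_h_IsFF (K F : Type*) [Field K] [Field F] [Algebra K F] : Prop :=
  ∃ x : F, Transcendental K x ∧ FiniteDimensional K⟮x⟯ F

theorem s37_h_isFF_bar (M : ℕ) [NeZero M] :
    s37_h_IsFF (AlgebraicClosure ℚ) (modularFunctionFieldBar M) :=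
  ⟨Fermat.Agent.S24.jF M, Fermat.Agent.S24.transcendental_jF M,
    (Fermat.Agent.S24.asm_generic M).1⟩

section Basic

variable {K F F₁ : Type*} [Field K] [Field F] [Field F₁] [Algebra K F] [Algebra K F₁]
  [IsAlgClosed K] [CharZero K]

theorem s37_h_IsFF.hasPrincipalDivisors (hF : s37_h_IsFF K F) : HasPrincipalDivisors K F := by
  obtain ⟨x, hx, hfd⟩ := hF
  exact s37_h_hasPrincipalDivisors x hx

theorem s37_h_IsFF.finiteAlong (hF : s37_h_IsFF K F) (hF₁ : s37_h_IsFF K F₁) (φ : F →ₐ[K] F₁) :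
    FiniteAlong K φ := by
  obtain ⟨x, hx, hfd⟩ := hF
  obtain ⟨x₁, hx₁, hfd₁⟩ := hF₁
  exact s37_h_finiteAlong φ x hx x₁ hx₁

theorem s37_h_IsFF.isIntegral (hF : s37_h_IsFF K F) (hF₁ : s37_h_IsFF K F₁) (φ : F →ₐ[K] F₁) :
    φ.toRingHom.IsIntegral := by
  obtain ⟨x, hx, hfd⟩ := hF
  obtain ⟨x₁, hx₁, hfd₁⟩ := hF₁
  exact s37_h_isIntegral_along φ x hx x₁ hx₁

/-- Inertia degrees are one. -/
theorem s37_h_IsFF.inertiaDegAlong (hF : s37_h_IsFF K F) (hF₁ : s37_h_IsFF K F₁) (φ : F →ₐ[K] F₁)
    (hφ : φ.toRingHom.IsIntegral) (w : Place K F₁) : w.inertiaDegAlong φ hφ = 1 := by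
  have hfin := hF.finiteAlong hF₁ φ
  obtain ⟨x, hx, hfd⟩ := hF
  letI := algebraAlong φ
  haveI := isScalarTower_along φ
  haveI := isIntegral_along φ hφ
  haveI : Module.Finite F F₁ := hfin
  exact s37_h_inertiaDeg_eq_one (K := K) x hx w

/-- `∑_{W ∣ v} e(W ∣ v) = n`. -/
theorem s37_h_IsFF.sum_ramificationIndexAlong [HasPrincipalDivisors K F₁] (hF : s37_h_IsFF K F)
    (hF₁ : s37_h_IsFF K F₁) (φ : F →ₐ[K] F₁) (hφ : φ.toRingHom.IsIntegral) (v : Place K F) :
    ∑ W ∈ Place.fiberAlong φ hφ v, (W.ramificationIndexAlong φ : ℤ) = (finrankAlong K φ : ℤ) := by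
  have hfin := hF.finiteAlong hF₁ φ
  have hF' := hF
  obtain ⟨x, hx, hfd⟩ := hF
  letI := algebraAlong φ
  haveI := isScalarTower_along φ
  haveI := isIntegral_along φ hφ
  haveI : Module.Finite F F₁ := hfin
  haveI := s37_h_sumRamificationInertia (K := K) (F' := F₁) x hx
  have h1 := SumRamificationInertia.sum_ramificationIndex_mul_inertiaDeg
    (K := K) (F := F) (F' := F₁) v
  have h2 : ∑ w ∈ v.fiber F₁, (w.ramificationIndex F : ℤ)
      = ∑ w ∈ v.fiber F₁, (w.ramificationIndex F : ℤ) * (w.inertiaDeg F : ℤ) :=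
    Finset.sum_congr rfl (fun w _ => by rw [s37_h_inertiaDeg_eq_one (K := K) x hx w]; simp)
  exact h2.trans h1

end Basic

section Funct

variable {K F F₁ F₂ : Type*} [Field K] [Field F] [Field F₁] [Field F₂] [Algebra K F]
  [Algebra K F₁] [Algebra K F₂]
  (φ : F →ₐ[K] F₁) (ψ : F₁ →ₐ[K] F₂) (hφ : φ.toRingHom.IsIntegral)
  (hψ : ψ.toRingHom.IsIntegral) (hψφ : (ψ.comp φ).toRingHom.IsIntegral)

/-- Restriction of places is functorial. -/
theorem s37_h_restrictAlong_comp (W : Place K F₂) :
    W.restrictAlong (ψ.comp φ) hψφ = (W.restrictAlong ψ hψ).restrictAlong φ hφ :=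
  Place.ext rfl

include hφ hψφ in
/-- Ramification indices are multiplicative in towers. -/
theorem s37_h_ramificationIndexAlong_comp (W : Place K F₂) :
    W.ramificationIndexAlong (ψ.comp φ)
      = W.ramificationIndexAlong ψ * (W.restrictAlong ψ hψ).ramificationIndexAlong φ := by
  obtain ⟨π, hπ⟩ := IsDiscreteValuationRing.exists_irreducible
    (W.restrictAlong (ψ.comp φ) hψφ).toValuationSubring
  have h0 := (W.restrictAlong (ψ.comp φ) hψφ).ord_coe_irreducible hπ
  have h1 := Place.ord_restrictAlong (ψ.comp φ) hψφ W (π : F)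
  have h2 := Place.ord_restrictAlong ψ hψ W (φ (π : F))
  have h3 := Place.ord_restrictAlong φ hφ (W.restrictAlong ψ hψ) (π : F)
  rw [← s37_h_restrictAlong_comp φ ψ hφ hψ hψφ W, h0, mul_one] at h3
  rw [h0, mul_one] at h1
  rw [h3] at h2
  have h4 : ((W.ramificationIndexAlong (ψ.comp φ) : ℕ) : ℤ)
      = ((W.ramificationIndexAlong ψ * (W.restrictAlong ψ hψ).ramificationIndexAlong φ : ℕ) : ℤ) := by
    rw [← h1, Nat.cast_mul, ← h2]
    rfl
  exact_mod_cast h4

variable [HasPrincipalDivisors K F₁] [HasPrincipalDivisors K F₂]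

/-- Pull-back of divisors is functorial. -/
theorem s37_h_pullbackAlong_comp (D : Divisor K F) :
    Divisor.pullbackAlong (ψ.comp φ) hψφ D
      = Divisor.pullbackAlong ψ hψ (Divisor.pullbackAlong φ hφ D) := by
  ext W
  rw [Divisor.pullbackAlong_apply, Divisor.pullbackAlong_apply, Divisor.pullbackAlong_apply,
    s37_h_ramificationIndexAlong_comp φ ψ hφ hψ hψφ W, s37_h_restrictAlong_comp φ ψ hφ hψ hψφ W]
  push_cast
  ring

end Funct

section Push

variable {K F F₁ F₂ : Type*} [Field K] [Field F] [Field F₁] [Field F₂] [Algebra K F]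
  [Algebra K F₁] [Algebra K F₂] [IsAlgClosed K] [CharZero K]

/-- Push-forward of a point is the point below. -/
theorem s37_h_IsFF.pushforwardAlong_single (hF : s37_h_IsFF K F) (hF₁ : s37_h_IsFF K F₁)
    (φ : F →ₐ[K] F₁) (hφ : φ.toRingHom.IsIntegral) (w : Place K F₁) (n : ℤ) :
    Divisor.pushforwardAlong φ hφ (Finsupp.single w n)
      = Finsupp.single (w.restrictAlong φ hφ) n := by
  rw [Divisor.pushforwardAlong_single, hF.inertiaDegAlong hF₁ φ hφ w]
  simp

/-- Push-forward of divisors is functorial. -/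
theorem s37_h_pushforwardAlong_comp (hF : s37_h_IsFF K F) (hF₁ : s37_h_IsFF K F₁)
    (hF₂ : s37_h_IsFF K F₂) (φ : F →ₐ[K] F₁) (ψ : F₁ →ₐ[K] F₂) (hφ : φ.toRingHom.IsIntegral)
    (hψ : ψ.toRingHom.IsIntegral) (hψφ : (ψ.comp φ).toRingHom.IsIntegral) (D : Divisor K F₂) :
    Divisor.pushforwardAlong (ψ.comp φ) hψφ D
      = Divisor.pushforwardAlong φ hφ (Divisor.pushforwardAlong ψ hψ D) := by
  induction D using Finsupp.induction with
  | zero => simp
  | single_add w n D _ _ ih =>
    rw [map_add, map_add, map_add, ih, hF.pushforwardAlong_single hF₂ (ψ.comp φ) hψφ,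
      hF₁.pushforwardAlong_single hF₂ ψ hψ, hF.pushforwardAlong_single hF₁ φ hφ,
      s37_h_restrictAlong_comp φ ψ hφ hψ hψφ w]

/-- `π_* π^* = deg π`. -/
theorem s37_h_pushforwardAlong_pullbackAlong [HasPrincipalDivisors K F₁] (hF : s37_h_IsFF K F)
    (hF₁ : s37_h_IsFF K F₁) (φ : F →ₐ[K] F₁) (hφ : φ.toRingHom.IsIntegral) (D : Divisor K F) :
    Divisor.pushforwardAlong φ hφ (Divisor.pullbackAlong φ hφ D)
      = (finrankAlong K φ : ℤ) • D := by
  induction D using Finsupp.induction with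
  | zero => simp
  | single_add v n D _ _ ih =>
    rw [map_add, map_add, ih, smul_add]
    congr 1
    rw [Divisor.pullbackAlong_single, map_sum]
    have h1 : ∀ W ∈ Place.fiberAlong φ hφ v,
        Divisor.pushforwardAlong φ hφ (Finsupp.single W (n * (W.ramificationIndexAlong φ : ℤ)))
          = Finsupp.single v (n * (W.ramificationIndexAlong φ : ℤ)) := by
      intro W hW
      rw [hF.pushforwardAlong_single hF₁ φ hφ, Place.mem_fiberAlong.mp hW]
    rw [Finset.sum_congr rfl h1, ← Finsupp.single_finsetSum, ← Finset.mul_sum,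
      hF.sum_ramificationIndexAlong hF₁ φ hφ v, Finsupp.smul_single, smul_eq_mul, mul_comm]

end Push

end Fermat.Agent.S37
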