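import Mathlib
import Fermat.Agent.S37.RedDefs
import Fermat.Agent.S37.ChiDef
import Fermat.Agent.S37.HFunct
import Fermat.Agent.S37.CpPlace

/-!
# S37, block ES2: values along a restriction of places, and the characteristic polynomial at a
place along an embedding (helper1)

* `s37_ep_val_restrictAlong` (VR): for `u : F →ₐ[K] F'` and a place `W` of `F'`,
  `u x ∈ O_W ↔ x ∈ O_{W|F}` and then `(u x)(W) = x(W|F)`.
* `s37_ep_cp_along` (CP-along): the coefficients of the characteristic polynomial of `g : F'`
  over `F` (along `u`) are regular at a place `P` of `F` as soon as `g` is regular at all places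
  over `P`, and their values are the coefficients of `∏_{W ∣ P} (X - g(W)) ^ e(W ∣ P)`.
-/

set_option autoImplicit false
set_option linter.style.haveILetI false

namespace Fermat.Agent.S37

open ModularCurve AlgebraicCurve Polynomial

noncomputable section

/-- nonunits of a comap valuation subring map to nonunits. -/
theorem s37_ep_map_mem_nonunits {F F' : Type*} [Field F] [Field F'] (f : F →+* F')
    (V : ValuationSubring F') {y : F} (hy : y ∈ (V.comap f).nonunits) : f y ∈ V.nonunits := by
  rw [ValuationSubring.mem_nonunits_iff_or] at hy ⊢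
  rcases hy with rfl | hy
  · left; exact map_zero f
  · right
    intro h
    apply hy
    rw [ValuationSubring.mem_comap, map_inv₀]
    exact h

/-- nonunits of a valuation subring come from nonunits of the comap. -/
theorem s37_ep_mem_nonunits_of_map {F F' : Type*} [Field F] [Field F'] (f : F →+* F')
    (V : ValuationSubring F') {y : F} (hy : f y ∈ V.nonunits) : y ∈ (V.comap f).nonunits := by
  rw [ValuationSubring.mem_nonunits_iff_or] at hy ⊢
  rcases hy with hy | hy
  · left; exact (map_eq_zero f).mp hy
  · right
    intro h
    apply hy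
    rw [ValuationSubring.mem_comap, map_inv₀] at h
    exact h

/-- (VR) values along a restriction of places -/
theorem s37_ep_val_restrictAlong {K F F' : Type*} [Field K] [Field F] [Field F'] [Algebra K F]
    [Algebra K F'] [s37_r_Rational K F] (u : F →ₐ[K] F') (hu : u.toRingHom.IsIntegral)
    (W : Place K F') (x : F) :
    (u x ∈ W.toValuationSubring ↔ x ∈ (W.restrictAlong u hu).toValuationSubring) ∧
    (x ∈ (W.restrictAlong u hu).toValuationSubring →
      s37_r_val W (u x) = s37_r_val (W.restrictAlong u hu) x) := by
  refine ⟨Iff.rfl, fun hx => ?_⟩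
  apply s37_r_val_eq_of_sub_mem
  have h := s37_r_val_spec (W.restrictAlong u hu) hx
  have h2 : u.toRingHom (x - algebraMap K F (s37_r_val (W.restrictAlong u hu) x)) ∈
      W.toValuationSubring.nonunits :=
    s37_ep_map_mem_nonunits u.toRingHom W.toValuationSubring h
  have e : u.toRingHom (x - algebraMap K F (s37_r_val (W.restrictAlong u hu) x)) =
      u x - algebraMap K F' (s37_r_val (W.restrictAlong u hu) x) := by
    rw [map_sub]
    congr 1
    exact u.commutes _
  rwa [e] at h2

/-- (VR), membership part for the maximal ideals. -/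
theorem s37_ep_mem_nonunits_restrictAlong {K F F' : Type*} [Field K] [Field F] [Field F']
    [Algebra K F] [Algebra K F'] (u : F →ₐ[K] F') (hu : u.toRingHom.IsIntegral)
    (W : Place K F') (x : F) :
    u x ∈ W.toValuationSubring.nonunits ↔
      x ∈ (W.restrictAlong u hu).toValuationSubring.nonunits :=
  ⟨fun h => s37_ep_mem_nonunits_of_map u.toRingHom W.toValuationSubring h,
    fun h => s37_ep_map_mem_nonunits u.toRingHom W.toValuationSubring h⟩

/-- (CP-along) the characteristic polynomial at a place, along an embedding, with values -/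
theorem s37_ep_cp_along {K F F' : Type*} [Field K] [IsAlgClosed K] [CharZero K] [Field F]
    [Field F'] [Algebra K F] [Algebra K F'] (hF : s37_h_IsFF K F) (hF' : s37_h_IsFF K F')
    [HasPrincipalDivisors K F'] (u : F →ₐ[K] F') (hu : u.toRingHom.IsIntegral)
    (hfin : FiniteAlong K u) (P : Place K F) (g : F')
    (hg : ∀ W ∈ Place.fiberAlong u hu P, g ∈ W.toValuationSubring) (i : ℕ) :
    (s37_chi u hfin g).coeff i ∈ P.toValuationSubring ∧
    s37_r_val P ((s37_chi u hfin g).coeff i) =
      (∏ W ∈ Place.fiberAlong u hu P,
        (X - C (s37_r_val W g)) ^ W.ramificationIndexAlong u).coeff i := by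
  obtain ⟨x, hx, hfd⟩ := hF
  obtain ⟨x', hx', hfd'⟩ := hF'
  haveI : s37_r_Rational K F' := s37_r_rational_of_finite x' hx'
  have hc : (s37_chi u hfin g).coeff i - algebraMap K F ((∏ W ∈ Place.fiberAlong u hu P,
      (X - C (s37_r_val W g)) ^ W.ramificationIndexAlong u).coeff i) ∈
        P.toValuationSubring.nonunits := by
    letI := algebraAlong u
    haveI := isScalarTower_along u
    haveI := isIntegral_along u hu
    haveI : Module.Finite F F' := hfin
    exact s37_cp_charpoly (K := K) (F := F) (F' := F') x hx P g (fun w => s37_r_val w g)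
      (fun w hw => s37_r_val_spec w (hg w hw)) i
  refine ⟨?_, s37_r_val_eq_of_sub_mem P hc⟩
  have h1 := s37_r_nonunits_mem _ hc
  have h2 := P.algebraMap_mem' ((∏ W ∈ Place.fiberAlong u hu P,
    (X - C (s37_r_val W g)) ^ W.ramificationIndexAlong u).coeff i)
  have h3 := P.toValuationSubring.add_mem _ _ h1 h2
  rwa [sub_add_cancel] at h3

end

end Fermat.Agent.S37
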