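import Fermat.Prelude.Def_ModularCurve_HeckeOperator
import Fermat.Agent.S37.HFunct

/-!
# S37, leaf (HD): the Hecke correspondence at a single place

`heckeDivBar = (pushforward along α) ∘ (pull-back along β)`; the pull-back of a point is the sum
of the points of its fibre with ramification indices, and the push-forward of a point is the
point below (inertia degrees are one over an algebraically closed field).
-/

set_option autoImplicit false
set_option synthInstance.maxHeartbeats 400000

namespace Fermat.Agent.S37

open ModularCurve AlgebraicCurve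

noncomputable section

local notation "Qb" => AlgebraicClosure ℚ

/-- (HD) the Hecke correspondence at a single place -/
theorem s37_ep_heckeDiv_single (N ℓ : ℕ) [NeZero N] [NeZero ℓ]
    (hα : HeckeAlphaBarIntegral Qb N ℓ) (hβ : HeckeBetaBarIntegral Qb N ℓ)
    [HasPrincipalDivisors Qb (modularFunctionFieldBar (N * ℓ))]
    (P : Place Qb (modularFunctionFieldBar N)) (n : ℤ) :
    heckeDivBar hα hβ (Finsupp.single P n) =
      ∑ W ∈ Place.fiberAlong (heckeBetaBar Qb N ℓ) hβ P,
        Finsupp.single (W.restrictAlong (heckeAlphaBar Qb N ℓ) hα)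
          (n * (W.ramificationIndexAlong (heckeBetaBar Qb N ℓ) : ℤ)) := by
  have hα' : (heckeAlphaBar Qb N ℓ).toRingHom.IsIntegral := hα
  have hβ' : (heckeBetaBar Qb N ℓ).toRingHom.IsIntegral := hβ
  have h1 : heckeDivBar hα hβ (Finsupp.single P n) =
      Divisor.pushforwardAlong (heckeAlphaBar Qb N ℓ) hα'
        (Divisor.pullbackAlong (heckeBetaBar Qb N ℓ) hβ' (Finsupp.single P n)) := rfl
  have h2 := Divisor.pullbackAlong_single (heckeBetaBar Qb N ℓ) hβ' P n
  rw [h1, h2, map_sum]
  refine Finset.sum_congr rfl fun W _ => ?_
  exact (s37_h_isFF_bar N).pushforwardAlong_single (s37_h_isFF_bar (N * ℓ)) _ hα' W _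

end

end Fermat.Agent.S37
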