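import Mathlib
import Fermat.Prelude.Def_ModularCurve_LaurentCoeff
import Fermat.Prelude.Def_ModularCurve_X0
import Fermat.Prelude.Def_ModularCurve_X0ModL

/-!
# S37-ES: the `ℓ`-th power of a Laurent series in characteristic `ℓ`

`s37_ec_pow_char : f ^ ℓ = qExpand k ℓ (coeffMap (frobenius k ℓ) f)`,
i.e. `(∑ aₙ qⁿ)^ℓ = ∑ aₙ^ℓ q^(ℓ n)`.
-/

set_option autoImplicit false

open ModularCurve

noncomputable section

namespace Fermat.Agent.S37

/-- `q ↦ q^N` on power series is compatible with `qExpand` on Laurent series. -/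
theorem s37_ec_qExpand_ofPowerSeries {R : Type*} [CommRing R] (N : ℕ) [NeZero N]
    (P : PowerSeries R) :
    qExpand R N (HahnSeries.ofPowerSeries ℤ R P) =
      HahnSeries.ofPowerSeries ℤ R (PowerSeries.expand N (NeZero.ne N) P) := by
  have hN : (0 : ℤ) < (N : ℤ) := by exact_mod_cast Nat.pos_of_ne_zero (NeZero.ne N)
  ext k
  rcases lt_or_ge k 0 with hk | hk
  · rw [ofPowerSeries_coeff_of_neg _ hk]
    by_cases hd : (N : ℤ) ∣ k
    · obtain ⟨m, rfl⟩ := hd
      have hm : m < 0 := by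
        by_contra hm
        push Not at hm
        have := mul_nonneg hN.le hm
        omega
      rw [qExpand_coeff_mul, ofPowerSeries_coeff_of_neg _ hm]
    · rw [qExpand_coeff_of_not_dvd _ _ hd]
  · lift k to ℕ using hk
    rw [HahnSeries.ofPowerSeries_apply_coeff, PowerSeries.coeff_expand]
    by_cases hd : N ∣ k
    · obtain ⟨m, rfl⟩ := hd
      rw [if_pos (dvd_mul_right N m), Nat.mul_div_cancel_left m (Nat.pos_of_ne_zero (NeZero.ne N)),
        Nat.cast_mul, qExpand_coeff_mul, HahnSeries.ofPowerSeries_apply_coeff]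
    · rw [if_neg hd, qExpand_coeff_of_not_dvd]
      exact fun h => hd (Int.natCast_dvd_natCast.mp h)

/-- **Frobenius on Laurent series**: in characteristic `ℓ`,
`(∑ aₙ qⁿ)^ℓ = ∑ aₙ^ℓ q^(ℓ n)`. -/
theorem s37_ec_pow_char {k : Type*} [CommRing k] (ℓ : ℕ) [NeZero ℓ] [Fact ℓ.Prime] [CharP k ℓ]
    (f : LaurentSeries k) :
    f ^ ℓ = qExpand k ℓ (coeffMap (frobenius k ℓ) f) := by
  have hf : f = HahnSeries.single f.order (1 : k) *
      HahnSeries.ofPowerSeries ℤ k f.powerSeriesPart :=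
    (LaurentSeries.single_order_mul_powerSeriesPart f).symm
  set e := f.order
  set p := f.powerSeriesPart
  have hpow : p ^ ℓ = (PowerSeries.expand ℓ (NeZero.ne ℓ) p).map (frobenius k ℓ) :=
    (MvPowerSeries.map_frobenius_expand (σ := Unit) ℓ (NeZero.ne ℓ) (f := p)).symm
  have h1 : (HahnSeries.single e (1 : k)) ^ ℓ =
      HahnSeries.single ((ℓ : ℤ) * e) (frobenius k ℓ 1) := by
    rw [HahnSeries.single_pow, one_pow, RingHom.map_one (frobenius k ℓ), nsmul_eq_mul]
  have h2 : (HahnSeries.ofPowerSeries ℤ k p) ^ ℓ =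
      HahnSeries.ofPowerSeries ℤ k
        (PowerSeries.expand ℓ (NeZero.ne ℓ) (p.map (frobenius k ℓ))) := by
    rw [← map_pow (HahnSeries.ofPowerSeries ℤ k), hpow, PowerSeries.map_expand]
  conv_lhs => rw [hf, mul_pow, h1, h2]
  conv_rhs => rw [hf, map_mul, map_mul, coeffMap_single, qExpand_single, coeffMap_ofPowerSeries,
    s37_ec_qExpand_ofPowerSeries]

end Fermat.Agent.S37
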