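import Fermat.Agent.S37.RedProfile
import Fermat.Agent.S37.EsFrob
import Fermat.Agent.S18.ResField

/-!
# S37, block ES2 (THETA): the Frobenius-side polynomial

For a chart function with `A`-integral `q`-expansion `g`, the polynomial
`(X - (σ0⁻¹ g)^ℓ) (X^ℓ - σ0 g)` has coefficients in the chart ring, reduces to
`(X - ḡ(q^ℓ)) (X^ℓ - ḡ^φ)`, and its profile at a place `P` of the chart is
`(X - a) (X - b)^ℓ`, `a`, `b` the profiles of `g` at `σ0 P`, `σ0⁻¹ P`.
-/

set_option autoImplicit false
set_option synthInstance.maxHeartbeats 400000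
set_option linter.style.haveILetI false

open scoped Pointwise

namespace Fermat.Agent.S37

open ModularCurve AlgebraicCurve Polynomial

noncomputable section

local notation "Qb" => AlgebraicClosure ℚ
local notation "Γ" => (AlgebraicClosure ℚ ≃ₐ[ℚ] AlgebraicClosure ℚ)

theorem s37_ep_gal_smul_inv_smul (N : ℕ) (σ : Γ) (P : Place Qb (modularFunctionFieldBar N)) :
    arithmeticGalois (modularFunctionFieldFull N) σ •
        (arithmeticGalois (modularFunctionFieldFull N) σ⁻¹ • P) = P := by
  have e : arithmeticGalois (modularFunctionFieldFull N) (L := Qb) σ⁻¹ =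
      (arithmeticGalois (modularFunctionFieldFull N) (L := Qb) σ)⁻¹ :=
    MonoidHom.map_inv _ σ
  rw [e]
  exact smul_inv_smul _ _

theorem s37_ep_gal_inv_smul_smul (N : ℕ) (σ : Γ) (P : Place Qb (modularFunctionFieldBar N)) :
    arithmeticGalois (modularFunctionFieldFull N) σ⁻¹ •
        (arithmeticGalois (modularFunctionFieldFull N) σ • P) = P := by
  have e : arithmeticGalois (modularFunctionFieldFull N) (L := Qb) σ⁻¹ =
      (arithmeticGalois (modularFunctionFieldFull N) (L := Qb) σ)⁻¹ :=
    MonoidHom.map_inv _ σ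
  rw [e]
  exact inv_smul_smul _ _

/-- (THETA) the Frobenius polynomial `(X - (σ0⁻¹ g)^ℓ)(X^ℓ - σ0 g)` -/
theorem s37_ep_theta (N ℓ : ℕ) [NeZero N] [NeZero ℓ] (hℓ : ℓ.Prime)
    (A : ValuationSubring Qb) (hA : A.LiesOverPrime ℓ) (σ0 : Γ) (hσ0 : A.IsFrobeniusAt σ0 ℓ)
    (t' : modularFunctionFieldBar N)
    (hfix : ∀ σ : Γ, arithmeticGalois (modularFunctionFieldFull N) σ • t' = t')
    (g : LaurentSeries A) (hg : g ∈ s37_chartRing N A t')
    (φ : IsLocalRing.ResidueField A ≃+* IsLocalRing.ResidueField A) (hφ : ∀ x, φ x = x ^ ℓ) :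
    ∃ θ : ℕ → LaurentSeries A,
      (∀ i, θ i ∈ s37_chartRing N A t') ∧
      (∀ i, coeffMap (IsLocalRing.residue A) (θ i) =
        ((X - C (qExpand (IsLocalRing.ResidueField A) ℓ (coeffMap (IsLocalRing.residue A) g))) *
          (X ^ ℓ - C (coeffMap (φ : IsLocalRing.ResidueField A →+* IsLocalRing.ResidueField A)
            (coeffMap (IsLocalRing.residue A) g)))).coeff i) ∧
      (∀ P : Place Qb (modularFunctionFieldBar N), P ∈ s37_chartDom A t' →
        ∀ a b : IsLocalRing.ResidueField A,
        a = s37_profile N A t' (arithmeticGalois (modularFunctionFieldFull N) σ0 • P) g →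
        b = s37_profile N A t' (arithmeticGalois (modularFunctionFieldFull N) σ0⁻¹ • P) g →
        ∀ i, s37_profile N A t' P (θ i) =
          ((X - C a) * (X - C b) ^ ℓ : Polynomial (IsLocalRing.ResidueField A)).coeff i) := by
  classical
  haveI : Fact ℓ.Prime := ⟨hℓ⟩
  haveI : CharP (IsLocalRing.ResidueField A) ℓ := Fermat.Agent.S18.s18_res_charP A ℓ hA
  have hd : σ0 ∈ A.decompositionSubgroup ℚ := hσ0.mem_decompositionSubgroup
  have hdi : σ0⁻¹ ∈ A.decompositionSubgroup ℚ := inv_mem hd
  -- Frobenius on the residue field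
  have hK : ∀ x, s37_pr_galK A σ0 hd x = x ^ ℓ := fun x => hσ0.smul_residue_eq x
  have hKi : ∀ x, s37_pr_galK A σ0 hd (s37_pr_galK A σ0⁻¹ hdi x) = x := by
    intro x
    rw [s37_pr_galK_apply, s37_pr_galK_apply, smul_smul]
    have e : (⟨σ0, hd⟩ : A.decompositionSubgroup ℚ) * ⟨σ0⁻¹, hdi⟩ = 1 :=
      Subtype.ext (mul_inv_cancel σ0)
    rw [e, one_smul]
  have hKi' : ∀ x, (s37_pr_galK A σ0⁻¹ hdi x) ^ ℓ = x := fun x => by rw [← hK, hKi]
  have hKφ : s37_pr_galK A σ0 hd =
      (φ : IsLocalRing.ResidueField A →+* IsLocalRing.ResidueField A) :=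
    RingHom.ext fun x => by rw [hK]; exact (hφ x).symm
  -- the two Galois translates of `g`
  have huS : coeffMap (s37_pr_galA A σ0⁻¹ hdi) g ∈ s37_chartRing N A t' :=
    s37_pr_gal_mem_chartRing σ0⁻¹ hdi t' (hfix σ0⁻¹) hg
  have hvS : coeffMap (s37_pr_galA A σ0 hd) g ∈ s37_chartRing N A t' :=
    s37_pr_gal_mem_chartRing σ0 hd t' (hfix σ0) hg
  refine ⟨fun i => ((((X - C ((⟨_, huS⟩ : s37_chartRing N A t') ^ ℓ)) *
      (X ^ ℓ - C (⟨_, hvS⟩ : s37_chartRing N A t')) : Polynomial (s37_chartRing N A t')).coeff i :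
        s37_chartRing N A t') : LaurentSeries A), fun i => Subtype.mem _, ?_, ?_⟩
  · intro i
    have h1 : ∀ p : Polynomial (s37_chartRing N A t'),
        coeffMap (IsLocalRing.residue A) ((p.coeff i : s37_chartRing N A t') : LaurentSeries A) =
        (p.map ((coeffMap (IsLocalRing.residue A)).comp (s37_chartRing N A t').subtype)).coeff i :=
      fun p => by rw [Polynomial.coeff_map]; rfl
    rw [h1]
    congr 1
    rw [Polynomial.map_mul, Polynomial.map_sub, Polynomial.map_X, Polynomial.map_C,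
      Polynomial.map_sub, Polynomial.map_pow, Polynomial.map_X, Polynomial.map_C, map_pow]
    have e1 : ((coeffMap (IsLocalRing.residue A)).comp (s37_chartRing N A t').subtype)
        (⟨_, huS⟩ : s37_chartRing N A t') =
        coeffMap (s37_pr_galK A σ0⁻¹ hdi) (coeffMap (IsLocalRing.residue A) g) :=
      s37_pr_coeffMap_residue_galA σ0⁻¹ hdi g
    have e2 : ((coeffMap (IsLocalRing.residue A)).comp (s37_chartRing N A t').subtype)
        (⟨_, hvS⟩ : s37_chartRing N A t') =
        coeffMap (φ : IsLocalRing.ResidueField A →+* IsLocalRing.ResidueField A)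
          (coeffMap (IsLocalRing.residue A) g) := by
      rw [← hKφ]
      exact s37_pr_coeffMap_residue_galA σ0 hd g
    rw [e1, e2, s37_ec_pow_char, coeffMap_coeffMap]
    congr 4
    have e3 : (frobenius (IsLocalRing.ResidueField A) ℓ).comp (s37_pr_galK A σ0⁻¹ hdi) =
        RingHom.id _ := RingHom.ext fun x => by
      rw [RingHom.comp_apply, frobenius_def, hKi']
      rfl
    rw [coeffMap_congr e3, coeffMap_id]
  · intro P hP a b ha hb i
    -- the profile as a ring homomorphism on the chart ring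
    let π₀ : s37_chartRing N A t' →+ IsLocalRing.ResidueField A :=
      AddMonoidHom.ofMapSub (fun s : s37_chartRing N A t' => s37_profile N A t' P (s : LaurentSeries A))
        (fun x y => s37_pr_profile_sub P hP x.2 y.2)
    let π : s37_chartRing N A t' →+* IsLocalRing.ResidueField A :=
      { π₀ with
        map_one' := s37_pr_profile_one P
        map_mul' := fun x y => s37_pr_profile_mul P hP x.2 y.2 }
    have hπ : ∀ s : s37_chartRing N A t', π s = s37_profile N A t' P (s : LaurentSeries A) :=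
      fun s => rfl
    have h1 : ∀ p : Polynomial (s37_chartRing N A t'),
        s37_profile N A t' P ((p.coeff i : s37_chartRing N A t') : LaurentSeries A) =
        (p.map π).coeff i := fun p => by rw [Polynomial.coeff_map, hπ]
    rw [h1]
    congr 1
    rw [Polynomial.map_mul, Polynomial.map_sub, Polynomial.map_X, Polynomial.map_C,
      Polynomial.map_sub, Polynomial.map_pow, Polynomial.map_X, Polynomial.map_C, map_pow]
    -- the two values
    have hPi : arithmeticGalois (modularFunctionFieldFull N) σ0⁻¹ • P ∈ s37_chartDom A t' :=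
      s37_pr_gal_chartDom σ0⁻¹ hdi t' (hfix σ0⁻¹) P hP
    have hPf : arithmeticGalois (modularFunctionFieldFull N) σ0 • P ∈ s37_chartDom A t' :=
      s37_pr_gal_chartDom σ0 hd t' (hfix σ0) P hP
    have hback := s37_ep_gal_smul_inv_smul N σ0 P
    have hback' := s37_ep_gal_inv_smul_smul N σ0 P
    have ev : π (⟨_, hvS⟩ : s37_chartRing N A t') = b ^ ℓ := by
      rw [hπ]
      have h2 := s37_pr_profile_gal σ0 hd t' (hfix σ0) _ hPi hg
      rw [hback] at h2
      rw [h2, hK, hb]
    have eu : π (⟨_, huS⟩ : s37_chartRing N A t') ^ ℓ = a := by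
      rw [hπ]
      have h2 := s37_pr_profile_gal σ0⁻¹ hdi t' (hfix σ0⁻¹) _ hPf hg
      rw [hback'] at h2
      rw [h2, hKi', ha]
    rw [ev, eu, sub_pow_char, ← C_pow]

end

end Fermat.Agent.S37
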