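import Mathlib
import Fermat.Prelude.Def_ModularCurve_LaurentCoeff
import Fermat.Prelude.Def_ModularCurve_X0

/-!
# S37-ES: the twist `q ↦ u q` on Laurent series

`s37_ec_twist u : R((q)) →+* R((q))`, `∑ aₙ qⁿ ↦ ∑ uⁿ aₙ qⁿ` for a unit `u`.  It fixes the series
in `q^ℓ` when `u ^ ℓ = 1` and commutes with coefficientwise maps.
-/

set_option autoImplicit false

open ModularCurve

noncomputable section

namespace Fermat.Agent.S37

section Twist

variable {R : Type*} [CommRing R]

/-- The underlying function of the twist. -/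
def s37_ec_twistFun (u : Rˣ) (f : LaurentSeries R) : LaurentSeries R where
  coeff n := ((u ^ n : Rˣ) : R) * f.coeff n
  isPWO_support' := f.isPWO_support.mono (fun n hn => by
    intro h0
    apply hn
    show ((u ^ n : Rˣ) : R) * f.coeff n = 0
    rw [h0, mul_zero])

theorem s37_ec_twistFun_coeff (u : Rˣ) (f : LaurentSeries R) (n : ℤ) :
    (s37_ec_twistFun u f).coeff n = ((u ^ n : Rˣ) : R) * f.coeff n := rfl

theorem s37_ec_twistFun_support (u : Rˣ) (f : LaurentSeries R) :
    (s37_ec_twistFun u f).support = f.support := by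
  ext n
  simp only [HahnSeries.mem_support, s37_ec_twistFun_coeff, ne_eq]
  rw [Units.mul_right_eq_zero]

/-- The twist `∑ aₙ qⁿ ↦ ∑ uⁿ aₙ qⁿ`. -/
def s37_ec_twist (u : Rˣ) : LaurentSeries R →+* LaurentSeries R where
  toFun := s37_ec_twistFun u
  map_zero' := by
    ext n
    rw [s37_ec_twistFun_coeff, HahnSeries.coeff_zero, mul_zero]
  map_one' := by
    ext n
    rw [s37_ec_twistFun_coeff, HahnSeries.coeff_one]
    split_ifs with h
    · subst h
      simp
    · rw [mul_zero]
  map_add' x y := by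
    ext n
    rw [HahnSeries.coeff_add, s37_ec_twistFun_coeff, s37_ec_twistFun_coeff, s37_ec_twistFun_coeff,
      HahnSeries.coeff_add, mul_add]
  map_mul' x y := by
    ext n
    rw [s37_ec_twistFun_coeff, HahnSeries.coeff_mul, HahnSeries.coeff_mul, Finset.mul_sum]
    have hset : Finset.antidiagonal (s37_ec_twistFun u x).isPWO_support
        (s37_ec_twistFun u y).isPWO_support n =
        Finset.antidiagonal x.isPWO_support y.isPWO_support n := by
      ext ij
      simp only [Finset.mem_antidiagonal, s37_ec_twistFun_support]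
    rw [hset]
    refine Finset.sum_congr rfl (fun ij hij => ?_)
    rw [Finset.mem_antidiagonal] at hij
    rw [s37_ec_twistFun_coeff, s37_ec_twistFun_coeff, ← hij.2.2, zpow_add, Units.val_mul]
    ring

theorem s37_ec_twist_coeff (u : Rˣ) (f : LaurentSeries R) (n : ℤ) :
    (s37_ec_twist u f).coeff n = ((u ^ n : Rˣ) : R) * f.coeff n := rfl

theorem s37_ec_twist_one (f : LaurentSeries R) : s37_ec_twist (1 : Rˣ) f = f := by
  ext n
  rw [s37_ec_twist_coeff, one_zpow, Units.val_one, one_mul]

theorem s37_ec_twist_single (u : Rˣ) (n : ℤ) (r : R) :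
    s37_ec_twist u (HahnSeries.single n r) = HahnSeries.single n (((u ^ n : Rˣ) : R) * r) := by
  ext m
  rw [s37_ec_twist_coeff]
  rcases eq_or_ne m n with rfl | hm
  · rw [HahnSeries.coeff_single_same, HahnSeries.coeff_single_same]
  · rw [HahnSeries.coeff_single_of_ne hm, HahnSeries.coeff_single_of_ne hm, mul_zero]

theorem s37_ec_twist_C (u : Rˣ) (r : R) :
    s37_ec_twist u (HahnSeries.C r) = HahnSeries.C r := by
  rw [HahnSeries.C_apply, s37_ec_twist_single, zpow_zero, Units.val_one, one_mul]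

/-- The twist by an `ℓ`-th root of unity fixes the series in `q^ℓ`. -/
theorem s37_ec_twist_qExpand (u : Rˣ) (ℓ : ℕ) [NeZero ℓ] (hu : u ^ ℓ = 1) (f : LaurentSeries R) :
    s37_ec_twist u (qExpand R ℓ f) = qExpand R ℓ f := by
  ext n
  rw [s37_ec_twist_coeff]
  by_cases hn : (ℓ : ℤ) ∣ n
  · obtain ⟨m, rfl⟩ := hn
    rw [zpow_mul, zpow_natCast, hu, one_zpow, Units.val_one, one_mul]
  · rw [qExpand_coeff_of_not_dvd ℓ f hn, mul_zero]

/-- Twists compose. -/
theorem s37_ec_twist_twist (u v : Rˣ) (f : LaurentSeries R) :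
    s37_ec_twist u (s37_ec_twist v f) = s37_ec_twist (u * v) f := by
  ext n
  rw [s37_ec_twist_coeff, s37_ec_twist_coeff, s37_ec_twist_coeff, mul_zpow, Units.val_mul,
    mul_assoc]

/-- The twist commutes with coefficientwise maps. -/
theorem s37_ec_coeffMap_twist {S : Type*} [CommRing S] (φ : R →+* S) (u : Rˣ)
    (f : LaurentSeries R) :
    coeffMap φ (s37_ec_twist u f) = s37_ec_twist (Units.map (φ : R →* S) u) (coeffMap φ f) := by
  ext n
  rw [coeffMap_coeff, s37_ec_twist_coeff, s37_ec_twist_coeff, coeffMap_coeff, map_mul,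
    ← map_zpow]
  rfl

/-- The twist commutes with `q ↦ q^m` up to the power `u ↦ u^m`. -/
theorem s37_ec_twist_qExpand_pow (u : Rˣ) (m : ℕ) [NeZero m] (f : LaurentSeries R) :
    s37_ec_twist u (qExpand R m f) = qExpand R m (s37_ec_twist (u ^ m) f) := by
  ext n
  rw [s37_ec_twist_coeff]
  by_cases hn : (m : ℤ) ∣ n
  · obtain ⟨k, rfl⟩ := hn
    rw [qExpand_coeff_mul, qExpand_coeff_mul, s37_ec_twist_coeff, zpow_mul, zpow_natCast]
  · rw [qExpand_coeff_of_not_dvd m f hn, qExpand_coeff_of_not_dvd m _ hn, mul_zero]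

end Twist

end Fermat.Agent.S37
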