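import Fermat.Agent.S37.ChiDef
import Fermat.Agent.S37.EsChiAbs
import Fermat.Agent.S37.EsTwist
import Fermat.Agent.S37.EsDeg

/-!
# S37, block ES1 (CHI): the characteristic polynomial of `G(q)` over the field of `f(q^ℓ)`

The `ℓ + 1` embeddings of `F̄(N ℓ)` into `ℚ̄((q))` over `β(F̄(N))` are the `ℓ` twists
`q ↦ ζ^i q` and `f ↦ (W f)(q^ℓ)`; they are separated by the coefficient of `q⁻¹` of `j`.
-/

set_option autoImplicit false
set_option linter.style.haveILetI false

open ModularCurve AlgebraicCurve Polynomial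

noncomputable section

namespace Fermat.Agent.S37

open Fermat.Agent.S24

local notation "Qb" => AlgebraicClosure ℚ

/-- **(CHI)** the characteristic polynomial of `G(q)` over the field of series in `q^ℓ`. -/
theorem s37_es_chi (N ℓ : ℕ) [NeZero N] [NeZero ℓ] (hℓ : ℓ.Prime) (hℓN : ¬ ℓ ∣ N)
    (ζ : Qb) (hζ : IsPrimitiveRoot ζ ℓ) (hfin : FiniteAlong Qb (heckeBetaBar Qb N ℓ))
    (G : modularFunctionFieldBar N) :
    ∃ s : ℕ → LaurentSeries Qb,
      (∀ (i : ℕ) (n : ℤ), (s i).coeff n = ζ ^ ((i : ℤ) * n) * (G : LaurentSeries Qb).coeff n) ∧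
      (s37_chi (heckeBetaBar Qb N ℓ) hfin (heckeAlphaBar Qb N ℓ G)).map
          ((algebraMap (modularFunctionFieldBar (N * ℓ)) (LaurentSeries Qb)).comp
            (heckeBetaBar Qb N ℓ).toRingHom) =
        (X - C (qExpand Qb (ℓ ^ 2) (G : LaurentSeries Qb))) *
          ∏ i ∈ Finset.range ℓ, (X - C (s i)) := by
  classical
  have hζ0 : ζ ≠ 0 := hζ.ne_zero (NeZero.ne ℓ)
  obtain ⟨u, hu⟩ : ∃ u : Qbˣ, (u : Qb) = ζ := ⟨Units.mk0 ζ hζ0, rfl⟩
  have huℓ : u ^ ℓ = 1 := Units.ext (by rw [Units.val_pow_eq_pow_val, hu, hζ.pow_eq_one]; rfl)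
  have hcop : Nat.Coprime ℓ N := (Nat.Prime.coprime_iff_not_dvd hℓ).mpr hℓN
  obtain ⟨W, hWα, hWβ⟩ := s37_es_swap N ℓ hcop
  obtain ⟨-, hdeg⟩ := s37_es_finrank_beta N ℓ hℓ hℓN
  letI := algebraAlong (heckeBetaBar Qb N ℓ)
  haveI : Module.Finite (modularFunctionFieldBar N) (modularFunctionFieldBar (N * ℓ)) := hfin
  -- the embeddings
  let incl : modularFunctionFieldBar (N * ℓ) →+* LaurentSeries Qb :=
    algebraMap (modularFunctionFieldBar (N * ℓ)) (LaurentSeries Qb)
  let σ : Option (Fin ℓ) → modularFunctionFieldBar (N * ℓ) →+* LaurentSeries Qb := fun o =>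
    match o with
    | none => (qExpand Qb ℓ).comp (incl.comp
        (W : modularFunctionFieldBar (N * ℓ) →+* modularFunctionFieldBar (N * ℓ)))
    | some i => (s37_ec_twist (u ^ (i : ℕ))).comp incl
  have hσnone : ∀ y : modularFunctionFieldBar (N * ℓ),
      σ none y = qExpand Qb ℓ ((W y : modularFunctionFieldBar (N * ℓ)) : LaurentSeries Qb) :=
    fun y => rfl
  have hσsome : ∀ (i : Fin ℓ) (y : modularFunctionFieldBar (N * ℓ)),
      σ (some i) y = s37_ec_twist (u ^ (i : ℕ)) (y : LaurentSeries Qb) := fun i y => rfl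
  have hf : ∀ o, (σ o).comp (algebraMap (modularFunctionFieldBar N)
      (modularFunctionFieldBar (N * ℓ))) = incl.comp (heckeBetaBar Qb N ℓ).toRingHom := by
    intro o
    ext1 c
    show σ o (heckeBetaBar Qb N ℓ c) =
      ((heckeBetaBar Qb N ℓ c : modularFunctionFieldBar (N * ℓ)) : LaurentSeries Qb)
    cases o with
    | none =>
      rw [hσnone, hWβ, coe_heckeAlphaBar, coe_heckeBetaBar]
    | some i =>
      rw [hσsome, coe_heckeBetaBar]
      exact s37_ec_twist_qExpand _ ℓ (by rw [← pow_mul, mul_comm, pow_mul, huℓ, one_pow]) _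
  -- separation by `j`
  have hJcoe : ((heckeAlphaBar Qb N ℓ (jF N) : modularFunctionFieldBar (N * ℓ)) :
      LaurentSeries Qb) = coeffEmb Qb jq := by
    rw [coe_heckeAlphaBar]
    rfl
  have hc1 : (coeffEmb Qb jq).coeff (-1 : ℤ) = 1 := by
    rw [coeffEmb_coeff, coeff_jq_neg_one, map_one]
  have hndvd : ¬ ((ℓ : ℕ) : ℤ) ∣ (-1 : ℤ) := by
    intro h
    have h1 : (ℓ : ℤ) ∣ 1 := (dvd_neg).mp h
    have h2 : ℓ ∣ 1 := by exact_mod_cast h1
    exact hℓ.one_lt.ne' (Nat.dvd_one.mp h2)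
  have hcnone : (σ none (heckeAlphaBar Qb N ℓ (jF N))).coeff (-1 : ℤ) = 0 := by
    rw [hσnone]
    exact qExpand_coeff_of_not_dvd ℓ _ hndvd
  have hcsome : ∀ i : Fin ℓ, (σ (some i) (heckeAlphaBar Qb N ℓ (jF N))).coeff (-1 : ℤ) =
      (((u ^ (i : ℕ)) ^ (-1 : ℤ) : Qbˣ) : Qb) := by
    intro i
    rw [hσsome, hJcoe, s37_ec_twist_coeff, hc1, mul_one]
  have hσinj : Function.Injective σ := by
    intro o o' h
    have h1 : (σ o (heckeAlphaBar Qb N ℓ (jF N))).coeff (-1 : ℤ) =
        (σ o' (heckeAlphaBar Qb N ℓ (jF N))).coeff (-1 : ℤ) := by rw [h]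
    cases o with
    | none =>
      cases o' with
      | none => rfl
      | some k =>
        rw [hcnone, hcsome] at h1
        exact absurd h1.symm (Units.ne_zero _)
    | some i =>
      cases o' with
      | none =>
        rw [hcnone, hcsome] at h1
        exact absurd h1 (Units.ne_zero _)
      | some k =>
        rw [hcsome, hcsome] at h1
        have h2 : (u ^ (i : ℕ)) ^ (-1 : ℤ) = (u ^ (k : ℕ)) ^ (-1 : ℤ) := Units.ext h1
        have h3 : u ^ (i : ℕ) = u ^ (k : ℕ) := by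
          rw [zpow_neg_one, zpow_neg_one] at h2
          exact inv_injective h2
        have h4 : ζ ^ (i : ℕ) = ζ ^ (k : ℕ) := by
          rw [← hu, ← Units.val_pow_eq_pow_val, ← Units.val_pow_eq_pow_val, h3]
        exact congrArg some (Fin.ext (hζ.pow_inj i.2 k.2 h4))
  have hcard : Fintype.card (Option (Fin ℓ)) =
      Module.finrank (modularFunctionFieldBar N) (modularFunctionFieldBar (N * ℓ)) := by
    rw [Fintype.card_option, Fintype.card_fin]
    exact hdeg.symm
  have key := s37_ec_charpoly_map_eq_prod (K := modularFunctionFieldBar N)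
    (L := modularFunctionFieldBar (N * ℓ)) (incl.comp (heckeBetaBar Qb N ℓ).toRingHom) σ hf
    hσinj hcard (heckeAlphaBar Qb N ℓ G)
  refine ⟨fun i => s37_ec_twist (u ^ i) (G : LaurentSeries Qb), ?_, ?_⟩
  · intro i n
    show (s37_ec_twist (u ^ i) (G : LaurentSeries Qb)).coeff n = _
    rw [s37_ec_twist_coeff]
    congr 1
    rw [Units.val_zpow_eq_zpow_val, Units.val_pow_eq_pow_val, hu, zpow_mul, zpow_natCast]
  · unfold s37_chi
    rw [key, Fintype.prod_option]
    congr 1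
    · rw [hσnone, hWα, coe_heckeBetaBar, qExpand_qExpand, qExpand_congr (sq ℓ).symm]
    · rw [Finset.prod_range]
      refine Finset.prod_congr rfl (fun i _ => ?_)
      rw [hσsome, coe_heckeAlphaBar]

end Fermat.Agent.S37
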