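import Mathlib

/-!
# S37, block ES1 (W), algebraic part

Two families `x, x ∘ σ` (`σ` an involution of the index set) of elements of a field `L` over `K`
with the same polynomial relations: the swap `x i ↦ x (σ i)` extends to a `K`-automorphism of
`K(x i : i)`.
-/

set_option autoImplicit false

namespace Fermat.Agent.S37

open MvPolynomial

/-- An injective algebra homomorphism on `Algebra.adjoin K S` extends to the field
`IntermediateField.adjoin K S`. -/
theorem s37_ew_lift_adjoin {K L L' : Type*} [Field K] [Field L] [Field L'] [Algebra K L]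
    [Algebra K L'] (S : Set L) (R : Subalgebra K L) (hR : Algebra.adjoin K S = R)
    (ψ : R →ₐ[K] L') (hψ : Function.Injective ψ) :
    ∃ W : IntermediateField.adjoin K S →ₐ[K] L',
      ∀ (r : R) (hr : (r : L) ∈ IntermediateField.adjoin K S), W ⟨r, hr⟩ = ψ r := by
  subst hR
  open scoped IntermediateField.algebraAdjoinAdjoin in
  exact ⟨IsFractionRing.liftAlgHom (K := IntermediateField.adjoin K S) hψ, fun r hr =>
    IsFractionRing.lift_algebraMap hψ r⟩

/-- Two families with the same polynomial relations: `x i ↦ y i` extends to a `K`-embedding of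
`K(x)`. -/
theorem s37_ew_exists_algHom {K L : Type*} [Field K] [Field L] [Algebra K L] {ι : Type*}
    (x y : ι → L) (h : ∀ P : MvPolynomial ι K, aeval x P = 0 ↔ aeval y P = 0) :
    ∃ W : IntermediateField.adjoin K (Set.range x) →ₐ[K] L,
      ∀ (i : ι) (hi : x i ∈ IntermediateField.adjoin K (Set.range x)), W ⟨x i, hi⟩ = y i := by
  classical
  set f : MvPolynomial ι K →ₐ[K] (aeval x : MvPolynomial ι K →ₐ[K] L).range :=
    (aeval x : MvPolynomial ι K →ₐ[K] L).rangeRestrict with hf
  have hfs : Function.Surjective f := AlgHom.rangeRestrict_surjective _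
  have hfx : ∀ P, (f P : L) = aeval x P := fun P => rfl
  have H : RingHom.ker f ≤ RingHom.ker (aeval y : MvPolynomial ι K →ₐ[K] L) := by
    intro P hP
    rw [RingHom.mem_ker] at hP ⊢
    refine (h P).mp ?_
    rw [← hfx, hP]
    rfl
  have hψf : ∀ P, AlgHom.liftOfSurjective f hfs (aeval y) H (f P) = aeval y P :=
    fun P => AlgHom.liftOfSurjective_apply f hfs _ H P
  have hψinj : Function.Injective (AlgHom.liftOfSurjective f hfs (aeval y) H) := by
    rw [injective_iff_map_eq_zero]
    intro r hr
    obtain ⟨P, rfl⟩ := hfs r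
    rw [hψf] at hr
    exact Subtype.ext ((h P).mpr hr)
  obtain ⟨W, hW⟩ := s37_ew_lift_adjoin (Set.range x) _ (Algebra.adjoin_range_eq_range_aeval K x)
    (AlgHom.liftOfSurjective f hfs (aeval y) H) hψinj
  refine ⟨W, fun i hi => ?_⟩
  have h2 : ((f (X i) : (aeval x : MvPolynomial ι K →ₐ[K] L).range) : L) = x i := by
    rw [hfx, aeval_X]
  have h1 := hW (f (X i)) (by rw [h2]; exact hi)
  rw [hψf] at h1
  have h3 : aeval y (X i : MvPolynomial ι K) = y i := aeval_X y i
  rw [← h3, ← h1]
  congr 1
  exact Subtype.ext h2.symm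

/-- **The swap**: if every polynomial relation between the `x i` also holds for the `x (σ i)`,
`σ` an involution, then `x i ↦ x (σ i)` extends to an automorphism of `K(x)`. -/
theorem s37_ew_swap_general {K L : Type*} [Field K] [Field L] [Algebra K L] {ι : Type*}
    (x : ι → L) (σ : ι → ι) (hσ : ∀ i, σ (σ i) = i)
    (h : ∀ P : MvPolynomial ι K, aeval x P = 0 → aeval (x ∘ σ) P = 0) :
    ∃ W : IntermediateField.adjoin K (Set.range x) ≃ₐ[K]
        IntermediateField.adjoin K (Set.range x),
      ∀ (i : ι) (hi : x i ∈ IntermediateField.adjoin K (Set.range x)),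
        ((W ⟨x i, hi⟩ : IntermediateField.adjoin K (Set.range x)) : L) = x (σ i) := by
  have hmem : ∀ i, x i ∈ IntermediateField.adjoin K (Set.range x) :=
    fun i => IntermediateField.subset_adjoin K _ ⟨i, rfl⟩
  have h' : ∀ P : MvPolynomial ι K, aeval x P = 0 ↔ aeval (x ∘ σ) P = 0 := by
    intro P
    refine ⟨h P, fun hP => ?_⟩
    have h1 := h (rename σ P) (by rw [aeval_rename]; exact hP)
    rw [aeval_rename] at h1
    have h2 : (x ∘ σ) ∘ σ = x := funext fun i => by simp [hσ]
    rwa [h2] at h1
  obtain ⟨W₀, hW₀⟩ := s37_ew_exists_algHom x (x ∘ σ) h'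
  have hW₀mem : ∀ f : IntermediateField.adjoin K (Set.range x),
      W₀ f ∈ IntermediateField.adjoin K (Set.range x) := by
    rintro ⟨z, hz⟩
    induction hz using IntermediateField.adjoin_induction with
    | mem z hz =>
      obtain ⟨i, rfl⟩ := hz
      rw [hW₀ i]
      exact hmem (σ i)
    | algebraMap c =>
      have : (⟨algebraMap K L c, IntermediateField.algebraMap_mem _ c⟩ :
          IntermediateField.adjoin K (Set.range x)) =
          algebraMap K (IntermediateField.adjoin K (Set.range x)) c := rfl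
      rw [this, AlgHom.commutes]
      exact IntermediateField.algebraMap_mem _ c
    | add a b ha hb iha ihb =>
      have : (⟨a + b, add_mem ha hb⟩ : IntermediateField.adjoin K (Set.range x)) =
          ⟨a, ha⟩ + ⟨b, hb⟩ := rfl
      rw [this, map_add]
      exact add_mem iha ihb
    | inv a ha iha =>
      have : (⟨a⁻¹, inv_mem ha⟩ : IntermediateField.adjoin K (Set.range x)) =
          (⟨a, ha⟩ : IntermediateField.adjoin K (Set.range x))⁻¹ := rfl
      rw [this, map_inv₀]
      exact inv_mem iha
    | mul a b ha hb iha ihb =>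
      have : (⟨a * b, mul_mem ha hb⟩ : IntermediateField.adjoin K (Set.range x)) =
          ⟨a, ha⟩ * ⟨b, hb⟩ := rfl
      rw [this, map_mul]
      exact mul_mem iha ihb
  let W' : IntermediateField.adjoin K (Set.range x) →ₐ[K]
      IntermediateField.adjoin K (Set.range x) :=
    W₀.codRestrict (IntermediateField.adjoin K (Set.range x)).toSubalgebra hW₀mem
  have hW'coe : ∀ f, ((W' f : IntermediateField.adjoin K (Set.range x)) : L) = W₀ f :=
    fun f => rfl
  have hW'x : ∀ i, W' ⟨x i, hmem i⟩ = ⟨x (σ i), hmem (σ i)⟩ := fun i => by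
    apply Subtype.ext
    rw [hW'coe, hW₀ i]
    rfl
  have hinv : W'.comp W' = AlgHom.id K _ := by
    apply IntermediateField.adjoin_algHom_ext
    rintro z ⟨i, rfl⟩
    rw [AlgHom.comp_apply, hW'x, hW'x, AlgHom.id_apply]
    apply Subtype.ext
    show x (σ (σ i)) = x i
    rw [hσ]
  refine ⟨AlgEquiv.ofAlgHom W' W' hinv hinv, fun i hi => ?_⟩
  show ((W' ⟨x i, hi⟩ : IntermediateField.adjoin K (Set.range x)) : L) = x (σ i)
  rw [hW'coe, hW₀ i]
  rfl

end Fermat.Agent.S37
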