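import Fermat.Agent.S37.EsSwapAn
import Fermat.Agent.S37.EsSwapAlg
import Fermat.Prelude.Def_ModularCurve_HeckeOperator

/-!
# S37, block ES1 (W): the Atkin–Lehner swap on the function field of `X₀(N ℓ)`

For coprime `ℓ, N` there is a `ℚ̄`-automorphism `W` of `F̄(N ℓ) = ℚ̄(j(q^e) : e ∣ N ℓ)` with
`W (j(q^(d m))) = j(q^(d ℓ/m))` for `d ∣ N`, `m ∣ ℓ`.  In particular `W ∘ α = β` and
`W ∘ β = α` for the two degeneracy maps `α, β : F̄(N) → F̄(N ℓ)`.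
-/

set_option autoImplicit false
set_option linter.style.haveILetI false

open UpperHalfPlane ModularCurve
open scoped MatrixGroups

noncomputable section

namespace Fermat.Agent.S37

open Fermat.Agent.S28 (Jfun scaleH)
open Fermat.Agent.S24

attribute [local instance] algKC

/-- `J(d m · w τ) = J(d m' τ)` for `N = d n`, `ℓ = m m'`. -/
theorem s37_ew_J_scale_w (N ℓ : ℕ) [NeZero ℓ] (b d' : ℤ) (h : (ℓ : ℤ) * d' - N * b = 1)
    (d n m m' : ℕ) [NeZero (d * m)] [NeZero (d * m')] (hdn : N = d * n) (hmm : ℓ = m * m')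
    (τ : ℍ) :
    Jfun (scaleH (d * m) (s37_es_w N ℓ b d' h τ)) = Jfun (scaleH (d * m') τ) := by
  have hdet : (m : ℤ) * (m' * d') - (d * b) * n = 1 := by
    have h1 : (N : ℤ) = d * n := by exact_mod_cast hdn
    have h2 : (ℓ : ℤ) = m * m' := by exact_mod_cast hmm
    rw [h1, h2] at h
    linarith
  have key : scaleH (d * m) (s37_es_w N ℓ b d' h τ) =
      s37_es_mk m (d * b) n (m' * d') hdet • scaleH (d * m') τ := by
    apply UpperHalfPlane.ext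
    rw [Fermat.Agent.S28.coe_scaleH, s37_es_coe_w, s37_es_coe_mk_smul,
      Fermat.Agent.S28.coe_scaleH]
    have h1 := s37_es_w_denom_ne_zero N ℓ b d' h τ
    have h2 := s37_es_denom_ne_zero m (d * b) n (m' * d') hdet (scaleH (d * m') τ)
    rw [Fermat.Agent.S28.coe_scaleH] at h2
    have hN : (N : ℂ) = (d : ℂ) * (n : ℂ) := by exact_mod_cast congrArg (Nat.cast : ℕ → ℂ) hdn
    have hℓ : (ℓ : ℂ) = (m : ℂ) * (m' : ℂ) := by
      exact_mod_cast congrArg (Nat.cast : ℕ → ℂ) hmm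
    push_cast at h2 ⊢
    rw [hN, hℓ] at h1 ⊢
    rw [mul_div_assoc', div_eq_div_iff h1 h2]
    ring
  rw [key, Fermat.Agent.S28.Jfun_smul]

/-- `j(q^e)` with coefficients in `ℚ̄` (junk value `0` for `e = 0`). -/
def s37_ew_s (e : ℕ) : LaurentSeries Kbar :=
  if h : e = 0 then 0 else haveI : NeZero e := ⟨h⟩; coeffEmb Kbar (qExpand ℚ e jq)

theorem s37_ew_s_eq (e : ℕ) [NeZero e] : s37_ew_s e = coeffEmb Kbar (qExpand ℚ e jq) := by
  unfold s37_ew_s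
  rw [dif_neg (NeZero.ne e)]

/-- `τ ↦ J(e τ)` (junk value `0` for `e = 0`). -/
def s37_ew_JJ (e : ℕ) : ℍ → ℂ :=
  if h : e = 0 then 0 else haveI : NeZero e := ⟨h⟩; fun τ => Jfun (scaleH e τ)

theorem s37_ew_JJ_eq (e : ℕ) [NeZero e] (τ : ℍ) : s37_ew_JJ e τ = Jfun (scaleH e τ) := by
  unfold s37_ew_JJ
  rw [dif_neg (NeZero.ne e)]

theorem s37_ew_JJ_eq_Jconj (e : ℕ) [NeZero e] : s37_ew_JJ e = Jconj e 1 := by
  funext τ
  rw [s37_ew_JJ_eq]
  show Jfun (scaleH e τ) = Jfun (scaleH e ((1 : SL(2, ℤ)) • τ))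
  rw [one_smul]

/-- A polynomial relation between the `q`-expansions `j(q^(c i))`, `c i ∣ M`, is the same as
a polynomial relation between the functions `J(c i · τ)`. -/
theorem s37_ew_aeval_eq_zero_iff (M : ℕ) [NeZero M] {ι : Type*} (c : ι → ℕ)
    (hc : ∀ i, c i ∣ M) (P : MvPolynomial ι Kbar) :
    MvPolynomial.aeval (fun i => s37_ew_s (c i)) P = 0 ↔
      ∀ τ : ℍ, MvPolynomial.aeval (fun i => s37_ew_JJ (c i) τ) P = 0 := by
  have hne : ∀ i, NeZero (c i) := fun i => ⟨ne_zero_of_dvd_ne_zero (NeZero.ne M) (hc i)⟩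
  let G : ι → modRing M := fun i => haveI := hne i; Jelt M (c i) (hc i)
  have hG : ∀ i, expHom M (G i) = qExpand Kbar M (s37_ew_s (c i)) := fun i => by
    haveI := hne i
    rw [s37_ew_s_eq]
    exact modfield_expHom_Jelt M (c i) (hc i)
  have h1 : expHom M (MvPolynomial.aeval G P) =
      modfieldQExp M (MvPolynomial.aeval (fun i => s37_ew_s (c i)) P) := by
    rw [← AlgHom.comp_apply, ← AlgHom.comp_apply, MvPolynomial.comp_aeval,
      MvPolynomial.comp_aeval]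
    congr 2
    funext i
    exact hG i
  have h2 : ∀ τ : ℍ, ((MvPolynomial.aeval G P : modRing M) : ℍ → ℂ) τ =
      MvPolynomial.aeval (fun i => s37_ew_JJ (c i) τ) P := by
    intro τ
    have h3 : ((MvPolynomial.aeval G P : modRing M) : ℍ → ℂ) τ =
        ((Pi.evalAlgHom Kbar (fun _ : ℍ => ℂ) τ).comp (modRing M).val)
          (MvPolynomial.aeval G P) := rfl
    rw [h3, ← AlgHom.comp_apply, MvPolynomial.comp_aeval]
    congr 2
    funext i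
    haveI := hne i
    rw [s37_ew_JJ_eq_Jconj]
    rfl
  constructor
  · intro h τ
    rw [← h2]
    have h4 : MvPolynomial.aeval G P = 0 :=
      expHom_injective M (by rw [h1, h, map_zero, map_zero])
    rw [h4]
    rfl
  · intro h
    have h4 : MvPolynomial.aeval G P = 0 :=
      Subtype.ext (funext fun τ => by rw [h2, h]; rfl)
    have h5 : modfieldQExp M (MvPolynomial.aeval (fun i => s37_ew_s (c i)) P) = 0 := by
      rw [← h1, h4, map_zero]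
    exact qExpand_injective (R := Kbar) M (by rw [← modfieldQExp_apply, h5, map_zero])

/-- The relations between the `j(q^(d m))`, `d ∣ N`, `m ∣ ℓ`, are stable under the
Atkin–Lehner swap `m ↦ ℓ / m`. -/
theorem s37_ew_rel (N ℓ : ℕ) [NeZero N] [NeZero ℓ] (hcop : Nat.Coprime ℓ N)
    (P : MvPolynomial ({d : ℕ // d ∣ N} × {m : ℕ // m ∣ ℓ}) Kbar)
    (hP : MvPolynomial.aeval
      (fun p : {d : ℕ // d ∣ N} × {m : ℕ // m ∣ ℓ} => s37_ew_s (p.1.1 * p.2.1)) P = 0) :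
    MvPolynomial.aeval
      (fun p : {d : ℕ // d ∣ N} × {m : ℕ // m ∣ ℓ} => s37_ew_s (p.1.1 * (ℓ / p.2.1))) P = 0 := by
  haveI : NeZero (N * ℓ) := ⟨Nat.mul_ne_zero (NeZero.ne N) (NeZero.ne ℓ)⟩
  obtain ⟨b, d', hbd⟩ : ∃ b d' : ℤ, (ℓ : ℤ) * d' - N * b = 1 := by
    have h1 : IsCoprime (ℓ : ℤ) (N : ℤ) := Nat.isCoprime_iff_coprime.mpr hcop
    obtain ⟨u, v, huv⟩ := h1
    exact ⟨-v, u, by linarith⟩
  have hP' := (s37_ew_aeval_eq_zero_iff (N * ℓ)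
    (fun p : {d : ℕ // d ∣ N} × {m : ℕ // m ∣ ℓ} => p.1.1 * p.2.1)
    (fun p => Nat.mul_dvd_mul p.1.2 p.2.2) P).mp hP
  refine (s37_ew_aeval_eq_zero_iff (N * ℓ)
    (fun p : {d : ℕ // d ∣ N} × {m : ℕ // m ∣ ℓ} => p.1.1 * (ℓ / p.2.1))
    (fun p => Nat.mul_dvd_mul p.1.2 (Nat.div_dvd_of_dvd p.2.2)) P).mpr ?_
  intro τ
  have h1 := hP' (s37_es_w N ℓ b d' hbd τ)
  have h2 : (fun p : {d : ℕ // d ∣ N} × {m : ℕ // m ∣ ℓ} =>
        s37_ew_JJ (p.1.1 * (ℓ / p.2.1)) τ) =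
      fun p => s37_ew_JJ (p.1.1 * p.2.1) (s37_es_w N ℓ b d' hbd τ) := by
    funext p
    obtain ⟨⟨d, n, hdn⟩, ⟨m, m', hmm⟩⟩ := p
    have hd0 : d ≠ 0 := by
      rintro rfl
      exact NeZero.ne N (by rw [hdn, zero_mul])
    have hm0 : m ≠ 0 := by
      rintro rfl
      exact NeZero.ne ℓ (by rw [hmm, zero_mul])
    have hm'0 : m' ≠ 0 := by
      rintro rfl
      exact NeZero.ne ℓ (by rw [hmm, mul_zero])
    have hdiv : ℓ / m = m' := by
      rw [hmm]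
      exact Nat.mul_div_cancel_left m' (Nat.pos_of_ne_zero hm0)
    haveI : NeZero (d * m) := ⟨Nat.mul_ne_zero hd0 hm0⟩
    haveI : NeZero (d * m') := ⟨Nat.mul_ne_zero hd0 hm'0⟩
    show s37_ew_JJ (d * (ℓ / m)) τ = s37_ew_JJ (d * m) (s37_es_w N ℓ b d' hbd τ)
    rw [hdiv, s37_ew_JJ_eq, s37_ew_JJ_eq]
    exact (s37_ew_J_scale_w N ℓ b d' hbd d n m m' hdn hmm τ).symm
  rw [h2]
  exact h1

/-- A field of Laurent series containing the `j(q^e)`, `e ∣ M`, contains `F̄(M)`. -/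
theorem s37_ew_bar_le (M : ℕ) (E : IntermediateField Kbar (LaurentSeries Kbar))
    (hE : ∀ (e : ℕ) [NeZero e], e ∣ M → coeffEmb Kbar (qExpand ℚ e jq) ∈ E) :
    modularFunctionFieldBar M ≤ E := by
  show IntermediateField.adjoin Kbar
    (⇑(coeffEmb Kbar) '' (modularFunctionFieldFull M : Set (LaurentSeries ℚ))) ≤ E
  rw [IntermediateField.adjoin_le_iff]
  rintro _ ⟨x, hx, rfl⟩
  have hx' : x ∈ Subfield.closure
      (Set.range (algebraMap ℚ (LaurentSeries ℚ)) ∪ divisorExpansions M) := hx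
  have hle : Subfield.closure
      (Set.range (algebraMap ℚ (LaurentSeries ℚ)) ∪ divisorExpansions M)
      ≤ E.toSubfield.comap (coeffEmb Kbar) := by
    rw [Subfield.closure_le]
    rintro y (⟨r, rfl⟩ | ⟨d, hd, hdN, rfl⟩)
    · show coeffEmb Kbar (algebraMap ℚ _ r) ∈ E
      rw [eq_ratCast, map_ratCast]
      exact SubfieldClass.ratCast_mem E r
    · exact @hE d hd hdN
  exact hle hx'

/-- `j(q^e) ∈ F̄(M)` for `e ∣ M`. -/
theorem s37_ew_s_mem (M e : ℕ) [NeZero e] (he : e ∣ M) :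
    coeffEmb Kbar (qExpand ℚ e jq) ∈ modularFunctionFieldBar M :=
  coeffEmb_mem_laurentBaseChange Kbar (jqd_mem_full M he)

/-- Two `ℚ̄`-algebra homomorphisms on `F̄(N)` which agree on the `j(q^d)`, `d ∣ N`, are equal. -/
theorem s37_ew_algHom_ext (N : ℕ) {E : Type*} [Field E] [Algebra Kbar E]
    (φ₁ φ₂ : modularFunctionFieldBar N →ₐ[Kbar] E)
    (h : ∀ (d : ℕ) [NeZero d] (hd : d ∣ N),
      φ₁ ⟨coeffEmb Kbar (qExpand ℚ d jq), s37_ew_s_mem N d hd⟩ =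
        φ₂ ⟨coeffEmb Kbar (qExpand ℚ d jq), s37_ew_s_mem N d hd⟩) :
    φ₁ = φ₂ := by
  let Eq : IntermediateField Kbar (modularFunctionFieldBar N) :=
    (AlgHom.equalizer φ₁ φ₂).toIntermediateField (fun x hx => by
      show φ₁ x⁻¹ = φ₂ x⁻¹
      rw [map_inv₀, map_inv₀]
      exact congrArg _ hx)
  have hle := s37_ew_bar_le N (Eq.map (modularFunctionFieldBar N).val) (fun d _ hd => by
    rw [IntermediateField.mem_map]
    exact ⟨⟨_, s37_ew_s_mem N d hd⟩, h d hd, rfl⟩)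
  refine AlgHom.ext fun x => ?_
  have h1 := hle x.2
  rw [IntermediateField.mem_map] at h1
  obtain ⟨y, hy, hyx⟩ := h1
  have h2 : y = x := Subtype.ext hyx
  rw [← h2]
  exact hy

/-- `F̄(N ℓ)` is generated by the `j(q^(d m))`, `d ∣ N`, `m ∣ ℓ`. -/
theorem s37_ew_bar_eq_adjoin (N ℓ : ℕ) [NeZero N] [NeZero ℓ] :
    modularFunctionFieldBar (N * ℓ) = IntermediateField.adjoin Kbar
      (Set.range fun p : {d : ℕ // d ∣ N} × {m : ℕ // m ∣ ℓ} => s37_ew_s (p.1.1 * p.2.1)) := by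
  apply le_antisymm
  · apply s37_ew_bar_le
    intro e _ he
    obtain ⟨d, m, hd, hm, rfl⟩ := (Nat.dvd_mul).mp he
    apply IntermediateField.subset_adjoin
    exact ⟨(⟨d, hd⟩, ⟨m, hm⟩), s37_ew_s_eq (d * m)⟩
  · rw [IntermediateField.adjoin_le_iff]
    rintro _ ⟨p, rfl⟩
    have hdvd : p.1.1 * p.2.1 ∣ N * ℓ := Nat.mul_dvd_mul p.1.2 p.2.2
    haveI : NeZero (p.1.1 * p.2.1) :=
      ⟨ne_zero_of_dvd_ne_zero (Nat.mul_ne_zero (NeZero.ne N) (NeZero.ne ℓ)) hdvd⟩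
    show s37_ew_s (p.1.1 * p.2.1) ∈ _
    rw [s37_ew_s_eq]
    exact s37_ew_s_mem (N * ℓ) _ hdvd

/-- The Atkin–Lehner swap on `F̄(N ℓ)`: `j(q^(d m)) ↦ j(q^(d ℓ/m))`. -/
theorem s37_ew_swap_field (N ℓ : ℕ) [NeZero N] [NeZero ℓ] (hcop : Nat.Coprime ℓ N) :
    ∃ W : modularFunctionFieldBar (N * ℓ) ≃ₐ[Kbar] modularFunctionFieldBar (N * ℓ),
      ∀ (d m : ℕ) (_ : d ∣ N) (_ : m ∣ ℓ)
        (h1 : s37_ew_s (d * m) ∈ modularFunctionFieldBar (N * ℓ)),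
        ((W ⟨s37_ew_s (d * m), h1⟩ : modularFunctionFieldBar (N * ℓ)) : LaurentSeries Kbar) =
          s37_ew_s (d * (ℓ / m)) := by
  have key : ∀ (F : IntermediateField Kbar (LaurentSeries Kbar))
      (_ : F = IntermediateField.adjoin Kbar
        (Set.range fun p : {d : ℕ // d ∣ N} × {m : ℕ // m ∣ ℓ} => s37_ew_s (p.1.1 * p.2.1))),
      ∃ W : F ≃ₐ[Kbar] F, ∀ (d m : ℕ) (_ : d ∣ N) (_ : m ∣ ℓ) (h1 : s37_ew_s (d * m) ∈ F),
        ((W ⟨s37_ew_s (d * m), h1⟩ : F) : LaurentSeries Kbar) = s37_ew_s (d * (ℓ / m)) := by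
    intro F hF
    subst hF
    obtain ⟨W, hW⟩ := s37_ew_swap_general (K := Kbar)
      (fun p : {d : ℕ // d ∣ N} × {m : ℕ // m ∣ ℓ} => s37_ew_s (p.1.1 * p.2.1))
      (fun p => (p.1, ⟨ℓ / p.2.1, Nat.div_dvd_of_dvd p.2.2⟩))
      (fun p => Prod.ext rfl (Subtype.ext (Nat.div_div_self p.2.2 (NeZero.ne ℓ))))
      (fun P hP => s37_ew_rel N ℓ hcop P hP)
    exact ⟨W, fun d m hd hm h1 => hW (⟨d, hd⟩, ⟨m, hm⟩) h1⟩
  exact key _ (s37_ew_bar_eq_adjoin N ℓ)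

/-- **(W)**: the Atkin–Lehner swap exchanges the two degeneracy maps. -/
theorem s37_es_swap (N ℓ : ℕ) [NeZero N] [NeZero ℓ] (h : Nat.Coprime ℓ N) :
    ∃ W : modularFunctionFieldBar (N * ℓ) ≃ₐ[AlgebraicClosure ℚ] modularFunctionFieldBar (N * ℓ),
      (∀ x, W (heckeAlphaBar (AlgebraicClosure ℚ) N ℓ x) =
        heckeBetaBar (AlgebraicClosure ℚ) N ℓ x) ∧
      (∀ x, W (heckeBetaBar (AlgebraicClosure ℚ) N ℓ x) =
        heckeAlphaBar (AlgebraicClosure ℚ) N ℓ x) := by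
  obtain ⟨W, hW⟩ := s37_ew_swap_field N ℓ h
  have hℓ0 := NeZero.ne ℓ
  -- the generators
  have hgen : ∀ (d : ℕ) [NeZero d] (hd : d ∣ N),
      ∃ (h1 : s37_ew_s (d * 1) ∈ modularFunctionFieldBar (N * ℓ))
        (hℓ : s37_ew_s (d * ℓ) ∈ modularFunctionFieldBar (N * ℓ)),
        heckeAlphaBar Kbar N ℓ ⟨coeffEmb Kbar (qExpand ℚ d jq), s37_ew_s_mem N d hd⟩ =
          ⟨s37_ew_s (d * 1), h1⟩ ∧
        heckeBetaBar Kbar N ℓ ⟨coeffEmb Kbar (qExpand ℚ d jq), s37_ew_s_mem N d hd⟩ =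
          ⟨s37_ew_s (d * ℓ), hℓ⟩ := by
    intro d _ hd
    haveI : NeZero (d * ℓ) := ⟨Nat.mul_ne_zero (NeZero.ne d) hℓ0⟩
    haveI : NeZero (ℓ * d) := ⟨Nat.mul_ne_zero hℓ0 (NeZero.ne d)⟩
    have hs1 : s37_ew_s (d * 1) = coeffEmb Kbar (qExpand ℚ d jq) := by
      rw [mul_one, s37_ew_s_eq]
    have hsℓ : s37_ew_s (d * ℓ) = qExpand Kbar ℓ (coeffEmb Kbar (qExpand ℚ d jq)) := by
      rw [s37_ew_s_eq]
      show _ = qExpand Kbar ℓ (coeffMap (algebraMap ℚ Kbar) (qExpand ℚ d jq))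
      rw [← coeffMap_qExpand, qExpand_qExpand, qExpand_congr (mul_comm ℓ d)]
      rfl
    have hmem1 : s37_ew_s (d * 1) ∈ modularFunctionFieldBar (N * ℓ) := by
      rw [hs1]
      exact s37_ew_s_mem (N * ℓ) d (hd.mul_right ℓ)
    have hmemℓ : s37_ew_s (d * ℓ) ∈ modularFunctionFieldBar (N * ℓ) := by
      rw [s37_ew_s_eq]
      exact s37_ew_s_mem (N * ℓ) (d * ℓ) (Nat.mul_dvd_mul hd dvd_rfl)
    refine ⟨hmem1, hmemℓ, Subtype.ext ?_, Subtype.ext ?_⟩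
    · rw [coe_heckeAlphaBar]
      exact hs1.symm
    · rw [coe_heckeBetaBar]
      exact hsℓ.symm
  have h1 : (W : modularFunctionFieldBar (N * ℓ) →ₐ[Kbar] modularFunctionFieldBar (N * ℓ)).comp
      (heckeAlphaBar Kbar N ℓ) = heckeBetaBar Kbar N ℓ := by
    apply s37_ew_algHom_ext
    intro d _ hd
    obtain ⟨hm1, hmℓ, hα, hβ⟩ := hgen d hd
    rw [AlgHom.comp_apply, hα, hβ]
    apply Subtype.ext
    show ((W ⟨s37_ew_s (d * 1), hm1⟩ : modularFunctionFieldBar (N * ℓ)) :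
      LaurentSeries Kbar) = s37_ew_s (d * ℓ)
    rw [hW d 1 hd (one_dvd ℓ) hm1, Nat.div_one]
  have h2 : (W : modularFunctionFieldBar (N * ℓ) →ₐ[Kbar] modularFunctionFieldBar (N * ℓ)).comp
      (heckeBetaBar Kbar N ℓ) = heckeAlphaBar Kbar N ℓ := by
    apply s37_ew_algHom_ext
    intro d _ hd
    obtain ⟨hm1, hmℓ, hα, hβ⟩ := hgen d hd
    rw [AlgHom.comp_apply, hα, hβ]
    apply Subtype.ext
    show ((W ⟨s37_ew_s (d * ℓ), hmℓ⟩ : modularFunctionFieldBar (N * ℓ)) :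
      LaurentSeries Kbar) = s37_ew_s (d * 1)
    rw [hW d ℓ hd dvd_rfl hmℓ, Nat.div_self (Nat.pos_of_ne_zero hℓ0)]
  exact ⟨W, fun x => DFunLike.congr_fun h1 x, fun x => DFunLike.congr_fun h2 x⟩

end Fermat.Agent.S37
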