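import Mathlib
import Fermat.Prelude.Def_AlgebraicCurve_DivisorPushPull
import Fermat.Agent.S24.Fiber

/-!
# S37, block H, piece (H1): principal divisors have degree zero (helper18)

For a function field `F` of one variable over an algebraically closed field `K` of characteristic
zero, every non-zero `f : F` has a divisor, of degree zero: `AlgebraicCurve.HasPrincipalDivisors`.
(From the fibre count `Fermat.Agent.S24.sum_ord_zeros` applied to `f` and `f⁻¹`.)
-/

set_option autoImplicit false
set_option linter.unusedSectionVars false
set_option linter.style.haveILetI false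

namespace Fermat.Agent.S37

open AlgebraicCurve
open scoped IntermediateField

variable {K F : Type*} [Field K] [IsAlgClosed K] [Field F] [Algebra K F]

/-- Elements algebraic over an algebraically closed field of constants are constants. -/
theorem s37_h_mem_range_of_isAlgebraic (f : F) (hf : IsAlgebraic K f) :
    f ∈ (algebraMap K F).range :=
  minpoly.mem_range_of_degree_eq_one K f
    (IsAlgClosed.degree_eq_one_of_irreducible K (minpoly.irreducible hf.isIntegral))

/-- Constants have order zero at every place. -/
theorem s37_h_ord_eq_zero_of_isAlgebraic (f : F) (hf : IsAlgebraic K f) (v : Place K F) :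
    v.ord f = 0 := by
  obtain ⟨c, rfl⟩ := s37_h_mem_range_of_isAlgebraic f hf
  exact Fermat.Agent.S24.ord_algebraMap v c

/-- `K(f⁻¹) = K(f)`. -/
theorem s37_h_adjoin_inv (f : F) : K⟮f⁻¹⟯ = K⟮f⟯ := by
  apply le_antisymm
  · rw [IntermediateField.adjoin_simple_le_iff]
    exact inv_mem (IntermediateField.mem_adjoin_simple_self K f)
  · rw [IntermediateField.adjoin_simple_le_iff]
    have h := inv_mem (IntermediateField.mem_adjoin_simple_self K f⁻¹)
    rwa [inv_inv] at h

theorem s37_h_transcendental_inv (f : F) (hf : Transcendental K f) : Transcendental K f⁻¹ := by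
  intro halg
  apply hf
  have h := halg.inv
  rwa [inv_inv] at h

variable [CharZero K]

/-- (H1) Every non-zero function has a divisor, of degree zero. -/
theorem s37_h_hasPrincipalDivisors (x : F) (hx : Transcendental K x) [FiniteDimensional K⟮x⟯ F] :
    HasPrincipalDivisors K F := by
  classical
  refine ⟨fun f hf0 => ?_⟩
  by_cases hf : Transcendental K f
  · have hfinv : Transcendental K f⁻¹ := s37_h_transcendental_inv f hf
    haveI h1 : FiniteDimensional K⟮f⟯ F :=
      Fermat.Agent.S24.finiteDimensional_adjoin_of_transcendental x hx f hf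
    haveI h2 : FiniteDimensional K⟮f⁻¹⟯ F :=
      Fermat.Agent.S24.finiteDimensional_adjoin_of_transcendental x hx f⁻¹ hfinv
    have hZ := Fermat.Agent.S24.finite_zeros f hf
    have hP := Fermat.Agent.S24.finite_zeros f⁻¹ hfinv
    have hsZ := Fermat.Agent.S24.sum_ord_zeros f hf
    have hsP := Fermat.Agent.S24.sum_ord_zeros f⁻¹ hfinv
    have hdeg : Module.finrank K⟮f⁻¹⟯ F = Module.finrank K⟮f⟯ F := by
      rw [s37_h_adjoin_inv f]
    rw [finsum_mem_eq_finite_toFinset_sum _ hZ] at hsZ
    rw [finsum_mem_eq_finite_toFinset_sum _ hP, hdeg] at hsP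
    have hsupp : (Function.support fun v : Place K F => v.ord f).Finite := by
      refine (hZ.union hP).subset ?_
      intro v hv
      simp only [Function.mem_support] at hv
      rcases lt_or_gt_of_ne hv with h | h
      · right
        show 0 < v.ord f⁻¹
        rw [v.ord_inv]
        omega
      · left
        exact h
    refine ⟨Finsupp.ofSupportFinite _ hsupp, fun v => rfl, ?_⟩
    have hdeg1 : ∀ v : Place K F, (v.deg : ℤ) = 1 := fun v => by
      rw [Fermat.Agent.S24.deg_eq_one x hx v]
      rfl
    have hsuppeq : (Finsupp.ofSupportFinite _ hsupp).support = hZ.toFinset ∪ hP.toFinset := by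
      ext v
      simp only [Finsupp.mem_support_iff, Finsupp.ofSupportFinite_coe, Finset.mem_union,
        Set.Finite.mem_toFinset, Set.mem_ofPred_eq, v.ord_inv]
      omega
    have hdisj : Disjoint hZ.toFinset hP.toFinset := by
      rw [Finset.disjoint_left]
      intro v hv1 hv2
      simp only [Set.Finite.mem_toFinset, Set.mem_ofPred_eq, v.ord_inv] at hv1 hv2
      omega
    have hcalc : Divisor.degree (Finsupp.ofSupportFinite _ hsupp)
        = ∑ v ∈ (Finsupp.ofSupportFinite _ hsupp).support, v.ord f := by
      rw [Divisor.degree, Finsupp.liftAddHom_apply, Finsupp.sum]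
      refine Finset.sum_congr rfl (fun v _ => ?_)
      rw [AddMonoidHom.mulRight_apply, hdeg1 v, mul_one]
      rfl
    rw [hcalc, hsuppeq, Finset.sum_union hdisj, hsZ]
    have h3 : ∑ v ∈ hP.toFinset, v.ord f = -∑ v ∈ hP.toFinset, v.ord f⁻¹ := by
      rw [← Finset.sum_neg_distrib]
      refine Finset.sum_congr rfl (fun v _ => ?_)
      rw [v.ord_inv, neg_neg]
    rw [h3, hsP]
    ring
  · refine ⟨0, fun v => ?_, map_zero _⟩
    rw [Finsupp.zero_apply]
    exact (s37_h_ord_eq_zero_of_isAlgebraic f (not_not.mp hf) v).symm

end Fermat.Agent.S37
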