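import Mathlib
import Fermat.Agent.S37.HPrincipal
import Fermat.Agent.S24.PlaceBasic

/-!
# S37, block (ES-t), part 1 (helper15): the pole-counting lemma

`s37_et_pole` : let `F/K` be a function field of one variable over an algebraically closed field
of characteristic zero, `a b : F` exchanged by an automorphism `W`, with `[F : K(a)] = ℓ + 1`,
and let `P` be a place with `ord_P a = -1`, `ord_P b = -ℓ`.  Then `a` has exactly the two poles
`P` and `W • P`, and both are poles of `b`; consequently `a` and `b` are regular at the same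
places.
-/

set_option autoImplicit false
set_option linter.unusedSectionVars false
set_option linter.style.haveILetI false

namespace Fermat.Agent.S37

open AlgebraicCurve
open scoped IntermediateField

variable {K F : Type*} [Field K] [IsAlgClosed K] [CharZero K] [Field F] [Algebra K F]

/-- One direction of the pole-counting lemma: a pole of `a` is a pole of `b`. -/
theorem s37_et_pole_aux (x : F) (hx : Transcendental K x) [FiniteDimensional K⟮x⟯ F]
    (a b : F) (ha : Transcendental K a) (ℓ : ℕ) (hℓ : 2 ≤ ℓ)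
    (hdeg : Module.finrank K⟮a⟯ F = ℓ + 1)
    (W : F ≃ₐ[K] F) (hWa : W a = b) (hWb : W b = a)
    (P : Place K F) (hPa : P.ord a = -1) (hPb : P.ord b = -(ℓ : ℤ))
    (R : Place K F) (hR : a ∉ R.toValuationSubring) : b ∉ R.toValuationSubring := by
  classical
  have ha0 : a ≠ 0 := fun h => ha (h ▸ isAlgebraic_zero)
  have hai : Transcendental K a⁻¹ := s37_h_transcendental_inv a ha
  haveI : FiniteDimensional K⟮a⁻¹⟯ F :=
    Fermat.Agent.S24.finiteDimensional_adjoin_of_transcendental x hx a⁻¹ hai
  have hfin := Fermat.Agent.S24.finite_zeros a⁻¹ hai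
  have hsum := Fermat.Agent.S24.sum_ord_zeros a⁻¹ hai
  rw [finsum_mem_eq_finite_toFinset_sum _ hfin] at hsum
  have hdeg' : Module.finrank K⟮a⁻¹⟯ F = ℓ + 1 := by
    rw [← hdeg]
    congr 1 <;> first | rfl | (rw [s37_h_adjoin_inv])
  rw [hdeg'] at hsum
  -- the second pole
  set P₂ : Place K F := W • P with hP₂
  have hWsa : W.symm a = b := by rw [← hWb, AlgEquiv.symm_apply_apply]
  have hWsb : W.symm b = a := by rw [← hWa, AlgEquiv.symm_apply_apply]
  have h1 : P.ord a⁻¹ = 1 := by rw [P.ord_inv, hPa]; ring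
  have h2 : P₂.ord a⁻¹ = (ℓ : ℤ) := by
    rw [hP₂, Fermat.Agent.S24.ord_smul_place, map_inv₀, hWsa, P.ord_inv, hPb]; ring
  have h2b : P₂.ord b = -1 := by
    rw [hP₂, Fermat.Agent.S24.ord_smul_place, hWsb, hPa]
  have hPP₂ : P ≠ P₂ := by
    intro h
    rw [← h, h1] at h2
    have : (2 : ℤ) ≤ (ℓ : ℤ) := by exact_mod_cast hℓ
    omega
  -- `R` is a pole of `a`
  have hRa : 0 < R.ord a⁻¹ := by
    have := (Fermat.Agent.S24.mem_iff_ord_nonneg R a).not.mp hR
    rw [R.ord_inv]; omega
  -- `R` is one of the two poles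
  have hRP : R = P ∨ R = P₂ := by
    by_contra hcon
    push Not at hcon
    have hsub : ({P, P₂, R} : Finset (Place K F)) ⊆ hfin.toFinset := by
      intro v hv
      rw [Set.Finite.mem_toFinset]
      show 0 < v.ord a⁻¹
      simp only [Finset.mem_insert, Finset.mem_singleton] at hv
      rcases hv with rfl | rfl | rfl
      · rw [h1]; exact one_pos
      · rw [h2]; have : (2 : ℤ) ≤ (ℓ : ℤ) := by exact_mod_cast hℓ
        omega
      · exact hRa
    have hle := Finset.sum_le_sum_of_subset_of_nonneg (f := fun v : Place K F => v.ord a⁻¹) hsub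
      (fun v hv _ => le_of_lt (by
        rw [Set.Finite.mem_toFinset] at hv
        exact hv))
    rw [hsum, Finset.sum_insert (by
        simp only [Finset.mem_insert, Finset.mem_singleton, not_or]
        exact ⟨hPP₂, hcon.1.symm⟩),
      Finset.sum_insert (by
        simp only [Finset.mem_singleton]
        exact hcon.2.symm),
      Finset.sum_singleton, h1, h2] at hle
    push_cast at hle
    omega
  intro hb
  have hb' := (Fermat.Agent.S24.mem_iff_ord_nonneg R b).mp hb
  rcases hRP with rfl | rfl
  · rw [hPb] at hb'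
    have : (2 : ℤ) ≤ (ℓ : ℤ) := by exact_mod_cast hℓ
    omega
  · rw [h2b] at hb'
    omega

/-- **The pole-counting lemma**: `a` and `b` are regular at the same places. -/
theorem s37_et_pole (x : F) (hx : Transcendental K x) [FiniteDimensional K⟮x⟯ F]
    (a b : F) (ha : Transcendental K a) (ℓ : ℕ) (hℓ : 2 ≤ ℓ)
    (hdeg : Module.finrank K⟮a⟯ F = ℓ + 1)
    (W : F ≃ₐ[K] F) (hWa : W a = b) (hWb : W b = a)
    (P : Place K F) (hPa : P.ord a = -1) (hPb : P.ord b = -(ℓ : ℤ))
    (R : Place K F) : a ∈ R.toValuationSubring ↔ b ∈ R.toValuationSubring := by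
  constructor
  · -- `b ∉ O_R ⟹ a ∉ O_R`, by transport along `W`
    intro haR
    by_contra hbR
    -- the place `R' := W⁻¹ • R` has `ord_{R'} f = ord_R (W f)`
    set R' : Place K F := W.symm • R with hR'
    have hord : ∀ f : F, R'.ord f = R.ord (W f) := by
      intro f
      rw [hR', Fermat.Agent.S24.ord_smul_place, AlgEquiv.symm_symm]
    have h1 : a ∉ R'.toValuationSubring := by
      rw [Fermat.Agent.S24.mem_iff_ord_nonneg, hord, hWa,
        ← Fermat.Agent.S24.mem_iff_ord_nonneg]
      exact hbR
    have h2 := s37_et_pole_aux x hx a b ha ℓ hℓ hdeg W hWa hWb P hPa hPb R' h1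
    apply h2
    rw [Fermat.Agent.S24.mem_iff_ord_nonneg, hord, hWb, ← Fermat.Agent.S24.mem_iff_ord_nonneg]
    exact haR
  · intro hbR
    by_contra haR
    exact s37_et_pole_aux x hx a b ha ℓ hℓ hdeg W hWa hWb P hPa hPb R haR hbR

end Fermat.Agent.S37
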