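import Mathlib
import Fermat.Agent.S37.EtPole
import Fermat.Agent.S18.NormDescent
import Fermat.Agent.S18.HauptField
import Fermat.Prelude.Def_ModularCurve_HeckeOperator

/-!
# S37, block (ES-t), part 2 (helper15): poles of `G(q)` and `G(q^ℓ)` on `X₀(N₀ℓ)`

* `s37_et_qPlace` : the place "order of the `q`-expansion" of `Q̄ · F_N`;
* `s37_et_bar_le` : `Q̄ · F_N` is generated by the `j(q^d)`, `d ∣ N`;
* `s37_et_pole_mod` : if `Q̄ · F_{N₀} = Q̄(G)` with `G = q⁻¹ + …`, and the Atkin–Lehner swap `W`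
  of level `(N₀, ℓ)` exists, then `G(q)` and `G(q^ℓ)` are regular at the same places of
  `Q̄ · F_{N₀ℓ}`;
* the generators `j` (level `1`), `t₂` (level `2`), `t₃` (level `3`).
-/

set_option autoImplicit false
set_option synthInstance.maxHeartbeats 400000
set_option linter.unusedSectionVars false
set_option linter.style.haveILetI false

namespace Fermat.Agent.S37

open AlgebraicCurve ModularCurve
open Fermat.Agent.S18 Fermat.Agent.S24
open scoped IntermediateField

noncomputable section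

local notation "Qb" => AlgebraicClosure ℚ

/-- A series with leading term `q⁻ⁿ` is non-zero of order `-n`. -/
theorem s37_et_order_of_lead {R : Type*} [CommRing R] [Nontrivial R] {n : ℤ}
    {x : LaurentSeries R} (hx : s18h_lead n x) : x ≠ 0 ∧ x.order = -n := by
  have h1 : x.coeff (-n) = 1 := s18h_lead_coeff hx (-n) rfl
  have hx0 : x ≠ 0 := by
    rintro rfl
    rw [HahnSeries.coeff_zero] at h1
    exact zero_ne_one h1
  refine ⟨hx0, le_antisymm (HahnSeries.order_le_of_coeff_ne_zero (by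
    rw [h1]; exact one_ne_zero)) ?_⟩
  by_contra hlt
  push Not at hlt
  exact hx0 (HahnSeries.coeff_order_eq_zero.mp (s18h_lead_coeff_lt hx _ hlt))

/-- The place of `Q̄ · F_N` given by the order of the `q`-expansion. -/
theorem s37_et_qPlace (N : ℕ) [NeZero N] :
    ∃ P : Place Qb (modularFunctionFieldBar N), ∀ f : modularFunctionFieldBar N, f ≠ 0 →
      P.ord f = (f : LaurentSeries Qb).order := by
  have hjlead : s18h_lead 1 ((jF N : modularFunctionFieldBar N) : LaurentSeries Qb) := by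
    rw [jtrans_coe_jF]
    exact s18h_lead_jq
  obtain ⟨hj0, hjord⟩ := s37_et_order_of_lead hjlead
  have hjF0 : jF N ≠ 0 := fun h => hj0 (by rw [h]; rfl)
  obtain ⟨v, e, he, hv⟩ := Fermat.Agent.S24.exists_place_of_ord (K := Qb)
    (F := modularFunctionFieldBar N)
    (fun f => (f : LaurentSeries Qb).order)
    (fun f g hf hg => by
      show ((f : LaurentSeries Qb) * (g : LaurentSeries Qb)).order = _
      exact HahnSeries.order_mul (fun h => hf (Subtype.ext h)) (fun h => hg (Subtype.ext h)))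
    (fun f g hf hg hfg => by
      show _ ≤ ((f : LaurentSeries Qb) + (g : LaurentSeries Qb)).order
      exact HahnSeries.min_order_le_order_add (fun h => hfg (Subtype.ext h)))
    (fun c hc => by
      show (algebraMap Qb (LaurentSeries Qb) c).order = 0
      rw [algebraMap_laurentSeries_eq_single]
      exact HahnSeries.order_single hc)
    ⟨jF N, hjF0, by
      show ((jF N : modularFunctionFieldBar N) : LaurentSeries Qb).order ≠ 0
      rw [hjord]; norm_num⟩
  have he1 : e = 1 := by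
    have h1 := hv (jF N) hjF0
    have h2 : ((jF N : modularFunctionFieldBar N) : LaurentSeries Qb).order = e * v.ord (jF N) :=
      h1
    rw [hjord] at h2
    have h3 : e ∣ 1 := ⟨-v.ord (jF N), by linarith⟩
    exact Int.eq_one_of_dvd_one he.le h3
  refine ⟨v, fun f hf => ?_⟩
  have h1 := hv f hf
  have h2 : (f : LaurentSeries Qb).order = e * v.ord f := h1
  rw [h2, he1, one_mul]

/-- `Q̄ · F_N` is generated over `Q̄` by the series `j(q^d)`, `d ∣ N`. -/
theorem s37_et_bar_le (N : ℕ) (E : IntermediateField Qb (LaurentSeries Qb))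
    (h : ∀ (d : ℕ) [NeZero d], d ∣ N → qExpand Qb d (jqModC Qb) ∈ E) :
    modularFunctionFieldBar N ≤ E := by
  have hj : coeffEmb Qb jq = jqModC Qb := jtrans_coe_jF 1
  have key : ∀ x ∈ IntermediateField.adjoin ℚ (divisorExpansions N), coeffEmb Qb x ∈ E := by
    intro x hx
    induction hx using IntermediateField.adjoin_induction with
    | mem y hy =>
        obtain ⟨d, hd, hdN, rfl⟩ := hy
        have e1 : coeffEmb Qb (qExpand ℚ d jq) = qExpand Qb d (jqModC Qb) := by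
          rw [← hj]
          exact coeffMap_qExpand _ d jq
        rw [e1]
        exact h d hdN
    | algebraMap r =>
        have e1 : coeffEmb Qb (algebraMap ℚ (LaurentSeries ℚ) r) =
            algebraMap Qb (LaurentSeries Qb) (algebraMap ℚ Qb r) := by
          rw [algebraMap_laurentSeries_eq_single, algebraMap_laurentSeries_eq_single]
          exact coeffMap_single _ _ _
        rw [e1]
        exact E.algebraMap_mem _
    | add x y _ _ hx hy =>
        rw [map_add]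
        exact add_mem hx hy
    | inv x _ hx =>
        rw [map_inv₀]
        exact inv_mem hx
    | mul x y _ _ hx hy =>
        rw [map_mul]
        exact mul_mem hx hy
  show IntermediateField.adjoin Qb _ ≤ E
  rw [IntermediateField.adjoin_le_iff]
  rintro _ ⟨x, hx, rfl⟩
  exact key x hx

/-- `[Q̄ · F_{N₀ℓ} : Q̄(G)] = ℓ + 1` if `Q̄ · F_{N₀} = Q̄(G)`. -/
theorem s37_et_finrank (N₀ ℓ : ℕ) [NeZero N₀] (hℓ : ℓ.Prime) (hℓN : ¬ ℓ ∣ N₀)
    (G : LaurentSeries Qb) (hG : Qb⟮G⟯ = modularFunctionFieldBar N₀)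
    (a : modularFunctionFieldBar (N₀ * ℓ)) (ha : (a : LaurentSeries Qb) = G) :
    Module.finrank Qb⟮a⟯ (modularFunctionFieldBar (N₀ * ℓ)) = ℓ + 1 := by
  have h1 : (Qb⟮a⟯ : IntermediateField Qb (modularFunctionFieldBar (N₀ * ℓ)))
      = (Qb⟮G⟯).comap (modularFunctionFieldBar (N₀ * ℓ)).val := by
    have h2 : (Qb⟮a⟯ : IntermediateField Qb (modularFunctionFieldBar (N₀ * ℓ))).map
        (modularFunctionFieldBar (N₀ * ℓ)).val = Qb⟮G⟯ := by
      rw [IntermediateField.adjoin_map, Set.image_singleton, ← ha]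
      rfl
    rw [← h2, IntermediateField.comap_map]
  have h3 := IntermediateField.finrank_comap (A := Qb⟮G⟯)
    (modularFunctionFieldBar (N₀ * ℓ)).val
  rw [IntermediateField.fieldRange_val, ← h1] at h3
  rw [h3, hG]
  exact s18_d5_relfinrank_mul_prime N₀ ℓ hℓ hℓN

/-- **Poles of `G(q)` and `G(q^ℓ)`**: if `Q̄ · F_{N₀} = Q̄(G)` with `G = q⁻¹ + …` and the swap
`W` of level `(N₀, ℓ)` exists, then `G(q)` and `G(q^ℓ)` are regular at the same places of
`Q̄ · F_{N₀ℓ}`. -/
theorem s37_et_pole_mod (N₀ ℓ : ℕ) [NeZero N₀] [NeZero ℓ] (hℓ : ℓ.Prime) (hℓN : ¬ ℓ ∣ N₀)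
    (hW : ∃ W : modularFunctionFieldBar (N₀ * ℓ) ≃ₐ[Qb] modularFunctionFieldBar (N₀ * ℓ),
      (∀ x, W (heckeAlphaBar Qb N₀ ℓ x) = heckeBetaBar Qb N₀ ℓ x) ∧
      (∀ x, W (heckeBetaBar Qb N₀ ℓ x) = heckeAlphaBar Qb N₀ ℓ x))
    (G : modularFunctionFieldBar N₀)
    (hG : Qb⟮(G : LaurentSeries Qb)⟯ = modularFunctionFieldBar N₀)
    (hlead : s18h_lead 1 (G : LaurentSeries Qb))
    (R : Place Qb (modularFunctionFieldBar (N₀ * ℓ))) :
    heckeAlphaBar Qb N₀ ℓ G ∈ R.toValuationSubring ↔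
      heckeBetaBar Qb N₀ ℓ G ∈ R.toValuationSubring := by
  haveI : NeZero (N₀ * ℓ) := ⟨Nat.mul_ne_zero (NeZero.ne N₀) (NeZero.ne ℓ)⟩
  haveI := (asm_generic (N₀ * ℓ)).1
  obtain ⟨W, hWa, hWb⟩ := hW
  obtain ⟨P, hP⟩ := s37_et_qPlace (N₀ * ℓ)
  set a := heckeAlphaBar Qb N₀ ℓ G with ha
  set b := heckeBetaBar Qb N₀ ℓ G with hb
  have hacoe : (a : LaurentSeries Qb) = (G : LaurentSeries Qb) := coe_heckeAlphaBar N₀ ℓ G
  have hbcoe : (b : LaurentSeries Qb) = qExpand Qb ℓ (G : LaurentSeries Qb) :=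
    coe_heckeBetaBar N₀ ℓ G
  obtain ⟨ha0, haord⟩ := s37_et_order_of_lead hlead
  have hblead : s18h_lead ((ℓ : ℤ) * 1) (qExpand Qb ℓ (G : LaurentSeries Qb)) :=
    s18h_lead_qExpand ℓ hlead
  obtain ⟨hb0, hbord⟩ := s37_et_order_of_lead hblead
  have ha0' : a ≠ 0 := fun h => ha0 (by rw [← hacoe, h]; rfl)
  have hb0' : b ≠ 0 := fun h => hb0 (by rw [← hbcoe, h]; rfl)
  have hPa : P.ord a = -1 := by rw [hP a ha0', hacoe, haord]
  have hPb : P.ord b = -(ℓ : ℤ) := by rw [hP b hb0', hbcoe, hbord, mul_one]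
  have hatr : Transcendental Qb a := by
    intro halg
    have h0 := s37_h_ord_eq_zero_of_isAlgebraic a halg P
    rw [hPa] at h0
    omega
  exact s37_et_pole (jF (N₀ * ℓ)) (transcendental_jF (N₀ * ℓ)) a b hatr ℓ hℓ.two_le
    (s37_et_finrank N₀ ℓ hℓ hℓN (G : LaurentSeries Qb) hG a hacoe) W (hWa G) (hWb G) P hPa hPb R

/-- `Q̄ · F_1 = Q̄(j)`. -/
theorem s37_et_gen_j : Qb⟮jqModC Qb⟯ = modularFunctionFieldBar 1 := by
  apply le_antisymm (s18_d5_j_le 1)
  have h := s18_d5_relfinrank_j 1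
  rw [dedekindPsi_one] at h
  exact IntermediateField.relfinrank_eq_one_iff.mp h

/-- `t₂ ∈ Q̄ · F_N` for `2 ∣ N`. -/
theorem s37_et_t2_mem (N : ℕ) [NeZero N] (hN : 2 ∣ N) :
    s18_t2R Qb ∈ modularFunctionFieldBar N := by
  have h := coeffEmb_mem_laurentBaseChange Qb (s18_t2Q_mem N hN)
  have e : coeffEmb Qb (s18_t2R ℚ) = s18_t2R Qb := s18_coeffMap_t2R _
  rwa [e] at h

/-- `t₃ ∈ Q̄ · F_N` for `3 ∣ N`. -/
theorem s37_et_t3_mem (N : ℕ) [NeZero N] (hN : 3 ∣ N) :
    s18_t3R Qb ∈ modularFunctionFieldBar N := by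
  have h := coeffEmb_mem_laurentBaseChange Qb (s18_t3Q_mem N hN)
  have e : coeffEmb Qb (s18_t3R ℚ) = s18_t3R Qb := s18_coeffMap_t3R _
  rwa [e] at h

/-- `Q̄ · F_2 = Q̄(t₂)`. -/
theorem s37_et_gen_t2 : Qb⟮s18_t2R Qb⟯ = modularFunctionFieldBar 2 := by
  apply le_antisymm
  · rw [IntermediateField.adjoin_simple_le_iff]
    exact s37_et_t2_mem 2 (dvd_refl 2)
  · have ht : s18_t2R Qb ∈ Qb⟮s18_t2R Qb⟯ := IntermediateField.mem_adjoin_simple_self Qb _
    have hti : s18_t2invR Qb ∈ Qb⟮s18_t2R Qb⟯ := by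
      rw [s18_t2invR_eq_inv]
      exact inv_mem ht
    have hc : ∀ n : ℕ, (n : LaurentSeries Qb) ∈ Qb⟮s18_t2R Qb⟯ := fun n => natCast_mem _ n
    refine s37_et_bar_le 2 _ (fun d _ hd => ?_)
    rcases (Nat.dvd_prime Nat.prime_two).mp hd with rfl | rfl
    · rw [qExpand_one_apply, s18_t2R_j_eq]
      exact mul_mem (pow_mem (add_mem ht (by exact_mod_cast hc 256)) 3) (pow_mem hti 2)
    · rw [s18_t2R_j2_eq]
      exact mul_mem (pow_mem (add_mem ht (by exact_mod_cast hc 16)) 3) hti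

/-- `Q̄ · F_3 = Q̄(t₃)`. -/
theorem s37_et_gen_t3 : Qb⟮s18_t3R Qb⟯ = modularFunctionFieldBar 3 := by
  apply le_antisymm
  · rw [IntermediateField.adjoin_simple_le_iff]
    exact s37_et_t3_mem 3 (dvd_refl 3)
  · have ht : s18_t3R Qb ∈ Qb⟮s18_t3R Qb⟯ := IntermediateField.mem_adjoin_simple_self Qb _
    have hti : s18_t3invR Qb ∈ Qb⟮s18_t3R Qb⟯ := by
      rw [s18_t3invR_eq_inv]
      exact inv_mem ht
    have hc : ∀ n : ℕ, (n : LaurentSeries Qb) ∈ Qb⟮s18_t3R Qb⟯ := fun n => natCast_mem _ n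
    refine s37_et_bar_le 3 _ (fun d _ hd => ?_)
    rcases (Nat.dvd_prime Nat.prime_three).mp hd with rfl | rfl
    · rw [qExpand_one_apply, s18_t3R_j_eq]
      exact mul_mem (mul_mem (add_mem ht (by exact_mod_cast hc 27))
        (pow_mem (add_mem ht (by exact_mod_cast hc 243)) 3)) (pow_mem hti 3)
    · rw [s18_t3R_j3_eq]
      exact mul_mem (mul_mem (add_mem ht (by exact_mod_cast hc 27))
        (pow_mem (add_mem ht (by exact_mod_cast hc 3)) 3)) hti

end

end Fermat.Agent.S37
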