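import Fermat.Agent.S37.HLocal
import Fermat.Agent.S37.HSum

/-!
# S37, block H, piece (H3): the norm formula `ord_v (N f) = ∑_{w ∣ v} ord_w f` (helper18)
-/

set_option autoImplicit false
set_option linter.unusedSectionVars false
set_option linter.style.haveILetI false

namespace Fermat.Agent.S37

open AlgebraicCurve IsDedekindDomain
open scoped IntermediateField

section NormAbs

variable {K F F' : Type*} [Field K] [Field F] [Field F'] [Algebra K F] [Algebra K F']
  [Algebra F F'] [IsScalarTower K F F'] [Algebra.IsIntegral F F'] [HasPrincipalDivisors K F']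
  (v : Place K F)
  (S : Type*) [CommRing S] [IsDedekindDomain S] [Algebra S F'] [IsFractionRing S F']
  [Algebra K S] [IsScalarTower K S F']
  [Algebra v.toValuationSubring S] [IsScalarTower v.toValuationSubring S F']
  [IsScalarTower K v.toValuationSubring S]
  [IsIntegralClosure S v.toValuationSubring F'] [Module.Finite v.toValuationSubring S]
  [Module.IsTorsionFree v.toValuationSubring S]
  [PerfectField (FractionRing v.toValuationSubring)]

include K F' in
/-- The relative norm of an ideal of `S` is the power of the maximal ideal of `O_v` given by the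
number of its prime factors. -/
theorem s37_h_relNorm_eq_pow [Fintype (HeightOneSpectrum S)]
    (hres : ∀ (w : Place K F') (f : F'), f ∈ w.toValuationSubring →
      ∃ c : K, f - algebraMap K F' c ∈ w.toValuationSubring.nonunits)
    (I : Ideal S) (hI : I ≠ ⊥) :
    Ideal.relNorm v.toValuationSubring I = (IsLocalRing.maximalIdeal v.toValuationSubring) ^
      (∑ q : HeightOneSpectrum S,
        Multiset.count q.asIdeal (UniqueFactorizationMonoid.normalizedFactors I)) := by
  classical
  induction I using UniqueFactorizationMonoid.induction_on_prime with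
  | h₁ => exact absurd rfl hI
  | h₂ x hx =>
    have hx' : x = ⊤ := Ideal.isUnit_iff.mp hx
    subst hx'
    rw [Ideal.relNorm_top, UniqueFactorizationMonoid.normalizedFactors_of_isUnit hx]
    simp
  | h₃ a Q ha hQ ih =>
    have hQ0 : Q ≠ ⊥ := hQ.ne_zero
    have hQp : Q.IsPrime := (Ideal.prime_iff_isPrime hQ0).mp hQ
    let q₀ : HeightOneSpectrum S := ⟨Q, hQp, hQ0⟩
    haveI : Q.LiesOver (IsLocalRing.maximalIdeal v.toValuationSubring) :=
      s37_h_loc_liesOver (K := K) (F' := F') v S q₀
    haveI : Q.IsMaximal := hQp.isMaximal hQ0
    have h1 : Ideal.relNorm v.toValuationSubring Q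
        = (IsLocalRing.maximalIdeal v.toValuationSubring) ^ 1 := by
      rw [Ideal.relNorm_eq_pow_of_isMaximal Q (IsLocalRing.maximalIdeal v.toValuationSubring)]
      congr 1
      exact s37_h_loc_inertiaDeg (K := K) (F' := F') v S hres q₀
    rw [map_mul, h1, ih ha, ← pow_add, UniqueFactorizationMonoid.normalizedFactors_mul hQ0 ha,
      UniqueFactorizationMonoid.normalizedFactors_irreducible hQ.irreducible, normalize_eq]
    congr 1
    simp only [Multiset.count_add, Finset.sum_add_distrib]
    congr 1
    rw [Finset.sum_eq_single q₀]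
    · simp [q₀]
    · intro q _ hq
      rw [Multiset.count_singleton, if_neg]
      intro h
      exact hq (HeightOneSpectrum.ext h)
    · intro h
      exact absurd (Finset.mem_univ _) h

/-- The norm formula for elements of the integral closure. -/
theorem s37_h_norm_abs
    (hres : ∀ (w : Place K F') (f : F'), f ∈ w.toValuationSubring →
      ∃ c : K, f - algebraMap K F' c ∈ w.toValuationSubring.nonunits)
    [FiniteDimensional F F'] (x : S) (hx : x ≠ 0) :
    v.ord (Algebra.norm F (algebraMap S F' x)) = ∑ w ∈ v.fiber F', w.ord (algebraMap S F' x) := by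
  classical
  haveI : Finite (HeightOneSpectrum S) := s37_h_loc_finite (K := K) (F' := F') v S
  haveI : Fintype (HeightOneSpectrum S) := Fintype.ofFinite _
  rw [s37_h_loc_sum_fiber v S]
  have h1 : ∀ q : HeightOneSpectrum S, (s37_h_place K (F := F') q).ord (algebraMap S F' x)
      = (Multiset.count q.asIdeal (UniqueFactorizationMonoid.normalizedFactors
        (Ideal.span {x})) : ℤ) := fun q => s37_h_place_ord_eq_count K q x hx
  rw [Finset.sum_congr rfl (fun q _ => h1 q), ← Nat.cast_sum]
  have hspan : Ideal.span {x} ≠ ⊥ := by
    rw [Ne, Ideal.span_singleton_eq_bot]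
    exact hx
  have h2 := s37_h_relNorm_eq_pow (K := K) (F' := F') v S hres (Ideal.span {x}) hspan
  rw [Ideal.relNorm_singleton] at h2
  obtain ⟨π, hπ⟩ := IsDiscreteValuationRing.exists_irreducible v.toValuationSubring
  rw [hπ.maximalIdeal_eq, Ideal.span_singleton_pow, Ideal.span_singleton_eq_span_singleton] at h2
  obtain ⟨u, hu⟩ := h2.symm
  have h3 : algebraMap v.toValuationSubring F (Algebra.intNorm v.toValuationSubring S x)
      = Algebra.norm F (algebraMap S F' x) := Algebra.algebraMap_intNorm (L := F') x
  rw [← h3, ← hu]
  have hπ0 : (π : F) ≠ 0 := fun h0 => hπ.ne_zero (Subtype.ext h0)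
  have hu0 : ((u : v.toValuationSubring) : F) ≠ 0 := fun h0 => u.ne_zero (Subtype.ext h0)
  have h4 : ∀ m : ℕ, algebraMap v.toValuationSubring F (π ^ m * (u : v.toValuationSubring))
      = (π : F) ^ m * ((u : v.toValuationSubring) : F) := fun m => by
    rw [map_mul, map_pow]
    rfl
  rw [h4, v.ord_mul (pow_ne_zero _ hπ0) hu0, Fermat.Agent.S24.ord_pow, v.ord_coe_irreducible hπ,
    v.ord_coe_unit, mul_one, add_zero]

end NormAbs

section NormConcrete

variable {K F F' : Type*} [Field K] [Field F] [Field F'] [Algebra K F] [Algebra K F']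
  [Algebra F F'] [IsScalarTower K F F'] [IsAlgClosed K] [CharZero K] [HasPrincipalDivisors K F']

/-- The norm formula: `ord_v (N f) = ∑_{w ∣ v} ord_w f`. -/
theorem s37_h_ord_norm (x : F) (hx : Transcendental K x) [FiniteDimensional K⟮x⟯ F]
    [FiniteDimensional F F'] (v : Place K F) (f : F') (hf : f ≠ 0) :
    v.ord (Algebra.norm F f) = ∑ w ∈ v.fiber F', w.ord f := by
  have hx' : Transcendental K (algebraMap F F' x) :=
    (transcendental_algebraMap_iff (algebraMap F F').injective).mpr hx
  haveI := s37_h_finiteDimensional_map (K := K) (F' := F') x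
  haveI : CharZero F := charZero_of_injective_algebraMap (algebraMap K F).injective
  letI := s37_h_locAlgebra F' v
  haveI := s37_h_loc_isScalarTower_left F' v
  haveI := s37_h_loc_isScalarTower_right F' v
  haveI := s37_h_loc_isDedekindDomain F' v
  haveI := s37_h_loc_isFractionRing F' v
  haveI := s37_h_loc_moduleFinite F' v
  haveI : CharZero v.toValuationSubring :=
    charZero_of_injective_algebraMap (algebraMap K v.toValuationSubring).injective
  haveI : CharZero (FractionRing v.toValuationSubring) :=
    charZero_of_injective_algebraMap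
      (IsFractionRing.injective v.toValuationSubring (FractionRing v.toValuationSubring))
  have hres : ∀ (w : Place K F') (f : F'), f ∈ w.toValuationSubring →
      ∃ c : K, f - algebraMap K F' c ∈ w.toValuationSubring.nonunits := fun w f hf =>
    Fermat.Agent.S24.exists_const_sub_mem_nonunits (algebraMap F F' x) hx' w f hf
  haveI := s37_h_loc_isTorsionFree F' v
  obtain ⟨a, b, hb, hfab⟩ :=
    IsFractionRing.div_surjective (A := integralClosure v.toValuationSubring F') f
  have hb0 : b ≠ 0 := nonZeroDivisors.ne_zero hb
  have hinj : Function.Injective (algebraMap (integralClosure v.toValuationSubring F') F') :=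
    IsFractionRing.injective _ _
  have hb0' : algebraMap (integralClosure v.toValuationSubring F') F' b ≠ 0 := by
    rw [Ne, map_eq_zero_iff _ hinj]
    exact hb0
  have hmul : f * algebraMap (integralClosure v.toValuationSubring F') F' b
      = algebraMap (integralClosure v.toValuationSubring F') F' a := by
    rw [← hfab, div_mul_cancel₀ _ hb0']
  have ha0' : algebraMap (integralClosure v.toValuationSubring F') F' a ≠ 0 := by
    rw [← hmul]
    exact mul_ne_zero hf hb0'
  have ha0 : a ≠ 0 := by
    rintro rfl
    exact ha0' (map_zero _)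
  have hnf : Algebra.norm F f ≠ 0 := Algebra.norm_ne_zero_iff.mpr hf
  have hnb : Algebra.norm F (algebraMap (integralClosure v.toValuationSubring F') F' b) ≠ 0 :=
    Algebra.norm_ne_zero_iff.mpr hb0'
  have h1 : v.ord (Algebra.norm F f)
      + v.ord (Algebra.norm F (algebraMap (integralClosure v.toValuationSubring F') F' b))
      = v.ord (Algebra.norm F (algebraMap (integralClosure v.toValuationSubring F') F' a)) := by
    rw [← v.ord_mul hnf hnb, ← map_mul, hmul]
  have h2 : ∀ w : Place K F', w.ord f
      + w.ord (algebraMap (integralClosure v.toValuationSubring F') F' b)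
      = w.ord (algebraMap (integralClosure v.toValuationSubring F') F' a) := fun w => by
    rw [← w.ord_mul hf hb0', hmul]
  have h3 := s37_h_norm_abs v _ hres a ha0
  have h4 := s37_h_norm_abs v _ hres b hb0
  have h5 : ∑ w ∈ v.fiber F', w.ord f
      = ∑ w ∈ v.fiber F', w.ord (algebraMap (integralClosure v.toValuationSubring F') F' a)
        - ∑ w ∈ v.fiber F', w.ord (algebraMap (integralClosure v.toValuationSubring F') F' b) := by
    rw [← Finset.sum_sub_distrib]
    refine Finset.sum_congr rfl (fun w _ => ?_)
    have := h2 w
    omega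
  rw [h5, ← h3, ← h4]
  omega

/-- (H3) The norm formula for the push-forward of principal divisors. -/
theorem s37_h_pushforwardNormFormula (x : F) (hx : Transcendental K x) [FiniteDimensional K⟮x⟯ F]
    [FiniteDimensional F F'] : Divisor.PushforwardNormFormula K F F' := by
  classical
  intro f hf D hD v
  rw [Divisor.pushforward_apply, s37_h_ord_norm x hx v f hf, ← Finset.sum_filter]
  have h1 : ∑ w ∈ v.fiber F', w.ord f
      = ∑ w ∈ (v.fiber F').filter (fun w => w ∈ D.support), w.ord f := by
    symm
    refine Finset.sum_filter_of_ne (fun w _ hw => ?_)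
    rw [Finsupp.mem_support_iff, hD w]
    exact hw
  rw [h1]
  refine Finset.sum_congr ?_ (fun w _ => ?_)
  · ext w
    simp only [Finset.mem_filter, Place.mem_fiber]
    tauto
  · rw [hD w, s37_h_inertiaDeg_eq_one x hx w]
    simp

end NormConcrete

end Fermat.Agent.S37
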