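import Fermat.Agent.S37.HPrincipal
import Fermat.Agent.S37.HFundamental
import Fermat.Agent.S37.HNorm
import Fermat.Prelude.Def_ModularCurve_HeckeOperatorTotal
import Fermat.Agent.S24

/-!
# S37, block H, piece (H4): the inputs of the Hecke correspondence (helper18)

`ModularCurve.HeckeInputsAlong (AlgebraicClosure ℚ) N ℓ` holds unconditionally: both degeneracy maps
`α` (inclusion) and `β` (`q ↦ q^ℓ`) are finite, the function field of level `N ℓ` has principal
divisors of degree zero, and the fundamental identity and the norm formula hold.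
-/

set_option autoImplicit false
set_option linter.unusedSectionVars false
set_option linter.style.haveILetI false

namespace Fermat.Agent.S37

open AlgebraicCurve IsDedekindDomain ModularCurve
open scoped IntermediateField

section Generic

variable {K F F' : Type*} [Field K] [Field F] [Field F'] [Algebra K F] [Algebra K F']

/-- If `F'` is finite over `K(x')` for the image `x'` of some `x : F`, it is finite over `F`. -/
theorem s37_h_finite_of_adjoin [Algebra F F'] [IsScalarTower K F F'] (x : F)
    [FiniteDimensional K⟮algebraMap F F' x⟯ F'] : Module.Finite F F' := by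
  have hmap : (K⟮x⟯).map (IsScalarTower.toAlgHom K F F') = K⟮algebraMap F F' x⟯ := by
    rw [IntermediateField.adjoin_map, Set.image_singleton]
    rfl
  let e : K⟮x⟯ ≃+* K⟮algebraMap F F' x⟯ :=
    ((K⟮x⟯).equivMap (IsScalarTower.toAlgHom K F F')).toRingEquiv.trans
      (IntermediateField.equivOfEq hmap).toRingEquiv
  haveI : Module.Finite K⟮x⟯ F' := by
    refine Module.Finite.of_equiv_equiv e.symm (RingEquiv.refl F') ?_
    ext y
    have := congrArg (algebraMap K⟮algebraMap F F' x⟯ F') (e.apply_symm_apply y)
    exact this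
  exact Module.Finite.of_restrictScalars_finite K⟮x⟯ F F'

variable [IsAlgClosed K] [CharZero K]

/-- Any `K`-algebra homomorphism between function fields of one variable is finite. -/
theorem s37_h_finiteAlong (φ : F →ₐ[K] F') (x : F) (hx : Transcendental K x) (x' : F')
    (hx' : Transcendental K x') [FiniteDimensional K⟮x'⟯ F'] : FiniteAlong K φ := by
  letI := algebraAlong φ
  haveI := isScalarTower_along φ
  have h1 : Transcendental K (algebraMap F F' x) :=
    (transcendental_algebraMap_iff (algebraMap F F').injective).mpr hx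
  haveI : FiniteDimensional K⟮algebraMap F F' x⟯ F' :=
    Fermat.Agent.S24.finiteDimensional_adjoin_of_transcendental x' hx' _ h1
  exact s37_h_finite_of_adjoin (K := K) x

/-- ... and integral. -/
theorem s37_h_isIntegral_along (φ : F →ₐ[K] F') (x : F) (hx : Transcendental K x) (x' : F')
    (hx' : Transcendental K x') [FiniteDimensional K⟮x'⟯ F'] : φ.toRingHom.IsIntegral := by
  letI := algebraAlong φ
  haveI : Module.Finite F F' := s37_h_finiteAlong φ x hx x' hx'
  intro y
  exact Algebra.IsIntegral.isIntegral (R := F) y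

/-- The fundamental identity along a homomorphism. -/
theorem s37_h_fundamentalIdentityAlong [HasPrincipalDivisors K F'] (φ : F →ₐ[K] F')
    (hφ : φ.toRingHom.IsIntegral) (x : F) (hx : Transcendental K x) [FiniteDimensional K⟮x⟯ F]
    (x' : F') (hx' : Transcendental K x') [FiniteDimensional K⟮x'⟯ F'] :
    FundamentalIdentityAlong K φ hφ := by
  letI := algebraAlong φ
  haveI := isScalarTower_along φ
  haveI := isIntegral_along φ hφ
  haveI : Module.Finite F F' := s37_h_finiteAlong φ x hx x' hx'
  exact s37_h_fundamentalIdentity (K := K) (F' := F') x hx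

/-- The norm formula along a homomorphism. -/
theorem s37_h_normFormulaAlong [HasPrincipalDivisors K F'] (φ : F →ₐ[K] F')
    (hfin : FiniteAlong K φ) (x : F) (hx : Transcendental K x) [FiniteDimensional K⟮x⟯ F] :
    NormFormulaAlong K φ hfin := by
  letI := algebraAlong φ
  haveI := isScalarTower_along φ
  haveI : Module.Finite F F' := hfin
  exact s37_h_pushforwardNormFormula (K := K) (F' := F') x hx

end Generic

/-- The function field of `X₀(M)` over `ℚ̄` has principal divisors of degree zero. -/
theorem s37_h_hasPrincipalDivisors_bar (M : ℕ) [NeZero M] :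
    HasPrincipalDivisors (AlgebraicClosure ℚ) (modularFunctionFieldBar M) :=
  haveI := (Fermat.Agent.S24.asm_generic M).1
  s37_h_hasPrincipalDivisors (Fermat.Agent.S24.jF M) (Fermat.Agent.S24.transcendental_jF M)

/-- (H4) The inputs of the Hecke correspondence `T_ℓ` on `X₀(N)` hold unconditionally. -/
theorem s37_h_heckeInputsAlong (N ℓ : ℕ) [NeZero N] [NeZero ℓ] :
    HeckeInputsAlong (AlgebraicClosure ℚ) N ℓ := by
  haveI hfdN := (Fermat.Agent.S24.asm_generic N).1
  haveI hfdNl := (Fermat.Agent.S24.asm_generic (N * ℓ)).1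
  have hxN := Fermat.Agent.S24.transcendental_jF N
  have hxNl := Fermat.Agent.S24.transcendental_jF (N * ℓ)
  haveI hP := s37_h_hasPrincipalDivisors_bar (N * ℓ)
  have hα := s37_h_isIntegral_along (heckeAlphaBar (AlgebraicClosure ℚ) N ℓ)
    (Fermat.Agent.S24.jF N) hxN (Fermat.Agent.S24.jF (N * ℓ)) hxNl
  have hβ := s37_h_isIntegral_along (heckeBetaBar (AlgebraicClosure ℚ) N ℓ)
    (Fermat.Agent.S24.jF N) hxN (Fermat.Agent.S24.jF (N * ℓ)) hxNl
  have hfin := s37_h_finiteAlong (heckeAlphaBar (AlgebraicClosure ℚ) N ℓ)
    (Fermat.Agent.S24.jF N) hxN (Fermat.Agent.S24.jF (N * ℓ)) hxNl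
  exact ⟨hα, hβ, hP, hfin,
    s37_h_fundamentalIdentityAlong (heckeBetaBar (AlgebraicClosure ℚ) N ℓ) hβ
      (Fermat.Agent.S24.jF N) hxN (Fermat.Agent.S24.jF (N * ℓ)) hxNl,
    s37_h_normFormulaAlong (heckeAlphaBar (AlgebraicClosure ℚ) N ℓ) hfin
      (Fermat.Agent.S24.jF N) hxN⟩

end Fermat.Agent.S37
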