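import Mathlib
import Fermat.Agent.S37.EtPlaces
import Fermat.Agent.S37.HHecke
import Fermat.Agent.S37.RedDefs

/-!
# S37, block (ES-t), part 3 (helper15): the charts are stable in characteristic zero

For the Hauptmodul `t = t_M` (`M ∈ {2, 3}`, `M ∣ N`) and a prime `ℓ ∤ N`, `ℓ ≠ M`, assuming the
Atkin–Lehner swaps of level `(1, ℓ)` and `(M, ℓ)`:

* `s37_et_tt0` : at every place `R` of `Q̄ · F_{Nℓ}`, `t(q)` is regular iff `t(q^ℓ)` is, and if
  `t(q)` vanishes at `R` then so does `t(q^ℓ)`;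
* `s37_et_chart_regular` : for `t' ∈ {t, t⁻¹}`: `t'(q^ℓ)` regular at `R` ⟹ `t'(q)` regular
  at `R`.
-/

set_option autoImplicit false
set_option synthInstance.maxHeartbeats 400000
set_option linter.unusedSectionVars false
set_option linter.style.haveILetI false

namespace Fermat.Agent.S37

open AlgebraicCurve ModularCurve
open Fermat.Agent.S18 Fermat.Agent.S24
open scoped IntermediateField

noncomputable section

local notation "Qb" => AlgebraicClosure ℚ

/-- Restriction of a place along an integral homomorphism of function fields. -/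
theorem s37_et_restrict {K E E' : Type*} [Field K] [Field E] [Field E'] [Algebra K E]
    [Algebra K E'] (u : E →ₐ[K] E') (hu : u.toRingHom.IsIntegral) (R : Place K E') :
    ∃ R₀ : Place K E, ∀ x : E, x ∈ R₀.toValuationSubring ↔ u x ∈ R.toValuationSubring := by
  letI := algebraAlong u
  haveI := isScalarTower_along u
  haveI := isIntegral_along u hu
  exact ⟨R.restrict E, fun x => Iff.rfl⟩

/-- The pole lemma at level `N₀`, lifted to a level `N` divisible by `N₀`. -/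
theorem s37_et_pole_lift (N₀ N ℓ : ℕ) [NeZero N₀] [NeZero N] [NeZero ℓ] (hℓ : ℓ.Prime)
    (hℓN₀ : ¬ ℓ ∣ N₀) (hdvd : N₀ ∣ N)
    (hW : ∃ W : modularFunctionFieldBar (N₀ * ℓ) ≃ₐ[Qb] modularFunctionFieldBar (N₀ * ℓ),
      (∀ x, W (heckeAlphaBar Qb N₀ ℓ x) = heckeBetaBar Qb N₀ ℓ x) ∧
      (∀ x, W (heckeBetaBar Qb N₀ ℓ x) = heckeAlphaBar Qb N₀ ℓ x))
    (G₀ : modularFunctionFieldBar N₀)
    (hG : Qb⟮(G₀ : LaurentSeries Qb)⟯ = modularFunctionFieldBar N₀)
    (hlead : s18h_lead 1 (G₀ : LaurentSeries Qb))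
    (G : modularFunctionFieldBar N) (hGG : (G : LaurentSeries Qb) = (G₀ : LaurentSeries Qb))
    (R : Place Qb (modularFunctionFieldBar (N * ℓ))) :
    heckeAlphaBar Qb N ℓ G ∈ R.toValuationSubring ↔
      heckeBetaBar Qb N ℓ G ∈ R.toValuationSubring := by
  haveI : NeZero (N₀ * ℓ) := ⟨Nat.mul_ne_zero (NeZero.ne N₀) (NeZero.ne ℓ)⟩
  haveI : NeZero (N * ℓ) := ⟨Nat.mul_ne_zero (NeZero.ne N) (NeZero.ne ℓ)⟩
  haveI := (asm_generic (N * ℓ)).1
  set u : modularFunctionFieldBar (N₀ * ℓ) →ₐ[Qb] modularFunctionFieldBar (N * ℓ) :=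
    IntermediateField.inclusion (s18_d5_le (Nat.mul_dvd_mul_right hdvd ℓ)) with hu
  have hint : u.toRingHom.IsIntegral :=
    s37_h_isIntegral_along u (jF (N₀ * ℓ)) (transcendental_jF (N₀ * ℓ)) (jF (N * ℓ))
      (transcendental_jF (N * ℓ))
  obtain ⟨R₀, hR₀⟩ := s37_et_restrict u hint R
  have hua : u (heckeAlphaBar Qb N₀ ℓ G₀) = heckeAlphaBar Qb N ℓ G := by
    apply Subtype.ext
    rw [hu, IntermediateField.coe_inclusion, coe_heckeAlphaBar, coe_heckeAlphaBar, hGG]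
  have hub : u (heckeBetaBar Qb N₀ ℓ G₀) = heckeBetaBar Qb N ℓ G := by
    apply Subtype.ext
    rw [hu, IntermediateField.coe_inclusion, coe_heckeBetaBar, coe_heckeBetaBar, hGG]
  rw [← hua, ← hub, ← hR₀, ← hR₀]
  exact s37_et_pole_mod N₀ ℓ hℓ hℓN₀ hW G₀ hG hlead R₀

/-- The order computation behind the stability of the chart at infinity. -/
theorem s37_et_zero_aux {K F : Type*} [Field K] [Field F] [Algebra K F] (R : Place K F)
    (a b ja jb : F) (ha : a ≠ 0) (hb : b ≠ 0) (hja : ja ≠ 0) (hjb : jb ≠ 0)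
    (c₁ c₂ : K) (hc₁ : c₁ ≠ 0) (hc₂ : c₂ ≠ 0) (k n₁ n₂ : ℕ) (hk : 0 < k)
    (hrel_a : ja * a ^ k = (a + algebraMap K F c₁) ^ n₁ * (a + algebraMap K F c₂) ^ n₂)
    (hrel_b : jb * b ^ k = (b + algebraMap K F c₁) ^ n₁ * (b + algebraMap K F c₂) ^ n₂)
    (hpole_j : ja ∈ R.toValuationSubring ↔ jb ∈ R.toValuationSubring)
    (hpole : a ∈ R.toValuationSubring ↔ b ∈ R.toValuationSubring)
    (haR : a ∈ R.toValuationSubring.nonunits) : b ∈ R.toValuationSubring.nonunits := by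
  have hoa : 0 < R.ord a := (mem_nonunits_iff_ord_pos R ha).mp haR
  have hcne : ∀ c : K, c ≠ 0 → algebraMap K F c ≠ 0 := fun c hc =>
    (map_ne_zero_iff _ (algebraMap K F).injective).mpr hc
  -- `a + c` is a unit at `R`
  have hac : ∀ c : K, c ≠ 0 → a + algebraMap K F c ≠ 0 ∧ R.ord (a + algebraMap K F c) = 0 := by
    intro c hc
    have h1 : R.ord (algebraMap K F c + a) = R.ord (algebraMap K F c) :=
      ord_add_eq_of_lt R (hcne c hc) ha (by rw [ord_algebraMap]; exact hoa)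
    rw [ord_algebraMap, add_comm] at h1
    refine ⟨fun h0 => ?_, h1⟩
    have h2 : a = -algebraMap K F c := eq_neg_of_add_eq_zero_left h0
    rw [h2, ord_neg, ord_algebraMap] at hoa
    exact lt_irrefl _ hoa
  -- `ja` has a pole at `R`
  have hoja : R.ord ja < 0 := by
    have h1 := congrArg R.ord hrel_a
    rw [R.ord_mul hja (pow_ne_zero k ha),
      R.ord_mul (pow_ne_zero n₁ (hac c₁ hc₁).1) (pow_ne_zero n₂ (hac c₂ hc₂).1),
      ord_pow, ord_pow, ord_pow, (hac c₁ hc₁).2, (hac c₂ hc₂).2, mul_zero, mul_zero,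
      add_zero] at h1
    have h2 : 0 < (k : ℤ) * R.ord a := mul_pos (by exact_mod_cast hk) hoa
    omega
  have hojb : R.ord jb < 0 := by
    have h1 : ja ∉ R.toValuationSubring := by
      rw [mem_iff_ord_nonneg]; omega
    have h2 : jb ∉ R.toValuationSubring := fun h => h1 (hpole_j.mpr h)
    rw [mem_iff_ord_nonneg] at h2
    omega
  rw [mem_nonunits_iff_ord_pos R hb]
  by_contra hcon
  push Not at hcon
  have hob : R.ord b = 0 := by
    have h1 : b ∈ R.toValuationSubring :=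
      hpole.mp (ValuationSubring.mem_nonunits_iff_exists_mem_maximalIdeal.mp haR).1
    rw [mem_iff_ord_nonneg] at h1
    omega
  -- the right hand side of the relation for `b` is regular at `R`
  have hR0 : (b + algebraMap K F c₁) ^ n₁ * (b + algebraMap K F c₂) ^ n₂ ≠ 0 := by
    rw [← hrel_b]
    exact mul_ne_zero hjb (pow_ne_zero k hb)
  have hfac : ∀ (c : K) (n : ℕ), c ≠ 0 → (b + algebraMap K F c) ^ n ≠ 0 →
      0 ≤ R.ord ((b + algebraMap K F c) ^ n) := by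
    intro c n hc hne
    rw [ord_pow]
    rcases Nat.eq_zero_or_pos n with rfl | hn
    · simp
    · have h0 : b + algebraMap K F c ≠ 0 := by
        intro h0
        rw [h0, zero_pow hn.ne'] at hne
        exact hne rfl
      have h1 := ord_add_ge R h0
      rw [hob, ord_algebraMap, min_self] at h1
      exact mul_nonneg (by positivity) h1
  have h1 := congrArg R.ord hrel_b
  rw [R.ord_mul hjb (pow_ne_zero k hb), R.ord_mul (left_ne_zero_of_mul hR0)
    (right_ne_zero_of_mul hR0), ord_pow R b, hob, mul_zero, add_zero] at h1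
  have h2 := hfac c₁ n₁ hc₁ (left_ne_zero_of_mul hR0)
  have h3 := hfac c₂ n₂ hc₂ (right_ne_zero_of_mul hR0)
  omega

/-- Generic form of the chart stability in characteristic zero: `t` a generator of level `M₀`
with a relation `j · t^k = (t + c₁)^n₁ (t + c₂)^n₂`. -/
theorem s37_et_tt0_aux (N ℓ M₀ : ℕ) [NeZero N] [NeZero ℓ] [NeZero M₀] (hℓ : ℓ.Prime)
    (hℓM₀ : ¬ ℓ ∣ M₀) (hMN : M₀ ∣ N)
    (hswap : ∀ (N₀ : ℕ) [NeZero N₀], Nat.Coprime ℓ N₀ →
      ∃ W : modularFunctionFieldBar (N₀ * ℓ) ≃ₐ[Qb] modularFunctionFieldBar (N₀ * ℓ),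
        (∀ x, W (heckeAlphaBar Qb N₀ ℓ x) = heckeBetaBar Qb N₀ ℓ x) ∧
        (∀ x, W (heckeBetaBar Qb N₀ ℓ x) = heckeAlphaBar Qb N₀ ℓ x))
    (G₀ : modularFunctionFieldBar M₀)
    (hG : Qb⟮(G₀ : LaurentSeries Qb)⟯ = modularFunctionFieldBar M₀)
    (hlead : s18h_lead 1 (G₀ : LaurentSeries Qb))
    (t : modularFunctionFieldBar N) (htG : (t : LaurentSeries Qb) = (G₀ : LaurentSeries Qb))
    (c₁ c₂ : Qb) (hc₁ : c₁ ≠ 0) (hc₂ : c₂ ≠ 0) (k n₁ n₂ : ℕ) (hk : 0 < k)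
    (hrel : jqModC Qb * (t : LaurentSeries Qb) ^ k =
      ((t : LaurentSeries Qb) + algebraMap Qb (LaurentSeries Qb) c₁) ^ n₁ *
        ((t : LaurentSeries Qb) + algebraMap Qb (LaurentSeries Qb) c₂) ^ n₂)
    (R : Place Qb (modularFunctionFieldBar (N * ℓ))) :
    (heckeAlphaBar Qb N ℓ t ∈ R.toValuationSubring ↔
      heckeBetaBar Qb N ℓ t ∈ R.toValuationSubring) ∧
    (heckeAlphaBar Qb N ℓ t ∈ R.toValuationSubring.nonunits →
      heckeBetaBar Qb N ℓ t ∈ R.toValuationSubring.nonunits) := by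
  have hcopM : Nat.Coprime ℓ M₀ := (Nat.Prime.coprime_iff_not_dvd hℓ).mpr hℓM₀
  have hℓ1 : ¬ ℓ ∣ 1 := fun h => hℓ.one_lt.ne' (Nat.dvd_one.mp h)
  -- the two pole statements
  have hpole : heckeAlphaBar Qb N ℓ t ∈ R.toValuationSubring ↔
      heckeBetaBar Qb N ℓ t ∈ R.toValuationSubring :=
    s37_et_pole_lift M₀ N ℓ hℓ hℓM₀ hMN (hswap M₀ hcopM) G₀ hG hlead t htG R
  have hj1 : ((jF 1 : modularFunctionFieldBar 1) : LaurentSeries Qb) = jqModC Qb :=
    jtrans_coe_jF 1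
  have hjN : ((jF N : modularFunctionFieldBar N) : LaurentSeries Qb) = jqModC Qb :=
    jtrans_coe_jF N
  have hpole_j : heckeAlphaBar Qb N ℓ (jF N) ∈ R.toValuationSubring ↔
      heckeBetaBar Qb N ℓ (jF N) ∈ R.toValuationSubring :=
    s37_et_pole_lift 1 N ℓ hℓ hℓ1 (one_dvd N) (hswap 1 (Nat.coprime_one_right ℓ)) (jF 1)
      (by rw [hj1]; exact s37_et_gen_j) (by rw [hj1]; exact s18h_lead_jq) (jF N)
      (by rw [hjN, hj1]) R
  refine ⟨hpole, fun haR => ?_⟩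
  -- the four functions and their expansions
  set a := heckeAlphaBar Qb N ℓ t with ha
  set b := heckeBetaBar Qb N ℓ t with hb
  set ja := heckeAlphaBar Qb N ℓ (jF N) with hja
  set jb := heckeBetaBar Qb N ℓ (jF N) with hjb
  have hacoe : (a : LaurentSeries Qb) = (t : LaurentSeries Qb) := coe_heckeAlphaBar N ℓ t
  have hbcoe : (b : LaurentSeries Qb) = qExpand Qb ℓ (t : LaurentSeries Qb) :=
    coe_heckeBetaBar N ℓ t
  have hjacoe : (ja : LaurentSeries Qb) = jqModC Qb := by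
    rw [hja, coe_heckeAlphaBar, hjN]
  have hjbcoe : (jb : LaurentSeries Qb) = qExpand Qb ℓ (jqModC Qb) := by
    rw [hjb, coe_heckeBetaBar, hjN]
  have htlead : s18h_lead 1 (t : LaurentSeries Qb) := by rw [htG]; exact hlead
  have ha0 : a ≠ 0 := fun h =>
    (s37_et_order_of_lead htlead).1 (by rw [← hacoe, h]; rfl)
  have hb0 : b ≠ 0 := fun h =>
    (s37_et_order_of_lead (s18h_lead_qExpand ℓ htlead)).1 (by rw [← hbcoe, h]; rfl)
  have hja0 : ja ≠ 0 := fun h =>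
    (s37_et_order_of_lead (s18h_lead_jq (R := Qb))).1 (by rw [← hjacoe, h]; rfl)
  have hjb0 : jb ≠ 0 := fun h =>
    (s37_et_order_of_lead (s18h_lead_qExpand ℓ (s18h_lead_jq (R := Qb)))).1
      (by rw [← hjbcoe, h]; rfl)
  have hqc : ∀ c : Qb, qExpand Qb ℓ (algebraMap Qb (LaurentSeries Qb) c) =
      algebraMap Qb (LaurentSeries Qb) c := fun c => by
    rw [algebraMap_laurentSeries_eq_single, qExpand_single, mul_zero]
  -- the relations inside the function field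
  have hrel_a : ja * a ^ k =
      (a + algebraMap Qb (modularFunctionFieldBar (N * ℓ)) c₁) ^ n₁ *
        (a + algebraMap Qb (modularFunctionFieldBar (N * ℓ)) c₂) ^ n₂ := by
    apply Subtype.ext
    show (ja : LaurentSeries Qb) * (a : LaurentSeries Qb) ^ k =
      ((a : LaurentSeries Qb) + algebraMap Qb (LaurentSeries Qb) c₁) ^ n₁ *
        ((a : LaurentSeries Qb) + algebraMap Qb (LaurentSeries Qb) c₂) ^ n₂
    rw [hjacoe, hacoe]
    exact hrel
  have hrel_b : jb * b ^ k =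
      (b + algebraMap Qb (modularFunctionFieldBar (N * ℓ)) c₁) ^ n₁ *
        (b + algebraMap Qb (modularFunctionFieldBar (N * ℓ)) c₂) ^ n₂ := by
    apply Subtype.ext
    show (jb : LaurentSeries Qb) * (b : LaurentSeries Qb) ^ k =
      ((b : LaurentSeries Qb) + algebraMap Qb (LaurentSeries Qb) c₁) ^ n₁ *
        ((b : LaurentSeries Qb) + algebraMap Qb (LaurentSeries Qb) c₂) ^ n₂
    rw [hjbcoe, hbcoe]
    have h := congrArg (qExpand Qb ℓ) hrel
    rw [map_mul, map_pow, map_mul, map_pow, map_pow, map_add, map_add, hqc, hqc] at h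
    exact h
  exact s37_et_zero_aux R a b ja jb ha0 hb0 hja0 hjb0 c₁ c₂ hc₁ hc₂ k n₁ n₂ hk hrel_a hrel_b
    hpole_j hpole haR

/-- **Chart stability in characteristic zero** for the Hauptmodul `t = t_M`, `M ∈ {2, 3}`:
`t(q)` is regular at a place iff `t(q^ℓ)` is, and a zero of `t(q)` is a zero of `t(q^ℓ)`. -/
theorem s37_et_tt0 (N ℓ M : ℕ) [NeZero N] [NeZero ℓ] (hℓ : ℓ.Prime) (hℓM : ℓ ≠ M)
    (hMN : M ∣ N)
    (hswap : ∀ (N₀ : ℕ) [NeZero N₀], Nat.Coprime ℓ N₀ →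
      ∃ W : modularFunctionFieldBar (N₀ * ℓ) ≃ₐ[Qb] modularFunctionFieldBar (N₀ * ℓ),
        (∀ x, W (heckeAlphaBar Qb N₀ ℓ x) = heckeBetaBar Qb N₀ ℓ x) ∧
        (∀ x, W (heckeBetaBar Qb N₀ ℓ x) = heckeAlphaBar Qb N₀ ℓ x))
    (t : modularFunctionFieldBar N) (ht : s37_IsHaupt M t)
    (R : Place Qb (modularFunctionFieldBar (N * ℓ))) :
    (heckeAlphaBar Qb N ℓ t ∈ R.toValuationSubring ↔
      heckeBetaBar Qb N ℓ t ∈ R.toValuationSubring) ∧
    (heckeAlphaBar Qb N ℓ t ∈ R.toValuationSubring.nonunits →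
      heckeBetaBar Qb N ℓ t ∈ R.toValuationSubring.nonunits) := by
  rcases ht with ⟨rfl, ht⟩ | ⟨rfl, ht⟩
  · have hℓ2 : ¬ ℓ ∣ 2 := fun h => hℓM ((Nat.prime_dvd_prime_iff_eq hℓ Nat.prime_two).mp h)
    refine s37_et_tt0_aux N ℓ 2 hℓ hℓ2 hMN hswap ⟨s18_t2R Qb, s37_et_t2_mem 2 (dvd_refl 2)⟩
      s37_et_gen_t2 (s18h_lead_t2R Qb) t ht 256 1 (by norm_num) one_ne_zero 2 3 0 (by norm_num)
      ?_ R
    rw [ht, pow_zero, mul_one, map_ofNat]
    exact s18_t2R_j Qb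
  · have hℓ3 : ¬ ℓ ∣ 3 := fun h => hℓM ((Nat.prime_dvd_prime_iff_eq hℓ Nat.prime_three).mp h)
    refine s37_et_tt0_aux N ℓ 3 hℓ hℓ3 hMN hswap ⟨s18_t3R Qb, s37_et_t3_mem 3 (dvd_refl 3)⟩
      s37_et_gen_t3 (s18h_lead_t3R Qb) t ht 27 243 (by norm_num) (by norm_num) 3 1 3
      (by norm_num) ?_ R
    rw [ht, pow_one, map_ofNat, map_ofNat]
    exact s18_t3R_j Qb

/-- **Chart stability in characteristic zero**, in the form used for (ES-t): for
`t' ∈ {t, t⁻¹}`, if `t'(q^ℓ)` is regular at a place `R` of `Q̄ · F_{Nℓ}` then so is `t'(q)`. -/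
theorem s37_et_chart_regular (N ℓ M : ℕ) [NeZero N] [NeZero ℓ] (hℓ : ℓ.Prime) (hℓM : ℓ ≠ M)
    (hMN : M ∣ N)
    (hswap : ∀ (N₀ : ℕ) [NeZero N₀], Nat.Coprime ℓ N₀ →
      ∃ W : modularFunctionFieldBar (N₀ * ℓ) ≃ₐ[Qb] modularFunctionFieldBar (N₀ * ℓ),
        (∀ x, W (heckeAlphaBar Qb N₀ ℓ x) = heckeBetaBar Qb N₀ ℓ x) ∧
        (∀ x, W (heckeBetaBar Qb N₀ ℓ x) = heckeAlphaBar Qb N₀ ℓ x))
    (t : modularFunctionFieldBar N) (ht : s37_IsHaupt M t)
    (t' : modularFunctionFieldBar N) (ht' : t' = t ∨ t' = t⁻¹)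
    (R : Place Qb (modularFunctionFieldBar (N * ℓ)))
    (hR : heckeBetaBar Qb N ℓ t' ∈ R.toValuationSubring) :
    heckeAlphaBar Qb N ℓ t' ∈ R.toValuationSubring := by
  obtain ⟨h1, h2⟩ := s37_et_tt0 N ℓ M hℓ hℓM hMN hswap t ht R
  rcases ht' with rfl | rfl
  · exact h1.mpr hR
  · rw [map_inv₀] at hR ⊢
    by_contra hcon
    -- `α t ∈ 𝔪_R`, hence `β t ∈ 𝔪_R`, contradicting the regularity of `(β t)⁻¹`
    have h3 : heckeAlphaBar Qb N ℓ t ∈ R.toValuationSubring.nonunits := by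
      rw [ValuationSubring.mem_nonunits_iff_or]
      exact Or.inr hcon
    have h4 := h2 h3
    rw [ValuationSubring.mem_nonunits_iff_or] at h4
    rcases h4 with h4 | h4
    · rw [h4, inv_zero] at hR
      have h5 : heckeAlphaBar Qb N ℓ t = 0 := by
        have := (map_eq_zero (heckeBetaBar Qb N ℓ)).mp h4
        rw [this, map_zero]
      rw [h5, inv_zero] at hcon
      exact hcon (zero_mem _)
    · exact h4 hR

end

end Fermat.Agent.S37
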