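import Mathlib
import Fermat.Agent.S24.Fiber
import Fermat.Agent.S24

/-!
# S37, (ES-t) leaf (HOL) (helper24): functions regular on the affine part are integral

`F/K` a function field in one variable (`K` of characteristic zero, `F` finite over `K(x)`).
If `f : F` is regular (`f ∈ O_P`) at every place `P` at which `x` is regular, then `f` is
integral over `K[x]`.

* `s37_hol_isIntegralElem` : ring-hom form, `(aeval x).toRingHom.IsIntegralElem f`;
* `s37_hol` : `IsIntegral (Algebra.adjoin K {x}) f`;
* `s37_hol_mem_of_isIntegral` : the converse (`f` integral over `K[x]`, `x ∈ O_P` ⟹ `f ∈ O_P`);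
* `s37_hol_bar` : (HOL) for `modularFunctionFieldBar N`.
-/

set_option autoImplicit false
set_option linter.style.haveILetI false

open AlgebraicCurve IsDedekindDomain Polynomial
open scoped IntermediateField RatFunc

noncomputable section

namespace Fermat.Agent.S37

section Hol

variable {K F : Type*} [Field K] [Field F] [Algebra K F]

/-- (HOL) with the `K[X]`-algebra structure as instance data. -/
theorem s37_hol_aux [CharZero K] [Algebra K[X] F] [Algebra K⟮X⟯ F] [IsScalarTower K[X] K⟮X⟯ F]
    [IsScalarTower K K[X] F] [FunctionField K F] (x : F) (hxX : algebraMap K[X] F X = x) (f : F)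
    (hf : ∀ P : Place K F, x ∈ P.toValuationSubring → f ∈ P.toValuationSubring) :
    IsIntegral K[X] f := by
  subst hxX
  have h1 : ∀ w : HeightOneSpectrum (FunctionField.ringOfIntegers K F),
      w.valuation F f ≤ 1 := by
    intro w
    have hxw : algebraMap K[X] F X ∈ (Fermat.Agent.S24.placeOfPrime K w).toValuationSubring := by
      rw [Fermat.Agent.S24.mem_iff_ord_nonneg, Fermat.Agent.S24.fib_ord_eq_count]
      positivity
    exact (Valuation.mem_valuationSubring_iff _ _).mp (hf _ hxw)
  obtain ⟨r, hr⟩ := HeightOneSpectrum.mem_integers_of_valuation_le_one F f h1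
  rw [← hr]
  exact r.2

/-- **(HOL)**, ring-hom form. -/
theorem s37_hol_isIntegralElem [CharZero K] (x : F) (hx : Transcendental K x)
    [FiniteDimensional K⟮x⟯ F] (f : F)
    (hf : ∀ P : Place K F, x ∈ P.toValuationSubring → f ∈ P.toValuationSubring) :
    (Polynomial.aeval x : K[X] →ₐ[K] F).toRingHom.IsIntegralElem f := by
  letI := Fermat.Agent.S24.polyAlgebra K x
  letI := Fermat.Agent.S24.ratAlgebra K x hx
  haveI := Fermat.Agent.S24.polyAlgebra_isScalarTower K x
  haveI := Fermat.Agent.S24.ratAlgebra_isScalarTower K x hx
  haveI := Fermat.Agent.S24.ratAlgebra_functionField K x hx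
  have hX : algebraMap K[X] F X = x := Polynomial.aeval_X x
  have h2 : IsIntegral K[X] f := s37_hol_aux x hX f hf
  exact h2

/-- The ring-hom form of integrality over `K[x]` is integrality over `Algebra.adjoin K {x}`. -/
theorem s37_hol_isIntegral_adjoin_of_elem (x f : F)
    (h : (Polynomial.aeval x : K[X] →ₐ[K] F).toRingHom.IsIntegralElem f) :
    IsIntegral (Algebra.adjoin K {x}) f := by
  obtain ⟨p, hp, hpf⟩ := h
  let φ : K[X] →ₐ[K] Algebra.adjoin K {x} :=
    Polynomial.aeval (⟨x, Algebra.self_mem_adjoin_singleton K x⟩ : Algebra.adjoin K {x})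
  refine ⟨p.map φ.toRingHom, hp.map _, ?_⟩
  rw [Polynomial.eval₂_map]
  have h2 : (algebraMap (Algebra.adjoin K {x}) F).comp φ.toRingHom =
      (Polynomial.aeval x : K[X] →ₐ[K] F).toRingHom := by
    apply Polynomial.ringHom_ext
    · intro a
      simp [φ]
    · simp [φ]
  rw [h2]
  exact hpf

/-- **(HOL)**: a function regular wherever `x` is regular is integral over `K[x]`. -/
theorem s37_hol [CharZero K] (x : F) (hx : Transcendental K x) [FiniteDimensional K⟮x⟯ F] (f : F)
    (hf : ∀ P : Place K F, x ∈ P.toValuationSubring → f ∈ P.toValuationSubring) :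
    IsIntegral (Algebra.adjoin K {x}) f :=
  s37_hol_isIntegral_adjoin_of_elem x f (s37_hol_isIntegralElem x hx f hf)

/-- Converse: functions integral over `K[x]` are regular wherever `x` is. -/
theorem s37_hol_mem_of_isIntegral (x f : F) (h : IsIntegral (Algebra.adjoin K {x}) f)
    (P : Place K F) (hxP : x ∈ P.toValuationSubring) : f ∈ P.toValuationSubring := by
  obtain ⟨p, hp, hpf⟩ := h
  have hle : ∀ y ∈ Algebra.adjoin K {x}, y ∈ P.toValuationSubring := by
    intro y hy
    induction hy using Algebra.adjoin_induction with
    | mem y hy =>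
        rw [Set.mem_singleton_iff] at hy
        rw [hy]
        exact hxP
    | algebraMap r => exact P.algebraMap_mem' r
    | add y z _ _ hy hz => exact add_mem hy hz
    | mul y z _ _ hy hz => exact mul_mem hy hz
  let incl : Algebra.adjoin K {x} →+* P.toValuationSubring :=
    { toFun := fun y => ⟨(y : F), hle y y.2⟩
      map_one' := rfl
      map_mul' := fun _ _ => rfl
      map_zero' := rfl
      map_add' := fun _ _ => rfl }
  have hint : IsIntegral P.toValuationSubring f := by
    refine ⟨p.map incl, hp.map incl, ?_⟩
    rw [Polynomial.eval₂_map]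
    have h2 : (algebraMap P.toValuationSubring F).comp incl =
        algebraMap (Algebra.adjoin K {x}) F := rfl
    rw [h2]
    exact hpf
  obtain ⟨y, hy⟩ :=
    (IsIntegrallyClosed.isIntegral_iff (R := P.toValuationSubring) (K := F)).mp hint
  rw [← hy]
  exact y.2

end Hol

section Modular

open ModularCurve

/-- (HOL) for the modular function field `Q̄ · F_N` and any non-constant coordinate `t'`. -/
theorem s37_hol_bar (N : ℕ) [NeZero N] (t' : modularFunctionFieldBar N)
    (ht' : Transcendental (AlgebraicClosure ℚ) t') (f : modularFunctionFieldBar N)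
    (hf : ∀ P : Place (AlgebraicClosure ℚ) (modularFunctionFieldBar N),
      t' ∈ P.toValuationSubring → f ∈ P.toValuationSubring) :
    IsIntegral (Algebra.adjoin (AlgebraicClosure ℚ) {t'}) f := by
  have h1 := (Fermat.Agent.S24.asm_generic N).1
  have h2 := Fermat.Agent.S24.finiteDimensional_adjoin_of_transcendental
    (Fermat.Agent.S24.jF N) (Fermat.Agent.S24.transcendental_jF N) t' ht'
  exact s37_hol t' ht' f hf

end Modular

end Fermat.Agent.S37
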