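import Mathlib
import Fermat.Agent.S37.EtTT
import Fermat.Agent.S37.CpPlace
import Fermat.Agent.S37.ChiDef
import Fermat.Agent.S37.EsChi
import Fermat.Agent.S37.EsSwap
import Fermat.Agent.S37.Hol
import Fermat.Agent.S37.HFunct
import Fermat.Agent.S37.EsDeg
import Fermat.Prelude.Thm_ModularCurve_coeffMap_qExpand

/-!
# S37, block (ES-t), part 4: the charts are stable under the Hecke correspondence

`t' ∈ {t, 1/t}` for the Hauptmodul `t = t_M` (`M ∈ {2, 3}`, `M ∣ N`, `ℓ ≠ M`, `ℓ ∤ N`):
`t'(q)` is integral over `A[t'(q^ℓ)]` inside `Q̄ · F_{Nℓ}`.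

Proof: `α t'` is a root of the characteristic polynomial `χ` of `α t'` along `β`; its
coefficients `c_k` are
* regular at every place `P` of `Q̄ · F_N` at which `t'` is regular (characteristic polynomial at
  a place + the chart stability in characteristic zero `s37_et_chart_regular`), hence integral
  over `Q̄[t']`;
* have `A`-integral `q`-expansions (explicit factorisation `s37_es_chi` of `χ`);
hence they are chart functions by the `q`-expansion principle (QEP), i.e. integral over `A[t']`.
-/

set_option autoImplicit false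
set_option synthInstance.maxHeartbeats 400000
set_option linter.unusedSectionVars false
set_option linter.style.haveILetI false

namespace Fermat.Agent.S37

open AlgebraicCurve ModularCurve Polynomial
open Fermat.Agent.S18 Fermat.Agent.S24
open scoped IntermediateField

noncomputable section

local notation "Qb" => AlgebraicClosure ℚ

/-- A root of a monic polynomial with integral coefficients is integral. -/
theorem s37_et_integral_of_root {R S : Type*} [CommRing R] [CommRing S] [Nontrivial S]
    [Algebra R S] (p : Polynomial S) (hp : p.Monic) (hc : ∀ i, IsIntegral R (p.coeff i)) (x : S)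
    (hx : p.eval x = 0) : IsIntegral R x := by
  have hlift : p ∈ Polynomial.lifts (algebraMap (integralClosure R S) S) := by
    rw [Polynomial.lifts_iff_coeff_lifts]
    intro n
    exact ⟨⟨p.coeff n, hc n⟩, rfl⟩
  obtain ⟨q, hq, -, hqm⟩ := Polynomial.lifts_and_degree_eq_and_monic hlift hp
  have hxC : IsIntegral (integralClosure R S) x :=
    ⟨q, hqm, by rw [← Polynomial.eval_map, hq, hx]⟩
  exact isIntegral_trans x hxC

section ChartBase

variable {F F' : Type*} [Field F] [Field F'] [Algebra Qb F] [Algebra Qb F']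

/-- A `Q̄`-algebra homomorphism maps `A[t]` into `A[u t]`. -/
theorem s37_et_map_chartBase (A : ValuationSubring Qb) (u : F →ₐ[Qb] F') (t : F) (x : F)
    (hx : x ∈ s37_chartBase A t) : u x ∈ s37_chartBase A (u t) := by
  have h : (s37_chartBase A t).map u.toRingHom ≤ s37_chartBase A (u t) := by
    rw [s37_chartBase, RingHom.map_closure, Subring.closure_le]
    rintro _ ⟨y, (⟨a, rfl⟩ | rfl), rfl⟩
    · exact Subring.subset_closure (Or.inl ⟨a, (u.commutes _).symm⟩)
    · exact Subring.subset_closure (Or.inr rfl)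
  exact h ⟨x, hx, rfl⟩

/-- Chart functions are mapped to chart functions. -/
theorem s37_et_isIntegral_map (A : ValuationSubring Qb) (u : F →ₐ[Qb] F') (t : F) (c : F)
    (hc : IsIntegral (s37_chartBase A t) c) : IsIntegral (s37_chartBase A (u t)) (u c) := by
  let φ : s37_chartBase A t →+* s37_chartBase A (u t) :=
    (u.toRingHom.comp (s37_chartBase A t).subtype).codRestrict _
      (fun x => s37_et_map_chartBase A u t x x.2)
  exact IsIntegral.map_of_comp_eq φ u.toRingHom (by ext; rfl) hc

end ChartBase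

section Generic

variable {K F F' : Type*} [Field K] [IsAlgClosed K] [CharZero K] [Field F] [Field F']
  [Algebra K F] [Algebra K F']

/-- The characteristic polynomial along `u` is monic and kills the element. -/
theorem s37_et_chi_root (u : F →ₐ[K] F') (hfin : FiniteAlong K u) (g : F') :
    ((s37_chi u hfin g).map u.toRingHom).Monic ∧
      ((s37_chi u hfin g).map u.toRingHom).eval g = 0 := by
  letI := algebraAlong u
  haveI := isScalarTower_along u
  haveI : Module.Finite F F' := hfin
  have hchi : s37_chi u hfin g = (LinearMap.mulLeft F g).charpoly := rfl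
  refine ⟨(LinearMap.charpoly_monic _).map _, ?_⟩
  rw [hchi]
  have h := LinearMap.aeval_self_charpoly (LinearMap.mulLeft F g)
  have h2 : Polynomial.aeval g (LinearMap.mulLeft F g).charpoly = 0 := by
    have h3 : Polynomial.aeval (Algebra.lmul F F' g) (LinearMap.mulLeft F g).charpoly = 0 := h
    rw [Polynomial.aeval_algHom_apply] at h3
    have h4 := congrArg (fun φ : F' →ₗ[F] F' => φ 1) h3
    simpa using h4
  rw [Polynomial.eval_map]
  exact h2

/-- The coefficients of the characteristic polynomial along `u` of an element `g` which is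
regular at all places above `P` are regular at `P`. -/
theorem s37_et_chi_coeff_mem (hF : s37_h_IsFF K F) (hF' : s37_h_IsFF K F') (u : F →ₐ[K] F')
    (hfin : FiniteAlong K u) (P : Place K F) (g : F')
    (hg : ∀ W : Place K F', (∀ x : F, x ∈ P.toValuationSubring → u x ∈ W.toValuationSubring) →
      g ∈ W.toValuationSubring) (i : ℕ) :
    (s37_chi u hfin g).coeff i ∈ P.toValuationSubring := by
  classical
  obtain ⟨x, hx, hfd⟩ := hF
  obtain ⟨x', hx', hfd'⟩ := hF'
  haveI := s37_h_hasPrincipalDivisors x' hx'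
  have hint := s37_h_isIntegral_along u x hx x' hx'
  letI := algebraAlong u
  haveI := isScalarTower_along u
  haveI := isIntegral_along u hint
  haveI : Module.Finite F F' := hfin
  have hchi : s37_chi u hfin g = (LinearMap.mulLeft F g).charpoly := rfl
  have hgW : ∀ w ∈ P.fiber F', g ∈ w.toValuationSubring := fun w hw => by
    apply hg
    intro y hy
    rw [Place.mem_fiber] at hw
    subst hw
    exact hy
  let c : Place K F' → K := fun w =>
    if h : g ∈ w.toValuationSubring then
      (exists_const_sub_mem_nonunits x' hx' w g h).choose else 0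
  have hc : ∀ w ∈ P.fiber F', g - algebraMap K F' (c w) ∈ w.toValuationSubring.nonunits :=
    fun w hw => by
      have h := hgW w hw
      simp only [c, dif_pos h]
      exact (exists_const_sub_mem_nonunits x' hx' w g h).choose_spec
  have h := s37_cp_charpoly (K := K) x hx P g c hc i
  have h1 := add_mem (P.toValuationSubring.nonunits_subset h) (P.algebraMap_mem'
    ((∏ w ∈ P.fiber F', (X - C (c w)) ^ w.ramificationIndex F).coeff i))
  rw [sub_add_cancel] at h1
  rw [hchi]
  exact h1

end Generic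

section Modular

/-- A series all of whose coefficients lie in `A` comes from `A((q))`. -/
theorem s37_et_exists_coeffMap (A : ValuationSubring Qb) (x : LaurentSeries Qb)
    (h : ∀ n, x.coeff n ∈ A) : ∃ g : LaurentSeries A, coeffMap A.subtype g = x := by
  refine ⟨HahnSeries.mk (fun n => ⟨x.coeff n, h n⟩) (x.isPWO_support.mono ?_), ?_⟩
  · intro n hn
    rw [Function.mem_support] at hn
    rw [HahnSeries.mem_support]
    intro h0
    exact hn (Subtype.ext h0)
  · ext n
    rfl

/-- Roots of unity lie in every valuation subring. -/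
theorem s37_et_root_mem (A : ValuationSubring Qb) (ζ : Qb) (n : ℕ) (hn : 0 < n)
    (hζ : ζ ^ n = 1) : ζ ∈ A := by
  rcases A.mem_or_inv_mem ζ with h | h
  · exact h
  · have h1 : ζ = ζ⁻¹ ^ (n - 1) := by
      have hζ0 : ζ ≠ 0 := by
        rintro rfl
        rw [zero_pow hn.ne'] at hζ
        exact zero_ne_one hζ
      have h2 : ζ ^ n = ζ ^ (n - 1) * ζ := by
        rw [← pow_succ, Nat.sub_add_cancel hn]
      rw [inv_pow]
      apply eq_inv_of_mul_eq_one_left
      rw [mul_comm, ← h2, hζ]
    rw [h1]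
    exact pow_mem h _

/-- The coefficients of the characteristic polynomial of `G(q)` along `β` have `A`-integral
`q`-expansions if `G` has. -/
theorem s37_et_chi_integral (N ℓ : ℕ) [NeZero N] [NeZero ℓ] (hℓ : ℓ.Prime) (hℓN : ¬ ℓ ∣ N)
    (A : ValuationSubring Qb) (hfin : FiniteAlong Qb (heckeBetaBar Qb N ℓ))
    (G : modularFunctionFieldBar N) (hG : ∀ n, (G : LaurentSeries Qb).coeff n ∈ A) (i : ℕ)
    (n : ℤ) :
    (((s37_chi (heckeBetaBar Qb N ℓ) hfin (heckeAlphaBar Qb N ℓ G)).coeff i :
      modularFunctionFieldBar N) : LaurentSeries Qb).coeff n ∈ A := by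
  haveI : NeZero (ℓ : Qb) := ⟨by exact_mod_cast NeZero.ne ℓ⟩
  obtain ⟨ζ, hζ⟩ := HasEnoughRootsOfUnity.exists_primitiveRoot Qb ℓ
  have hζA : ζ ∈ A := s37_et_root_mem A ζ ℓ hℓ.pos hζ.pow_eq_one
  have hζinvA : ζ⁻¹ ∈ A :=
    s37_et_root_mem A ζ⁻¹ ℓ hℓ.pos (by rw [inv_pow, hζ.pow_eq_one, inv_one])
  have hzpow : ∀ k : ℤ, ζ ^ k ∈ A := by
    intro k
    rcases Int.eq_nat_or_neg k with ⟨m, rfl | rfl⟩
    · rw [zpow_natCast]
      exact pow_mem hζA m
    · rw [zpow_neg, zpow_natCast, ← inv_pow]
      exact pow_mem hζinvA m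
  obtain ⟨s, hs, hchi⟩ := s37_es_chi N ℓ hℓ hℓN ζ hζ hfin G
  haveI : NeZero (ℓ ^ 2) := ⟨pow_ne_zero 2 (NeZero.ne ℓ)⟩
  obtain ⟨g, hg⟩ := s37_et_exists_coeffMap A (G : LaurentSeries Qb) hG
  have hs' : ∀ j, ∃ y : LaurentSeries A, coeffMap A.subtype y = s j := fun j =>
    s37_et_exists_coeffMap A (s j) (fun m => by
      rw [hs]
      exact mul_mem (hzpow _) (hG m))
  choose s' hs'' using hs'
  have hrhs : (X - C (qExpand Qb (ℓ ^ 2) (G : LaurentSeries Qb))) *
      ∏ j ∈ Finset.range ℓ, (X - C (s j)) =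
      ((X - C (qExpand A (ℓ ^ 2) g)) * ∏ j ∈ Finset.range ℓ, (X - C (s' j))).map
        (coeffMap A.subtype) := by
    rw [Polynomial.map_mul, Polynomial.map_sub, Polynomial.map_X, Polynomial.map_C,
      Polynomial.map_prod, coeffMap_qExpand, hg]
    congr 1
    refine Finset.prod_congr rfl (fun j _ => ?_)
    rw [Polynomial.map_sub, Polynomial.map_X, Polynomial.map_C, hs'']
  rw [hrhs] at hchi
  have h1 := congrArg (fun p : Polynomial (LaurentSeries Qb) => p.coeff i) hchi
  simp only [Polynomial.coeff_map] at h1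
  have h2 : (((s37_chi (heckeBetaBar Qb N ℓ) hfin (heckeAlphaBar Qb N ℓ G)).coeff i :
      modularFunctionFieldBar N) : LaurentSeries Qb).coeff n =
      (qExpand Qb ℓ (((s37_chi (heckeBetaBar Qb N ℓ) hfin (heckeAlphaBar Qb N ℓ G)).coeff i :
      modularFunctionFieldBar N) : LaurentSeries Qb)).coeff ((ℓ : ℤ) * n) :=
    (qExpand_coeff_mul ℓ _ n).symm
  rw [h2]
  have h3 : qExpand Qb ℓ (((s37_chi (heckeBetaBar Qb N ℓ) hfin
      (heckeAlphaBar Qb N ℓ G)).coeff i : modularFunctionFieldBar N) : LaurentSeries Qb) =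
      coeffMap A.subtype
        (((X - C (qExpand A (ℓ ^ 2) g)) * ∏ j ∈ Finset.range ℓ, (X - C (s' j))).coeff i) := by
    rw [← h1]
    rfl
  rw [h3, coeffMap_coeff]
  exact SetLike.coe_mem _

/-- The Hauptmodul and its inverse have `A`-integral `q`-expansions. -/
theorem s37_et_haupt_integral (N M : ℕ) (A : ValuationSubring Qb)
    (t : modularFunctionFieldBar N) (ht : s37_IsHaupt M t)
    (t' : modularFunctionFieldBar N) (ht' : t' = t ∨ t' = t⁻¹) (n : ℤ) :
    (t' : LaurentSeries Qb).coeff n ∈ A := by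
  have hinv : ((t⁻¹ : modularFunctionFieldBar N) : LaurentSeries Qb) =
      (t : LaurentSeries Qb)⁻¹ := rfl
  rcases ht with ⟨-, ht⟩ | ⟨-, ht⟩
  · rcases ht' with rfl | rfl
    · rw [ht, ← s18_coeffMap_t2R A.subtype, coeffMap_coeff]
      exact SetLike.coe_mem _
    · rw [hinv, ht, ← s18_t2invR_eq_inv, ← s18_coeffMap_t2invR A.subtype, coeffMap_coeff]
      exact SetLike.coe_mem _
  · rcases ht' with rfl | rfl
    · rw [ht, ← s18_coeffMap_t3R A.subtype, coeffMap_coeff]
      exact SetLike.coe_mem _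
    · rw [hinv, ht, ← s18_t3invR_eq_inv, ← s18_coeffMap_t3invR A.subtype, coeffMap_coeff]
      exact SetLike.coe_mem _

/-- The Hauptmodul and its inverse are transcendental. -/
theorem s37_et_haupt_transcendental (N M : ℕ) [NeZero N]
    (t : modularFunctionFieldBar N) (ht : s37_IsHaupt M t)
    (t' : modularFunctionFieldBar N) (ht' : t' = t ∨ t' = t⁻¹) : Transcendental Qb t' := by
  have hlead : s18h_lead 1 (t : LaurentSeries Qb) := by
    rcases ht with ⟨-, ht⟩ | ⟨-, ht⟩
    · rw [ht]; exact s18h_lead_t2R Qb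
    · rw [ht]; exact s18h_lead_t3R Qb
  obtain ⟨ht0, hord⟩ := s37_et_order_of_lead hlead
  have ht0' : t ≠ 0 := fun h => ht0 (by rw [h]; rfl)
  have htr : Transcendental Qb t := by
    intro halg
    obtain ⟨P, hP⟩ := s37_et_qPlace N
    have h1 := s37_h_ord_eq_zero_of_isAlgebraic t halg P
    rw [hP t ht0', hord] at h1
    norm_num at h1
  rcases ht' with rfl | rfl
  · exact htr
  · exact s37_h_transcendental_inv t htr

/-- **(ES-t)**, modulo the `q`-expansion principle (QEP) for the chart of `t'`. -/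
theorem s37_et_chart_stable_aux (N ℓ M : ℕ) [NeZero N] [NeZero ℓ] (hℓ : ℓ.Prime)
    (hℓN : ¬ ℓ ∣ N) (hℓM : ℓ ≠ M) (hMN : M ∣ N) (A : ValuationSubring Qb)
    (t : modularFunctionFieldBar N) (ht : s37_IsHaupt M t)
    (t' : modularFunctionFieldBar N) (ht' : t' = t ∨ t' = t⁻¹)
    (hqep : ∀ (g : LaurentSeries A) (hg : coeffMap A.subtype g ∈ modularFunctionFieldBar N),
      IsIntegral (Algebra.adjoin Qb {t'}) (⟨_, hg⟩ : modularFunctionFieldBar N) →
      s37_IsChartFn A t' (⟨_, hg⟩ : modularFunctionFieldBar N)) :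
    IsIntegral (s37_chartBase A (heckeBetaBar Qb N ℓ t')) (heckeAlphaBar Qb N ℓ t') := by
  haveI : NeZero (N * ℓ) := ⟨Nat.mul_ne_zero (NeZero.ne N) (NeZero.ne ℓ)⟩
  obtain ⟨hfin, -⟩ := s37_es_finrank_beta N ℓ hℓ hℓN
  have htr : Transcendental Qb t' := s37_et_haupt_transcendental N M t ht t' ht'
  have hswap : ∀ (N₀ : ℕ) [NeZero N₀], Nat.Coprime ℓ N₀ →
      ∃ W : modularFunctionFieldBar (N₀ * ℓ) ≃ₐ[Qb] modularFunctionFieldBar (N₀ * ℓ),
        (∀ x, W (heckeAlphaBar Qb N₀ ℓ x) = heckeBetaBar Qb N₀ ℓ x) ∧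
        (∀ x, W (heckeBetaBar Qb N₀ ℓ x) = heckeAlphaBar Qb N₀ ℓ x) :=
    fun N₀ _ h => s37_es_swap N₀ ℓ h
  -- the coefficients of the characteristic polynomial are chart functions
  have hck : ∀ i, s37_IsChartFn A t'
      ((s37_chi (heckeBetaBar Qb N ℓ) hfin (heckeAlphaBar Qb N ℓ t')).coeff i) := by
    intro i
    obtain ⟨c, hc⟩ := s37_et_exists_coeffMap A _
      (s37_et_chi_integral N ℓ hℓ hℓN A hfin t'
        (s37_et_haupt_integral N M A t ht t' ht') i)
    have hmem : coeffMap A.subtype c ∈ modularFunctionFieldBar N := by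
      rw [hc]
      exact SetLike.coe_mem _
    have heq : (⟨_, hmem⟩ : modularFunctionFieldBar N) =
        (s37_chi (heckeBetaBar Qb N ℓ) hfin (heckeAlphaBar Qb N ℓ t')).coeff i :=
      Subtype.ext hc
    rw [← heq]
    apply hqep c hmem
    rw [heq]
    apply s37_hol_bar N t' htr
    intro P hP
    apply s37_et_chi_coeff_mem (s37_h_isFF_bar N) (s37_h_isFF_bar (N * ℓ))
      (heckeBetaBar Qb N ℓ) hfin P (heckeAlphaBar Qb N ℓ t')
    intro W hW
    exact s37_et_chart_regular N ℓ M hℓ hℓM hMN hswap t ht t' ht' W (hW t' hP)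
  obtain ⟨hmonic, hroot⟩ := s37_et_chi_root (heckeBetaBar Qb N ℓ) hfin (heckeAlphaBar Qb N ℓ t')
  refine s37_et_integral_of_root _ hmonic (fun i => ?_) _ hroot
  rw [Polynomial.coeff_map]
  exact s37_et_isIntegral_map A (heckeBetaBar Qb N ℓ) t' _ (hck i)

end Modular

end

end Fermat.Agent.S37
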