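import Fermat.Agent.S37.RcWd

/-!
# S37, (QEP) (helper24): `Q̄[t']`-integral functions with `A`-integral `q`-expansion are chart
functions

* `s37_qep_clear` (generic): if `G` is integral over `Q̄[t']` then `c · G` is integral over
  `A[t']` for some nonzero constant `c ∈ A` (clearing denominators, `Polynomial.scaleRoots`);
* `s37_rc_qep_coord` : for a coordinate `t` of block C of S18, a function integral over `Q̄[t]`
  with `A`-integral `q`-expansion is integral over `A[t]` (helper27's `s37_rc_mem_chart`,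
  `s37_rc_sat_bar`, `s37_rc_isChartFn`);
* `s37_rc_qep` : the same for the Hauptmodul of `s37_IsHaupt` and `t' = t` or `t⁻¹`.
-/

set_option autoImplicit false
set_option synthInstance.maxHeartbeats 400000
set_option linter.unusedSectionVars false

open ModularCurve ModularCurve.IgusaScheme AlgebraicCurve Fermat.Agent.S28 Fermat.Agent.S18
  Polynomial

noncomputable section

namespace Fermat.Agent.S37

local notation "Qb" => AlgebraicClosure ℚ

section Denominators

variable {F : Type*} [Field F] [Algebra Qb F] (A : ValuationSubring Qb)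

theorem s37_qep_const_mem (t' : F) (a : A) : algebraMap Qb F (a : Qb) ∈ s37_chartBase A t' :=
  Subring.subset_closure (Or.inl ⟨a, rfl⟩)

/-- Every element of `Q̄[t']` has a nonzero constant multiple in `A[t']`. -/
theorem s37_qep_exists_mul_mem (t' : F) (s : F) (hs : s ∈ Algebra.adjoin Qb {t'}) :
    ∃ c : A, c ≠ 0 ∧ algebraMap Qb F (c : Qb) * s ∈ s37_chartBase A t' := by
  induction hs using Algebra.adjoin_induction with
  | mem x hx =>
      rw [Set.mem_singleton_iff] at hx
      refine ⟨1, one_ne_zero, ?_⟩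
      rw [hx, OneMemClass.coe_one, map_one, one_mul]
      exact Subring.subset_closure (Or.inr rfl)
  | algebraMap q =>
      by_cases hq : q ∈ A
      · refine ⟨1, one_ne_zero, ?_⟩
        rw [OneMemClass.coe_one, map_one, one_mul]
        exact s37_qep_const_mem A t' ⟨q, hq⟩
      · have hq' : q⁻¹ ∈ A := (A.mem_or_inv_mem q).resolve_left hq
        have hq0 : q ≠ 0 := fun h => hq (h ▸ A.zero_mem)
        refine ⟨⟨q⁻¹, hq'⟩, fun h => inv_ne_zero hq0 (congrArg Subtype.val h), ?_⟩
        rw [← map_mul, inv_mul_cancel₀ hq0, map_one]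
        exact Subring.one_mem _
  | add x y _ _ hx hy =>
      obtain ⟨c1, hc1, h1⟩ := hx
      obtain ⟨c2, hc2, h2⟩ := hy
      refine ⟨c1 * c2, mul_ne_zero hc1 hc2, ?_⟩
      have e : algebraMap Qb F ((c1 * c2 : A) : Qb) * (x + y) =
          algebraMap Qb F (c2 : Qb) * (algebraMap Qb F (c1 : Qb) * x) +
            algebraMap Qb F (c1 : Qb) * (algebraMap Qb F (c2 : Qb) * y) := by
        rw [MulMemClass.coe_mul, map_mul]
        ring
      rw [e]
      exact Subring.add_mem _ (Subring.mul_mem _ (s37_qep_const_mem A t' c2) h1)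
        (Subring.mul_mem _ (s37_qep_const_mem A t' c1) h2)
  | mul x y _ _ hx hy =>
      obtain ⟨c1, hc1, h1⟩ := hx
      obtain ⟨c2, hc2, h2⟩ := hy
      refine ⟨c1 * c2, mul_ne_zero hc1 hc2, ?_⟩
      have e : algebraMap Qb F ((c1 * c2 : A) : Qb) * (x * y) =
          (algebraMap Qb F (c1 : Qb) * x) * (algebraMap Qb F (c2 : Qb) * y) := by
        rw [MulMemClass.coe_mul, map_mul]
        ring
      rw [e]
      exact Subring.mul_mem _ h1 h2

/-- A common denominator for finitely many elements of `Q̄[t']`. -/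
theorem s37_qep_exists_mul_mem_fin (t' : F) (n : ℕ) (s : ℕ → F)
    (hs : ∀ i < n, s i ∈ Algebra.adjoin Qb {t'}) :
    ∃ c : A, c ≠ 0 ∧ ∀ i < n, algebraMap Qb F (c : Qb) * s i ∈ s37_chartBase A t' := by
  induction n with
  | zero => exact ⟨1, one_ne_zero, fun i hi => absurd hi (Nat.not_lt_zero i)⟩
  | succ n ih =>
      obtain ⟨c1, hc1, h1⟩ := ih (fun i hi => hs i (Nat.lt_succ_of_lt hi))
      obtain ⟨c2, hc2, h2⟩ := s37_qep_exists_mul_mem A t' (s n) (hs n (Nat.lt_succ_self n))
      refine ⟨c1 * c2, mul_ne_zero hc1 hc2, fun i hi => ?_⟩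
      rcases Nat.lt_succ_iff_lt_or_eq.mp hi with hi' | rfl
      · have e : algebraMap Qb F ((c1 * c2 : A) : Qb) * s i =
            algebraMap Qb F (c2 : Qb) * (algebraMap Qb F (c1 : Qb) * s i) := by
          rw [MulMemClass.coe_mul, map_mul]
          ring
        rw [e]
        exact Subring.mul_mem _ (s37_qep_const_mem A t' c2) (h1 i hi')
      · have e : algebraMap Qb F ((c1 * c2 : A) : Qb) * s i =
            algebraMap Qb F (c1 : Qb) * (algebraMap Qb F (c2 : Qb) * s i) := by
          rw [MulMemClass.coe_mul, map_mul]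
          ring
        rw [e]
        exact Subring.mul_mem _ (s37_qep_const_mem A t' c1) h2

/-- **Clearing denominators**: if `G` is integral over `Q̄[t']`, then `c · G` is integral over
`A[t']` for some nonzero constant `c ∈ A`. -/
theorem s37_qep_clear (t' G : F) (hint : IsIntegral (Algebra.adjoin Qb {t'}) G) :
    ∃ c : A, c ≠ 0 ∧ IsIntegral (s37_chartBase A t') (algebraMap Qb F (c : Qb) * G) := by
  obtain ⟨p₀, hp₀, hpG⟩ := hint
  have hpm : (p₀.map (algebraMap (Algebra.adjoin Qb {t'}) F)).Monic := hp₀.map _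
  have hpG' : (p₀.map (algebraMap (Algebra.adjoin Qb {t'}) F)).eval G = 0 := by
    rw [← Polynomial.eval₂_eq_eval_map]
    exact hpG
  have hcoeff : ∀ i, (p₀.map (algebraMap (Algebra.adjoin Qb {t'}) F)).coeff i ∈
      Algebra.adjoin Qb {t'} := fun i => by
    rw [Polynomial.coeff_map]
    exact (p₀.coeff i).2
  generalize p₀.map (algebraMap (Algebra.adjoin Qb {t'}) F) = p at hpm hpG' hcoeff
  obtain ⟨c, hc0, hc⟩ := s37_qep_exists_mul_mem_fin A t' p.natDegree p.coeff
    (fun i _ => hcoeff i)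
  refine ⟨c, hc0, ?_⟩
  have hcR : algebraMap Qb F (c : Qb) ∈ s37_chartBase A t' := s37_qep_const_mem A t' c
  generalize algebraMap Qb F (c : Qb) = cF at hc hcR ⊢
  have hq : ∀ i, (p.scaleRoots cF).coeff i ∈ s37_chartBase A t' := by
    intro i
    rw [Polynomial.coeff_scaleRoots]
    rcases lt_trichotomy i p.natDegree with hi | hi | hi
    · obtain ⟨k, hk⟩ : ∃ k, p.natDegree - i = k + 1 := ⟨p.natDegree - i - 1, by omega⟩
      have e : p.coeff i * cF ^ (k + 1) = cF ^ k * (cF * p.coeff i) := by ring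
      rw [hk, e]
      exact Subring.mul_mem _ (Subring.pow_mem _ hcR k) (hc i hi)
    · rw [hi, Nat.sub_self, pow_zero, mul_one, hpm.coeff_natDegree]
      exact Subring.one_mem _
    · rw [Polynomial.coeff_eq_zero_of_natDegree_lt hi, zero_mul]
      exact Subring.zero_mem _
  have hsub : (↑(p.scaleRoots cF).coeffs : Set F) ⊆ (s37_chartBase A t' : Set F) := by
    intro x hx
    obtain ⟨i, _, rfl⟩ := Polynomial.mem_coeffs_iff.mp hx
    exact hq i
  refine ⟨(p.scaleRoots cF).toSubring _ hsub,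
    (Polynomial.monic_toSubring _ _ _).mpr ((Polynomial.monic_scaleRoots_iff cF).mpr hpm), ?_⟩
  have h1 : eval₂ (algebraMap (s37_chartBase A t') F) (cF * G)
      ((p.scaleRoots cF).toSubring _ hsub) =
      eval (cF * G) (((p.scaleRoots cF).toSubring _ hsub).map (Subring.subtype _)) :=
    Polynomial.eval₂_eq_eval_map _
  rw [h1, Polynomial.map_toSubring, Polynomial.scaleRoots_eval_mul, hpG', mul_zero]

end Denominators

section Qep

variable {N : ℕ} [NeZero N] {ℓ : ℕ} [Fact ℓ.Prime]
variable (A : ValuationSubring (AlgebraicClosure ℚ)) {t : modularFunctionFieldFull N}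

local notation "Fb" => modularFunctionFieldBar N

/-- **(QEP) for a coordinate `t`**: a function integral over `Q̄[t]` with `A`-integral
`q`-expansion is a chart function (integral over `A[t]`). -/
theorem s37_rc_qep_coord (hA : A.LiesOverPrime ℓ) (hℓN : ¬ ℓ ∣ N) (h : s18_cz_Coord N ℓ t)
    (g : LaurentSeries A) (hg : coeffMap A.subtype g ∈ Fb)
    (hint : IsIntegral (Algebra.adjoin Qb {s18_coord Qb t}) (⟨_, hg⟩ : Fb)) :
    s37_IsChartFn A (s18_coord Qb t) (⟨_, hg⟩ : Fb) := by
  obtain ⟨B, hB⟩ := core N ℓ hℓN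
  have hℓ : ((ℓ : Qb))⁻¹ ∉ A := s18_res_inv_notMem_bar A ℓ hA
  obtain ⟨c, hc0, hcint⟩ := s37_qep_clear A (s18_coord Qb t) (⟨_, hg⟩ : Fb) hint
  have hexp : coeffMap A.subtype (HahnSeries.C c * g) =
      ((algebraMap Qb Fb (c : Qb) * (⟨_, hg⟩ : Fb) : Fb) : LaurentSeries Qb) := by
    show _ = algebraMap Qb (LaurentSeries Qb) (c : Qb) * coeffMap A.subtype g
    rw [map_mul, HahnSeries.C_apply, coeffMap_single, algebraMap_laurentSeries_eq_single]
    rfl
  have hcG : algebraMap Qb Fb (c : Qb) * (⟨_, hg⟩ : Fb) ∈ s18_chAlg N ℓ A t :=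
    s37_rc_mem_chart A hA h hB _ hcint (HahnSeries.C c * g) hexp
  have hG : (⟨_, hg⟩ : Fb) ∈ s18_chAlg N ℓ A t :=
    s37_rc_sat_bar A hA h hB c hc0 _ hcG g (by
      rw [← hexp, map_mul, HahnSeries.C_apply, coeffMap_single, HahnSeries.C_apply])
  exact s37_rc_isChartFn A hℓ h hB _ hG

end Qep

/-- **(QEP)**: a function of `Q̄ · F_N` with `A`-integral `q`-expansion which is integral over
`Q̄[t']` (`t'` the Hauptmodul or its inverse) is a chart function, i.e. integral over `A[t']`. -/
theorem s37_rc_qep (N ℓ M : ℕ) [NeZero N] (hℓ : ℓ.Prime) (hℓN : ¬ ℓ ∣ N) (hℓM : ℓ ≠ M)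
    (hMN : M ∣ N) (A : ValuationSubring (AlgebraicClosure ℚ)) (hA : A.LiesOverPrime ℓ)
    (t : modularFunctionFieldBar N) (ht : s37_IsHaupt M t)
    (t' : modularFunctionFieldBar N) (ht' : t' = t ∨ t' = t⁻¹)
    (g : LaurentSeries A) (hg : coeffMap A.subtype g ∈ modularFunctionFieldBar N)
    (hint : IsIntegral (Algebra.adjoin (AlgebraicClosure ℚ) {t'})
      (⟨_, hg⟩ : modularFunctionFieldBar N)) :
    s37_IsChartFn A t' (⟨_, hg⟩ : modularFunctionFieldBar N) := by
  have : Fact ℓ.Prime := ⟨hℓ⟩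
  obtain ⟨t₀, h, rfl⟩ := s37_rc_haupt ℓ M hMN hℓM t ht
  rcases ht' with rfl | rfl
  · exact s37_rc_qep_coord A hA hℓN h g hg hint
  · rw [← s18_coord_inv] at hint ⊢
    exact s37_rc_qep_coord A hA hℓN h.inv g hg hint

end Fermat.Agent.S37
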