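import Mathlib
import Fermat.Agent.S37.EtMain
import Fermat.Agent.S37.RcQep

/-!
# S37, block (ES-t): the charts are stable under the Hecke correspondence

`t' ∈ {t, 1/t}` for the Hauptmodul `t = t_M` (`M ∈ {2, 3}`, `M ∣ N`, `ℓ ≠ M`, `ℓ ∤ N`):
`t'(q)` is integral over `A[t'(q^ℓ)]` inside `Q̄ · F_{Nℓ}`.
(`s37_et_chart_stable_aux` + the `q`-expansion principle `s37_rc_qep`.)
-/

set_option autoImplicit false

namespace Fermat.Agent.S37

open AlgebraicCurve ModularCurve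

noncomputable section

local notation "Qb" => AlgebraicClosure ℚ

/-- **(ES-t)** the charts are stable under the Hecke correspondence:
`t(q)` is integral over `A[t(q^ℓ)]`, and `1/t(q)` over `A[1/t(q^ℓ)]`. -/
theorem s37_es_chart_stable (N ℓ M : ℕ) [NeZero N] [NeZero ℓ] (hℓ : ℓ.Prime) (hℓN : ¬ ℓ ∣ N)
    (hℓM : ℓ ≠ M) (hMN : M ∣ N) (A : ValuationSubring Qb) (hA : A.LiesOverPrime ℓ)
    (t : modularFunctionFieldBar N) (ht : s37_IsHaupt M t)
    (t' : modularFunctionFieldBar N) (ht' : t' = t ∨ t' = t⁻¹) :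
    IsIntegral (s37_chartBase A (heckeBetaBar Qb N ℓ t')) (heckeAlphaBar Qb N ℓ t') :=
  s37_et_chart_stable_aux N ℓ M hℓ hℓN hℓM hMN A t ht t' ht'
    (fun g hg hint => s37_rc_qep N ℓ M hℓ hℓN hℓM hMN A hA t ht t' ht' g hg hint)

end

end Fermat.Agent.S37
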