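import Fermat.Agent.S37.EsChi
import Fermat.Agent.S37.EsFrob
import Fermat.Agent.S18.ResField

/-!
# S37, block ES1 (CONG): the Kronecker congruence

For a function `G ∈ F̄(N)` with `A`-integral `q`-expansion `g` (`A` a valuation ring of `ℚ̄` over
`ℓ ∤ N`), the coefficients of the characteristic polynomial of `G(q)` over the field of the
`f(q^ℓ)` have `A`-integral `q`-expansions, and the polynomial reduces to
`(X - ḡ(q^ℓ)) (X^ℓ - ḡ^φ(q))` modulo the maximal ideal of `A`.
-/

set_option autoImplicit false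
set_option linter.style.haveILetI false

open ModularCurve AlgebraicCurve Polynomial

noncomputable section

namespace Fermat.Agent.S37

local notation "Qb" => AlgebraicClosure ℚ

/-- A series with coefficients in `A` comes from `A((q))`. -/
theorem s37_eg_lift {K : Type*} [Field K] (A : ValuationSubring K) (x : LaurentSeries K)
    (h : ∀ n, x.coeff n ∈ A) : ∃ y : LaurentSeries A, coeffMap A.subtype y = x := by
  refine ⟨⟨fun n => ⟨x.coeff n, h n⟩, x.isPWO_support.mono fun n hn => ?_⟩, ?_⟩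
  · simp only [Function.mem_support, ne_eq, HahnSeries.mem_support] at hn ⊢
    intro h0
    apply hn
    exact Subtype.ext h0
  · ext n
    rfl

theorem s37_eg_coeffMap_subtype_injective {K : Type*} [Field K] (A : ValuationSubring K) :
    Function.Injective (coeffMap A.subtype) := by
  intro x y hxy
  ext n
  have h2 := congrArg (fun z : LaurentSeries K => z.coeff n) hxy
  exact h2

/-- In characteristic `ℓ` the only `ℓ`-th root of unity of a field is `1`. -/
theorem s37_eg_root_one {κ : Type*} [Field κ] (ℓ : ℕ) [Fact ℓ.Prime] [CharP κ ℓ] (x : κ)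
    (hx : x ^ ℓ = 1) : x = 1 := by
  have h1 : (x - 1) ^ ℓ = 0 := by rw [sub_pow_char, hx, one_pow, sub_self]
  exact sub_eq_zero.mp (pow_eq_zero_iff (Fact.out : ℓ.Prime).ne_zero |>.mp h1)

/-- **(CONG)** the Kronecker congruence for every function with `A`-integral `q`-expansion. -/
theorem s37_es_cong (N ℓ : ℕ) [NeZero N] [NeZero ℓ] (hℓ : ℓ.Prime) (hℓN : ¬ ℓ ∣ N)
    (A : ValuationSubring Qb) (hA : A.LiesOverPrime ℓ)
    (hfin : FiniteAlong Qb (heckeBetaBar Qb N ℓ))
    (g : LaurentSeries A) (hg : coeffMap A.subtype g ∈ modularFunctionFieldBar N)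
    (φ : IsLocalRing.ResidueField A ≃+* IsLocalRing.ResidueField A) (hφ : ∀ x, φ x = x ^ ℓ) :
    ∃ c : ℕ → LaurentSeries A,
      (∀ i, (((s37_chi (heckeBetaBar Qb N ℓ) hfin
          (heckeAlphaBar Qb N ℓ ⟨_, hg⟩)).coeff i : modularFunctionFieldBar N) :
            LaurentSeries Qb) = coeffMap A.subtype (c i)) ∧
      (∀ i, coeffMap (IsLocalRing.residue A) (c i) =
        ((X - C (qExpand (IsLocalRing.ResidueField A) ℓ (coeffMap (IsLocalRing.residue A) g))) *
          (X ^ ℓ - C (coeffMap (φ : IsLocalRing.ResidueField A →+* IsLocalRing.ResidueField A)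
            (coeffMap (IsLocalRing.residue A) g)))).coeff i) := by
  classical
  haveI : Fact ℓ.Prime := ⟨hℓ⟩
  haveI : CharP (IsLocalRing.ResidueField A) ℓ := Fermat.Agent.S18.s18_res_charP A ℓ hA
  -- a primitive root of unity, lying in `A`
  obtain ⟨ζ, hζ⟩ := HasEnoughRootsOfUnity.exists_primitiveRoot Qb ℓ
  have hζA : ζ ∈ A := by
    have hint : IsIntegral A ζ := by
      refine ⟨X ^ ℓ - C 1, monic_X_pow_sub_C 1 (NeZero.ne ℓ), ?_⟩
      rw [eval₂_sub, eval₂_pow, eval₂_X, eval₂_C, hζ.pow_eq_one, map_one, sub_self]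
    obtain ⟨a, ha⟩ := (IsIntegrallyClosed.isIntegral_iff (R := A) (K := Qb)).mp hint
    rw [← ha]
    exact a.2
  have hzA : (⟨ζ, hζA⟩ : A) ^ ℓ = 1 := Subtype.ext (by
    show ζ ^ ℓ = 1
    exact hζ.pow_eq_one)
  obtain ⟨uA, huA⟩ : ∃ uA : Aˣ, ((uA : A) : Qb) = ζ :=
    ⟨Units.ofPowEqOne _ ℓ hzA (NeZero.ne ℓ), rfl⟩
  have huAℓ : uA ^ ℓ = 1 := Units.ext (Subtype.ext (by
    show (((uA ^ ℓ : Aˣ) : A) : Qb) = 1
    rw [Units.val_pow_eq_pow_val]
    show ((uA : A) : Qb) ^ ℓ = 1
    rw [huA, hζ.pow_eq_one]))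
  have hres : Units.map (IsLocalRing.residue A : A →* IsLocalRing.ResidueField A) uA = 1 := by
    apply Units.ext
    apply s37_eg_root_one ℓ
    rw [← Units.val_pow_eq_pow_val, ← map_pow, huAℓ, map_one]
    rfl
  obtain ⟨s, hs, hchi⟩ := s37_es_chi N ℓ hℓ hℓN ζ hζ hfin ⟨_, hg⟩
  -- the twists over `A`
  have hsi : ∀ i, s i = coeffMap A.subtype (s37_ec_twist (uA ^ i) g) := by
    intro i
    ext n
    rw [hs]
    show ζ ^ ((i : ℤ) * n) * A.subtype (g.coeff n) =
      A.subtype ((((uA ^ i) ^ n : Aˣ) : A) * g.coeff n)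
    rw [map_mul]
    congr 1
    have h1 : A.subtype (((uA ^ i) ^ n : Aˣ) : A) =
        ((Units.map (A.subtype : A →* Qb) ((uA ^ i) ^ n) : Qbˣ) : Qb) := rfl
    rw [h1, map_zpow, map_pow, Units.val_zpow_eq_zpow_val, Units.val_pow_eq_pow_val, zpow_mul,
      zpow_natCast]
    congr 2
    exact huA.symm
  have hPmap : ((X - C (qExpand A (ℓ ^ 2) g)) *
        ∏ i ∈ Finset.range ℓ, (X - C (s37_ec_twist (uA ^ i) g))).map (coeffMap A.subtype) =
      (X - C (qExpand Qb (ℓ ^ 2) (coeffMap A.subtype g))) *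
        ∏ i ∈ Finset.range ℓ, (X - C (s i)) := by
    rw [Polynomial.map_mul, Polynomial.map_sub, Polynomial.map_X, Polynomial.map_C,
      Polynomial.map_prod, coeffMap_qExpand]
    congr 1
    refine Finset.prod_congr rfl (fun i _ => ?_)
    rw [Polynomial.map_sub, Polynomial.map_X, Polynomial.map_C, hsi]
  rw [← hPmap] at hchi
  have hcoeff : ∀ i, qExpand Qb ℓ (((s37_chi (heckeBetaBar Qb N ℓ) hfin
        (heckeAlphaBar Qb N ℓ ⟨_, hg⟩)).coeff i : modularFunctionFieldBar N) : LaurentSeries Qb) =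
      coeffMap A.subtype (((X - C (qExpand A (ℓ ^ 2) g)) *
        ∏ i ∈ Finset.range ℓ, (X - C (s37_ec_twist (uA ^ i) g))).coeff i) := by
    intro i
    have h1 := congrArg (fun p : Polynomial (LaurentSeries Qb) => p.coeff i) hchi
    simp only [Polynomial.coeff_map] at h1
    exact h1
  have hmem : ∀ i n, (((s37_chi (heckeBetaBar Qb N ℓ) hfin
      (heckeAlphaBar Qb N ℓ ⟨_, hg⟩)).coeff i : modularFunctionFieldBar N) :
        LaurentSeries Qb).coeff n ∈ A := by
    intro i n
    have h1 := congrArg (fun x : LaurentSeries Qb => x.coeff ((ℓ : ℤ) * n)) (hcoeff i)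
    simp only [qExpand_coeff_mul, coeffMap_coeff] at h1
    rw [h1]
    exact Subtype.mem _
  choose c hc using fun i => s37_eg_lift A _ (hmem i)
  refine ⟨c, fun i => (hc i).symm, fun i => ?_⟩
  have h2 : qExpand A ℓ (c i) = ((X - C (qExpand A (ℓ ^ 2) g)) *
      ∏ i ∈ Finset.range ℓ, (X - C (s37_ec_twist (uA ^ i) g))).coeff i := by
    apply s37_eg_coeffMap_subtype_injective A
    rw [coeffMap_qExpand, hc i, hcoeff i]
  apply qExpand_injective (R := IsLocalRing.ResidueField A) ℓ
  rw [← coeffMap_qExpand, h2, ← Polynomial.coeff_map, ← Polynomial.coeff_map]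
  congr 1
  -- the polynomial identity in characteristic `ℓ`
  haveI : CharP (LaurentSeries (IsLocalRing.ResidueField A)) ℓ :=
    charP_of_injective_algebraMap
      (algebraMap (IsLocalRing.ResidueField A)
        (LaurentSeries (IsLocalRing.ResidueField A))).injective ℓ
  have hφ' : (φ : IsLocalRing.ResidueField A →+* IsLocalRing.ResidueField A) =
      frobenius (IsLocalRing.ResidueField A) ℓ := RingHom.ext fun x => by
    rw [frobenius_def]
    exact hφ x
  have htw : ∀ i, coeffMap (IsLocalRing.residue A) (s37_ec_twist (uA ^ i) g) =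
      coeffMap (IsLocalRing.residue A) g := by
    intro i
    rw [s37_ec_coeffMap_twist, map_pow, hres, one_pow, s37_ec_twist_one]
  rw [Polynomial.map_mul, Polynomial.map_sub, Polynomial.map_X, Polynomial.map_C,
    Polynomial.map_prod, coeffMap_qExpand, Polynomial.map_mul, Polynomial.map_sub,
    Polynomial.map_X, Polynomial.map_C, Polynomial.map_sub, Polynomial.map_pow,
    Polynomial.map_X, Polynomial.map_C, qExpand_qExpand, qExpand_congr (sq ℓ).symm, hφ',
    ← s37_ec_pow_char]
  congr 1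
  have h3 : ∏ i ∈ Finset.range ℓ, (X - C (s37_ec_twist (uA ^ i) g)).map
        (coeffMap (IsLocalRing.residue A)) =
      (X - C (coeffMap (IsLocalRing.residue A) g)) ^ ℓ := by
    rw [← Finset.card_range ℓ, ← Finset.prod_const]
    rw [Finset.card_range]
    refine Finset.prod_congr rfl (fun i _ => ?_)
    rw [Polynomial.map_sub, Polynomial.map_X, Polynomial.map_C, htw]
  rw [h3, sub_pow_char, ← C_pow]

end Fermat.Agent.S37
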