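import Mathlib
import Fermat.Agent.S37.RedDefs
import Fermat.Agent.S37.RRatVal

/-!
# S37: algebra of residue profiles

* `s37_chartRing N A t'` : the subring of `A((q))` of `A`-integral `q`-expansions of chart
  functions for the coordinate `t'`.
* on the chart domain the profile `s37_profile N A t' P` is a ring homomorphism on the chart
  ring (and vanishes outside of it);
* compatibility of profiles with the Galois action of the decomposition group of `A`.
-/

set_option autoImplicit false
set_option synthInstance.maxHeartbeats 400000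

open scoped Pointwise

namespace Fermat.Agent.S37

open AlgebraicCurve ModularCurve

noncomputable section

local notation "Qb" => AlgebraicClosure ℚ
local notation "Γ" => (AlgebraicClosure ℚ ≃ₐ[ℚ] AlgebraicClosure ℚ)

section Generic

/-- integrality is transported along ring homomorphisms mapping the base into the new base -/
theorem s37_pr_isIntegral_map {F F' : Type*} [CommRing F] [CommRing F'] (φ : F →+* F')
    (R : Subring F) (R' : Subring F') (h : ∀ r ∈ R, φ r ∈ R') {x : F} (hx : IsIntegral R x) :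
    IsIntegral R' (φ x) := by
  obtain ⟨p, hp, hpx⟩ := hx
  let ψ : R →+* R' := (φ.comp R.subtype).codRestrict R' (fun r => h r r.2)
  refine ⟨p.map ψ, hp.map ψ, ?_⟩
  rw [Polynomial.eval₂_map]
  have e : (algebraMap R' F').comp ψ = φ.comp (algebraMap R F) := RingHom.ext fun r => rfl
  rw [e, ← Polynomial.hom_eval₂, hpx, map_zero]

/-- elements of a subring are integral over it -/
theorem s37_pr_isIntegral_of_mem {F : Type*} [CommRing F] (R : Subring F) {x : F} (hx : x ∈ R) :
    IsIntegral R x :=
  (isIntegral_algebraMap : IsIntegral R (algebraMap R F ⟨x, hx⟩))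

variable {F : Type*} [Field F] [Algebra Qb F] [s37_r_Rational Qb F]

/-- every element of `A[t']` is regular with value in `A` on the chart domain -/
theorem s37_pr_chartBase_val (A : ValuationSubring Qb) (t' : F) (P : Place Qb F)
    (hP : P ∈ s37_chartDom A t') (s : F) (hs : s ∈ s37_chartBase A t') :
    s ∈ P.toValuationSubring ∧ s37_r_val P s ∈ A := by
  induction hs using Subring.closure_induction with
  | mem x hx =>
    rcases hx with ⟨a, rfl⟩ | rfl
    · exact ⟨P.algebraMap_mem' _, by rw [s37_r_val_algebraMap]; exact a.2⟩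
    · exact hP
  | zero => exact ⟨zero_mem _, by rw [s37_r_val_zero]; exact zero_mem _⟩
  | one => exact ⟨one_mem _, by rw [s37_r_val_one]; exact one_mem _⟩
  | add x y _ _ hx hy =>
    exact ⟨add_mem hx.1 hy.1, by rw [s37_r_val_add P hx.1 hy.1]; exact add_mem hx.2 hy.2⟩
  | neg x _ hx => exact ⟨neg_mem hx.1, by rw [s37_r_val_neg P hx.1]; exact neg_mem hx.2⟩
  | mul x y _ _ hx hy =>
    exact ⟨mul_mem hx.1 hy.1, by rw [s37_r_val_mul P hx.1 hy.1]; exact mul_mem hx.2 hy.2⟩

/-- chart functions are regular with value in `A` on the chart domain -/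
theorem s37_pr_chartFn_val (A : ValuationSubring Qb) (t' : F) (P : Place Qb F)
    (hP : P ∈ s37_chartDom A t') (G : F) (hG : s37_IsChartFn A t' G) :
    G ∈ P.toValuationSubring ∧ s37_r_val P G ∈ A :=
  s37_r_integral P A (s37_chartBase A t') (fun s hs => s37_pr_chartBase_val A t' P hP s hs) G hG

omit [s37_r_Rational Qb F] in
theorem s37_pr_const_mem_chartBase (A : ValuationSubring Qb) (t' : F) (a : A) :
    algebraMap Qb F (a : Qb) ∈ s37_chartBase A t' :=
  Subring.subset_closure (Or.inl ⟨a, rfl⟩)

omit [s37_r_Rational Qb F] in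
theorem s37_pr_self_mem_chartBase (A : ValuationSubring Qb) (t' : F) :
    t' ∈ s37_chartBase A t' :=
  Subring.subset_closure (Or.inr rfl)

end Generic

/-! ### the residue map on `Qb` -/

theorem s37_pr_resQb_sub (A : ValuationSubring Qb) {x y : Qb} (hx : x ∈ A) (hy : y ∈ A) :
    s37_resQb A (x - y) = s37_resQb A x - s37_resQb A y := by
  rw [s37_resQb_of_mem A hx, s37_resQb_of_mem A hy, s37_resQb_of_mem A (sub_mem hx hy),
    ← map_sub]
  rfl

theorem s37_pr_resQb_mul (A : ValuationSubring Qb) {x y : Qb} (hx : x ∈ A) (hy : y ∈ A) :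
    s37_resQb A (x * y) = s37_resQb A x * s37_resQb A y := by
  rw [s37_resQb_of_mem A hx, s37_resQb_of_mem A hy, s37_resQb_of_mem A (mul_mem hx hy),
    ← map_mul]
  rfl

theorem s37_pr_resQb_eq_zero (A : ValuationSubring Qb) {x : Qb} (hx : x ∈ A.nonunits) :
    s37_resQb A x = 0 := by
  obtain ⟨h1, h2⟩ := ValuationSubring.mem_nonunits_iff_exists_mem_maximalIdeal.mp hx
  rw [s37_resQb_of_mem A h1]
  exact (IsLocalRing.residue_eq_zero_iff _).mpr h2

theorem s37_pr_resQb_eq_zero_iff (A : ValuationSubring Qb) {x : Qb} (hx : x ∈ A) :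
    s37_resQb A x = 0 ↔ x ∈ A.nonunits := by
  constructor
  · intro h
    rw [s37_resQb_of_mem A hx, IsLocalRing.residue_eq_zero_iff] at h
    exact ValuationSubring.mem_nonunits_iff_exists_mem_maximalIdeal.mpr ⟨hx, h⟩
  · exact s37_pr_resQb_eq_zero A

/-! ### the chart ring -/

variable (N : ℕ) (A : ValuationSubring Qb)

/-- the ring of `A`-integral `q`-expansions of the chart functions for the coordinate `t'` -/
def s37_chartRing (t' : modularFunctionFieldBar N) : Subring (LaurentSeries A) where
  carrier := {g | ∃ G : modularFunctionFieldBar N,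
    (G : LaurentSeries Qb) = coeffMap A.subtype g ∧ s37_IsChartFn A t' G}
  mul_mem' := by
    rintro g h ⟨G, hG, hGi⟩ ⟨H, hH, hHi⟩
    exact ⟨G * H, by rw [map_mul, ← hG, ← hH]; rfl, IsIntegral.mul hGi hHi⟩
  one_mem' := ⟨1, by rw [map_one]; rfl, isIntegral_one⟩
  add_mem' := by
    rintro g h ⟨G, hG, hGi⟩ ⟨H, hH, hHi⟩
    exact ⟨G + H, by rw [map_add, ← hG, ← hH]; rfl, IsIntegral.add hGi hHi⟩
  zero_mem' := ⟨0, by rw [map_zero]; rfl, isIntegral_zero⟩
  neg_mem' := by
    rintro g ⟨G, hG, hGi⟩
    exact ⟨-G, by rw [map_neg, ← hG]; rfl, IsIntegral.neg hGi⟩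

variable {N A}

theorem s37_pr_mem_chartRing {t' : modularFunctionFieldBar N} {g : LaurentSeries A} :
    g ∈ s37_chartRing N A t' ↔ ∃ G : modularFunctionFieldBar N,
      (G : LaurentSeries Qb) = coeffMap A.subtype g ∧ s37_IsChartFn A t' G := Iff.rfl

theorem s37_pr_mem_chartRing_iff' {t' : modularFunctionFieldBar N} {g : LaurentSeries A} :
    g ∈ s37_chartRing N A t' ↔ ∃ hg : coeffMap A.subtype g ∈ modularFunctionFieldBar N,
      s37_IsChartFn A t' (⟨_, hg⟩ : modularFunctionFieldBar N) := by
  constructor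
  · rintro ⟨G, hG, hGi⟩
    have hg : coeffMap A.subtype g ∈ modularFunctionFieldBar N := hG ▸ G.2
    have e : (⟨_, hg⟩ : modularFunctionFieldBar N) = G := Subtype.ext hG.symm
    exact ⟨hg, e ▸ hGi⟩
  · rintro ⟨hg, hi⟩
    exact ⟨⟨_, hg⟩, rfl, hi⟩

/-- the profile vanishes outside the chart ring -/
theorem s37_pr_profile_of_notMem {t' : modularFunctionFieldBar N}
    (P : Place Qb (modularFunctionFieldBar N)) {g : LaurentSeries A}
    (hg : g ∉ s37_chartRing N A t') : s37_profile N A t' P g = 0 := by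
  rw [s37_pr_mem_chartRing_iff'] at hg
  rw [s37_profile, dif_neg hg]

/-- the profile on the chart ring -/
theorem s37_pr_profile_eq {t' : modularFunctionFieldBar N}
    (P : Place Qb (modularFunctionFieldBar N)) {g : LaurentSeries A}
    (G : modularFunctionFieldBar N) (hG : (G : LaurentSeries Qb) = coeffMap A.subtype g)
    (hGi : s37_IsChartFn A t' G) :
    s37_profile N A t' P g = s37_resQb A (s37_r_val P G) := by
  have hg : coeffMap A.subtype g ∈ modularFunctionFieldBar N := hG ▸ G.2
  have e : (⟨_, hg⟩ : modularFunctionFieldBar N) = G := Subtype.ext hG.symm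
  rw [s37_profile_apply N A t' P g hg (e ▸ hGi), e]

/-! ### the profile is a ring homomorphism on the chart ring -/

section Profile

variable [NeZero N] {t' : modularFunctionFieldBar N}

theorem s37_pr_profile_sub (P : Place Qb (modularFunctionFieldBar N))
    (hP : P ∈ s37_chartDom A t') {g h : LaurentSeries A}
    (hg : g ∈ s37_chartRing N A t') (hh : h ∈ s37_chartRing N A t') :
    s37_profile N A t' P (g - h) = s37_profile N A t' P g - s37_profile N A t' P h := by
  obtain ⟨G, hG, hGi⟩ := hg
  obtain ⟨H, hH, hHi⟩ := hh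
  have hGv := s37_pr_chartFn_val A t' P hP G hGi
  have hHv := s37_pr_chartFn_val A t' P hP H hHi
  rw [s37_pr_profile_eq P G hG hGi, s37_pr_profile_eq P H hH hHi,
    s37_pr_profile_eq P (G - H) (by rw [map_sub, ← hG, ← hH]; rfl) (IsIntegral.sub hGi hHi),
    s37_r_val_sub P hGv.1 hHv.1, s37_pr_resQb_sub A hGv.2 hHv.2]

theorem s37_pr_profile_mul (P : Place Qb (modularFunctionFieldBar N))
    (hP : P ∈ s37_chartDom A t') {g h : LaurentSeries A}
    (hg : g ∈ s37_chartRing N A t') (hh : h ∈ s37_chartRing N A t') :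
    s37_profile N A t' P (g * h) = s37_profile N A t' P g * s37_profile N A t' P h := by
  obtain ⟨G, hG, hGi⟩ := hg
  obtain ⟨H, hH, hHi⟩ := hh
  have hGv := s37_pr_chartFn_val A t' P hP G hGi
  have hHv := s37_pr_chartFn_val A t' P hP H hHi
  rw [s37_pr_profile_eq P G hG hGi, s37_pr_profile_eq P H hH hHi,
    s37_pr_profile_eq P (G * H) (by rw [map_mul, ← hG, ← hH]; rfl) (IsIntegral.mul hGi hHi),
    s37_r_val_mul P hGv.1 hHv.1, s37_pr_resQb_mul A hGv.2 hHv.2]

theorem s37_pr_coeffMap_C (a : A) :
    coeffMap A.subtype (HahnSeries.C a : LaurentSeries A) =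
      algebraMap Qb (LaurentSeries Qb) (a : Qb) := by
  have h1 : algebraMap Qb (PowerSeries Qb) (a : Qb) = PowerSeries.C (a : Qb) := by simp
  rw [HahnSeries.algebraMap_apply', h1, HahnSeries.ofPowerSeries_C]
  exact coeffMap_single A.subtype 0 a

omit [NeZero N] in
theorem s37_pr_C_mem_chartRing (t' : modularFunctionFieldBar N) (a : A) :
    (HahnSeries.C a : LaurentSeries A) ∈ s37_chartRing N A t' :=
  ⟨algebraMap Qb (modularFunctionFieldBar N) (a : Qb), (s37_pr_coeffMap_C a).symm,
    s37_pr_isIntegral_of_mem _ (s37_pr_const_mem_chartBase A t' a)⟩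

omit [NeZero N] in
theorem s37_pr_profile_C (P : Place Qb (modularFunctionFieldBar N)) (a : A) :
    s37_profile N A t' P (HahnSeries.C a : LaurentSeries A) = IsLocalRing.residue A a := by
  rw [s37_pr_profile_eq P (algebraMap Qb (modularFunctionFieldBar N) (a : Qb))
    (s37_pr_coeffMap_C a).symm (s37_pr_isIntegral_of_mem _ (s37_pr_const_mem_chartBase A t' a)),
    s37_r_val_algebraMap, s37_resQb_coe]

omit [NeZero N] in
theorem s37_pr_profile_one (P : Place Qb (modularFunctionFieldBar N)) :
    s37_profile N A t' P (1 : LaurentSeries A) = 1 := by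
  have h := s37_pr_profile_C (t' := t') P (1 : A)
  rwa [map_one, map_one] at h

end Profile

/-! ### Galois action of the decomposition group -/

section Galois

variable [NeZero N]

/-- the ring endomorphism of `A` induced by an element of the decomposition group -/
def s37_pr_galA (A : ValuationSubring Qb) (σ : Γ) (hσ : σ ∈ A.decompositionSubgroup ℚ) :
    A →+* A :=
  MulSemiringAction.toRingHom (A.decompositionSubgroup ℚ) A ⟨σ, hσ⟩

theorem s37_pr_coe_galA (σ : Γ) (hσ : σ ∈ A.decompositionSubgroup ℚ) (a : A) :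
    ((s37_pr_galA A σ hσ a : A) : Qb) = σ (a : Qb) := rfl

/-- the automorphism of the residue field induced by an element of the decomposition group -/
def s37_pr_galK (A : ValuationSubring Qb) (σ : Γ) (hσ : σ ∈ A.decompositionSubgroup ℚ) :
    IsLocalRing.ResidueField A →+* IsLocalRing.ResidueField A :=
  MulSemiringAction.toRingHom (A.decompositionSubgroup ℚ) (IsLocalRing.ResidueField A) ⟨σ, hσ⟩

theorem s37_pr_galK_apply (σ : Γ) (hσ : σ ∈ A.decompositionSubgroup ℚ)
    (x : IsLocalRing.ResidueField A) :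
    s37_pr_galK A σ hσ x = (⟨σ, hσ⟩ : A.decompositionSubgroup ℚ) • x := rfl

theorem s37_pr_residue_galA (σ : Γ) (hσ : σ ∈ A.decompositionSubgroup ℚ) (a : A) :
    IsLocalRing.residue A (s37_pr_galA A σ hσ a) =
      s37_pr_galK A σ hσ (IsLocalRing.residue A a) := rfl

theorem s37_pr_coeffMap_galA (σ : Γ) (hσ : σ ∈ A.decompositionSubgroup ℚ)
    (g : LaurentSeries A) :
    coeffMap A.subtype (coeffMap (s37_pr_galA A σ hσ) g) =
      coeffMap (σ : Qb →+* Qb) (coeffMap A.subtype g) := by
  rw [coeffMap_coeffMap, coeffMap_coeffMap]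
  exact coeffMap_congr (RingHom.ext fun a => rfl) g

theorem s37_pr_coeffMap_residue_galA (σ : Γ) (hσ : σ ∈ A.decompositionSubgroup ℚ)
    (g : LaurentSeries A) :
    coeffMap (IsLocalRing.residue A) (coeffMap (s37_pr_galA A σ hσ) g) =
      coeffMap (s37_pr_galK A σ hσ) (coeffMap (IsLocalRing.residue A) g) := by
  rw [coeffMap_coeffMap, coeffMap_coeffMap]
  exact coeffMap_congr (RingHom.ext fun a => rfl) g

local notation "gal" => arithmeticGalois (modularFunctionFieldFull N)

omit [NeZero N] in
/-- the arithmetic Galois action of the decomposition group preserves `A[t']` if it fixes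
`t'` -/
theorem s37_pr_gal_chartBase (σ : Γ) (hσ : σ ∈ A.decompositionSubgroup ℚ)
    (t' : modularFunctionFieldBar N) (hfix : gal σ • t' = t') (s : modularFunctionFieldBar N)
    (hs : s ∈ s37_chartBase A t') : gal σ • s ∈ s37_chartBase A t' := by
  have hle : s37_chartBase A t' ≤ (s37_chartBase A t').comap
      (MulSemiringAction.toRingHom (SemilinearAut Qb (modularFunctionFieldBar N))
        (modularFunctionFieldBar N) (gal σ)) := by
    refine Subring.closure_le.mpr ?_
    rintro x (⟨a, rfl⟩ | hx)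
    · show gal σ • algebraMap Qb (modularFunctionFieldBar N) (a : Qb) ∈ s37_chartBase A t'
      rw [SemilinearAut.smul_algebraMap]
      exact s37_pr_const_mem_chartBase A t' (s37_pr_galA A σ hσ a)
    · rw [Set.mem_singleton_iff] at hx
      show gal σ • x ∈ s37_chartBase A t'
      rw [hx, hfix]
      exact s37_pr_self_mem_chartBase A t'
  exact hle hs

theorem s37_pr_gal_isChartFn (σ : Γ) (hσ : σ ∈ A.decompositionSubgroup ℚ)
    (t' : modularFunctionFieldBar N) (hfix : gal σ • t' = t') (G : modularFunctionFieldBar N)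
    (hG : s37_IsChartFn A t' G) : s37_IsChartFn A t' (gal σ • G) :=
  s37_pr_isIntegral_map
    (MulSemiringAction.toRingHom (SemilinearAut Qb (modularFunctionFieldBar N))
      (modularFunctionFieldBar N) (gal σ))
    (s37_chartBase A t') (s37_chartBase A t')
    (fun r hr => s37_pr_gal_chartBase σ hσ t' hfix r hr) hG

theorem s37_pr_gal_mem_chartRing (σ : Γ) (hσ : σ ∈ A.decompositionSubgroup ℚ)
    (t' : modularFunctionFieldBar N) (hfix : gal σ • t' = t') {g : LaurentSeries A}
    (hg : g ∈ s37_chartRing N A t') :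
    coeffMap (s37_pr_galA A σ hσ) g ∈ s37_chartRing N A t' := by
  obtain ⟨G, hG, hGi⟩ := hg
  refine ⟨gal σ • G, ?_, s37_pr_gal_isChartFn σ hσ t' hfix G hGi⟩
  rw [coe_arithmeticGalois_smul, hG, s37_pr_coeffMap_galA]

theorem s37_pr_gal_chartDom (σ : Γ) (hσ : σ ∈ A.decompositionSubgroup ℚ)
    (t' : modularFunctionFieldBar N) (hfix : gal σ • t' = t')
    (P : Place Qb (modularFunctionFieldBar N)) (hP : P ∈ s37_chartDom A t') :
    gal σ • P ∈ s37_chartDom A t' := by
  have h1 : gal σ • t' ∈ (gal σ • P).toValuationSubring :=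
    (s37_r_mem_smul_iff (gal σ) P t').mpr hP.1
  have h2 := s37_r_val_smul (gal σ) P hP.1
  rw [hfix] at h1 h2
  refine ⟨h1, ?_⟩
  rw [h2]
  exact (s37_pr_galA A σ hσ ⟨_, hP.2⟩).2

/-- **Galois compatibility of profiles.** -/
theorem s37_pr_profile_gal (σ : Γ) (hσ : σ ∈ A.decompositionSubgroup ℚ)
    (t' : modularFunctionFieldBar N) (hfix : gal σ • t' = t')
    (P : Place Qb (modularFunctionFieldBar N)) (hP : P ∈ s37_chartDom A t')
    {g : LaurentSeries A} (hg : g ∈ s37_chartRing N A t') :
    s37_profile N A t' (gal σ • P) (coeffMap (s37_pr_galA A σ hσ) g) =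
      s37_pr_galK A σ hσ (s37_profile N A t' P g) := by
  obtain ⟨G, hG, hGi⟩ := hg
  have hGv := s37_pr_chartFn_val A t' P hP G hGi
  rw [s37_pr_profile_eq P G hG hGi,
    s37_pr_profile_eq (gal σ • P) (gal σ • G)
      (by rw [coe_arithmeticGalois_smul, hG, s37_pr_coeffMap_galA])
      (s37_pr_gal_isChartFn σ hσ t' hfix G hGi),
    s37_r_val_smul (gal σ) P hGv.1, s37_resQb_of_mem A hGv.2]
  exact s37_resQb_coe A (s37_pr_galA A σ hσ ⟨_, hGv.2⟩)

end Galois

end

end Fermat.Agent.S37
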