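import Mathlib

/-!
# S37: (SEP) — a finite weighted family of points is determined by its characteristic polynomials

`s37_sep` (helper3's exact leaf statement): two finite weighted families `(x i, m i)`,
`(x' j, m' j)` of "points" of a ring `B` with values in a field `κ` (ring homomorphisms on `B`,
extended by zero outside `B`, containing the constants) with
`∏ (X - x_i(g))^{m_i} = ∏ (X - x'_j(g))^{m'_j}` for all `g ∈ B` have the same multiplicities.

No hypothesis on the cardinality of `κ`: distinct points are separated by an element of `B`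
taking the value `1` at one of them and `0` at the others.
-/

set_option autoImplicit false

namespace Fermat.Agent.S37

open Polynomial

section

variable {S κ : Type*} [CommRing S] [Field κ]

/-- `y` is a point of `B`: a ring homomorphism on `B`, extended by zero outside `B`. -/
def s37_sep_IsPt (B : Subring S) (y : S → κ) : Prop :=
  (∀ g, g ∉ B → y g = 0) ∧ y 1 = 1 ∧ (∀ g ∈ B, ∀ h ∈ B, y (g - h) = y g - y h) ∧
    (∀ g ∈ B, ∀ h ∈ B, y (g * h) = y g * y h)

/-- A point is multiplicative on finite products of elements of `B`. -/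
theorem s37_sep_prod {B : Subring S} {y : S → κ} (hy : s37_sep_IsPt B y) {α : Type*}
    (t : Finset α) (f : α → S) (hf : ∀ a ∈ t, f a ∈ B) :
    y (∏ a ∈ t, f a) = ∏ a ∈ t, y (f a) := by
  classical
  induction t using Finset.induction_on with
  | empty => rw [Finset.prod_empty, Finset.prod_empty]; exact hy.2.1
  | insert a t ha ih =>
      rw [Finset.prod_insert ha, Finset.prod_insert ha,
        hy.2.2.2 _ (hf a (Finset.mem_insert_self a t)) _
          (Subring.prod_mem B (fun b hb => hf b (Finset.mem_insert_of_mem hb))),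
        ih (fun b hb => hf b (Finset.mem_insert_of_mem hb))]

/-- Two different points with common constants are separated by an element of `B` with values
`1` and `0`. -/
theorem s37_sep_elt {B : Subring S} {y z : S → κ} (hy : s37_sep_IsPt B y)
    (hz : s37_sep_IsPt B z) (hc : ∀ v : κ, ∃ a ∈ B, z a = v ∧ y a = v) (hne : y ≠ z) :
    ∃ e ∈ B, z e = 1 ∧ y e = 0 := by
  obtain ⟨b, hb⟩ : ∃ b, y b ≠ z b := by
    by_contra h
    exact hne (funext fun b => by_contra fun hb => h ⟨b, hb⟩)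
  have hbB : b ∈ B := by
    by_contra hbB
    exact hb (by rw [hy.1 b hbB, hz.1 b hbB])
  obtain ⟨a, haB, hza, hya⟩ := hc (y b)
  have hu : z b - y b ≠ 0 := sub_ne_zero.mpr (Ne.symm hb)
  obtain ⟨c, hcB, hzc, hyc⟩ := hc (z b - y b)⁻¹
  refine ⟨(b - a) * c, B.mul_mem (B.sub_mem hbB haB) hcB, ?_, ?_⟩
  · rw [hz.2.2.2 _ (B.sub_mem hbB haB) _ hcB, hz.2.2.1 _ hbB _ haB, hza, hzc, mul_inv_cancel₀ hu]
  · rw [hy.2.2.2 _ (B.sub_mem hbB haB) _ hcB, hy.2.2.1 _ hbB _ haB, hya, sub_self, zero_mul]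

open Classical in
/-- (SEP) a finite weighted family of "points" (ring homs on the subring `B`, extended by
zero) is determined by the characteristic polynomials `∏ (X - x_i(g))^{m_i}`. -/
theorem s37_sep {S κ ι ι' : Type*} [CommRing S] [Field κ] (B : Subring S)
    (s : Finset ι) (x : ι → S → κ) (m : ι → ℕ)
    (s' : Finset ι') (x' : ι' → S → κ) (m' : ι' → ℕ)
    (hx0 : ∀ i ∈ s, ∀ g, g ∉ B → x i g = 0) (hx'0 : ∀ j ∈ s', ∀ g, g ∉ B → x' j g = 0)
    (hx1 : ∀ i ∈ s, x i 1 = 1) (hx'1 : ∀ j ∈ s', x' j 1 = 1)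
    (hxsub : ∀ i ∈ s, ∀ g ∈ B, ∀ h ∈ B, x i (g - h) = x i g - x i h)
    (hxmul : ∀ i ∈ s, ∀ g ∈ B, ∀ h ∈ B, x i (g * h) = x i g * x i h)
    (hx'sub : ∀ j ∈ s', ∀ g ∈ B, ∀ h ∈ B, x' j (g - h) = x' j g - x' j h)
    (hx'mul : ∀ j ∈ s', ∀ g ∈ B, ∀ h ∈ B, x' j (g * h) = x' j g * x' j h)
    (hconst : ∀ v : κ, ∃ a ∈ B, (∀ i ∈ s, x i a = v) ∧ (∀ j ∈ s', x' j a = v))
    (hpoly : ∀ g ∈ B, ∏ i ∈ s, (X - C (x i g)) ^ m i = ∏ j ∈ s', (X - C (x' j g)) ^ m' j)
    (z : S → κ) :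
    ∑ i ∈ s.filter (fun i => x i = z), m i = ∑ j ∈ s'.filter (fun j => x' j = z), m' j := by
  have hpt : ∀ i ∈ s, s37_sep_IsPt B (x i) := fun i hi =>
    ⟨hx0 i hi, hx1 i hi, hxsub i hi, hxmul i hi⟩
  have hpt' : ∀ j ∈ s', s37_sep_IsPt B (x' j) := fun j hj =>
    ⟨hx'0 j hj, hx'1 j hj, hx'sub j hj, hx'mul j hj⟩
  by_cases hz : (∃ i ∈ s, x i = z) ∨ (∃ j ∈ s', x' j = z)
  swap
  · rw [not_or] at hz
    have h1 : s.filter (fun i => x i = z) = ∅ :=
      Finset.filter_eq_empty_iff.mpr (fun i hi h => hz.1 ⟨i, hi, h⟩)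
    have h2 : s'.filter (fun j => x' j = z) = ∅ :=
      Finset.filter_eq_empty_iff.mpr (fun j hj h => hz.2 ⟨j, hj, h⟩)
    rw [h1, h2, Finset.sum_empty, Finset.sum_empty]
  -- `z` is a point, with the same constants
  have hzpt : s37_sep_IsPt B z := by
    rcases hz with ⟨i, hi, rfl⟩ | ⟨j, hj, rfl⟩
    · exact hpt i hi
    · exact hpt' j hj
  have hzc : ∀ v : κ, ∃ a ∈ B, z a = v ∧ (∀ i ∈ s, x i a = v) ∧ (∀ j ∈ s', x' j a = v) := by
    intro v
    obtain ⟨a, haB, h1, h2⟩ := hconst v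
    refine ⟨a, haB, ?_, h1, h2⟩
    rcases hz with ⟨i, hi, rfl⟩ | ⟨j, hj, rfl⟩
    · exact h1 i hi
    · exact h2 j hj
  -- separating elements
  have hE : ∀ i : ι, ∃ e ∈ B, z e = 1 ∧ (i ∈ s → x i ≠ z → x i e = 0) := by
    intro i
    by_cases h : i ∈ s ∧ x i ≠ z
    · obtain ⟨e, heB, h1, h2⟩ := s37_sep_elt (hpt i h.1) hzpt (fun v => by
        obtain ⟨a, haB, hza, h1, -⟩ := hzc v
        exact ⟨a, haB, hza, h1 i h.1⟩) h.2
      exact ⟨e, heB, h1, fun _ _ => h2⟩
    · exact ⟨1, B.one_mem, hzpt.2.1, fun h1 h2 => absurd ⟨h1, h2⟩ h⟩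
  have hE' : ∀ j : ι', ∃ e ∈ B, z e = 1 ∧ (j ∈ s' → x' j ≠ z → x' j e = 0) := by
    intro j
    by_cases h : j ∈ s' ∧ x' j ≠ z
    · obtain ⟨e, heB, h1, h2⟩ := s37_sep_elt (hpt' j h.1) hzpt (fun v => by
        obtain ⟨a, haB, hza, -, h1⟩ := hzc v
        exact ⟨a, haB, hza, h1 j h.1⟩) h.2
      exact ⟨e, heB, h1, fun _ _ => h2⟩
    · exact ⟨1, B.one_mem, hzpt.2.1, fun h1 h2 => absurd ⟨h1, h2⟩ h⟩
  choose E hEB hEz hEx using hE
  choose E' hE'B hE'z hE'x using hE'
  set g₁ : S := ∏ i ∈ s, E i with hg₁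
  set g₂ : S := ∏ j ∈ s', E' j with hg₂
  have hg₁B : g₁ ∈ B := Subring.prod_mem B (fun i _ => hEB i)
  have hg₂B : g₂ ∈ B := Subring.prod_mem B (fun j _ => hE'B j)
  have hgB : g₁ * g₂ ∈ B := B.mul_mem hg₁B hg₂B
  -- the values of the points at `g = g₁ * g₂`
  have hzg : z (g₁ * g₂) = 1 := by
    rw [hzpt.2.2.2 _ hg₁B _ hg₂B, hg₁, hg₂, s37_sep_prod hzpt s E (fun i _ => hEB i),
      s37_sep_prod hzpt s' E' (fun j _ => hE'B j), Finset.prod_eq_one (fun i _ => hEz i),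
      Finset.prod_eq_one (fun j _ => hE'z j), mul_one]
  have hxg : ∀ i ∈ s, x i (g₁ * g₂) = if x i = z then 1 else 0 := by
    intro i hi
    by_cases h : x i = z
    · rw [if_pos h, h, hzg]
    · rw [if_neg h, (hpt i hi).2.2.2 _ hg₁B _ hg₂B, hg₁,
        s37_sep_prod (hpt i hi) s E (fun a _ => hEB a),
        Finset.prod_eq_zero hi (hEx i hi h), zero_mul]
  have hx'g : ∀ j ∈ s', x' j (g₁ * g₂) = if x' j = z then 1 else 0 := by
    intro j hj
    by_cases h : x' j = z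
    · rw [if_pos h, h, hzg]
    · rw [if_neg h, (hpt' j hj).2.2.2 _ hg₁B _ hg₂B, hg₂,
        s37_sep_prod (hpt' j hj) s' E' (fun a _ => hE'B a),
        Finset.prod_eq_zero hj (hE'x j hj h), mul_zero]
  -- both sides of the polynomial identity at `g`
  have hL : ∏ i ∈ s, (X - C (x i (g₁ * g₂))) ^ m i =
      (X - C (1 : κ)) ^ (∑ i ∈ s.filter (fun i => x i = z), m i) *
        X ^ (∑ i ∈ s.filter (fun i => ¬ x i = z), m i) := by
    rw [← Finset.prod_filter_mul_prod_filter_not s (fun i => x i = z)]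
    congr 1
    · rw [← Finset.prod_pow_eq_pow_sum]
      exact Finset.prod_congr rfl (fun i hi => by
        rw [hxg i (Finset.mem_filter.mp hi).1, if_pos (Finset.mem_filter.mp hi).2])
    · rw [← Finset.prod_pow_eq_pow_sum]
      exact Finset.prod_congr rfl (fun i hi => by
        rw [hxg i (Finset.mem_filter.mp hi).1, if_neg (Finset.mem_filter.mp hi).2, C_0,
          sub_zero])
  have hR : ∏ j ∈ s', (X - C (x' j (g₁ * g₂))) ^ m' j =
      (X - C (1 : κ)) ^ (∑ j ∈ s'.filter (fun j => x' j = z), m' j) *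
        X ^ (∑ j ∈ s'.filter (fun j => ¬ x' j = z), m' j) := by
    rw [← Finset.prod_filter_mul_prod_filter_not s' (fun j => x' j = z)]
    congr 1
    · rw [← Finset.prod_pow_eq_pow_sum]
      exact Finset.prod_congr rfl (fun j hj => by
        rw [hx'g j (Finset.mem_filter.mp hj).1, if_pos (Finset.mem_filter.mp hj).2])
    · rw [← Finset.prod_pow_eq_pow_sum]
      exact Finset.prod_congr rfl (fun j hj => by
        rw [hx'g j (Finset.mem_filter.mp hj).1, if_neg (Finset.mem_filter.mp hj).2, C_0,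
          sub_zero])
  have key : ∀ a b : ℕ, rootMultiplicity (1 : κ) ((X - C (1 : κ)) ^ a * X ^ b) = a := by
    intro a b
    have h1 : (X - C (1 : κ)) ^ a ≠ 0 := pow_ne_zero _ (X_sub_C_ne_zero 1)
    have h2 : (X : κ[X]) ^ b ≠ 0 := pow_ne_zero _ X_ne_zero
    have h3 : ¬ IsRoot ((X : κ[X]) ^ b) 1 := by
      rw [IsRoot, eval_pow, eval_X, one_pow]
      exact one_ne_zero
    rw [rootMultiplicity_mul (mul_ne_zero h1 h2), rootMultiplicity_X_sub_C_pow,
      rootMultiplicity_eq_zero h3, add_zero]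
  have h := congrArg (rootMultiplicity (1 : κ)) (hpoly (g₁ * g₂) hgB)
  rw [hL, hR, key, key] at h
  exact h

end

end Fermat.Agent.S37
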