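import Mathlib
import Fermat.Agent.S37.RedProfile
import Fermat.Agent.S37.HFunct
import Fermat.Agent.S37.ChiDef
import Fermat.Agent.S37.EsDeg
import Fermat.Agent.S37.EsCong
import Fermat.Agent.S37.RcWd
import Fermat.Agent.S37.EpChart
import Fermat.Agent.S37.Sep
import Fermat.Agent.S37.EpCp
import Fermat.Agent.S37.EpTheta
import Fermat.Agent.S37.EpHeckeDiv
import Fermat.Agent.S37.EsChartStable

/-!
# S37, block ES2/ES3: the pointwise Eichler–Shimura relation on residue profiles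

`s37_es_pointwise` : `r_*(T_ℓ P) = [r(σ0 P)] + ℓ [r(σ0⁻¹ P)]` for the residue profile
`r = s37_red N A t`, at every place `P` of the modular function field of level `N`.
-/

set_option autoImplicit false
set_option synthInstance.maxHeartbeats 400000

open scoped Pointwise

namespace Fermat.Agent.S37

open ModularCurve AlgebraicCurve Polynomial

noncomputable section

local notation "Qb" => AlgebraicClosure ℚ
local notation "Γ" => (AlgebraicClosure ℚ ≃ₐ[ℚ] AlgebraicClosure ℚ)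

/-- the arithmetic Galois action on places (abbreviation, cheap to elaborate) -/
abbrev s37_galP (N : ℕ) (σ : Γ) (P : Place Qb (modularFunctionFieldBar N)) :
    Place Qb (modularFunctionFieldBar N) :=
  arithmeticGalois (modularFunctionFieldFull N) σ • P

/-! ### the Hauptmodul is rational -/

theorem s37_ep_haupt_fix (N M : ℕ) (t : modularFunctionFieldBar N) (ht : s37_IsHaupt M t)
    (σ : Γ) : arithmeticGalois (modularFunctionFieldFull N) σ • t = t := by
  apply Subtype.ext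
  rw [coe_arithmeticGalois_smul]
  rcases ht with ⟨_, h⟩ | ⟨_, h⟩
  · rw [h, Fermat.Agent.S18.s18_coeffMap_t2R]
  · rw [h, Fermat.Agent.S18.s18_coeffMap_t3R]

theorem s37_ep_haupt_fix' (N M : ℕ) (t : modularFunctionFieldBar N) (ht : s37_IsHaupt M t)
    (t' : modularFunctionFieldBar N) (ht' : t' = t ∨ t' = t⁻¹) (σ : Γ) :
    arithmeticGalois (modularFunctionFieldFull N) σ • t' = t' := by
  rcases ht' with rfl | rfl
  · exact s37_ep_haupt_fix N M _ ht σ
  · rw [smul_inv'', s37_ep_haupt_fix N M t ht σ]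

/-- the `A`-integral `q`-expansion of `t⁻¹` -/
theorem s37_ep_haupt_inv_exp (N M : ℕ) (A : ValuationSubring Qb)
    (t : modularFunctionFieldBar N) (ht : s37_IsHaupt M t) :
    ∃ g : LaurentSeries A, ((t⁻¹ : modularFunctionFieldBar N) : LaurentSeries Qb) =
      coeffMap A.subtype g := by
  have e : ((t⁻¹ : modularFunctionFieldBar N) : LaurentSeries Qb) =
      (t : LaurentSeries Qb)⁻¹ := rfl
  rcases ht with ⟨_, h⟩ | ⟨_, h⟩
  · refine ⟨Fermat.Agent.S18.s18_t2invR A, ?_⟩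
    rw [e, h, Fermat.Agent.S18.s18_coeffMap_t2invR, Fermat.Agent.S18.s18_t2invR_eq_inv]
  · refine ⟨Fermat.Agent.S18.s18_t3invR A, ?_⟩
    rw [e, h, Fermat.Agent.S18.s18_coeffMap_t3invR, Fermat.Agent.S18.s18_t3invR_eq_inv]

/-! ### reduction of split polynomials -/

/-- the element of `A` with the given value (`0` outside `A`) -/
def s37_ep_toA (A : ValuationSubring Qb) (c : Qb) : A :=
  open Classical in if h : c ∈ A then ⟨c, h⟩ else 0

theorem s37_ep_coe_toA (A : ValuationSubring Qb) {c : Qb} (h : c ∈ A) :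
    ((s37_ep_toA A c : A) : Qb) = c := by
  rw [s37_ep_toA, dif_pos h]

theorem s37_ep_residue_toA (A : ValuationSubring Qb) (c : Qb) :
    IsLocalRing.residue A (s37_ep_toA A c) = s37_resQb A c := by
  by_cases h : c ∈ A
  · rw [s37_resQb_of_mem A h, s37_ep_toA, dif_pos h]
  · rw [s37_ep_toA, dif_neg h, s37_resQb, dif_neg h, map_zero]

theorem s37_ep_resQb_prod_coeff (A : ValuationSubring Qb) {ι : Type*} (s : Finset ι)
    (v : ι → Qb) (e : ι → ℕ) (hv : ∀ i ∈ s, v i ∈ A) (k : ℕ) :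
    s37_resQb A ((∏ i ∈ s, (X - C (v i)) ^ e i).coeff k) =
      (∏ i ∈ s, (X - C (s37_resQb A (v i))) ^ e i).coeff k := by
  have h1 : (∏ i ∈ s, (X - C (s37_ep_toA A (v i))) ^ e i).map A.subtype =
      ∏ i ∈ s, (X - C (v i)) ^ e i := by
    rw [Polynomial.map_prod]
    refine Finset.prod_congr rfl fun i hi => ?_
    rw [Polynomial.map_pow, Polynomial.map_sub, Polynomial.map_X, Polynomial.map_C]
    congr 3
    exact s37_ep_coe_toA A (hv i hi)
  have h2 : (∏ i ∈ s, (X - C (s37_ep_toA A (v i))) ^ e i).map (IsLocalRing.residue A) =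
      ∏ i ∈ s, (X - C (s37_resQb A (v i))) ^ e i := by
    rw [Polynomial.map_prod]
    refine Finset.prod_congr rfl fun i hi => ?_
    rw [Polynomial.map_pow, Polynomial.map_sub, Polynomial.map_X, Polynomial.map_C,
      s37_ep_residue_toA]
  rw [← h1, ← h2, Polynomial.coeff_map, Polynomial.coeff_map]
  exact s37_resQb_coe A _

/-! ### a Finsupp computation -/

open Classical in
theorem s37_ep_finsupp_eq {ι Y : Type*} (s : Finset ι) (p : ι → Y) (e : ι → ℕ) (b : Bool)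
    (p₁ p₂ : Y) (n : ℕ)
    (h : ∀ z, ((∑ i ∈ s with p i = z, e i : ℕ) : ℤ) =
      (if p₁ = z then 1 else 0) + (if p₂ = z then (n : ℤ) else 0)) :
    ∑ i ∈ s, Finsupp.single (b, p i) (e i : ℤ) =
      Finsupp.single (b, p₁) 1 + Finsupp.single (b, p₂) (n : ℤ) := by
  ext ⟨b', z⟩
  rw [Finsupp.finsetSum_apply, Finsupp.add_apply]
  simp only [Finsupp.single_apply, Prod.mk.injEq]
  by_cases hb : b = b'
  · simp only [hb, true_and]
    rw [← h z, Finset.sum_filter]
    push_cast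
    exact Finset.sum_congr rfl fun W _ => by split_ifs <;> rfl
  · simp only [hb, false_and, if_false, Finset.sum_const_zero, add_zero]

/-! ### the polynomial identity -/

section Point

variable (N ℓ M : ℕ) [NeZero N] [NeZero ℓ]

/-- the charts are stable under the Hecke correspondence -/
theorem s37_ep_stable (hℓ : ℓ.Prime) (hℓN : ¬ ℓ ∣ N) (hℓM : ℓ ≠ M) (hMN : M ∣ N)
    (A : ValuationSubring Qb) (hA : A.LiesOverPrime ℓ)
    (t : modularFunctionFieldBar N) (ht : s37_IsHaupt M t)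
    (t' : modularFunctionFieldBar N) (ht' : t' = t ∨ t' = t⁻¹)
    (hα : HeckeAlphaBarIntegral Qb N ℓ) (hβ : HeckeBetaBarIntegral Qb N ℓ)
    [HasPrincipalDivisors Qb (modularFunctionFieldBar (N * ℓ))]
    (P : Place Qb (modularFunctionFieldBar N)) (hP : P ∈ s37_chartDom A t')
    (W : Place Qb (modularFunctionFieldBar (N * ℓ)))
    (hW : W ∈ Place.fiberAlong (heckeBetaBar Qb N ℓ) hβ P) :
    W.restrictAlong (heckeAlphaBar Qb N ℓ) hα ∈ s37_chartDom A t' := by
  have hWP : W.restrictAlong (heckeBetaBar Qb N ℓ) hβ = P := Place.mem_fiberAlong.mp hW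
  have hstab := s37_es_chart_stable N ℓ M hℓ hℓN hℓM hMN A hA t ht t' ht'
  have hb := s37_ep_val_restrictAlong (heckeBetaBar Qb N ℓ) hβ W t'
  have hβW : W ∈ s37_chartDom A (heckeBetaBar Qb N ℓ t') := by
    rw [hWP] at hb
    exact ⟨hb.1.mpr hP.1, by rw [hb.2 hP.1]; exact hP.2⟩
  have hαW := s37_r_integral W A (s37_chartBase A (heckeBetaBar Qb N ℓ t'))
    (fun s hs => s37_pr_chartBase_val A (heckeBetaBar Qb N ℓ t') W hβW s hs)
    (heckeAlphaBar Qb N ℓ t') hstab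
  have ha := s37_ep_val_restrictAlong (heckeAlphaBar Qb N ℓ) hα W t'
  exact ⟨ha.1.mp hαW.1, by rw [← ha.2 (ha.1.mp hαW.1)]; exact hαW.2⟩

/-- **the Eichler–Shimura polynomial identity** for every chart function -/
theorem s37_ep_poly (hℓ : ℓ.Prime) (hℓN : ¬ ℓ ∣ N) (hℓM : ℓ ≠ M) (hMN : M ∣ N)
    (A : ValuationSubring Qb) (hA : A.LiesOverPrime ℓ)
    (t : modularFunctionFieldBar N) (ht : s37_IsHaupt M t)
    (t' : modularFunctionFieldBar N) (ht' : t' = t ∨ t' = t⁻¹)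
    (hα : HeckeAlphaBarIntegral Qb N ℓ) (hβ : HeckeBetaBarIntegral Qb N ℓ)
    [HasPrincipalDivisors Qb (modularFunctionFieldBar (N * ℓ))]
    (σ0 : Γ) (hσ0 : A.IsFrobeniusAt σ0 ℓ)
    (P : Place Qb (modularFunctionFieldBar N)) (hP : P ∈ s37_chartDom A t')
    (g : LaurentSeries A) (hg : g ∈ s37_chartRing N A t') :
    ∏ W ∈ Place.fiberAlong (heckeBetaBar Qb N ℓ) hβ P,
        (X - C (s37_profile N A t' (W.restrictAlong (heckeAlphaBar Qb N ℓ) hα) g)) ^
          W.ramificationIndexAlong (heckeBetaBar Qb N ℓ) =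
      (X - C (s37_profile N A t' (s37_galP N σ0 P) g)) *
        (X - C (s37_profile N A t'
          (s37_galP N σ0⁻¹ P) g)) ^ ℓ := by
  classical
  have hfix := s37_ep_haupt_fix' N M t ht t' ht'
  have hfin : FiniteAlong Qb (heckeBetaBar Qb N ℓ) := (s37_es_finrank_beta N ℓ hℓ hℓN).1
  have hstab := s37_es_chart_stable N ℓ M hℓ hℓN hℓM hMN A hA t ht t' ht'
  obtain ⟨hg', hGi⟩ := s37_pr_mem_chartRing_iff'.mp hg
  -- Frobenius on the residue field
  have hσ0d : σ0 ∈ A.decompositionSubgroup ℚ := hσ0.mem_decompositionSubgroup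
  let φ : IsLocalRing.ResidueField A ≃+* IsLocalRing.ResidueField A :=
    MulSemiringAction.toRingEquiv (A.decompositionSubgroup ℚ) (IsLocalRing.ResidueField A)
      ⟨σ0, hσ0d⟩
  have hφ : ∀ x, φ x = x ^ ℓ := fun x => hσ0.smul_residue_eq x
  -- the places above `P`
  have hst : ∀ W ∈ Place.fiberAlong (heckeBetaBar Qb N ℓ) hβ P,
      W.restrictAlong (heckeAlphaBar Qb N ℓ) hα ∈ s37_chartDom A t' :=
    fun W hW => s37_ep_stable N ℓ M hℓ hℓN hℓM hMN A hA t ht t' ht' hα hβ P hP W hW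
  have hval : ∀ W ∈ Place.fiberAlong (heckeBetaBar Qb N ℓ) hβ P,
      heckeAlphaBar Qb N ℓ (⟨_, hg'⟩ : modularFunctionFieldBar N) ∈ W.toValuationSubring ∧
      s37_r_val W (heckeAlphaBar Qb N ℓ (⟨_, hg'⟩ : modularFunctionFieldBar N)) =
        s37_r_val (W.restrictAlong (heckeAlphaBar Qb N ℓ) hα)
          (⟨_, hg'⟩ : modularFunctionFieldBar N) ∧
      s37_r_val (W.restrictAlong (heckeAlphaBar Qb N ℓ) hα)
          (⟨_, hg'⟩ : modularFunctionFieldBar N) ∈ A := by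
    intro W hW
    have h1 := s37_pr_chartFn_val A t' _ (hst W hW) _ hGi
    have h2 := s37_ep_val_restrictAlong (heckeAlphaBar Qb N ℓ) hα W
      (⟨_, hg'⟩ : modularFunctionFieldBar N)
    exact ⟨h2.1.mpr h1.1, h2.2 h1.1, h1.2⟩
  -- (CP)
  have hcp := fun i => s37_ep_cp_along (s37_h_isFF_bar N) (s37_h_isFF_bar (N * ℓ))
    (heckeBetaBar Qb N ℓ) hβ hfin P
    (heckeAlphaBar Qb N ℓ (⟨_, hg'⟩ : modularFunctionFieldBar N))
    (fun W hW => (hval W hW).1) i
  -- (CONG)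
  obtain ⟨c, hc1, hc2⟩ := s37_es_cong N ℓ hℓ hℓN A hA hfin g hg' φ hφ
  have hcchart : ∀ i, s37_IsChartFn A t' ((s37_chi (heckeBetaBar Qb N ℓ) hfin
      (heckeAlphaBar Qb N ℓ (⟨_, hg'⟩ : modularFunctionFieldBar N))).coeff i) :=
    fun i => s37_ep_chi_chart A (heckeAlphaBar Qb N ℓ) (heckeBetaBar Qb N ℓ) hfin t' hstab _
      hGi i
  have hcmem : ∀ i, c i ∈ s37_chartRing N A t' := fun i => ⟨_, hc1 i, hcchart i⟩
  -- (THETA)
  obtain ⟨θ, hθ1, hθ2, hθ3⟩ := s37_ep_theta N ℓ hℓ A hA σ0 hσ0 t' hfix g hg φ hφ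
  -- (WD)
  have hwd : ∀ i, s37_profile N A t' P (c i) = s37_profile N A t' P (θ i) := by
    intro i
    have hsub : c i - θ i ∈ s37_chartRing N A t' := sub_mem (hcmem i) (hθ1 i)
    obtain ⟨hd', hdi⟩ := s37_pr_mem_chartRing_iff'.mp hsub
    have hred : coeffMap (IsLocalRing.residue A) (c i - θ i) = 0 := by
      rw [map_sub, hc2 i, hθ2 i, sub_self]
    have h0 := s37_r_wd N ℓ M hℓ hℓN hℓM hMN A hA t ht t' ht' (c i - θ i) hd' hdi hred P hP
    have h1 : s37_profile N A t' P (c i - θ i) = 0 := by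
      rw [s37_pr_profile_eq P ⟨_, hd'⟩ rfl hdi]
      exact s37_pr_resQb_eq_zero A h0
    rw [s37_pr_profile_sub P hP (hcmem i) (hθ1 i)] at h1
    exact sub_eq_zero.mp h1
  -- comparison of coefficients
  refine Polynomial.ext fun i => ?_
  have e1 : s37_profile N A t' P (c i) =
      (∏ W ∈ Place.fiberAlong (heckeBetaBar Qb N ℓ) hβ P,
        (X - C (s37_profile N A t' (W.restrictAlong (heckeAlphaBar Qb N ℓ) hα) g)) ^
          W.ramificationIndexAlong (heckeBetaBar Qb N ℓ)).coeff i := by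
    rw [s37_pr_profile_eq P _ (hc1 i) (hcchart i), (hcp i).2,
      s37_ep_resQb_prod_coeff A _ _ _
        (fun W hW => by rw [(hval W hW).2.1]; exact (hval W hW).2.2)]
    congr 1
    refine Finset.prod_congr rfl fun W hW => ?_
    rw [(hval W hW).2.1, s37_pr_profile_eq (W.restrictAlong (heckeAlphaBar Qb N ℓ) hα)
      (⟨_, hg'⟩ : modularFunctionFieldBar N) rfl hGi]
  rw [← e1, hwd i, hθ3 P hP _ _ rfl rfl i]

open Classical in
/-- separation of places by chart functions -/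
theorem s37_ep_sep_places {N : ℕ} [NeZero N] {A : ValuationSubring Qb}
    {t' : modularFunctionFieldBar N} {ι : Type*} (s : Finset ι)
    (Q : ι → Place Qb (modularFunctionFieldBar N)) (e : ι → ℕ)
    (hQ : ∀ i ∈ s, Q i ∈ s37_chartDom A t')
    (Q₁ Q₂ : Place Qb (modularFunctionFieldBar N)) (hQ₁ : Q₁ ∈ s37_chartDom A t')
    (hQ₂ : Q₂ ∈ s37_chartDom A t') (n : ℕ)
    (hpoly : ∀ g ∈ s37_chartRing N A t',
      ∏ i ∈ s, (X - C (s37_profile N A t' (Q i) g)) ^ e i =
        (X - C (s37_profile N A t' Q₁ g)) * (X - C (s37_profile N A t' Q₂ g)) ^ n)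
    (z : LaurentSeries A → IsLocalRing.ResidueField A) :
    ((∑ i ∈ s with s37_profile N A t' (Q i) = z, e i : ℕ) : ℤ) =
      (if s37_profile N A t' Q₁ = z then 1 else 0) +
        (if s37_profile N A t' Q₂ = z then (n : ℤ) else 0) := by
  classical
  obtain ⟨x', hx't, hx'f⟩ : ∃ x' : Bool → LaurentSeries A → IsLocalRing.ResidueField A,
      x' true = s37_profile N A t' Q₁ ∧ x' false = s37_profile N A t' Q₂ :=
    ⟨fun j => if j then s37_profile N A t' Q₁ else s37_profile N A t' Q₂, rfl, rfl⟩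
  have hx'dom : ∀ j : Bool, ∃ Q' ∈ s37_chartDom A t', x' j = s37_profile N A t' Q' := by
    intro j
    cases j
    · exact ⟨_, hQ₂, hx'f⟩
    · exact ⟨_, hQ₁, hx't⟩
  have hsep := s37_sep (s37_chartRing N A t') s (fun i => s37_profile N A t' (Q i)) e
    (Finset.univ : Finset Bool) x' (fun j => if j then 1 else n)
    (fun i _ g hg => s37_pr_profile_of_notMem _ hg)
    (fun j _ g hg => by
      obtain ⟨Q', _, hQ'⟩ := hx'dom j
      rw [hQ']
      exact s37_pr_profile_of_notMem _ hg)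
    (fun i _ => s37_pr_profile_one _)
    (fun j _ => by
      obtain ⟨Q', _, hQ'⟩ := hx'dom j
      rw [hQ']
      exact s37_pr_profile_one _)
    (fun i hi g hg h hh => s37_pr_profile_sub _ (hQ i hi) hg hh)
    (fun i hi g hg h hh => s37_pr_profile_mul _ (hQ i hi) hg hh)
    (fun j _ g hg h hh => by
      obtain ⟨Q', hQd, hQ'⟩ := hx'dom j
      rw [hQ']
      exact s37_pr_profile_sub _ hQd hg hh)
    (fun j _ g hg h hh => by
      obtain ⟨Q', hQd, hQ'⟩ := hx'dom j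
      rw [hQ']
      exact s37_pr_profile_mul _ hQd hg hh)
    (fun v => by
      obtain ⟨a, rfl⟩ := IsLocalRing.residue_surjective v
      refine ⟨HahnSeries.C a, s37_pr_C_mem_chartRing t' a, fun i _ => s37_pr_profile_C _ a,
        fun j _ => ?_⟩
      obtain ⟨Q', _, hQ'⟩ := hx'dom j
      rw [hQ']
      exact s37_pr_profile_C _ a)
    (fun g hg => by
      rw [Fintype.prod_bool, hx't, hx'f]
      simp only [if_true, Bool.false_eq_true, if_false, pow_one]
      exact hpoly g hg)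
    z
  rw [hsep, Finset.sum_filter, Fintype.sum_bool, hx't, hx'f]
  simp only [if_true, Bool.false_eq_true, if_false]
  push_cast
  rfl

/-- the pointwise relation, given that all the places involved lie in the chart `b` -/
theorem s37_ep_point_aux (hℓ : ℓ.Prime) (hℓN : ¬ ℓ ∣ N) (hℓM : ℓ ≠ M) (hMN : M ∣ N)
    (A : ValuationSubring Qb) (hA : A.LiesOverPrime ℓ)
    (t : modularFunctionFieldBar N) (ht : s37_IsHaupt M t)
    (t' : modularFunctionFieldBar N) (ht' : t' = t ∨ t' = t⁻¹) (b : Bool)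
    (hα : HeckeAlphaBarIntegral Qb N ℓ) (hβ : HeckeBetaBarIntegral Qb N ℓ)
    [HasPrincipalDivisors Qb (modularFunctionFieldBar (N * ℓ))]
    (σ0 : Γ) (hσ0 : A.IsFrobeniusAt σ0 ℓ)
    (P : Place Qb (modularFunctionFieldBar N)) (hP : P ∈ s37_chartDom A t')
    (h1 : ∀ W ∈ Place.fiberAlong (heckeBetaBar Qb N ℓ) hβ P,
      s37_red N A t (W.restrictAlong (heckeAlphaBar Qb N ℓ) hα) =
        (b, s37_profile N A t' (W.restrictAlong (heckeAlphaBar Qb N ℓ) hα)))
    (h2 : s37_red N A t (s37_galP N σ0 P) =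
      (b, s37_profile N A t' (s37_galP N σ0 P)))
    (h3 : s37_red N A t (s37_galP N σ0⁻¹ P) =
      (b, s37_profile N A t' (s37_galP N σ0⁻¹ P))) :
    Finsupp.mapDomain (s37_red N A t) (heckeDivBar hα hβ (Finsupp.single P 1)) =
      Finsupp.single (s37_red N A t (s37_galP N σ0 P)) 1 +
        Finsupp.single
          (s37_red N A t (s37_galP N σ0⁻¹ P)) (ℓ : ℤ) := by
  classical
  have hfix := s37_ep_haupt_fix' N M t ht t' ht'
  have hσ0d : σ0 ∈ A.decompositionSubgroup ℚ := hσ0.mem_decompositionSubgroup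
  have hσ0d' : σ0⁻¹ ∈ A.decompositionSubgroup ℚ := inv_mem hσ0d
  have hP1 : s37_galP N σ0 P ∈ s37_chartDom A t' :=
    s37_pr_gal_chartDom σ0 hσ0d t' (hfix σ0) P hP
  have hP2 : s37_galP N σ0⁻¹ P ∈ s37_chartDom A t' :=
    s37_pr_gal_chartDom σ0⁻¹ hσ0d' t' (hfix σ0⁻¹) P hP
  have hst : ∀ W ∈ Place.fiberAlong (heckeBetaBar Qb N ℓ) hβ P,
      W.restrictAlong (heckeAlphaBar Qb N ℓ) hα ∈ s37_chartDom A t' :=
    fun W hW => s37_ep_stable N ℓ M hℓ hℓN hℓM hMN A hA t ht t' ht' hα hβ P hP W hW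
  have hsep := s37_ep_sep_places (Place.fiberAlong (heckeBetaBar Qb N ℓ) hβ P)
    (fun W => W.restrictAlong (heckeAlphaBar Qb N ℓ) hα)
    (fun W => W.ramificationIndexAlong (heckeBetaBar Qb N ℓ)) hst _ _ hP1 hP2 ℓ
    (fun g hg => s37_ep_poly N ℓ M hℓ hℓN hℓM hMN A hA t ht t' ht' hα hβ σ0 hσ0 P hP g hg)
  have e1 := s37_ep_heckeDiv_single N ℓ hα hβ P 1
  have e2 : Finsupp.mapDomain (s37_red N A t) (heckeDivBar hα hβ (Finsupp.single P 1)) =
      ∑ W ∈ Place.fiberAlong (heckeBetaBar Qb N ℓ) hβ P,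
        Finsupp.single (b, s37_profile N A t' (W.restrictAlong (heckeAlphaBar Qb N ℓ) hα))
          ((W.ramificationIndexAlong (heckeBetaBar Qb N ℓ) : ℤ)) := by
    rw [e1, Finsupp.mapDomain_finsetSum]
    refine Finset.sum_congr rfl fun W hW => ?_
    rw [Finsupp.mapDomain_single, h1 W hW, one_mul]
  refine e2.trans ?_
  have e3 := s37_ep_finsupp_eq (Place.fiberAlong (heckeBetaBar Qb N ℓ) hβ P)
    (fun W => s37_profile N A t' (W.restrictAlong (heckeAlphaBar Qb N ℓ) hα))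
    (fun W => W.ramificationIndexAlong (heckeBetaBar Qb N ℓ)) b
    (s37_profile N A t' (s37_galP N σ0 P))
    (s37_profile N A t' (s37_galP N σ0⁻¹ P)) ℓ
    (fun z => hsep z)
  rw [h2, h3]
  exact e3

/-! ### the two charts -/

omit [NeZero ℓ] [NeZero N] in
theorem s37_ep_haupt_ne_zero (t : modularFunctionFieldBar N) (ht : s37_IsHaupt M t) : t ≠ 0 := by
  rintro rfl
  have h0 : ((0 : modularFunctionFieldBar N) : LaurentSeries Qb) = 0 := rfl
  rcases ht with ⟨_, h⟩ | ⟨_, h⟩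
  · have h1 := Fermat.Agent.S18.s18_t2R_mul_inv Qb
    rw [← h, h0, zero_mul] at h1
    exact zero_ne_one h1
  · have h1 := Fermat.Agent.S18.s18_t3R_mul_inv Qb
    rw [← h, h0, zero_mul] at h1
    exact zero_ne_one h1

omit [NeZero ℓ] in
/-- a place where `t⁻¹` has value in `𝔪_A` is not in the chart of `t` -/
theorem s37_ep_not_mem_chartDom (A : ValuationSubring Qb) (t : modularFunctionFieldBar N)
    (ht0 : t ≠ 0) (Q : Place Qb (modularFunctionFieldBar N))
    (h1 : t⁻¹ ∈ Q.toValuationSubring) (h2 : s37_r_val Q t⁻¹ ∈ A.nonunits) :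
    Q ∉ s37_chartDom A t := by
  rintro ⟨h3, h4⟩
  have h5 := s37_r_val_mul Q h3 h1
  rw [mul_inv_cancel₀ ht0, s37_r_val_one] at h5
  have h6 : (1 : Qb) ∈ A.nonunits := by
    rw [h5, mul_comm]
    exact s37_r_nonunits_mul_mem A h2 h4
  obtain ⟨h7, h8⟩ := ValuationSubring.mem_nonunits_iff_exists_mem_maximalIdeal.mp h6
  exact (IsLocalRing.mem_maximalIdeal _).mp h8 isUnit_one

omit [NeZero ℓ] [NeZero N] in
theorem s37_ep_gal_nonunits (A : ValuationSubring Qb) (σ : Γ)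
    (hσ : σ ∈ A.decompositionSubgroup ℚ) {c : Qb} (hc : c ∈ A.nonunits) :
    σ c ∈ A.nonunits := by
  have hcA : c ∈ A := s37_r_nonunits_mem A hc
  have h1 : s37_resQb A (σ c) = s37_pr_galK A σ hσ (s37_resQb A c) := by
    rw [s37_resQb_of_mem A hcA]
    exact s37_resQb_coe A (s37_pr_galA A σ hσ ⟨c, hcA⟩)
  rw [s37_pr_resQb_eq_zero A hc, map_zero] at h1
  exact (s37_pr_resQb_eq_zero_iff A (s37_pr_galA A σ hσ ⟨c, hcA⟩).2).mp h1

omit [NeZero ℓ] in
theorem s37_ep_gal_val (σ : Γ) (t' : modularFunctionFieldBar N)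
    (hfix : arithmeticGalois (modularFunctionFieldFull N) σ • t' = t')
    (P : Place Qb (modularFunctionFieldBar N)) (ht'P : t' ∈ P.toValuationSubring) :
    s37_r_val (s37_galP N σ P) t' = σ (s37_r_val P t') := by
  have h2 := s37_r_val_smul (arithmeticGalois (modularFunctionFieldFull N) σ) P ht'P
  rw [hfix] at h2
  exact h2

/-- **(ES) the pointwise Eichler–Shimura relation** `r_*(T_ℓ P) = [r(σ0 P)] + ℓ [r(σ0⁻¹ P)]`. -/
theorem s37_es_pointwise (hℓ : ℓ.Prime) (hℓN : ¬ ℓ ∣ N) (hℓM : ℓ ≠ M) (hMN : M ∣ N)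
    (A : ValuationSubring Qb) (hA : A.LiesOverPrime ℓ)
    (t : modularFunctionFieldBar N) (ht : s37_IsHaupt M t)
    (hα : HeckeAlphaBarIntegral Qb N ℓ) (hβ : HeckeBetaBarIntegral Qb N ℓ)
    [HasPrincipalDivisors Qb (modularFunctionFieldBar (N * ℓ))]
    (σ0 : Γ) (hσ0 : A.IsFrobeniusAt σ0 ℓ)
    (P : Place Qb (modularFunctionFieldBar N)) :
    Finsupp.mapDomain (s37_red N A t) (heckeDivBar hα hβ (Finsupp.single P 1)) =
      Finsupp.single (s37_red N A t (s37_galP N σ0 P)) 1 +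
        Finsupp.single (s37_red N A t (s37_galP N σ0⁻¹ P)) (ℓ : ℤ) := by
  have hσ0d : σ0 ∈ A.decompositionSubgroup ℚ := hσ0.mem_decompositionSubgroup
  have hσ0d' : σ0⁻¹ ∈ A.decompositionSubgroup ℚ := inv_mem hσ0d
  by_cases hP0 : P ∈ s37_chartDom A t
  · -- the chart of `t`
    have hfix := s37_ep_haupt_fix' N M t ht t (Or.inl rfl)
    refine s37_ep_point_aux N ℓ M hℓ hℓN hℓM hMN A hA t ht t (Or.inl rfl) true hα hβ σ0 hσ0 P
      hP0 ?_ ?_ ?_
    · intro W hW
      exact s37_red_of_mem N A t _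
        (s37_ep_stable N ℓ M hℓ hℓN hℓM hMN A hA t ht t (Or.inl rfl) hα hβ P hP0 W hW)
    · exact s37_red_of_mem N A t _ (s37_pr_gal_chartDom σ0 hσ0d t (hfix σ0) P hP0)
    · exact s37_red_of_mem N A t _ (s37_pr_gal_chartDom σ0⁻¹ hσ0d' t (hfix σ0⁻¹) P hP0)
  · -- the chart of `t⁻¹`
    have hPi : t⁻¹ ∈ P.toValuationSubring ∧ s37_r_val P t⁻¹ ∈ A.nonunits :=
      (s37_r_dichotomy P A t).resolve_left hP0
    have hPdom : P ∈ s37_chartDom A t⁻¹ := ⟨hPi.1, s37_r_nonunits_mem A hPi.2⟩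
    have hfix := s37_ep_haupt_fix' N M t ht t⁻¹ (Or.inr rfl)
    have ht0 := s37_ep_haupt_ne_zero N M t ht
    obtain ⟨ginv, hginv⟩ := s37_ep_haupt_inv_exp N M A t ht
    have hinvi : s37_IsChartFn A t⁻¹ (t⁻¹ : modularFunctionFieldBar N) :=
      s37_pr_isIntegral_of_mem _ (s37_pr_self_mem_chartBase A t⁻¹)
    have hgmem : ginv ∈ s37_chartRing N A t⁻¹ := ⟨t⁻¹, hginv, hinvi⟩
    have hprof : ∀ Q : Place Qb (modularFunctionFieldBar N),
        s37_profile N A t⁻¹ Q ginv = s37_resQb A (s37_r_val Q t⁻¹) :=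
      fun Q => s37_pr_profile_eq Q t⁻¹ hginv hinvi
    have key : ∀ Q : Place Qb (modularFunctionFieldBar N), Q ∈ s37_chartDom A t⁻¹ →
        s37_profile N A t⁻¹ Q ginv = 0 →
        s37_red N A t Q = (false, s37_profile N A t⁻¹ Q) := by
      intro Q hQ h0
      rw [hprof Q] at h0
      exact s37_red_of_not_mem N A t Q
        (s37_ep_not_mem_chartDom N A t ht0 Q hQ.1 ((s37_pr_resQb_eq_zero_iff A hQ.2).mp h0))
    have hgal : ∀ σ : Γ, σ ∈ A.decompositionSubgroup ℚ →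
        s37_profile N A t⁻¹ (s37_galP N σ P) ginv = 0 := by
      intro σ hσ
      rw [hprof, s37_ep_gal_val N σ t⁻¹ (hfix σ) P hPi.1]
      exact s37_pr_resQb_eq_zero A (s37_ep_gal_nonunits A σ hσ hPi.2)
    have hW0 : ∀ W ∈ Place.fiberAlong (heckeBetaBar Qb N ℓ) hβ P,
        s37_profile N A t⁻¹ (W.restrictAlong (heckeAlphaBar Qb N ℓ) hα) ginv = 0 := by
      intro W hW
      have hpoly := s37_ep_poly N ℓ M hℓ hℓN hℓM hMN A hA t ht t⁻¹ (Or.inr rfl) hα hβ σ0 hσ0 P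
        hPdom ginv hgmem
      rw [hgal σ0 hσ0d, hgal σ0⁻¹ hσ0d'] at hpoly
      have h1 := congrArg (Polynomial.eval
        (s37_profile N A t⁻¹ (W.restrictAlong (heckeAlphaBar Qb N ℓ) hα) ginv)) hpoly
      have hepos : 0 < W.ramificationIndexAlong (heckeBetaBar Qb N ℓ) := by
        letI := algebraAlong (heckeBetaBar Qb N ℓ)
        haveI := isScalarTower_along (heckeBetaBar Qb N ℓ)
        haveI := isIntegral_along (heckeBetaBar Qb N ℓ) hβ
        exact Place.ramificationIndex_pos (F := modularFunctionFieldBar N) W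
      rw [Polynomial.eval_prod, Finset.prod_eq_zero hW (by
        rw [Polynomial.eval_pow, Polynomial.eval_sub, Polynomial.eval_X, Polynomial.eval_C,
          sub_self]
        exact zero_pow hepos.ne')] at h1
      rw [Polynomial.eval_mul, Polynomial.eval_pow, Polynomial.eval_sub, Polynomial.eval_X,
        Polynomial.eval_C, sub_zero, ← pow_succ'] at h1
      exact pow_eq_zero_iff (Nat.succ_ne_zero ℓ) |>.mp h1.symm
    refine s37_ep_point_aux N ℓ M hℓ hℓN hℓM hMN A hA t ht t⁻¹ (Or.inr rfl) false hα hβ σ0 hσ0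
      P hPdom ?_ ?_ ?_
    · intro W hW
      exact key _ (s37_ep_stable N ℓ M hℓ hℓN hℓM hMN A hA t ht t⁻¹ (Or.inr rfl) hα hβ P
        hPdom W hW) (hW0 W hW)
    · exact key _ (s37_pr_gal_chartDom σ0 hσ0d t⁻¹ (hfix σ0) P hPdom) (hgal σ0 hσ0d)
    · exact key _ (s37_pr_gal_chartDom σ0⁻¹ hσ0d' t⁻¹ (hfix σ0⁻¹) P hPdom) (hgal σ0⁻¹ hσ0d')

end Point

end

end Fermat.Agent.S37
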