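import Fermat.Agent.S37.RInt
import Fermat.Agent.S18.ChNormalForm
import Fermat.Agent.S18.NumField
import Fermat.Agent.S18.UnramMod
import Fermat.Agent.S18.A1Facts
import Fermat.Agent.S28.Core

/-!
# S37-R (GEN): every function is a constant times a ratio of Gauss-primitive chart functions

* `s37_rn_gauss_ratio` : (abstract, generalising `s18_ch_gauss_normal`) `f ∈ K · F_N` with
  `f · y₂ = y₁`, `y₁, y₂` Gauss-primitive over a big valuation ring: `f = a / b` with `a, b` in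
  the chart over `A = Abig ∩ K`, neither divisible by `π`.
* `s37_rn_normal` : every `f ≠ 0` in `Q̄ · F_N` is `c · a / b` with `c ∈ K₁ˣ`, `a, b` in the chart
  over `A₁ = A ∩ K₁`, neither divisible by `π` (`K₁` a large enough Galois number field).
* `s37_rn_ratio` : the same with `c = 1` when `f · y₂ = y₁` for Gauss-primitive `y₁, y₂`.
* `s37_rn_gen` : every `f ≠ 0` is a constant times a ratio of functions with Gauss-primitive
  `A`-integral `q`-expansions.
-/

set_option autoImplicit false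
set_option synthInstance.maxHeartbeats 400000
set_option linter.unusedSectionVars false
set_option linter.unusedVariables false

open ModularCurve ModularCurve.IgusaScheme Fermat.Agent.S28 Fermat.Agent.S18 Polynomial

noncomputable section

namespace Fermat.Agent.S37

section Abstract

variable {N : ℕ} [NeZero N] {ℓ : ℕ} [Fact ℓ.Prime]
variable {K : Type*} [Field K] [Algebra ℚ K] {A : ValuationSubring K}
variable {t : modularFunctionFieldFull N}

local notation "FK" => laurentBaseChange K (modularFunctionFieldFull N)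

variable [IsDiscreteValuationRing A] {π : A}

/-- Gauss normal form for ratios: `A = Abig ∩ K` (via `φ : K → Kb`), `f ∈ K · F_N` with
`f · y₂ = y₁` where `y₁, y₂` are `Abig`-integral with non-zero reductions.  Then `f = a / b` with
`a, b` in the chart `s18_chAlg N ℓ A t`, `π ∤ a`, `π ∤ b`. -/
theorem s37_rn_gauss_ratio (hR : s18_ResBasis ℓ A π) (h : s18_cz_Coord N ℓ t)
    {B : Subring (LaurentSeries ℚ)} (hB : CoreData N ℓ B)
    {Kb : Type*} [Field Kb] (Abig : ValuationSubring Kb) (φ : K →+* Kb) (hA : A = Abig.comap φ)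
    (y₁ y₂ : LaurentSeries Abig) (f : FK)
    (hf : coeffMap φ (f : LaurentSeries K) * coeffMap Abig.subtype y₂ = coeffMap Abig.subtype y₁)
    (hne₁ : coeffMap (IsLocalRing.residue Abig) y₁ ≠ 0)
    (hne₂ : coeffMap (IsLocalRing.residue Abig) y₂ ≠ 0) :
    ∃ a ∈ s18_chAlg N ℓ A t, ∃ b ∈ s18_chAlg N ℓ A t,
      (algebraMap A FK π)⁻¹ * a ∉ s18_chAlg N ℓ A t ∧
      (algebraMap A FK π)⁻¹ * b ∉ s18_chAlg N ℓ A t ∧ f = a / b := by
  classical
  -- the comparison maps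
  have hAmem : ∀ x : K, x ∈ A ↔ φ x ∈ Abig := fun x => by
    rw [hA]
    exact ValuationSubring.mem_comap
  have hmemA : ∀ r : A, φ (r : K) ∈ Abig := fun r => (hAmem _).mp r.2
  let fA : A →+* Abig := (φ.comp A.subtype).codRestrict Abig.toSubring hmemA
  have hloc : IsLocalHom fA := by
    refine ⟨fun a ha => ?_⟩
    obtain ⟨u, hu⟩ := ha
    have h1 : φ (a : K) * (((u⁻¹ : Abigˣ) : Abig) : Kb) = 1 := by
      have h2 : fA a * ((u⁻¹ : Abigˣ) : Abig) = 1 := by rw [← hu]; exact Units.mul_inv u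
      exact congrArg Subtype.val h2
    have h3 : φ ((a : K)⁻¹) ∈ Abig := by
      rw [map_inv₀, inv_eq_of_mul_eq_one_right h1]
      exact ((u⁻¹ : Abigˣ) : Abig).2
    have h4 : ((a : K))⁻¹ ∈ A := (hAmem _).mpr h3
    have ha0 : (a : K) ≠ 0 := by
      intro h0
      rw [h0, map_zero, zero_mul] at h1
      exact zero_ne_one h1
    exact IsUnit.of_mul_eq_one ⟨(a : K)⁻¹, h4⟩ (Subtype.ext (mul_inv_cancel₀ ha0))
  let ψ : IsLocalRing.ResidueField A →+* IsLocalRing.ResidueField Abig :=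
    IsLocalRing.ResidueField.map fA
  have hφ : φ.comp A.subtype = Abig.subtype.comp fA := rfl
  have hψ : ψ.comp (IsLocalRing.residue A) = (IsLocalRing.residue Abig).comp fA :=
    IsLocalRing.ResidueField.map_comp_residue fA
  have hιA : Function.Injective A.subtype := s18_valSubtype_injective (A := A)
  have hιB : Function.Injective Abig.subtype := Subtype.val_injective
  have hψinj : Function.Injective (coeffMap ψ) := s18_coeffMap_injective ψ ψ.injective
  have hW : ∀ y ∈ s18_chRing N ℓ A t, y ∈ s18_W A.subtype (IsLocalRing.residue A) :=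
    fun y hy => s18_chRing_le_W hR.unit h hB hy
  have hWb : ∀ y ∈ s18_chRing N ℓ A t,
      coeffMap φ y ∈ s18_W Abig.subtype (IsLocalRing.residue Abig) :=
    fun y hy => s18_W_map fA φ ψ hφ hψ (hW y hy)
  have hredmap : ∀ y (hy : y ∈ s18_chRing N ℓ A t),
      s18_red hιB ⟨coeffMap φ y, hWb y hy⟩ = coeffMap ψ (s18_red hιA ⟨y, hW y hy⟩) :=
    fun y hy => s18_red_map hιA hιB fA φ ψ hφ hψ ⟨y, hW y hy⟩ (hWb y hy)
  have hπb : IsLocalRing.residue Abig (fA π) = 0 := by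
    have h1 := RingHom.congr_fun hψ π
    rw [RingHom.comp_apply, RingHom.comp_apply] at h1
    rw [← h1, s18_residue_uniformizer hR.irr, map_zero]
  have hCπ : (HahnSeries.C (A.subtype π) : LaurentSeries K) ≠ 0 := s18_C_ne_zero hR.irr.ne_zero
  have hCφ : coeffMap φ (HahnSeries.C (A.subtype π)) = HahnSeries.C (Abig.subtype (fA π)) := by
    rw [HahnSeries.C_apply, HahnSeries.C_apply, coeffMap_single]
    rfl
  -- descent of divisibility by powers of `π`
  have key : ∀ n : ℕ, ∀ a₀ ∈ s18_chRing N ℓ A t, ∀ a : LaurentSeries K,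
      a₀ = HahnSeries.C (A.subtype π) ^ n * a →
      coeffMap φ a ∈ s18_W Abig.subtype (IsLocalRing.residue Abig) →
      a ∈ s18_chRing N ℓ A t := by
    intro n
    induction n with
    | zero =>
      intro a₀ ha₀ a e _
      rw [pow_zero, one_mul] at e
      rw [← e]
      exact ha₀
    | succ n ih =>
      intro a₀ ha₀ a e haW
      have h1 : s18_red hιB ⟨coeffMap φ a₀, hWb a₀ ha₀⟩ = 0 := by
        refine s18_red_C_mul_eq_zero hιB hπb (hWb a₀ ha₀)
          (y' := HahnSeries.C (Abig.subtype (fA π)) ^ n * coeffMap φ a) ?_ ?_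
        · exact Subring.mul_mem _ (Subring.pow_mem _ (s18_C_mem_W (fA π)) n) haW
        · rw [e, map_mul, map_pow, hCφ, pow_succ]
          ring
      rw [hredmap a₀ ha₀] at h1
      have h2 : s18_red hιA ⟨a₀, hW a₀ ha₀⟩ = 0 := hψinj (by rw [h1, map_zero])
      obtain ⟨a₀', ha₀', e'⟩ := s18_chRing_kernel hR h hB a₀ ha₀ h2
      refine ih a₀' ha₀' a ?_ haW
      apply mul_left_cancel₀ hCπ
      rw [← e', e, pow_succ]
      ring
  -- the fraction
  obtain ⟨a₀, ha₀, b₀, hb₀, hb₀0, hfab⟩ := s18_chAlg_frac (A := A) (t := t) hR.unit h hB f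
  have hb₀0' : (b₀ : LaurentSeries K) ≠ 0 := fun h0 => hb₀0 (Subtype.ext h0)
  obtain ⟨n, b₁, hb₁, eb, hb₁red⟩ :=
    s18_chRing_decomp hR h hB (b₀ : LaurentSeries K) (s18_mem_chAlg.mp hb₀) hb₀0'
  have hb₁0 : b₁ ≠ 0 := by
    intro h0
    apply hb₁red
    have e0 : (⟨b₁, s18_chRing_le_W hR.unit h hB hb₁⟩ :
        s18_W A.subtype (IsLocalRing.residue A)) = 0 := Subtype.ext h0
    rw [e0, map_zero]
  let b : FK := ⟨b₁, s18_chRing_le_baseChange b₁ hb₁⟩
  have hbmem : b ∈ s18_chAlg N ℓ A t := hb₁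
  have hb0 : b ≠ 0 := fun h0 => hb₁0 (congrArg Subtype.val h0)
  let a : FK := f * b
  have hacoe : (a : LaurentSeries K) = (f : LaurentSeries K) * b₁ := rfl
  have hfW : coeffMap φ (f : LaurentSeries K) ∈ s18_W Abig.subtype (IsLocalRing.residue Abig) :=
    ⟨y₂, y₁, hne₂, by rw [mul_comm]; exact hf⟩
  have hfred : s18_red hιB ⟨coeffMap φ (f : LaurentSeries K), hfW⟩ =
      coeffMap (IsLocalRing.residue Abig) y₁ / coeffMap (IsLocalRing.residue Abig) y₂ :=
    s18_red_eq hιB _ y₂ y₁ hne₂ (by rw [mul_comm]; exact hf)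
  have haW : coeffMap φ (a : LaurentSeries K) ∈
      s18_W Abig.subtype (IsLocalRing.residue Abig) := by
    rw [hacoe, map_mul]
    exact Subring.mul_mem _ hfW (hWb b₁ hb₁)
  have hamem : (a : LaurentSeries K) ∈ s18_chRing N ℓ A t := by
    refine key n (a₀ : LaurentSeries K) (s18_mem_chAlg.mp ha₀) _ ?_ haW
    have h1 : (a₀ : LaurentSeries K) = (f : LaurentSeries K) * (b₀ : LaurentSeries K) := by
      have h2 : a₀ = f * b₀ := by rw [hfab, div_mul_cancel₀ _ hb₀0]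
      exact congrArg Subtype.val h2
    rw [h1, eb, hacoe]
    ring
  have hamem' : a ∈ s18_chAlg N ℓ A t := hamem
  have hreda : s18_red hιA ⟨(a : LaurentSeries K), hW _ hamem⟩ ≠ 0 := by
    intro h0
    have h1 := hredmap _ hamem
    rw [h0, map_zero] at h1
    have e1 : (⟨coeffMap φ (a : LaurentSeries K), hWb _ hamem⟩ :
        s18_W Abig.subtype (IsLocalRing.residue Abig)) =
        ⟨coeffMap φ (f : LaurentSeries K), hfW⟩ * ⟨coeffMap φ b₁, hWb _ hb₁⟩ := by
      apply Subtype.ext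
      show coeffMap φ (a : LaurentSeries K) = coeffMap φ (f : LaurentSeries K) * coeffMap φ b₁
      rw [hacoe, map_mul]
    rw [e1, map_mul, hfred, hredmap _ hb₁] at h1
    rcases mul_eq_zero.mp h1 with h2 | h2
    · exact (div_ne_zero hne₁ hne₂) h2
    · exact hb₁red (hψinj (by rw [h2, map_zero]))
  refine ⟨a, hamem', b, hbmem, ?_, ?_, ?_⟩
  · exact s18_chAlg_not_dvd hR h hB a hamem' hreda
  · exact s18_chAlg_not_dvd hR h hB b hbmem hb₁red
  · exact (mul_div_cancel_right₀ f hb0).symm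

end Abstract

section Bar

variable {N : ℕ} [NeZero N] {ℓ : ℕ} [Fact ℓ.Prime]

local notation "Qb" => AlgebraicClosure ℚ

/-- Descent of one function to a Galois number field containing a given one. -/
theorem s37_rn_descend (f : modularFunctionFieldBar N)
    (K₀ : IntermediateField ℚ Qb) (hK₀ : s18_d1_IsGaloisNF K₀) :
    ∃ K₁ : IntermediateField ℚ Qb, s18_d1_IsGaloisNF K₁ ∧ K₀ ≤ K₁ ∧
      ∃ f₁ : s18_F1 K₁ N, s18_baseIncl K₁ N f₁ = f := by
  obtain ⟨K₁', hK₁', hdef⟩ := s18_d1_exists (F₀ := modularFunctionFieldFull N)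
    (f : LaurentSeries Qb) f.2
  obtain ⟨g, hg, hge⟩ := hdef.mono (le_sup_right : K₁' ≤ K₀ ⊔ K₁')
  exact ⟨K₀ ⊔ K₁', hK₀.sup hK₁', le_sup_left, ⟨g, hg⟩, Subtype.ext hge⟩

/-- (b') **Normal form**: every non-zero function is a constant times a ratio of functions of
the chart over `A₁ = A ∩ K₁` which are not divisible by the uniformizer. -/
theorem s37_rn_normal (A : ValuationSubring Qb) (hA : A.LiesOverPrime ℓ) (hℓN : ¬ ℓ ∣ N)
    {t : modularFunctionFieldFull N} (h : s18_cz_Coord N ℓ t)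
    (f : modularFunctionFieldBar N) (hf : f ≠ 0)
    (K₀ : IntermediateField ℚ Qb) (hK₀ : s18_d1_IsGaloisNF K₀) :
    ∃ K₁ : IntermediateField ℚ Qb, s18_d1_IsGaloisNF K₁ ∧ K₀ ≤ K₁ ∧
      ∃ (π : s18_A1 A K₁) (c : K₁) (a b : s18_F1 K₁ N),
        Irreducible π ∧ c ≠ 0 ∧
        a ∈ s18_chAlg N ℓ (s18_A1 A K₁) t ∧ b ∈ s18_chAlg N ℓ (s18_A1 A K₁) t ∧
        (algebraMap (s18_A1 A K₁) (s18_F1 K₁ N) π)⁻¹ * a ∉ s18_chAlg N ℓ (s18_A1 A K₁) t ∧
        (algebraMap (s18_A1 A K₁) (s18_F1 K₁ N) π)⁻¹ * b ∉ s18_chAlg N ℓ (s18_A1 A K₁) t ∧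
        f = algebraMap Qb (modularFunctionFieldBar N) (c : Qb) *
          (s18_baseIncl K₁ N a / s18_baseIncl K₁ N b) := by
  obtain ⟨K₁, hK₁, hle, f₁, hf₁⟩ := s37_rn_descend f K₀ hK₀
  refine ⟨K₁, hK₁, hle, ?_⟩
  have hfd : FiniteDimensional ℚ K₁ := hK₁.1
  have hgal : IsGalois ℚ K₁ := hK₁.2
  have hℓ : ((ℓ : K₁))⁻¹ ∉ s18_A1 A K₁ := s18_a1_ell A hA K₁
  have hDVR : IsDiscreteValuationRing (s18_A1 A K₁) := s18_a1_dvr A hA K₁
  obtain ⟨π, hπ⟩ := IsDiscreteValuationRing.exists_irreducible (s18_A1 A K₁)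
  have hR : s18_ResBasis ℓ (s18_A1 A K₁) π := s18_a1_resbasis A hA K₁ π hπ
  obtain ⟨B, hB⟩ := core N ℓ hℓN
  have hf₁0 : f₁ ≠ 0 := by
    intro h0
    apply hf
    rw [← hf₁, h0, map_zero]
  obtain ⟨a₀, ha₀, b₀, hb₀, hb₀0, hfab⟩ :=
    s18_chAlg_frac (A := s18_A1 A K₁) (t := t) hℓ h hB f₁
  have ha₀0 : a₀ ≠ 0 := by
    intro h0
    rw [h0, zero_div] at hfab
    exact hf₁0 hfab
  have ha₀0' : (a₀ : LaurentSeries K₁) ≠ 0 := fun h0 => ha₀0 (Subtype.ext h0)
  have hb₀0' : (b₀ : LaurentSeries K₁) ≠ 0 := fun h0 => hb₀0 (Subtype.ext h0)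
  obtain ⟨n, a₁, ha₁, ea, ha₁red⟩ :=
    s18_chRing_decomp hR h hB (a₀ : LaurentSeries K₁) (s18_mem_chAlg.mp ha₀) ha₀0'
  obtain ⟨m, b₁, hb₁, eb, hb₁red⟩ :=
    s18_chRing_decomp hR h hB (b₀ : LaurentSeries K₁) (s18_mem_chAlg.mp hb₀) hb₀0'
  let a : s18_F1 K₁ N := ⟨a₁, s18_chRing_le_baseChange a₁ ha₁⟩
  let b : s18_F1 K₁ N := ⟨b₁, s18_chRing_le_baseChange b₁ hb₁⟩
  have hamem : a ∈ s18_chAlg N ℓ (s18_A1 A K₁) t := ha₁
  have hbmem : b ∈ s18_chAlg N ℓ (s18_A1 A K₁) t := hb₁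
  have hπK : (π : K₁) ≠ 0 := fun h0 => hπ.ne_zero (Subtype.ext h0)
  have hcoe : ∀ k : ℕ, (((algebraMap K₁ (s18_F1 K₁ N) (π : K₁)) ^ k : s18_F1 K₁ N) :
      LaurentSeries K₁) = HahnSeries.C ((s18_A1 A K₁).subtype π) ^ k := by
    intro k
    rw [← s18_coe_algebraMap (N := N)]
    rfl
  have hea : a₀ = (algebraMap K₁ (s18_F1 K₁ N) (π : K₁)) ^ n * a := by
    apply Subtype.ext
    show (a₀ : LaurentSeries K₁) =
      (((algebraMap K₁ (s18_F1 K₁ N) (π : K₁)) ^ n : s18_F1 K₁ N) : LaurentSeries K₁) * a₁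
    rw [hcoe, ea]
  have heb : b₀ = (algebraMap K₁ (s18_F1 K₁ N) (π : K₁)) ^ m * b := by
    apply Subtype.ext
    show (b₀ : LaurentSeries K₁) =
      (((algebraMap K₁ (s18_F1 K₁ N) (π : K₁)) ^ m : s18_F1 K₁ N) : LaurentSeries K₁) * b₁
    rw [hcoe, eb]
  have hb0 : b ≠ 0 := by
    intro h0
    rw [heb, h0, mul_zero] at hb₀0
    exact hb₀0 rfl
  have hϖ0 : algebraMap K₁ (s18_F1 K₁ N) (π : K₁) ≠ 0 := by
    rw [Ne, map_eq_zero]
    exact hπK
  refine ⟨π, (π : K₁) ^ n / (π : K₁) ^ m, a, b, hπ,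
    div_ne_zero (pow_ne_zero _ hπK) (pow_ne_zero _ hπK), hamem, hbmem,
    s18_chAlg_not_dvd hR h hB a hamem ha₁red, s18_chAlg_not_dvd hR h hB b hbmem hb₁red, ?_⟩
  have hf₁e : f₁ = algebraMap K₁ (s18_F1 K₁ N) ((π : K₁) ^ n / (π : K₁) ^ m) * (a / b) := by
    rw [hfab, hea, heb, map_div₀, map_pow, map_pow, mul_div_mul_comm]
  have h1 : s18_baseIncl K₁ N (a / b) = s18_baseIncl K₁ N a / s18_baseIncl K₁ N b :=
    map_div₀ _ _ _
  rw [← hf₁, hf₁e, map_mul, s18_baseIncl_algebraMap, h1]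
  rfl

/-- (b) **Normal form of a ratio of Gauss-primitive series**: if `f · y₂ = y₁` with `y₁, y₂`
Gauss-primitive over the big valuation ring `A`, then `f = a / b` with `a, b` in the chart over
`A₁ = A ∩ K₁`, not divisible by the uniformizer. -/
theorem s37_rn_ratio (A : ValuationSubring Qb) (hA : A.LiesOverPrime ℓ) (hℓN : ¬ ℓ ∣ N)
    {t : modularFunctionFieldFull N} (h : s18_cz_Coord N ℓ t)
    (f : modularFunctionFieldBar N) (y₁ y₂ : LaurentSeries A)
    (hfy : (f : LaurentSeries Qb) * coeffMap A.subtype y₂ = coeffMap A.subtype y₁)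
    (hne₁ : coeffMap (IsLocalRing.residue A) y₁ ≠ 0)
    (hne₂ : coeffMap (IsLocalRing.residue A) y₂ ≠ 0)
    (K₀ : IntermediateField ℚ Qb) (hK₀ : s18_d1_IsGaloisNF K₀) :
    ∃ K₁ : IntermediateField ℚ Qb, s18_d1_IsGaloisNF K₁ ∧ K₀ ≤ K₁ ∧
      ∃ (π : s18_A1 A K₁) (a b : s18_F1 K₁ N),
        Irreducible π ∧
        a ∈ s18_chAlg N ℓ (s18_A1 A K₁) t ∧ b ∈ s18_chAlg N ℓ (s18_A1 A K₁) t ∧
        (algebraMap (s18_A1 A K₁) (s18_F1 K₁ N) π)⁻¹ * a ∉ s18_chAlg N ℓ (s18_A1 A K₁) t ∧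
        (algebraMap (s18_A1 A K₁) (s18_F1 K₁ N) π)⁻¹ * b ∉ s18_chAlg N ℓ (s18_A1 A K₁) t ∧
        f = s18_baseIncl K₁ N a / s18_baseIncl K₁ N b := by
  obtain ⟨K₁, hK₁, hle, f₁, hf₁⟩ := s37_rn_descend f K₀ hK₀
  refine ⟨K₁, hK₁, hle, ?_⟩
  have hfd : FiniteDimensional ℚ K₁ := hK₁.1
  have hDVR : IsDiscreteValuationRing (s18_A1 A K₁) := s18_a1_dvr A hA K₁
  obtain ⟨π, hπ⟩ := IsDiscreteValuationRing.exists_irreducible (s18_A1 A K₁)
  have hR : s18_ResBasis ℓ (s18_A1 A K₁) π := s18_a1_resbasis A hA K₁ π hπ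
  obtain ⟨B, hB⟩ := core N ℓ hℓN
  have hf' : coeffMap (algebraMap K₁ Qb) (f₁ : LaurentSeries K₁) * coeffMap A.subtype y₂ =
      coeffMap A.subtype y₁ := by
    rw [← hfy, ← hf₁]
    rfl
  obtain ⟨a, ha, b, hb, hna, hnb, hfab⟩ := s37_rn_gauss_ratio hR h hB A
    (algebraMap K₁ Qb) rfl y₁ y₂ f₁ hf' hne₁ hne₂
  refine ⟨π, a, b, hπ, ha, hb, hna, hnb, ?_⟩
  rw [← hf₁, hfab, map_div₀]

end Bar

section Gen

local notation "Qb" => AlgebraicClosure ℚ

theorem s37_rn_coeffMap_C {R S : Type*} [CommRing R] [CommRing S] (f : R →+* S) (r : R) :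
    coeffMap f (HahnSeries.C r) = HahnSeries.C (f r) := by
  rw [HahnSeries.C_apply, HahnSeries.C_apply, coeffMap_single]

variable (N : ℕ) [NeZero N] (A : ValuationSubring Qb)

/-- The functions of `Q̄ · F_N` whose `q`-expansion is `A`-integral up to a constant factor. -/
def s37_rn_bdd : Subring (LaurentSeries Qb) where
  carrier := {x | x ∈ modularFunctionFieldBar N ∧
    ∃ c : A, c ≠ 0 ∧ ∃ z : LaurentSeries A, HahnSeries.C (c : Qb) * x = coeffMap A.subtype z}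
  mul_mem' := by
    rintro x x' ⟨hx, c, hc, z, hz⟩ ⟨hx', c', hc', z', hz'⟩
    refine ⟨mul_mem hx hx', c * c', mul_ne_zero hc hc', z * z', ?_⟩
    have h1 : ((c * c' : A) : Qb) = (c : Qb) * (c' : Qb) := rfl
    rw [map_mul, ← hz, ← hz', h1, map_mul]
    ring
  one_mem' := ⟨one_mem _, 1, one_ne_zero, 1, by
    have h1 : ((1 : A) : Qb) = 1 := rfl
    rw [h1, map_one, map_one, mul_one]⟩
  add_mem' := by
    rintro x x' ⟨hx, c, hc, z, hz⟩ ⟨hx', c', hc', z', hz'⟩
    refine ⟨add_mem hx hx', c * c', mul_ne_zero hc hc',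
      HahnSeries.C c' * z + HahnSeries.C c * z', ?_⟩
    have h1 : ((c * c' : A) : Qb) = (c : Qb) * (c' : Qb) := rfl
    rw [map_add, map_mul, map_mul, s37_rn_coeffMap_C, s37_rn_coeffMap_C, ← hz, ← hz', h1, map_mul]
    show _ = HahnSeries.C (c' : Qb) * _ + HahnSeries.C (c : Qb) * _
    ring
  zero_mem' := ⟨zero_mem _, 1, one_ne_zero, 0, by rw [mul_zero, map_zero]⟩
  neg_mem' := by
    rintro x ⟨hx, c, hc, z, hz⟩
    exact ⟨neg_mem hx, c, hc, -z, by rw [map_neg, ← hz, mul_neg]⟩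

/-- The fractions of bounded functions. -/
def s37_rn_frac : Subfield (LaurentSeries Qb) where
  carrier := {x | ∃ u ∈ s37_rn_bdd N A, ∃ v ∈ s37_rn_bdd N A, v ≠ 0 ∧ x * v = u}
  mul_mem' := by
    rintro x x' ⟨u, hu, v, hv, hv0, e⟩ ⟨u', hu', v', hv', hv0', e'⟩
    exact ⟨u * u', Subring.mul_mem _ hu hu', v * v', Subring.mul_mem _ hv hv',
      mul_ne_zero hv0 hv0', by rw [← e, ← e']; ring⟩
  one_mem' := ⟨1, Subring.one_mem _, 1, Subring.one_mem _, one_ne_zero, mul_one 1⟩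
  add_mem' := by
    rintro x x' ⟨u, hu, v, hv, hv0, e⟩ ⟨u', hu', v', hv', hv0', e'⟩
    exact ⟨u * v' + u' * v, Subring.add_mem _ (Subring.mul_mem _ hu hv') (Subring.mul_mem _ hu' hv),
      v * v', Subring.mul_mem _ hv hv', mul_ne_zero hv0 hv0', by rw [← e, ← e']; ring⟩
  zero_mem' := ⟨0, Subring.zero_mem _, 1, Subring.one_mem _, one_ne_zero, zero_mul 1⟩
  neg_mem' := by
    rintro x ⟨u, hu, v, hv, hv0, e⟩
    exact ⟨-u, Subring.neg_mem _ hu, v, hv, hv0, by rw [← e, neg_mul]⟩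
  inv_mem' := by
    rintro x ⟨u, hu, v, hv, hv0, e⟩
    by_cases hx : x = 0
    · rw [hx, inv_zero]
      exact ⟨0, Subring.zero_mem _, 1, Subring.one_mem _, one_ne_zero, zero_mul 1⟩
    · have hu0 : u ≠ 0 := by
        rw [← e]
        exact mul_ne_zero hx hv0
      exact ⟨v, hv, u, hu, hu0, by rw [← e, ← mul_assoc, inv_mul_cancel₀ hx, one_mul]⟩

theorem s37_rn_C_mem_bar (c : Qb) :
    (HahnSeries.C c : LaurentSeries Qb) ∈ modularFunctionFieldBar N := by
  rw [HahnSeries.C_apply, ← algebraMap_laurentSeries_eq_single]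
  exact (modularFunctionFieldBar N).algebraMap_mem c

theorem s37_rn_const_mem_bdd (c : Qb) : HahnSeries.C c ∈ s37_rn_bdd N A := by
  rcases A.mem_or_inv_mem c with hc | hc
  · refine ⟨s37_rn_C_mem_bar N c, 1, one_ne_zero, HahnSeries.C ⟨c, hc⟩, ?_⟩
    have h1 : ((1 : A) : Qb) = 1 := rfl
    rw [s37_rn_coeffMap_C, h1, map_one, one_mul]
    rfl
  · by_cases hc0 : c = 0
    · rw [hc0, map_zero]
      exact Subring.zero_mem _
    · refine ⟨s37_rn_C_mem_bar N c, ⟨c⁻¹, hc⟩,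
        fun h0 => inv_ne_zero hc0 (congrArg Subtype.val h0), 1, ?_⟩
      rw [map_one, ← map_mul]
      show HahnSeries.C (c⁻¹ * c) = 1
      rw [inv_mul_cancel₀ hc0, map_one]

theorem s37_rn_gen_mem_bdd (d : ℕ) [NeZero d] (hd : d ∣ N) :
    coeffEmb Qb (qExpand ℚ d jq) ∈ s37_rn_bdd N A := by
  refine ⟨coeffEmb_mem_laurentBaseChange Qb (jqd_mem_full N hd), 1, one_ne_zero,
    qExpand A d (jqModC A), ?_⟩
  have h1 : ((1 : A) : Qb) = 1 := rfl
  rw [h1, map_one, one_mul, coeffEmb, coeffMap_qExpand, coeffMap_qExpand, ← jqModC_rat,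
    coeffMap_jqModC, coeffMap_jqModC]

/-- Every function of `Q̄ · F_N` is a fraction of bounded functions. -/
theorem s37_rn_le_frac {x : LaurentSeries Qb} (hx : x ∈ modularFunctionFieldBar N) :
    x ∈ s37_rn_frac N A := by
  have hbdd : ∀ u ∈ s37_rn_bdd N A, u ∈ s37_rn_frac N A := fun u hu =>
    ⟨u, hu, 1, Subring.one_mem _, one_ne_zero, mul_one u⟩
  have hQ : ∀ z ∈ modularFunctionFieldFull N, coeffEmb Qb z ∈ s37_rn_frac N A := by
    intro z hz
    have hz' : z ∈ Subfield.closure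
        (Set.range (algebraMap ℚ (LaurentSeries ℚ)) ∪ divisorExpansions N) := hz
    have hle : Subfield.closure
        (Set.range (algebraMap ℚ (LaurentSeries ℚ)) ∪ divisorExpansions N) ≤
        (s37_rn_frac N A).comap (coeffEmb Qb) := by
      rw [Subfield.closure_le]
      rintro y (⟨r, rfl⟩ | ⟨d, hd0, hd, rfl⟩)
      · show coeffEmb Qb (algebraMap ℚ (LaurentSeries ℚ) r) ∈ s37_rn_frac N A
        rw [algebraMap_laurentSeries_eq_single, coeffEmb, coeffMap_single, ← HahnSeries.C_apply]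
        exact hbdd _ (s37_rn_const_mem_bdd N A _)
      · exact hbdd _ (s37_rn_gen_mem_bdd N A d hd)
    exact hle hz'
  rw [mem_laurentBaseChange_iff] at hx
  refine (Subfield.closure_le (t := s37_rn_frac N A)).mpr ?_ hx
  rintro y (⟨c, rfl⟩ | ⟨z, hz, rfl⟩)
  · rw [algebraMap_laurentSeries_eq_single, ← HahnSeries.C_apply]
    exact hbdd _ (s37_rn_const_mem_bdd N A c)
  · exact hQ z hz

/-- (GEN) from the existence of contents. -/
theorem s37_rn_gen_of_content
    (hcont : ∀ z : LaurentSeries A, coeffMap A.subtype z ∈ modularFunctionFieldBar N → z ≠ 0 →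
      ∃ (c : A) (z' : LaurentSeries A), c ≠ 0 ∧ z = HahnSeries.C c * z' ∧
        coeffMap (IsLocalRing.residue A) z' ≠ 0)
    (f : modularFunctionFieldBar N) (hf : f ≠ 0) :
    ∃ (c : Qb) (y₁ y₂ : LaurentSeries A)
      (h₁ : coeffMap A.subtype y₁ ∈ modularFunctionFieldBar N)
      (h₂ : coeffMap A.subtype y₂ ∈ modularFunctionFieldBar N),
      c ≠ 0 ∧ coeffMap (IsLocalRing.residue A) y₁ ≠ 0 ∧
      coeffMap (IsLocalRing.residue A) y₂ ≠ 0 ∧
      f = algebraMap Qb (modularFunctionFieldBar N) c *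
        ((⟨_, h₁⟩ : modularFunctionFieldBar N) / ⟨_, h₂⟩) := by
  obtain ⟨u, hu, v, hv, hv0, e⟩ := s37_rn_le_frac N A f.2
  have hu0 : u ≠ 0 := by
    rw [← e]
    exact mul_ne_zero (fun h0 => hf (Subtype.ext h0)) hv0
  have hCne : ∀ c : Qb, c ≠ 0 → (HahnSeries.C c : LaurentSeries Qb) ≠ 0 := by
    intro c hc
    rw [Ne, map_eq_zero]
    exact hc
  -- primitive parts
  have key : ∀ w ∈ s37_rn_bdd N A, w ≠ 0 → ∃ (d : Qb) (y : LaurentSeries A), d ≠ 0 ∧
      coeffMap A.subtype y ∈ modularFunctionFieldBar N ∧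
      coeffMap (IsLocalRing.residue A) y ≠ 0 ∧ w = HahnSeries.C d * coeffMap A.subtype y := by
    rintro w ⟨hwF, c, hc, z, hz⟩ hw0
    have hc0 : (c : Qb) ≠ 0 := fun h0 => hc (Subtype.ext h0)
    have hzF : coeffMap A.subtype z ∈ modularFunctionFieldBar N := by
      rw [← hz]
      exact mul_mem (s37_rn_C_mem_bar N _) hwF
    have hz0 : z ≠ 0 := by
      intro h0
      rw [h0, map_zero] at hz
      exact (mul_ne_zero (hCne _ hc0) hw0) hz
    obtain ⟨c', z', hc', hzz', hne⟩ := hcont z hzF hz0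
    have hc'0 : (c' : Qb) ≠ 0 := fun h0 => hc' (Subtype.ext h0)
    have hzz'' : coeffMap A.subtype z = HahnSeries.C (c' : Qb) * coeffMap A.subtype z' := by
      rw [hzz', map_mul, s37_rn_coeffMap_C]
      rfl
    have hz'F : coeffMap A.subtype z' ∈ modularFunctionFieldBar N := by
      have h1 : coeffMap A.subtype z' = HahnSeries.C ((c' : Qb))⁻¹ * coeffMap A.subtype z := by
        rw [hzz'', ← mul_assoc, ← map_mul, inv_mul_cancel₀ hc'0, map_one, one_mul]
      rw [h1]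
      exact mul_mem (s37_rn_C_mem_bar N _) hzF
    refine ⟨(c : Qb)⁻¹ * (c' : Qb), z', mul_ne_zero (inv_ne_zero hc0) hc'0, hz'F, hne, ?_⟩
    apply mul_left_cancel₀ (hCne _ hc0)
    rw [hz, hzz'', ← mul_assoc, ← map_mul, mul_inv_cancel_left₀ hc0]
  obtain ⟨d₁, y₁, hd₁, h₁, hne₁, e₁⟩ := key u hu hu0
  obtain ⟨d₂, y₂, hd₂, h₂, hne₂, e₂⟩ := key v hv hv0
  refine ⟨d₁ / d₂, y₁, y₂, h₁, h₂, div_ne_zero hd₁ hd₂, hne₁, hne₂, ?_⟩
  have hY₂0 : (⟨_, h₂⟩ : modularFunctionFieldBar N) ≠ 0 := by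
    intro h0
    have h00 : coeffMap A.subtype y₂ = 0 := congrArg Subtype.val h0
    rw [h00, mul_zero] at e₂
    exact hv0 e₂
  rw [← mul_div_assoc, eq_div_iff hY₂0]
  apply Subtype.ext
  show (f : LaurentSeries Qb) * coeffMap A.subtype y₂ =
    algebraMap Qb (LaurentSeries Qb) (d₁ / d₂) * coeffMap A.subtype y₁
  rw [algebraMap_laurentSeries_eq_single, ← HahnSeries.C_apply]
  apply mul_left_cancel₀ (hCne _ hd₂)
  have h2 : HahnSeries.C d₂ * HahnSeries.C (d₁ / d₂) = (HahnSeries.C d₁ : LaurentSeries Qb) := by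
    have h3 : d₂ * (d₁ / d₂) = d₁ := by field_simp
    rw [← map_mul, h3]
  calc HahnSeries.C d₂ * ((f : LaurentSeries Qb) * coeffMap A.subtype y₂)
      = (f : LaurentSeries Qb) * (HahnSeries.C d₂ * coeffMap A.subtype y₂) := by ring
    _ = u := by rw [← e₂, e]
    _ = HahnSeries.C d₁ * coeffMap A.subtype y₁ := e₁
    _ = HahnSeries.C d₂ * (HahnSeries.C (d₁ / d₂) * coeffMap A.subtype y₁) := by
        rw [← mul_assoc, h2]

/-- Contents of integral `q`-expansions of functions (`A` over a prime `p`). -/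
theorem s37_rn_content {p : ℕ} [Fact p.Prime] (hA : A.LiesOverPrime p) (z : LaurentSeries A)
    (hz : coeffMap A.subtype z ∈ modularFunctionFieldBar N) (hz0 : z ≠ 0) :
    ∃ (c : A) (z' : LaurentSeries A), c ≠ 0 ∧ z = HahnSeries.C c * z' ∧
      coeffMap (IsLocalRing.residue A) z' ≠ 0 := by
  obtain ⟨K₁, hK₁, y, hy, hye⟩ := s18_d1_exists (F₀ := modularFunctionFieldFull N) _ hz
  obtain ⟨w, hw⟩ := s18_d1_descend_coeff K₁ A y z hye
  have hfd : FiniteDimensional ℚ K₁ := hK₁.1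
  have hDVR : IsDiscreteValuationRing (s18_A1 A K₁) := s18_a1_dvr A hA K₁
  obtain ⟨π, hπ⟩ := IsDiscreteValuationRing.exists_irreducible (s18_A1 A K₁)
  -- the comparison maps
  let fA : s18_A1 A K₁ →+* A :=
    ((algebraMap K₁ Qb).comp (s18_A1 A K₁).subtype).codRestrict A.toSubring (fun r => r.2)
  have hloc : IsLocalHom fA := by
    refine ⟨fun a ha => ?_⟩
    obtain ⟨u, hu⟩ := ha
    have h1 : algebraMap K₁ Qb (a : K₁) * (((u⁻¹ : Aˣ) : A) : Qb) = 1 := by
      have h2 : fA a * ((u⁻¹ : Aˣ) : A) = 1 := by rw [← hu]; exact Units.mul_inv u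
      exact congrArg Subtype.val h2
    have h3 : algebraMap K₁ Qb ((a : K₁)⁻¹) ∈ A := by
      rw [map_inv₀, inv_eq_of_mul_eq_one_right h1]
      exact ((u⁻¹ : Aˣ) : A).2
    have h4 : ((a : K₁))⁻¹ ∈ s18_A1 A K₁ := h3
    have ha0 : (a : K₁) ≠ 0 := by
      intro h0
      rw [h0, map_zero, zero_mul] at h1
      exact zero_ne_one h1
    exact IsUnit.of_mul_eq_one ⟨(a : K₁)⁻¹, h4⟩ (Subtype.ext (mul_inv_cancel₀ ha0))
  let ψ : IsLocalRing.ResidueField (s18_A1 A K₁) →+* IsLocalRing.ResidueField A :=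
    IsLocalRing.ResidueField.map fA
  have hψ : ψ.comp (IsLocalRing.residue (s18_A1 A K₁)) = (IsLocalRing.residue A).comp fA :=
    IsLocalRing.ResidueField.map_comp_residue fA
  have hψinj : Function.Injective (coeffMap ψ) := s18_coeffMap_injective ψ ψ.injective
  have hcomp : A.subtype.comp fA = (algebraMap K₁ Qb).comp (s18_A1 A K₁).subtype := rfl
  have hzw : z = coeffMap fA w := by
    apply s18_coeffMap_injective A.subtype Subtype.val_injective
    rw [coeffMap_coeffMap, hcomp, ← coeffMap_coeffMap, hw, hye]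
  have hw0 : w ≠ 0 := by
    intro h0
    rw [h0, map_zero] at hzw
    exact hz0 hzw
  have hmax : IsLocalRing.maximalIdeal (s18_A1 A K₁) = Ideal.span {π} := hπ.maximalIdeal_eq
  obtain ⟨n, w', hww', hne⟩ := s18_series_content (ρ := IsLocalRing.residue (s18_A1 A K₁))
    hπ.ne_zero (s18_residue_uniformizer hπ)
    (by
      intro r hr
      rw [IsLocalRing.residue_eq_zero_iff, hmax, Ideal.mem_span_singleton] at hr
      exact hr)
    (by
      intro r hr
      obtain ⟨n, u, hu⟩ := IsDiscreteValuationRing.eq_unit_mul_pow_irreducible hr hπ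
      refine ⟨n, u, by rw [hu, mul_comm], ?_⟩
      rw [Ne, IsLocalRing.residue_eq_zero_iff]
      exact fun hmem => (IsLocalRing.mem_maximalIdeal _).mp hmem u.isUnit) w hw0
  refine ⟨fA π ^ n, coeffMap fA w', ?_, ?_, ?_⟩
  · apply pow_ne_zero
    intro h0
    have h1 : algebraMap K₁ Qb (π : K₁) = 0 := congrArg Subtype.val h0
    rw [map_eq_zero] at h1
    exact hπ.ne_zero (Subtype.ext h1)
  · rw [hzw, hww', map_mul, map_pow, s37_rn_coeffMap_C, map_pow]
  · rw [coeffMap_coeffMap, ← hψ, ← coeffMap_coeffMap]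
    intro h0
    exact hne (hψinj (by rw [h0, map_zero]))

/-- **(R3) = (GEN)**: every non-zero function is a constant times a ratio of functions with
Gauss-primitive `A`-integral `q`-expansions.  (No hypothesis on the level.) -/
theorem s37_rn_gen (N ℓ : ℕ) [NeZero N] (hℓ : ℓ.Prime) (A : ValuationSubring Qb)
    (hA : A.LiesOverPrime ℓ) (f : modularFunctionFieldBar N) (hf : f ≠ 0) :
    ∃ (c : Qb) (y₁ y₂ : LaurentSeries A)
      (h₁ : coeffMap A.subtype y₁ ∈ modularFunctionFieldBar N)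
      (h₂ : coeffMap A.subtype y₂ ∈ modularFunctionFieldBar N),
      c ≠ 0 ∧ coeffMap (IsLocalRing.residue A) y₁ ≠ 0 ∧
      coeffMap (IsLocalRing.residue A) y₂ ≠ 0 ∧
      f = algebraMap Qb (modularFunctionFieldBar N) c *
        ((⟨_, h₁⟩ : modularFunctionFieldBar N) / ⟨_, h₂⟩) :=
  haveI : Fact ℓ.Prime := ⟨hℓ⟩
  s37_rn_gen_of_content N A (fun z hz hz0 => s37_rn_content N A hA z hz hz0) f hf

/-- If no prime number is a non-unit of `A`, then `A` is everything: its residue map is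
injective. -/
theorem s37_rn_residue_injective_of_no_prime
    (h : ¬ ∃ p : ℕ, p.Prime ∧ (p : Qb) ∈ A.nonunits) :
    Function.Injective (IsLocalRing.residue A) := by
  -- inverses of positive natural numbers lie in `A`
  have hnat : ∀ n : ℕ, n ≠ 0 → ((n : Qb))⁻¹ ∈ A := by
    intro n
    induction n using Nat.recOnMul with
    | zero => exact fun h0 => absurd rfl h0
    | one =>
      intro _
      rw [Nat.cast_one, inv_one]
      exact A.one_mem
    | prime p hp =>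
      intro _
      have hnot : (p : Qb) ∉ A.nonunits := fun hmem => h ⟨p, hp, hmem⟩
      rw [ValuationSubring.mem_nonunits_iff_or, not_or, not_not] at hnot
      exact hnot.2
    | mul a b ha hb =>
      intro hab
      rw [Nat.cast_mul, mul_inv]
      exact A.mul_mem _ _ (ha (fun h0 => hab (by rw [h0, zero_mul])))
        (hb (fun h0 => hab (by rw [h0, mul_zero])))
  -- rational numbers lie in `A`
  have hrat : ∀ r : ℚ, algebraMap ℚ Qb r ∈ A := by
    intro r
    have h1 : algebraMap ℚ Qb r = (r.num : Qb) * ((r.den : Qb))⁻¹ := by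
      conv_lhs => rw [← Rat.num_div_den r]
      rw [map_div₀, map_intCast, map_natCast, div_eq_mul_inv]
    rw [h1]
    exact A.mul_mem _ _ (intCast_mem A r.num) (hnat r.den r.den_ne_zero)
  let g : ℚ →+* A := (algebraMap ℚ Qb).codRestrict A.toSubring hrat
  have hint : ∀ y : Qb, y ∈ A := by
    intro y
    have := s18_d1_qbar_isAlgebraic
    obtain ⟨P, hP, h0⟩ : IsIntegral ℚ y := Algebra.IsIntegral.isIntegral y
    have hy : IsIntegral A y := by
      refine ⟨P.map g, hP.map g, ?_⟩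
      rw [Polynomial.eval₂_map]
      exact h0
    obtain ⟨r, hr⟩ := IsIntegrallyClosed.isIntegral_iff.mp hy
    rw [← hr]
    exact r.2
  rw [injective_iff_map_eq_zero]
  intro a ha
  rw [IsLocalRing.residue_eq_zero_iff] at ha
  by_contra ha0
  apply (IsLocalRing.mem_maximalIdeal a).mp ha
  have ha0' : (a : Qb) ≠ 0 := fun h0 => ha0 (Subtype.ext h0)
  exact IsUnit.of_mul_eq_one ⟨(a : Qb)⁻¹, hint _⟩ (Subtype.ext (mul_inv_cancel₀ ha0'))

/-- **(R3) = (GEN)**, exact skeleton shape (the hypothesis `hA` is not needed). -/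
theorem s37_rn_r_gen (N ℓ : ℕ) [NeZero N] (A : ValuationSubring Qb) (hA : A.LiesOverPrime ℓ)
    (f : modularFunctionFieldBar N) (hf : f ≠ 0) :
    ∃ (c : Qb) (y₁ y₂ : LaurentSeries A)
      (h₁ : coeffMap A.subtype y₁ ∈ modularFunctionFieldBar N)
      (h₂ : coeffMap A.subtype y₂ ∈ modularFunctionFieldBar N),
      c ≠ 0 ∧ coeffMap (IsLocalRing.residue A) y₁ ≠ 0 ∧
      coeffMap (IsLocalRing.residue A) y₂ ≠ 0 ∧
      f = algebraMap Qb (modularFunctionFieldBar N) c *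
        ((⟨_, h₁⟩ : modularFunctionFieldBar N) / ⟨_, h₂⟩) := by
  by_cases h : ∃ p : ℕ, p.Prime ∧ (p : Qb) ∈ A.nonunits
  · obtain ⟨p, hp, hpA⟩ := h
    have : Fact p.Prime := ⟨hp⟩
    exact s37_rn_gen_of_content N A (fun z hz hz0 => s37_rn_content N A hpA z hz hz0) f hf
  · have hinj := s37_rn_residue_injective_of_no_prime A h
    refine s37_rn_gen_of_content N A (fun z hz hz0 => ⟨1, z, one_ne_zero, ?_, ?_⟩) f hf
    · rw [map_one, one_mul]
    · intro h0
      exact hz0 (s18_coeffMap_injective _ hinj (by rw [h0, map_zero]))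

end Gen

end Fermat.Agent.S37
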