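import Mathlib
import Fermat.Agent.S37.RcWd
import Fermat.Agent.S18.ChPkgInst
import Fermat.Agent.S18.BranchChart
import Fermat.Agent.S18.SmBridge
import Fermat.Agent.S18.A1Facts

/-!
# S37, block R2, leaf (F2): the chart data of the Hauptmodul at all finite levels

For the Hauptmodul `t = t_M` (`M ∈ {2, 3}`, `M ∣ N`, `ℓ ≠ M`, `ℓ ∤ N`): the coordinate `t₀` of
block C of S18 with `t = s18_coord Q̄ t₀`, its integral `q`-expansion `T` (with inverse `T'`,
leading term `q⁻¹`), and for every Galois number field `K₁ ⊆ Q̄` and uniformizer `π` of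
`A₁ = A ∩ K₁` the two-chart structure of the charts of `t₀`, `t₀⁻¹` over `A₁`.
-/

set_option autoImplicit false
set_option synthInstance.maxHeartbeats 400000
set_option linter.style.haveILetI false

namespace Fermat.Agent.S37

open ModularCurve ModularCurve.IgusaScheme AlgebraicCurve Fermat.Agent.S28 Fermat.Agent.S18

noncomputable section

local notation "Qb" => AlgebraicClosure ℚ

/-- **(F2)** the chart data of the Hauptmodul `t_M` at all finite levels. -/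
theorem s37_rh_data (N ℓ M : ℕ) [NeZero N] [Fact ℓ.Prime] (hℓN : ¬ ℓ ∣ N) (hℓM : ℓ ≠ M)
    (hMN : M ∣ N) (A : ValuationSubring Qb) (hA : A.LiesOverPrime ℓ)
    (t : modularFunctionFieldBar N) (ht : s37_IsHaupt M t) :
    ∃ (t₀ : modularFunctionFieldFull N) (T T' : LaurentSeries ℤ) (e : ℤ),
      s18_cz_Coord N ℓ t₀ ∧ t = s18_coord Qb t₀ ∧ T * T' = 1 ∧
      (t₀ : LaurentSeries ℚ) = coeffMap (Int.castRingHom ℚ) T ∧ (e = 1 ∨ e = -1) ∧
      IsLeading T e 1 ∧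
      ∀ (K₁ : IntermediateField ℚ Qb), s18_d1_IsGaloisNF K₁ → ∀ π : s18_A1 A K₁, Irreducible π →
        s18_TwoChart π (s18_coord K₁ t₀) (s18_chAlg N ℓ (s18_A1 A K₁) t₀)
          (s18_chAlg N ℓ (s18_A1 A K₁) t₀⁻¹) := by
  rcases ht with ⟨rfl, e⟩ | ⟨rfl, e⟩
  · refine ⟨s18_cz_t2 N hMN, s18_t2, s18_t2inv, -1, s18_cz_coord_t2 N ℓ hMN hℓM,
      Subtype.ext ?_, s18_t2_mul_inv, rfl, Or.inr rfl, s18_pkg_lead_t2, ?_⟩
    · rw [e]
      show _ = coeffEmb Qb (s18_t2R ℚ)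
      rw [coeffEmb, s18_coeffMap_t2R]
    · intro K₁ hK₁ π hπ
      haveI : FiniteDimensional ℚ K₁ := hK₁.1
      haveI : IsGalois ℚ K₁ := hK₁.2
      haveI : NumberField K₁ := NumberField.mk
      have hℓ' : ((ℓ : K₁))⁻¹ ∉ s18_A1 A K₁ := s18_a1_ell A hA K₁
      haveI hDVR : IsDiscreteValuationRing (s18_A1 A K₁) := s18_a1_dvr A hA K₁
      haveI : CharZero (s18_A1 A K₁) := s18_a1_charZero A K₁
      have hpkg := s18_ch_pkg_t2 hℓ' hℓN hMN π hπ
      exact s18_twoChart_of_pkg hπ hpkg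
        (s18_branch_two N hMN hℓM A K₁ hℓ' hπ _ (s18_coord_mem _))
        (s18_branch_two_inv N hMN hℓM A K₁ hℓ' hπ _ hpkg.smInf.t_mem)
  · refine ⟨s18_cz_t3 N hMN, s18_t3, s18_t3inv, -1, s18_cz_coord_t3 N ℓ hMN hℓM,
      Subtype.ext ?_, s18_t3_mul_inv, rfl, Or.inr rfl, s18_pkg_lead_t3, ?_⟩
    · rw [e]
      show _ = coeffEmb Qb (s18_t3R ℚ)
      rw [coeffEmb, s18_coeffMap_t3R]
    · intro K₁ hK₁ π hπ
      haveI : FiniteDimensional ℚ K₁ := hK₁.1
      haveI : IsGalois ℚ K₁ := hK₁.2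
      haveI : NumberField K₁ := NumberField.mk
      have hℓ' : ((ℓ : K₁))⁻¹ ∉ s18_A1 A K₁ := s18_a1_ell A hA K₁
      haveI hDVR : IsDiscreteValuationRing (s18_A1 A K₁) := s18_a1_dvr A hA K₁
      haveI : CharZero (s18_A1 A K₁) := s18_a1_charZero A K₁
      have hpkg := s18_ch_pkg_t3 hℓ' hℓN hMN π hπ
      exact s18_twoChart_of_pkg hπ hpkg
        (s18_branch_three N hMN hℓM A K₁ hℓ' hπ _ (s18_coord_mem _))
        (s18_branch_three_inv N hMN hℓM A K₁ hℓ' hπ _ hpkg.smInf.t_mem)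

end

end Fermat.Agent.S37
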