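import Mathlib
import Fermat.Agent.S18.ChFin

/-!
# S37-R, block (GLOB): a function regular on the whole glued curve is constant

Two affine charts `R0 ∋ τ`, `Rinf ∋ τ⁻¹` inside a field `L` over an algebraically closed field
`κ`, finitely generated as modules over `κ[τ]`, `κ[τ⁻¹]` and glued along `τ`.  An element of `L`
which is regular at every `κ`-point of `R0` and at every `κ`-point of `Rinf` above `τ⁻¹ = 0` is
algebraic over `κ`, hence constant when `κ` is algebraically closed in `L`.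
-/

set_option autoImplicit false

namespace Fermat.Agent.S37

open Polynomial

/-- A chart which is module-finitely spanned over `κ[τ]` is a finitely generated `κ`-algebra. -/
theorem s37_rg_finiteType {κ L : Type*} [Field κ] [Field L] [Algebra κ L] (τ : L)
    (R : Subalgebra κ L) (hτ : τ ∈ R)
    (hfin : ∃ gen : Finset L, (∀ m ∈ gen, m ∈ R) ∧
      ∀ x ∈ R, ∃ c : L → Polynomial κ, x = ∑ m ∈ gen, Polynomial.aeval τ (c m) * m) :
    Algebra.FiniteType κ R := by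
  classical
  obtain ⟨gen, hgen, hspan⟩ := hfin
  rw [← Subalgebra.fg_iff_finiteType]
  refine ⟨insert τ gen, le_antisymm (Algebra.adjoin_le ?_) ?_⟩
  · intro z hz
    rw [Finset.coe_insert, Set.mem_insert_iff] at hz
    rcases hz with rfl | hz
    · exact hτ
    · exact hgen z hz
  · intro x hx
    obtain ⟨c, rfl⟩ := hspan x hx
    refine Subalgebra.sum_mem _ fun m hm => Subalgebra.mul_mem _ ?_
      (Algebra.subset_adjoin (by simp [hm]))
    exact Algebra.adjoin_mono (by simp) (Polynomial.aeval_mem_adjoin_singleton κ τ)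

/-- Nullstellensatz: a maximal ideal of a finitely generated algebra over an algebraically closed
field is the kernel of a `κ`-point. -/
theorem s37_rg_point {κ R : Type*} [Field κ] [IsAlgClosed κ] [CommRing R] [Algebra κ R]
    [Algebra.FiniteType κ R] (𝔪 : Ideal R) [h𝔪 : 𝔪.IsMaximal] :
    ∃ x : R →ₐ[κ] κ, ∀ r : R, x r = 0 ↔ r ∈ 𝔪 := by
  let _ : Field (R ⧸ 𝔪) := Ideal.Quotient.field 𝔪
  have : Algebra.FiniteType κ (R ⧸ 𝔪) :=
    Algebra.FiniteType.of_surjective (Ideal.Quotient.mkₐ κ 𝔪) Ideal.Quotient.mk_surjective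
  have : Module.Finite κ (R ⧸ 𝔪) := finite_of_finite_type_of_isJacobsonRing κ (R ⧸ 𝔪)
  have hbij : Function.Bijective (Algebra.ofId κ (R ⧸ 𝔪)) :=
    IsAlgClosed.algebraMap_bijective_of_isIntegral
  let e : κ ≃ₐ[κ] (R ⧸ 𝔪) := AlgEquiv.ofBijective (Algebra.ofId κ (R ⧸ 𝔪)) hbij
  refine ⟨(e.symm : (R ⧸ 𝔪) →ₐ[κ] κ).comp (Ideal.Quotient.mkₐ κ 𝔪), fun r => ?_⟩
  rw [AlgHom.comp_apply]
  change e.symm (Ideal.Quotient.mkₐ κ 𝔪 r) = 0 ↔ r ∈ 𝔪
  rw [EmbeddingLike.map_eq_zero_iff, Ideal.Quotient.mkₐ_eq_mk, Ideal.Quotient.eq_zero_iff_mem]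

/-- The conductor-type ideal `{d ∈ R | y * d ∈ R}`. -/
def s37_rg_den {κ L : Type*} [Field κ] [Field L] [Algebra κ L] (R : Subalgebra κ L) (y : L) :
    Ideal R where
  carrier := {d | y * (d : L) ∈ R}
  add_mem' := by
    intro a b ha hb
    change y * ((a + b : R) : L) ∈ R
    rw [Subalgebra.coe_add, mul_add]
    exact R.add_mem ha hb
  zero_mem' := by
    change y * ((0 : R) : L) ∈ R
    rw [Subalgebra.coe_zero, mul_zero]
    exact R.zero_mem
  smul_mem' := by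
    intro r a ha
    change y * ((r * a : R) : L) ∈ R
    rw [Subalgebra.coe_mul, mul_left_comm]
    exact R.mul_mem r.2 ha

theorem s37_rg_mem_den {κ L : Type*} [Field κ] [Field L] [Algebra κ L] (R : Subalgebra κ L)
    (y : L) (d : R) : d ∈ s37_rg_den R y ↔ y * (d : L) ∈ R := Iff.rfl

/-- If at every `κ`-point of the chart `R` the element `y` has a denominator not vanishing there,
then `y ∈ R`. -/
theorem s37_rg_mem_of_local {κ L : Type*} [Field κ] [IsAlgClosed κ] [Field L] [Algebra κ L]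
    (R : Subalgebra κ L) [Algebra.FiniteType κ R] (y : L)
    (h : ∀ x : R →ₐ[κ] κ, ∃ d : R, x d ≠ 0 ∧ y * (d : L) ∈ R) : y ∈ R := by
  by_contra hy
  have hne : s37_rg_den R y ≠ ⊤ := by
    intro htop
    have h1 : (1 : R) ∈ s37_rg_den R y := htop ▸ Submodule.mem_top
    rw [s37_rg_mem_den, Subalgebra.coe_one, mul_one] at h1
    exact hy h1
  obtain ⟨𝔪, h𝔪, hle⟩ := Ideal.exists_le_maximal _ hne
  obtain ⟨x, hx⟩ := s37_rg_point (κ := κ) 𝔪
  obtain ⟨d, hd0, hd⟩ := h x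
  exact hd0 ((hx d).2 (hle hd))

/-- (GLOB) A function regular at all `κ`-points of both charts of the glued curve is constant. -/
theorem s37_rg_const {κ L : Type*} [Field κ] [IsAlgClosed κ] [Field L] [Algebra κ L]
    (halg : ∀ z : L, IsAlgebraic κ z → ∃ c : κ, z = algebraMap κ L c) (τ : L) (hτ0 : τ ≠ 0)
    (R0 Rinf : Subalgebra κ L) (hτ : τ ∈ R0) (hτi : τ⁻¹ ∈ Rinf)
    (htr : ∀ P : Polynomial κ, Polynomial.aeval τ P = 0 → P = 0)
    (hfin0 : ∃ gen : Finset L, (∀ m ∈ gen, m ∈ R0) ∧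
      ∀ x ∈ R0, ∃ c : L → Polynomial κ, x = ∑ m ∈ gen, Polynomial.aeval τ (c m) * m)
    (hfinInf : ∃ gen : Finset L, (∀ m ∈ gen, m ∈ Rinf) ∧
      ∀ x ∈ Rinf, ∃ c : L → Polynomial κ, x = ∑ m ∈ gen, Polynomial.aeval τ⁻¹ (c m) * m)
    (glue0 : ∀ x ∈ R0, ∃ k : ℕ, τ⁻¹ ^ k * x ∈ Rinf)
    (glueInf : ∀ x ∈ Rinf, ∃ k : ℕ, τ ^ k * x ∈ R0)
    (y : L)
    (h0 : ∀ x : R0 →ₐ[κ] κ, ∃ c d : R0, x c ≠ 0 ∧ x d ≠ 0 ∧ y * (d : L) = c)
    (hInf : ∀ x : Rinf →ₐ[κ] κ, x ⟨τ⁻¹, hτi⟩ = 0 →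
      ∃ c d : Rinf, x c ≠ 0 ∧ x d ≠ 0 ∧ y * (d : L) = c) :
    ∃ c : κ, y = algebraMap κ L c := by
  classical
  have : Algebra.FiniteType κ R0 := s37_rg_finiteType τ R0 hτ hfin0
  have : Algebra.FiniteType κ Rinf := s37_rg_finiteType τ⁻¹ Rinf hτi hfinInf
  -- every power of `y` satisfies the same local hypotheses
  have key : ∀ n : ℕ, y ^ n ∈ R0 ∧ y ^ n ∈ Rinf := by
    intro n
    have hn0 : y ^ n ∈ R0 := by
      refine s37_rg_mem_of_local R0 (y ^ n) fun x => ?_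
      obtain ⟨c, d, -, hd, hyd⟩ := h0 x
      refine ⟨d ^ n, ?_, ?_⟩
      · rw [map_pow]
        exact pow_ne_zero n hd
      · rw [Subalgebra.coe_pow, ← mul_pow, hyd]
        exact R0.pow_mem c.2 n
    refine ⟨hn0, s37_rg_mem_of_local Rinf (y ^ n) fun x => ?_⟩
    by_cases hx : x ⟨τ⁻¹, hτi⟩ = 0
    · obtain ⟨c, d, -, hd, hyd⟩ := hInf x hx
      refine ⟨d ^ n, ?_, ?_⟩
      · rw [map_pow]
        exact pow_ne_zero n hd
      · rw [Subalgebra.coe_pow, ← mul_pow, hyd]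
        exact Rinf.pow_mem c.2 n
    · obtain ⟨k, hk⟩ := glue0 (y ^ n) hn0
      refine ⟨⟨τ⁻¹, hτi⟩ ^ k, ?_, ?_⟩
      · rw [map_pow]
        exact pow_ne_zero k hx
      · rw [Subalgebra.coe_pow, mul_comm]
        exact hk
  obtain ⟨gen0, hgen0, hspan0⟩ := hfin0
  obtain ⟨genInf, hgenInf, hspanInf⟩ := hfinInf
  obtain ⟨s, hs⟩ := Fermat.Agent.S18.s18_ch_fin (A₀ := κ) (F := L) (algebraMap κ L).injective τ htr
    R0 Rinf hτ hτi gen0 hgen0 hspan0 genInf hgenInf hspanInf glue0 glueInf 0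
  have hpow : ∀ n : ℕ, y ^ n ∈ Submodule.span κ (s : Set L) := by
    intro n
    refine hs _ (key n).1 ?_
    rw [pow_zero, one_mul]
    exact (key n).2
  have hle : Subalgebra.toSubmodule (Algebra.adjoin κ {y}) ≤ Submodule.span κ (s : Set L) := by
    rw [Algebra.adjoin_eq_span, Submodule.span_le]
    intro z hz
    obtain ⟨n, rfl⟩ := Submonoid.mem_closure_singleton.1 hz
    exact hpow n
  have hfg : (Subalgebra.toSubmodule (Algebra.adjoin κ {y})).FG := by
    have : Module.Finite κ (Submodule.span κ (s : Set L)) := FiniteDimensional.span_finset κ s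
    have := Submodule.finiteDimensional_of_le hle
    exact Module.Finite.iff_fg.1 inferInstance
  have hint : IsIntegral κ y :=
    IsIntegral.of_mem_of_fg (Algebra.adjoin κ {y}) hfg y (Algebra.subset_adjoin rfl)
  exact halg y hint.isAlgebraic

end Fermat.Agent.S37
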