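import Fermat.Agent.S37.RcFib
import Fermat.Agent.S37.RGlobal
import Fermat.Agent.S18.ResField
import Fermat.Agent.S28.Core

/-!
# S37, block R, leaf (KCH): the special fibres of the two charts satisfy the hypotheses of (GLOB)

`s37_rk_const` : over the residue field `κ` of a valuation ring `A` of `Q̄` above `ℓ ∤ N`, a series
`y ∈ κ((q))` which is regular at every `κ`-point of the special fibre of the chart of `t` and at
every `κ`-point above `t⁻¹ = 0` of the special fibre of the chart of `t⁻¹` is a constant.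
-/

set_option autoImplicit false
set_option synthInstance.maxHeartbeats 400000
set_option linter.unusedSectionVars false
set_option linter.unusedVariables false

open ModularCurve ModularCurve.IgusaScheme Fermat.Agent.S28 Fermat.Agent.S18 Polynomial

noncomputable section

namespace Fermat.Agent.S37

/-- Over an algebraically closed field, algebraic elements of a field extension are constants. -/
theorem s37_rk_alg_const {κ L : Type*} [Field κ] [IsAlgClosed κ] [Field L] [Algebra κ L] (z : L)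
    (hz : IsAlgebraic κ z) : ∃ c : κ, z = algebraMap κ L c := by
  have hint : IsIntegral κ z := hz.isIntegral
  have hdeg : (minpoly κ z).degree = 1 :=
    IsAlgClosed.degree_eq_one_of_irreducible κ (minpoly.irreducible hint)
  obtain ⟨c, hc⟩ := minpoly.mem_range_of_degree_eq_one κ z hdeg
  exact ⟨c, hc.symm⟩

theorem s37_rk_algebraMap_eq {κ : Type*} [Field κ] (c : κ) :
    algebraMap κ (LaurentSeries κ) c = HahnSeries.C c := by
  rw [algebraMap_laurentSeries_eq_single, ← HahnSeries.C_apply]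

theorem s37_rk_aeval_eq {κ : Type*} [Field κ] (u : LaurentSeries κ) (P : Polynomial κ) :
    Polynomial.aeval u P =
      Polynomial.eval₂RingHom (HahnSeries.C : κ →+* LaurentSeries κ) u P := by
  have h1 : algebraMap κ (LaurentSeries κ) = HahnSeries.C :=
    RingHom.ext fun c => s37_rk_algebraMap_eq c
  rw [Polynomial.aeval_def, Polynomial.coe_eval₂RingHom, h1]

/-- A Laurent series of nonzero order is transcendental over the coefficient field. -/
theorem s37_rk_transc {κ : Type*} [Field κ] (u : LaurentSeries κ) (hu : u.order ≠ 0)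
    (P : Polynomial κ) (hP : Polynomial.aeval u P = 0) : P = 0 := by
  by_contra hP0
  rw [s37_rk_aeval_eq] at hP
  exact s18_ch_transc u hu P hP0 hP

section Fib

variable {N : ℕ} [NeZero N] {ℓ : ℕ} [Fact ℓ.Prime]
variable {K : Type*} [Field K] [Algebra ℚ K] {A : ValuationSubring K}
variable {t : modularFunctionFieldFull N}

local notation "κ" => IsLocalRing.ResidueField A
local notation "FK" => laurentBaseChange K (modularFunctionFieldFull N)
local notation "WA" => s18_W A.subtype (IsLocalRing.residue A)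

/-- The reduction of the coordinate is the coefficientwise reduction of its `q`-expansion. -/
theorem s37_rk_gred_coord (hW : s18_chRing N ℓ A t ≤ WA) (T : LaurentSeries ℤ)
    (hT : (t : LaurentSeries ℚ) = coeffMap (Int.castRingHom ℚ) T) :
    s37_rc_gred A ⟨((s18_coord K t : FK) : LaurentSeries K),
      hW (s18_mem_chAlg.mp (s18_coord_mem t))⟩ = coeffMap (Int.castRingHom κ) T := by
  have h1 : ((s18_coord K t : FK) : LaurentSeries K) =
      coeffMap A.subtype (coeffMap (Int.castRingHom A) T) := by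
    show coeffEmb K (t : LaurentSeries ℚ) = _
    rw [hT, coeffEmb, coeffMap_coeffMap, coeffMap_coeffMap]
    exact coeffMap_congr (RingHom.ext_int _ _) T
  have h2 : (⟨((s18_coord K t : FK) : LaurentSeries K),
      hW (s18_mem_chAlg.mp (s18_coord_mem t))⟩ : WA) =
      ⟨coeffMap A.subtype (coeffMap (Int.castRingHom A) T), s18_coeffMap_mem_W _ _ _⟩ :=
    Subtype.ext h1
  rw [h2]
  unfold s37_rc_gred
  rw [s18_red_coeffMap, coeffMap_coeffMap]
  exact coeffMap_congr (RingHom.ext_int _ _) T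

/-- The reduced coordinate lies in the special fibre ring. -/
theorem s37_rk_tau_mem (hW : s18_chRing N ℓ A t ≤ WA) (T : LaurentSeries ℤ)
    (hT : (t : LaurentSeries ℚ) = coeffMap (Int.castRingHom ℚ) T) :
    coeffMap (Int.castRingHom κ) T ∈ s37_rc_fib N ℓ A t :=
  ⟨⟨_, hW (s18_mem_chAlg.mp (s18_coord_mem t))⟩, s18_mem_chAlg.mp (s18_coord_mem t),
    s37_rk_gred_coord hW T hT⟩

/-- Gluing of the special fibres of the charts of `t` and `t⁻¹`. -/
theorem s37_rk_glue (hW : s18_chRing N ℓ A t ≤ WA) (hW' : s18_chRing N ℓ A t⁻¹ ≤ WA)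
    (ht0 : t ≠ 0) (T' : LaurentSeries ℤ)
    (hT' : ((t⁻¹ : modularFunctionFieldFull N) : LaurentSeries ℚ) =
      coeffMap (Int.castRingHom ℚ) T') :
    ∀ x ∈ s37_rc_fib N ℓ A t, ∃ k : ℕ,
      (coeffMap (Int.castRingHom κ) T') ^ k * x ∈ s37_rc_fib N ℓ A t⁻¹ := by
  rintro x ⟨w, hw, rfl⟩
  obtain ⟨k, hk⟩ := s18_chAlg_glue (ℓ := ℓ) (A := A) ht0
    (⟨(w : LaurentSeries K), s37_rc_chRing_le _ hw⟩ : FK) hw
  let c' : WA := ⟨((s18_coord K t⁻¹ : FK) : LaurentSeries K),
    hW' (s18_mem_chAlg.mp (s18_coord_mem t⁻¹))⟩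
  refine ⟨k, c' ^ k * w, ?_, ?_⟩
  · have h1 : ((c' ^ k * w : WA) : LaurentSeries K) =
        (((s18_coord K t)⁻¹ ^ k * (⟨(w : LaurentSeries K), s37_rc_chRing_le _ hw⟩ : FK) : FK) :
          LaurentSeries K) := by
      rw [← s18_coord_inv]
      rfl
    rw [h1]
    exact hk
  · rw [map_mul, map_pow, s37_rk_gred_coord hW' T' hT']

/-- The special fibre ring is spanned over `κ[τ]` by a finite set. -/
theorem s37_rk_fin (hℓ : ((ℓ : K))⁻¹ ∉ A) (h : s18_cz_Coord N ℓ t)
    {B : Subring (LaurentSeries ℚ)} (hB : CoreData N ℓ B) (T : LaurentSeries ℤ)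
    (hT : (t : LaurentSeries ℚ) = coeffMap (Int.castRingHom ℚ) T) :
    ∃ gen : Finset (LaurentSeries κ), (∀ m ∈ gen, m ∈ s37_rc_fib N ℓ A t) ∧
      ∀ x ∈ s37_rc_fib N ℓ A t, ∃ c : LaurentSeries κ → Polynomial κ,
        x = ∑ m ∈ gen, Polynomial.aeval (coeffMap (Int.castRingHom κ) T) (c m) * m := by
  classical
  have hW : s18_chRing N ℓ A t ≤ WA := s18_chRing_le_W hℓ h hB
  obtain ⟨gen₀, hgen₀, hspan₀⟩ := s18_chAlg_fg (A := A) (h.exists_finset_span hB) hℓ
  have hredeq : s37_rc_redAux hW = s18_sep_red hℓ h hB := RingHom.ext fun x => rfl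
  let Fr : FK → LaurentSeries κ := fun m =>
    if hm : m ∈ s18_chAlg N ℓ A t then s37_rc_redAux hW ⟨m, hm⟩ else 0
  have hFr : ∀ m (hm : m ∈ s18_chAlg N ℓ A t), Fr m = s37_rc_redAux hW ⟨m, hm⟩ := by
    intro m hm
    simp only [Fr, dif_pos hm]
  -- reduction of a polynomial in the coordinate
  have hpoly : ∀ P : A[X], s37_rc_redAux hW (aeval (s18_coordB ℓ A t) P) =
      Polynomial.aeval (coeffMap (Int.castRingHom κ) T) (P.map (IsLocalRing.residue A)) := by
    intro P
    rw [hredeq]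
    have h1 := RingHom.congr_fun (s18_sep_red_comp (t := t) hℓ h hB) P
    rw [s18_sep_red_coord hℓ h hB T hT] at h1
    rw [s37_rk_aeval_eq]
    exact h1
  refine ⟨gen₀.image Fr, ?_, ?_⟩
  · intro m hm
    obtain ⟨m₀, hm₀, rfl⟩ := Finset.mem_image.mp hm
    rw [hFr m₀ (hgen₀ m₀ hm₀)]
    exact (s37_rc_red hW ⟨m₀, hgen₀ m₀ hm₀⟩).2
  · rintro x ⟨w, hw, rfl⟩
    obtain ⟨c, hc⟩ := hspan₀ (⟨(w : LaurentSeries K), s37_rc_chRing_le _ hw⟩ : FK) hw
    have hred : s37_rc_gred A w = ∑ m ∈ gen₀,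
        Polynomial.aeval (coeffMap (Int.castRingHom κ) T) ((c m).map (IsLocalRing.residue A)) *
          Fr m := by
      have h1 : s37_rc_gred A w =
          s37_rc_redAux hW ⟨⟨(w : LaurentSeries K), s37_rc_chRing_le _ hw⟩, hw⟩ := rfl
      have h2 : (⟨⟨(w : LaurentSeries K), s37_rc_chRing_le _ hw⟩, hw⟩ : s18_chAlg N ℓ A t) =
          ∑ m ∈ gen₀.attach, aeval (s18_coordB ℓ A t) (c m.1) *
            (⟨m.1, hgen₀ m.1 m.2⟩ : s18_chAlg N ℓ A t) := by
        apply Subtype.ext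
        rw [AddSubmonoidClass.coe_finsetSum]
        show (⟨(w : LaurentSeries K), s37_rc_chRing_le _ hw⟩ : FK) = _
        rw [hc, ← Finset.sum_attach]
        refine Finset.sum_congr rfl (fun m _ => ?_)
        show aeval (s18_coord K t) (c m.1) * (m.1 : FK) =
          ((aeval (s18_coordB ℓ A t) (c m.1) : s18_chAlg N ℓ A t) : FK) * m.1
        rw [← Subalgebra.aeval_coe]
        rfl
      rw [h1, h2, map_sum, ← Finset.sum_attach gen₀]
      refine Finset.sum_congr rfl (fun m _ => ?_)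
      rw [map_mul, hpoly, hFr m.1 (hgen₀ m.1 m.2)]
    refine ⟨fun y => ∑ m ∈ gen₀.filter (fun m => Fr m = y),
      (c m).map (IsLocalRing.residue A), ?_⟩
    rw [hred]
    symm
    apply Finset.sum_image'
    intro i hi
    rw [map_sum, Finset.sum_mul]
    apply Finset.sum_congr rfl
    intro j hj
    rw [(Finset.mem_filter.mp hj).2]

end Fib

/-- (KCH) A series regular at all `κ`-points of the special fibres of the two charts is
constant. -/
theorem s37_rk_const (N ℓ : ℕ) [NeZero N] [Fact ℓ.Prime] (hℓN : ¬ ℓ ∣ N)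
    (A : ValuationSubring (AlgebraicClosure ℚ)) (hA : A.LiesOverPrime ℓ)
    {t : modularFunctionFieldFull N} (h : s18_cz_Coord N ℓ t) (T T' : LaurentSeries ℤ)
    (hTT' : T * T' = 1) (hT : (t : LaurentSeries ℚ) = coeffMap (Int.castRingHom ℚ) T) (e : ℤ)
    (he : e = 1 ∨ e = -1) (hlead : IsLeading T e 1)
    (y : LaurentSeries (IsLocalRing.ResidueField A))
    (h0 : ∀ x : s37_rc_pt N ℓ A t, ∃ c d : s37_rc_fib N ℓ A t, x c ≠ 0 ∧ x d ≠ 0 ∧
      y * (d : LaurentSeries (IsLocalRing.ResidueField A)) = c)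
    (hInf : ∀ x : s37_rc_pt N ℓ A t⁻¹,
      (∀ w : s37_rc_fib N ℓ A t⁻¹,
        (w : LaurentSeries (IsLocalRing.ResidueField A)) =
          coeffMap (Int.castRingHom (IsLocalRing.ResidueField A)) T' → x w = 0) →
      ∃ c d : s37_rc_fib N ℓ A t⁻¹, x c ≠ 0 ∧ x d ≠ 0 ∧
        y * (d : LaurentSeries (IsLocalRing.ResidueField A)) = c) :
    ∃ c : IsLocalRing.ResidueField A, y = HahnSeries.C c := by
  classical
  have : IsAlgClosed (IsLocalRing.ResidueField A) := s18_res_isAlgClosed A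
  have hℓ : ((ℓ : AlgebraicClosure ℚ))⁻¹ ∉ A := s18_res_inv_notMem_bar A ℓ hA
  obtain ⟨B, hB⟩ := core N ℓ hℓN
  have hW : s18_chRing N ℓ A t ≤ s18_W A.subtype (IsLocalRing.residue A) :=
    s18_chRing_le_W hℓ h hB
  have hW' : s18_chRing N ℓ A t⁻¹ ≤ s18_W A.subtype (IsLocalRing.residue A) :=
    s18_chRing_le_W hℓ h.inv hB
  have hT' : ((t⁻¹ : modularFunctionFieldFull N) : LaurentSeries ℚ) =
      coeffMap (Int.castRingHom ℚ) T' := by
    have h1 : coeffMap (Int.castRingHom ℚ) T * coeffMap (Int.castRingHom ℚ) T' = 1 := by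
      rw [← map_mul, hTT', map_one]
    have h2 : ((t⁻¹ : modularFunctionFieldFull N) : LaurentSeries ℚ) =
        ((t : LaurentSeries ℚ))⁻¹ := rfl
    rw [h2, hT]
    exact inv_eq_of_mul_eq_one_right h1
  obtain ⟨τ, hτdef⟩ : ∃ τ : LaurentSeries (IsLocalRing.ResidueField A),
      τ = coeffMap (Int.castRingHom (IsLocalRing.ResidueField A)) T := ⟨_, rfl⟩
  obtain ⟨τ', hτ'def⟩ : ∃ τ' : LaurentSeries (IsLocalRing.ResidueField A),
      τ' = coeffMap (Int.castRingHom (IsLocalRing.ResidueField A)) T' := ⟨_, rfl⟩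
  have hττ' : τ * τ' = 1 := by rw [hτdef, hτ'def, ← map_mul, hTT', map_one]
  have hτ0 : τ ≠ 0 := left_ne_zero_of_mul_eq_one hττ'
  have hτinv : τ⁻¹ = τ' := inv_eq_of_mul_eq_one_right hττ'
  have hord : τ.order ≠ 0 := by
    rw [hτdef, s18_chp_order_of_isLeading T e hlead]
    rcases he with rfl | rfl <;> norm_num
  have hτmem : τ ∈ s37_rc_fib N ℓ A t := by
    rw [hτdef]; exact s37_rk_tau_mem hW T hT
  have hτ'mem : τ⁻¹ ∈ s37_rc_fib N ℓ A t⁻¹ := by
    rw [hτinv, hτ'def]; exact s37_rk_tau_mem hW' T' hT'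
  have hfin0 := s37_rk_fin (A := A) hℓ h hB T hT
  rw [← hτdef] at hfin0
  have hfinInf := s37_rk_fin (A := A) hℓ h.inv hB T' hT'
  rw [← hτ'def, ← hτinv] at hfinInf
  have hglue0 := s37_rk_glue hW hW' h.ne_zero T' hT'
  rw [← hτ'def, ← hτinv] at hglue0
  have hglueInf : ∀ x ∈ s37_rc_fib N ℓ A t⁻¹, ∃ k : ℕ, τ ^ k * x ∈ s37_rc_fib N ℓ A t := by
    have h1 := s37_rk_glue (t := t⁻¹) (A := A) (ℓ := ℓ) hW' (by rw [inv_inv]; exact hW)
      (inv_ne_zero h.ne_zero) T (by rw [inv_inv]; exact hT)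
    rw [inv_inv, ← hτdef] at h1
    exact h1
  obtain ⟨c, hc⟩ := s37_rg_const (κ := IsLocalRing.ResidueField A)
    (L := LaurentSeries (IsLocalRing.ResidueField A)) s37_rk_alg_const τ hτ0
    (s37_rc_fib N ℓ A t) (s37_rc_fib N ℓ A t⁻¹) hτmem hτ'mem (s37_rk_transc τ hord)
    hfin0 hfinInf hglue0 hglueInf y h0 (by
      intro x hx
      apply hInf x
      intro w hw
      have hw' : w = ⟨τ⁻¹, hτ'mem⟩ := Subtype.ext (by
        show (w : LaurentSeries (IsLocalRing.ResidueField A)) = τ⁻¹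
        rw [hw, hτinv, hτ'def])
      rw [hw']
      exact hx)
  exact ⟨c, by rw [hc, s37_rk_algebraMap_eq]⟩

end Fermat.Agent.S37
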