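import Fermat.Agent.S37.RcNorm
import Fermat.Agent.S18.A1Facts
import Fermat.Agent.S28.Core

/-!
# S37-R (F5): the chart at a finite level versus the big chart

* `s37_rq_red_eq_zero_iff` : an element of the chart over `A₁ = A ∩ K₁` has zero reduction in the
  special fibre of the big chart iff it is divisible by the uniformizer of `A₁`.
* `s37_rq_glue_pair` : a pair of elements of the chart of `t`, not divisible by the uniformizer,
  can be moved to the chart of `t⁻¹` (multiplying both by a power of `t⁻¹`).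
-/

set_option autoImplicit false
set_option synthInstance.maxHeartbeats 400000
set_option linter.unusedSectionVars false
set_option linter.unusedVariables false

open ModularCurve ModularCurve.IgusaScheme AlgebraicCurve Fermat.Agent.S28 Fermat.Agent.S18

noncomputable section

namespace Fermat.Agent.S37

local notation "Qb" => AlgebraicClosure ℚ

/-- (F5-1) Zero reduction in the big special fibre is divisibility by the uniformizer at the
finite level. -/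
theorem s37_rq_red_eq_zero_iff (N ℓ : ℕ) [NeZero N] [Fact ℓ.Prime] (hℓN : ¬ ℓ ∣ N)
    (A : ValuationSubring Qb) (hA : A.LiesOverPrime ℓ) {t : modularFunctionFieldFull N}
    (h : s18_cz_Coord N ℓ t)
    (hW : s18_chRing N ℓ A t ≤ s18_W A.subtype (IsLocalRing.residue A))
    (K₁ : IntermediateField ℚ Qb) (hK₁ : s18_d1_IsGaloisNF K₁) (π : s18_A1 A K₁)
    (hπ : Irreducible π) (z : s18_chAlg N ℓ (s18_A1 A K₁) t) :
    s37_rc_red hW (s37_rc_lvl N ℓ A t K₁ z) = 0 ↔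
      (algebraMap (s18_A1 A K₁) (s18_F1 K₁ N) π)⁻¹ * (z : s18_F1 K₁ N) ∈
        s18_chAlg N ℓ (s18_A1 A K₁) t := by
  have hfd : FiniteDimensional ℚ K₁ := hK₁.1
  have hDVR : IsDiscreteValuationRing (s18_A1 A K₁) := s18_a1_dvr A hA K₁
  have hR : s18_ResBasis ℓ (s18_A1 A K₁) π := s18_a1_resbasis A hA K₁ π hπ
  obtain ⟨B, hB⟩ := core N ℓ hℓN
  have hW₁ : ((z : s18_F1 K₁ N) : LaurentSeries K₁) ∈
      s18_W (s18_A1 A K₁).subtype (IsLocalRing.residue (s18_A1 A K₁)) :=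
    s18_chRing_le_W hR.unit h hB (s18_mem_chAlg.mp z.2)
  -- the reduction in the big fibre is the image of the reduction at the level `K₁`
  have key : ((s37_rc_red hW (s37_rc_lvl N ℓ A t K₁ z) : s37_rc_fib N ℓ A t) :
      LaurentSeries (IsLocalRing.ResidueField A)) =
      coeffMap (s37_rc_cmpRes (s37_rc_A1_comap A K₁))
        (s37_rc_gred (s18_A1 A K₁) ⟨((z : s18_F1 K₁ N) : LaurentSeries K₁), hW₁⟩) := by
    rw [s37_rc_red_coe, ← s37_rc_gred_map (s37_rc_A1_comap A K₁)]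
    rfl
  have hinj : Function.Injective (coeffMap (s37_rc_cmpRes (s37_rc_A1_comap A K₁))) :=
    s18_coeffMap_injective _ (RingHom.injective _)
  have hiff : s37_rc_red hW (s37_rc_lvl N ℓ A t K₁ z) = 0 ↔
      s37_rc_gred (s18_A1 A K₁) ⟨((z : s18_F1 K₁ N) : LaurentSeries K₁), hW₁⟩ = 0 := by
    constructor
    · intro h0
      apply hinj
      rw [← key, h0, map_zero]
      rfl
    · intro h0
      apply Subtype.ext
      rw [key, h0, map_zero]
      rfl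
  rw [hiff]
  constructor
  · intro h0
    exact s18_chAlg_dvd hR h hB (z : s18_F1 K₁ N) z.2 h0
  · intro hmem
    by_contra h0
    exact s18_chAlg_not_dvd hR h hB (z : s18_F1 K₁ N) z.2 h0 hmem

/-- (F5-2) A pair of elements of the chart of `t`, not divisible by the uniformizer, moved to the
chart of `t⁻¹`. -/
theorem s37_rq_glue_pair (N ℓ : ℕ) [NeZero N] [Fact ℓ.Prime] (hℓN : ¬ ℓ ∣ N)
    (A : ValuationSubring Qb) (hA : A.LiesOverPrime ℓ) {t : modularFunctionFieldFull N}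
    (h : s18_cz_Coord N ℓ t)
    (K₁ : IntermediateField ℚ Qb) (hK₁ : s18_d1_IsGaloisNF K₁) (π : s18_A1 A K₁)
    (hπ : Irreducible π) (a b : s18_chAlg N ℓ (s18_A1 A K₁) t)
    (ha : (algebraMap (s18_A1 A K₁) (s18_F1 K₁ N) π)⁻¹ * (a : s18_F1 K₁ N) ∉
      s18_chAlg N ℓ (s18_A1 A K₁) t)
    (hb : (algebraMap (s18_A1 A K₁) (s18_F1 K₁ N) π)⁻¹ * (b : s18_F1 K₁ N) ∉
      s18_chAlg N ℓ (s18_A1 A K₁) t) :
    ∃ a' b' : s18_chAlg N ℓ (s18_A1 A K₁) t⁻¹,
      (algebraMap (s18_A1 A K₁) (s18_F1 K₁ N) π)⁻¹ * (a' : s18_F1 K₁ N) ∉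
        s18_chAlg N ℓ (s18_A1 A K₁) t⁻¹ ∧
      (algebraMap (s18_A1 A K₁) (s18_F1 K₁ N) π)⁻¹ * (b' : s18_F1 K₁ N) ∉
        s18_chAlg N ℓ (s18_A1 A K₁) t⁻¹ ∧
      (a' : s18_F1 K₁ N) * (b : s18_F1 K₁ N) = (b' : s18_F1 K₁ N) * (a : s18_F1 K₁ N) := by
  have hfd : FiniteDimensional ℚ K₁ := hK₁.1
  have hDVR : IsDiscreteValuationRing (s18_A1 A K₁) := s18_a1_dvr A hA K₁
  have hR : s18_ResBasis ℓ (s18_A1 A K₁) π := s18_a1_resbasis A hA K₁ π hπ
  obtain ⟨B, hB⟩ := core N ℓ hℓN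
  -- the Gauss ring and its reduction
  have hι : Function.Injective (s18_A1 A K₁).subtype := s18_valSubtype_injective
  have hW : ∀ y ∈ s18_chRing N ℓ (s18_A1 A K₁) t,
      y ∈ s18_W (s18_A1 A K₁).subtype (IsLocalRing.residue (s18_A1 A K₁)) :=
    fun y hy => s18_chRing_le_W hR.unit h hB hy
  have hWi : ∀ y ∈ s18_chRing N ℓ (s18_A1 A K₁) t⁻¹,
      y ∈ s18_W (s18_A1 A K₁).subtype (IsLocalRing.residue (s18_A1 A K₁)) :=
    fun y hy => s18_chRing_le_W hR.unit h.inv hB hy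
  -- the coordinate of the chart at infinity
  set c : s18_F1 K₁ N := s18_coord K₁ t⁻¹ with hc
  have hcmem : c ∈ s18_chAlg N ℓ (s18_A1 A K₁) t⁻¹ := s18_coord_mem t⁻¹
  have hcinv : c = (s18_coord K₁ t)⁻¹ := s18_coord_inv t
  have hcred : s18_red (ρ := IsLocalRing.residue (s18_A1 A K₁)) hι
      ⟨(c : LaurentSeries K₁), hWi _ (s18_mem_chAlg.mp hcmem)⟩ ≠ 0 :=
    s18_red_coord_ne_zero hR.unit h.inv hB
  -- a common exponent
  obtain ⟨ka, hka⟩ := s18_chAlg_glue (A := s18_A1 A K₁) (ℓ := ℓ) h.ne_zero (a : s18_F1 K₁ N) a.2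
  obtain ⟨kb, hkb⟩ := s18_chAlg_glue (A := s18_A1 A K₁) (ℓ := ℓ) h.ne_zero (b : s18_F1 K₁ N) b.2
  rw [← hcinv] at hka hkb
  have hcpow : ∀ k : ℕ, c ^ k ∈ s18_chAlg N ℓ (s18_A1 A K₁) t⁻¹ := fun k =>
    Subalgebra.pow_mem _ hcmem k
  have ha'mem : c ^ (ka + kb) * (a : s18_F1 K₁ N) ∈ s18_chAlg N ℓ (s18_A1 A K₁) t⁻¹ := by
    rw [pow_add, mul_comm (c ^ ka), mul_assoc]
    exact Subalgebra.mul_mem _ (hcpow kb) hka
  have hb'mem : c ^ (ka + kb) * (b : s18_F1 K₁ N) ∈ s18_chAlg N ℓ (s18_A1 A K₁) t⁻¹ := by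
    rw [pow_add, mul_assoc]
    exact Subalgebra.mul_mem _ (hcpow ka) hkb
  -- reductions
  have hred : ∀ x : s18_chAlg N ℓ (s18_A1 A K₁) t,
      (algebraMap (s18_A1 A K₁) (s18_F1 K₁ N) π)⁻¹ * (x : s18_F1 K₁ N) ∉
        s18_chAlg N ℓ (s18_A1 A K₁) t →
      ∀ hx' : c ^ (ka + kb) * (x : s18_F1 K₁ N) ∈ s18_chAlg N ℓ (s18_A1 A K₁) t⁻¹,
      (algebraMap (s18_A1 A K₁) (s18_F1 K₁ N) π)⁻¹ * (c ^ (ka + kb) * (x : s18_F1 K₁ N)) ∉
        s18_chAlg N ℓ (s18_A1 A K₁) t⁻¹ := by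
    intro x hx hx'
    have hxred : s18_red (ρ := IsLocalRing.residue (s18_A1 A K₁)) hι
        ⟨((x : s18_F1 K₁ N) : LaurentSeries K₁), hW _ (s18_mem_chAlg.mp x.2)⟩ ≠ 0 := by
      intro h0
      exact hx (s18_chAlg_dvd hR h hB (x : s18_F1 K₁ N) x.2 h0)
    refine s18_chAlg_not_dvd hR h.inv hB _ hx' ?_
    have e : (⟨((c ^ (ka + kb) * (x : s18_F1 K₁ N) : s18_F1 K₁ N) : LaurentSeries K₁),
        s18_chRing_le_W hR.unit h.inv hB (s18_mem_chAlg.mp hx')⟩ :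
        s18_W (s18_A1 A K₁).subtype (IsLocalRing.residue (s18_A1 A K₁))) =
        ⟨(c : LaurentSeries K₁), hWi _ (s18_mem_chAlg.mp hcmem)⟩ ^ (ka + kb) *
          ⟨((x : s18_F1 K₁ N) : LaurentSeries K₁), hW _ (s18_mem_chAlg.mp x.2)⟩ := by
      apply Subtype.ext
      rfl
    rw [e, map_mul, map_pow]
    exact mul_ne_zero (pow_ne_zero _ hcred) hxred
  refine ⟨⟨_, ha'mem⟩, ⟨_, hb'mem⟩, hred a ha ha'mem, hred b hb hb'mem, ?_⟩
  show c ^ (ka + kb) * (a : s18_F1 K₁ N) * (b : s18_F1 K₁ N) =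
    c ^ (ka + kb) * (b : s18_F1 K₁ N) * (a : s18_F1 K₁ N)
  ring

end Fermat.Agent.S37
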