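import Mathlib
import Fermat.Agent.S37.RRatVal

/-!
# S37, block R, leaf (DICT) (helper24): rational places of `Q̄ · F_N` and of `K₁ · F_N`

Generic setting as in `RRatVal.lean` (`ι : F1 →+* Fb` an extension of constants `K1 ⊆ Ω`).

* `s37_rd_restrG ι hι hgen P` : the restriction of a place `P` of `Fb/Ω` to `F1/K1`
  (`O_Q = ι⁻¹ O_P`), with `ord_Q = ord_P ∘ ι` when `P` is `K1`-rational;
* `s37_rd_sumG` : if all zeros and poles of `ι f₁` are `K1`-rational, the zeros/poles of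
  `f₁` on `F1` satisfying a condition `C` on their valuation rings correspond bijectively,
  with the same orders, to the zeros/poles of `ι f₁` on `Fb` whose restriction satisfies
  `C`; they are rational places of `F1/K1`.
* `s37_rd_restr`, `s37_rd_sum` : the modular case (`s18_baseIncl K₁ N`), roster shape.
-/

set_option autoImplicit false
set_option synthInstance.maxHeartbeats 400000

open ModularCurve AlgebraicCurve
open scoped IntermediateField

noncomputable section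

namespace Fermat.Agent.S37

open Fermat.Agent.S24 (mem_iff_ord_nonneg mem_nonunits_iff_ord_pos ord_unit_eq_zero)

section Generic

variable {K1 Ω F1 Fb : Type*} [Field K1] [Field Ω] [Field F1] [Field Fb]
  [Algebra K1 Ω] [Algebra K1 F1] [Algebra Ω Fb] [Algebra.IsAlgebraic K1 Ω]
  (ι : F1 →+* Fb)
  (hι : ∀ c : K1, ι (algebraMap K1 F1 c) = algebraMap Ω Fb (algebraMap K1 Ω c))
  (hgen : ∀ y : Fb, ∃ a b : Fb, a ∈ Submodule.span Ω (Set.range ι) ∧
      b ∈ Submodule.span Ω (Set.range ι) ∧ b ≠ 0 ∧ y = a / b)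

/-- The restriction of a place of `Fb/Ω` to `F1/K1`. -/
def s37_rd_restrG (P : Place Ω Fb) : Place K1 F1 :=
  (s37_rv_restrict ι hι hgen P).choose

theorem s37_rd_restrG_mem (P : Place Ω Fb) (x : F1) :
    x ∈ (s37_rd_restrG ι hι hgen P).toValuationSubring ↔ ι x ∈ P.toValuationSubring := by
  obtain ⟨e, he, h1, h2⟩ := (s37_rv_restrict ι hι hgen P).choose_spec
  exact h1 x

theorem s37_rd_restrG_toValuationSubring (P : Place Ω Fb) :
    (s37_rd_restrG ι hι hgen P).toValuationSubring = P.toValuationSubring.comap ι := by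
  ext x
  rw [s37_rd_restrG_mem, ValuationSubring.mem_comap]

theorem s37_rd_restrG_ord [s37_r_Rational Ω Fb] (P : Place Ω Fb)
    (hrat : ∀ x : F1, ι x ∈ P.toValuationSubring →
      ∃ c : K1, s37_r_val P (ι x) = algebraMap K1 Ω c) (x : F1) :
    (s37_rd_restrG ι hι hgen P).ord x = P.ord (ι x) := by
  obtain ⟨Q, hQ1, hQ2⟩ := s37_rv_restrict_rat ι hι hgen P hrat
  have h : Q = s37_rd_restrG ι hι hgen P := by
    apply Place.ext
    ext y
    rw [hQ1, s37_rd_restrG_mem]
  rw [← h, hQ2]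

include hι hgen in
/-- **(DICT)**, generic form. -/
theorem s37_rd_sumG [s37_r_Rational Ω Fb] [IsAlgClosed Ω] (j : Fb) [FiniteDimensional Ω⟮j⟯ Fb]
    (f₁ : F1)
    (hrat : ∀ P : Place Ω Fb, P.ord (ι f₁) ≠ 0 →
      ∀ x : F1, ι x ∈ P.toValuationSubring → ∃ c : K1, s37_r_val P (ι x) = algebraMap K1 Ω c)
    (C : ValuationSubring F1 → Prop) (T : Finset (Place Ω Fb))
    (hT : ∀ P, P ∈ T ↔ P.ord (ι f₁) ≠ 0 ∧ C (P.toValuationSubring.comap ι)) :
    ∃ S : Finset (Place K1 F1),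
      (∀ Q, Q ∈ S ↔ C Q.toValuationSubring ∧ Q.ord f₁ ≠ 0) ∧
      (∀ Q ∈ S, ∀ w ∈ Q.toValuationSubring, ∃ c : K1,
        w - algebraMap K1 F1 c ∈ Q.toValuationSubring.nonunits) ∧
      ∑ Q ∈ S, Q.ord f₁ = ∑ P ∈ T, P.ord (ι f₁) := by
  classical
  have hinj : Set.InjOn (s37_rd_restrG ι hι hgen) (T : Set (Place Ω Fb)) := by
    intro P hP P' _ h
    have hP1 := ((hT P).mp hP).1
    refine s37_rv_unique ι hι hgen P P' (fun x => ?_) (hrat P hP1)
    rw [← s37_rd_restrG_mem ι hι hgen, ← s37_rd_restrG_mem ι hι hgen, h]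
  refine ⟨T.image (s37_rd_restrG ι hι hgen), fun Q => ?_, fun Q hQ w hw => ?_, ?_⟩
  · rw [Finset.mem_image]
    constructor
    · rintro ⟨P, hP, rfl⟩
      obtain ⟨h1, h2⟩ := (hT P).mp hP
      rw [s37_rd_restrG_toValuationSubring, s37_rd_restrG_ord ι hι hgen P (hrat P h1)]
      exact ⟨h2, h1⟩
    · rintro ⟨hC, hQ⟩
      obtain ⟨P, hP1, -⟩ := Fermat.Agent.S18.s18_exists_place_over ι hι j Q.toValuationSubring
        Q.algebraMap_mem' Q.ne_top'
      have hcomap : P.toValuationSubring.comap ι = Q.toValuationSubring := by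
        ext x
        rw [ValuationSubring.mem_comap, hP1]
      have hord : P.ord (ι f₁) ≠ 0 := by
        intro h0
        apply hQ
        apply ord_unit_eq_zero
        · rw [hP1, mem_iff_ord_nonneg, h0]
        · rw [hP1, map_inv₀, mem_iff_ord_nonneg, P.ord_inv, h0]
          simp
      refine ⟨P, (hT P).mpr ⟨hord, by rw [hcomap]; exact hC⟩, ?_⟩
      apply Place.ext
      rw [s37_rd_restrG_toValuationSubring, hcomap]
  · rw [Finset.mem_image] at hQ
    obtain ⟨P, hP, rfl⟩ := hQ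
    have hP1 := ((hT P).mp hP).1
    have hw' := (s37_rd_restrG_mem ι hι hgen P w).mp hw
    obtain ⟨c, hc⟩ := hrat P hP1 w hw'
    refine ⟨c, ?_⟩
    have hspec := s37_r_val_spec P hw'
    rw [hc, ← hι, ← map_sub] at hspec
    rcases eq_or_ne (w - algebraMap K1 F1 c) 0 with h0 | h0
    · rw [h0]
      exact ValuationSubring.mem_nonunits_iff_exists_mem_maximalIdeal.mpr
        ⟨zero_mem _, (IsLocalRing.maximalIdeal _).zero_mem⟩
    · rw [mem_nonunits_iff_ord_pos _ h0, s37_rd_restrG_ord ι hι hgen P (hrat P hP1)]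
      exact (mem_nonunits_iff_ord_pos P ((map_ne_zero ι).mpr h0)).mp hspec
  · rw [Finset.sum_image hinj]
    exact Finset.sum_congr rfl fun P hP =>
      s37_rd_restrG_ord ι hι hgen P (hrat P ((hT P).mp hP).1) f₁

end Generic

section Modular

open Fermat.Agent.S18 (s18_F1 s18_baseIncl)

local notation "Qb" => AlgebraicClosure ℚ

-- speeds up the search for `Algebra K₁ (s18_F1 K₁ N)` tenfold (same instance term)
attribute [local instance 10000] SubalgebraClass.toAlgebra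

variable (N : ℕ) [NeZero N] (K₁ : IntermediateField ℚ (AlgebraicClosure ℚ))

/-- The restriction of a place of `Q̄ · F_N` to `K₁ · F_N`. -/
def s37_rd_restr (P : Place Qb (modularFunctionFieldBar N)) : Place K₁ (s18_F1 K₁ N) :=
  haveI := Fermat.Agent.S18.s18_isAlgebraic_bar K₁
  s37_rd_restrG (s18_baseIncl K₁ N) (Fermat.Agent.S18.s18_baseIncl_algebraMap K₁ N)
    (Fermat.Agent.S18.s18_baseIncl_gen K₁ N) P

theorem s37_rd_restr_mem (P : Place Qb (modularFunctionFieldBar N)) (x : s18_F1 K₁ N) :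
    x ∈ (s37_rd_restr N K₁ P).toValuationSubring ↔
      s18_baseIncl K₁ N x ∈ P.toValuationSubring := by
  have := Fermat.Agent.S18.s18_isAlgebraic_bar K₁
  exact s37_rd_restrG_mem (s18_baseIncl K₁ N) (Fermat.Agent.S18.s18_baseIncl_algebraMap K₁ N)
    (Fermat.Agent.S18.s18_baseIncl_gen K₁ N) P x

theorem s37_rd_restr_toValuationSubring (P : Place Qb (modularFunctionFieldBar N)) :
    (s37_rd_restr N K₁ P).toValuationSubring =
      P.toValuationSubring.comap (s18_baseIncl K₁ N) := by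
  have := Fermat.Agent.S18.s18_isAlgebraic_bar K₁
  exact s37_rd_restrG_toValuationSubring (s18_baseIncl K₁ N)
    (Fermat.Agent.S18.s18_baseIncl_algebraMap K₁ N) (Fermat.Agent.S18.s18_baseIncl_gen K₁ N) P

theorem s37_rd_restr_ord (P : Place Qb (modularFunctionFieldBar N))
    (hrat : ∀ x : s18_F1 K₁ N, s18_baseIncl K₁ N x ∈ P.toValuationSubring →
      ∃ c : K₁, s37_r_val P (s18_baseIncl K₁ N x) = algebraMap K₁ Qb c)
    (x : s18_F1 K₁ N) :
    (s37_rd_restr N K₁ P).ord x = P.ord (s18_baseIncl K₁ N x) := by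
  have := Fermat.Agent.S18.s18_isAlgebraic_bar K₁
  exact s37_rd_restrG_ord (s18_baseIncl K₁ N) (Fermat.Agent.S18.s18_baseIncl_algebraMap K₁ N)
    (Fermat.Agent.S18.s18_baseIncl_gen K₁ N) P hrat x

/-- **(DICT)**: zeros and poles of a function of `K₁ · F_N` all of whose zeros and poles on
`Q̄ · F_N` are `K₁`-rational. -/
theorem s37_rd_sum (f₁ : s18_F1 K₁ N) (hf₁ : f₁ ≠ 0)
    (hrat : ∀ P : Place Qb (modularFunctionFieldBar N), P.ord (s18_baseIncl K₁ N f₁) ≠ 0 →
      ∀ x : s18_F1 K₁ N, s18_baseIncl K₁ N x ∈ P.toValuationSubring →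
        ∃ c : K₁, s37_r_val P (s18_baseIncl K₁ N x) = algebraMap K₁ Qb c)
    (C : ValuationSubring (s18_F1 K₁ N) → Prop)
    (T : Finset (Place Qb (modularFunctionFieldBar N)))
    (hT : ∀ P, P ∈ T ↔ P.ord (s18_baseIncl K₁ N f₁) ≠ 0 ∧
      C (P.toValuationSubring.comap (s18_baseIncl K₁ N))) :
    ∃ S : Finset (Place K₁ (s18_F1 K₁ N)),
      (∀ Q, Q ∈ S ↔ C Q.toValuationSubring ∧ Q.ord f₁ ≠ 0) ∧
      (∀ Q ∈ S, ∀ w ∈ Q.toValuationSubring, ∃ c : K₁,
        w - algebraMap K₁ (s18_F1 K₁ N) c ∈ Q.toValuationSubring.nonunits) ∧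
      ∑ Q ∈ S, Q.ord f₁ = ∑ P ∈ T, P.ord (s18_baseIncl K₁ N f₁) := by
  have _ := hf₁
  have := Fermat.Agent.S18.s18_isAlgebraic_bar K₁
  have := (Fermat.Agent.S24.asm_generic N).1
  exact s37_rd_sumG (s18_baseIncl K₁ N) (Fermat.Agent.S18.s18_baseIncl_algebraMap K₁ N)
    (Fermat.Agent.S18.s18_baseIncl_gen K₁ N) (Fermat.Agent.S24.jF N) f₁ hrat C T hT

end Modular

end Fermat.Agent.S37
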