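import Fermat.Agent.S37.RcDesc
import Fermat.Agent.S18.ChNormal
import Fermat.Agent.S18.UnramMod

/-!
# S37, block R (chart side): saturation and normality of the charts

* finite level (`K` a number field Galois over `ℚ`, `A` a discrete valuation ring with residue
  basis data): an element `z` of `K · F_N` in the Gauss ring of `A` with `π ^ k * z` in the chart
  lies in the chart (`s37_rc_sat1`); an element of the Gauss ring which is integral over the chart
  lies in the chart (`s37_rc_normal1`);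
* over a valuation ring `A` of `Q̄` above `ℓ`: an element of `Q̄ · F_N` in the Gauss ring of `A`
  which is integral over the chart lies in the chart (`s37_rc_normal_bar`).
-/

set_option autoImplicit false
set_option synthInstance.maxHeartbeats 400000
set_option linter.unusedSectionVars false
set_option linter.unusedVariables false

open ModularCurve ModularCurve.IgusaScheme Fermat.Agent.S28 Fermat.Agent.S18 Polynomial

noncomputable section

namespace Fermat.Agent.S37

section Finite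

variable {N : ℕ} [NeZero N] {ℓ : ℕ} [Fact ℓ.Prime]
variable {K : Type*} [Field K] [Algebra ℚ K] {A : ValuationSubring K}
variable {t : modularFunctionFieldFull N}

local notation "FK" => laurentBaseChange K (modularFunctionFieldFull N)
local notation "WA" => s18_W A.subtype (IsLocalRing.residue A)

/-- **Saturation of the chart at a finite level**: if `π ^ k * z` lies in the chart and `z` lies
in the Gauss ring of `A`, then `z` lies in the chart. -/
theorem s37_rc_sat1 [IsDiscreteValuationRing A] {π : A} (hR : s18_ResBasis ℓ A π)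
    (h : s18_cz_Coord N ℓ t) {B : Subring (LaurentSeries ℚ)} (hB : CoreData N ℓ B) (z : FK)
    (hzW : (z : LaurentSeries K) ∈ WA) (k : ℕ)
    (hk : (algebraMap A FK π) ^ k * z ∈ s18_chAlg N ℓ A t) : z ∈ s18_chAlg N ℓ A t := by
  induction k with
  | zero => rwa [pow_zero, one_mul] at hk
  | succ k ih =>
    apply ih
    have hπ0 : algebraMap A FK π ≠ 0 := by
      intro h0
      have h1 : ((algebraMap A FK π : FK) : LaurentSeries K) = 0 := by rw [h0]; rfl
      rw [s18_coe_algebraMap (N := N)] at h1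
      exact s18_C_ne_zero (K := K) hR.irr.ne_zero h1
    have hred : s18_red (ρ := IsLocalRing.residue A) (s18_valSubtype_injective (A := A))
        ⟨(((algebraMap A FK π) ^ (k + 1) * z : FK) : LaurentSeries K),
          s18_chRing_le_W hR.unit h hB (s18_mem_chAlg.mp hk)⟩ = 0 := by
      have e : (⟨(((algebraMap A FK π) ^ (k + 1) * z : FK) : LaurentSeries K),
          s18_chRing_le_W hR.unit h hB (s18_mem_chAlg.mp hk)⟩ : WA) =
          ⟨HahnSeries.C (A.subtype π), s18_C_mem_W π⟩ ^ (k + 1) * ⟨(z : LaurentSeries K), hzW⟩ := by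
        apply Subtype.ext
        show _ = (HahnSeries.C (A.subtype π)) ^ (k + 1) * (z : LaurentSeries K)
        rw [← s18_coe_algebraMap (N := N)]
        rfl
      rw [e, map_mul, map_pow, s18_red_C, s18_residue_uniformizer hR.irr, map_zero,
        zero_pow (Nat.succ_ne_zero k), zero_mul]
    have h1 := s18_chAlg_dvd hR h hB _ hk hred
    have e2 : (algebraMap A FK π)⁻¹ * ((algebraMap A FK π) ^ (k + 1) * z) =
        (algebraMap A FK π) ^ k * z := by
      rw [pow_succ]
      field_simp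
    rwa [e2] at h1

/-- **Normality of the chart at a finite level**: an element of the Gauss ring of `A` which is
integral over the chart lies in the chart. -/
theorem s37_rc_normal1 [FiniteDimensional ℚ K] [IsGalois ℚ K] [IsDiscreteValuationRing A] {π : A}
    (hR : s18_ResBasis ℓ A π) (h : s18_cz_Coord N ℓ t) {B : Subring (LaurentSeries ℚ)}
    (hB : CoreData N ℓ B) (z : FK) (hz : IsIntegral (s18_chAlg N ℓ A t) z)
    (hzW : (z : LaurentSeries K) ∈ WA) : z ∈ s18_chAlg N ℓ A t := by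
  obtain ⟨k, hk⟩ := s18_chAlg_normal hR.irr z hz
  exact s37_rc_sat1 hR h hB z hzW k hk

end Finite

section Bar

variable {N : ℕ} [NeZero N] {ℓ : ℕ} [Fact ℓ.Prime]
variable (A : ValuationSubring (AlgebraicClosure ℚ)) {t : modularFunctionFieldFull N}

local notation "Qb" => AlgebraicClosure ℚ
local notation "Fb" => modularFunctionFieldBar N

/-- Finitely many elements of the chart ring over a valuation ring of `Q̄` come from a common
finite Galois level containing a given one. -/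
theorem s37_rc_exists_level_finset (K₀ : IntermediateField ℚ Qb) (hK₀ : s18_d1_IsGaloisNF K₀)
    (s : Finset (LaurentSeries Qb)) (hs : ∀ y ∈ s, y ∈ s18_chRing N ℓ A t) :
    ∃ K₁ : IntermediateField ℚ Qb, s18_d1_IsGaloisNF K₁ ∧ K₀ ≤ K₁ ∧
      ∀ y ∈ s, ∃ y₁ ∈ s18_chRing N ℓ (s18_A1 A K₁) t, coeffMap (algebraMap K₁ Qb) y₁ = y := by
  classical
  induction s using Finset.induction_on with
  | empty => exact ⟨K₀, hK₀, le_rfl, fun y hy => absurd hy (Finset.notMem_empty y)⟩
  | insert a s ha ih =>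
    obtain ⟨K₁, hK₁, h01, h1⟩ := ih (fun y hy => hs y (Finset.mem_insert_of_mem hy))
    obtain ⟨K₂, hK₂, h2⟩ := s37_rc_exists_level A a (hs a (Finset.mem_insert_self a s))
    refine ⟨K₁ ⊔ K₂, hK₁.sup hK₂, h01.trans le_sup_left, fun y hy => ?_⟩
    rcases Finset.mem_insert.mp hy with rfl | hy
    · exact s37_rc_level_mono A le_sup_right h2
    · exact s37_rc_level_mono A le_sup_left (h1 y hy)

variable (N ℓ t) in
/-- The chart at the level `K₁` maps into the chart over `A`. -/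
def s37_rc_lvl (K₁ : IntermediateField ℚ Qb) :
    s18_chAlg N ℓ (s18_A1 A K₁) t →+* s18_chAlg N ℓ A t :=
  RingHom.codRestrict
    ((s18_baseIncl K₁ N).comp (s18_chAlg N ℓ (s18_A1 A K₁) t).val.toRingHom)
    (s18_chAlg N ℓ A t) (fun x => s37_rc_chRing_map (s37_rc_A1_comap A K₁) x.2)

theorem s37_rc_lvl_coe (K₁ : IntermediateField ℚ Qb) (x : s18_chAlg N ℓ (s18_A1 A K₁) t) :
    ((s37_rc_lvl N ℓ A t K₁ x : s18_chAlg N ℓ A t) : Fb) = s18_baseIncl K₁ N (x : s18_F1 K₁ N) :=
  rfl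

/-- **Normality of the chart over a valuation ring of `Q̄`**: an element of `Q̄ · F_N` with
`A`-integral `q`-expansion which is integral over the chart lies in the chart. -/
theorem s37_rc_normal_bar (hA : A.LiesOverPrime ℓ) (h : s18_cz_Coord N ℓ t)
    {B : Subring (LaurentSeries ℚ)} (hB : CoreData N ℓ B) (G : Fb)
    (hG : IsIntegral (s18_chAlg N ℓ A t) G) (g : LaurentSeries A)
    (hg : coeffMap A.subtype g = (G : LaurentSeries Qb)) : G ∈ s18_chAlg N ℓ A t := by
  classical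
  obtain ⟨p, hp, hpG⟩ := hG
  -- the level of `G`
  obtain ⟨K₀, hK₀, hG₀⟩ := s18_d1_exists_finset (F₀ := modularFunctionFieldFull N)
    {(G : LaurentSeries Qb)} (by
      intro x hx
      rw [Finset.mem_singleton] at hx
      rw [hx]
      exact G.2)
  -- the level of the coefficients
  obtain ⟨K₁, hK₁, h01, hc⟩ := s37_rc_exists_level_finset (N := N) (ℓ := ℓ) (t := t) A K₀ hK₀
    (p.support.image (fun i => (((p.coeff i : s18_chAlg N ℓ A t) : Fb) : LaurentSeries Qb))) (by
      intro y hy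
      obtain ⟨i, -, rfl⟩ := Finset.mem_image.mp hy
      exact (p.coeff i).2)
  haveI : FiniteDimensional ℚ K₁ := hK₁.1
  haveI : IsGalois ℚ K₁ := hK₁.2
  haveI : IsDiscreteValuationRing (s18_A1 A K₁) := s18_a1_dvr A hA K₁
  obtain ⟨π, hπ⟩ := IsDiscreteValuationRing.exists_irreducible (s18_A1 A K₁)
  have hR : s18_ResBasis ℓ (s18_A1 A K₁) π := s18_a1_resbasis A hA K₁ π hπ
  -- `G` at the level `K₁`
  obtain ⟨G₁s, hG₁mem, hG₁⟩ := (hG₀ _ (Finset.mem_singleton_self _)).mono h01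
  set G₁ : s18_F1 K₁ N := ⟨G₁s, hG₁mem⟩ with hG₁def
  have hιG : s18_baseIncl K₁ N G₁ = G := Subtype.ext hG₁
  -- the polynomial lifts
  have hlift : p ∈ Polynomial.lifts (s37_rc_lvl N ℓ A t K₁) := by
    rw [Polynomial.lifts_iff_coeff_lifts]
    intro i
    by_cases hi : i ∈ p.support
    · obtain ⟨y₁, hy₁, e⟩ := hc _ (Finset.mem_image_of_mem _ hi)
      exact ⟨⟨⟨y₁, s37_rc_chRing_le _ hy₁⟩, hy₁⟩, Subtype.ext (Subtype.ext e)⟩
    · rw [Polynomial.notMem_support_iff.mp hi]
      exact ⟨0, map_zero _⟩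
  obtain ⟨q, hq, -, hqm⟩ := Polynomial.lifts_and_natDegree_eq_and_monic hlift hp
  have hG₁int : IsIntegral (s18_chAlg N ℓ (s18_A1 A K₁) t) G₁ := by
    refine ⟨q, hqm, ?_⟩
    apply (s18_baseIncl K₁ N).injective
    rw [map_zero, Polynomial.hom_eval₂, hιG]
    have hcomp : (s18_baseIncl K₁ N).comp
        (algebraMap (s18_chAlg N ℓ (s18_A1 A K₁) t) (s18_F1 K₁ N)) =
        (algebraMap (s18_chAlg N ℓ A t) Fb).comp (s37_rc_lvl N ℓ A t K₁) := rfl
    rw [hcomp, ← Polynomial.eval₂_map, hq]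
    exact hpG
  -- `G₁` has `A₁`-integral coefficients
  obtain ⟨w, hw⟩ := s18_d1_descend_coeff K₁ A G₁s g (by rw [hG₁, hg])
  have hG₁W : (G₁ : LaurentSeries K₁) ∈
      s18_W (s18_A1 A K₁).subtype (IsLocalRing.residue (s18_A1 A K₁)) := by
    show G₁s ∈ _
    rw [← hw]
    exact s18_coeffMap_mem_W _ _ w
  have hmem := s37_rc_normal1 hR h hB G₁ hG₁int hG₁W
  rw [← hιG]
  exact s37_rc_chRing_map (s37_rc_A1_comap A K₁) hmem

/-- **Saturation of the chart over a valuation ring of `Q̄`**: if `c * z` lies in the chart ring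
for a nonzero `c : A` and `z` has an `A`-integral `q`-expansion, then `z` lies in the chart
ring. -/
theorem s37_rc_sat_bar (hA : A.LiesOverPrime ℓ) (h : s18_cz_Coord N ℓ t)
    {B : Subring (LaurentSeries ℚ)} (hB : CoreData N ℓ B) (c : A) (hc : c ≠ 0)
    (y : LaurentSeries Qb) (hy : y ∈ s18_chRing N ℓ A t) (g : LaurentSeries A)
    (hg : y = HahnSeries.C (A.subtype c) * coeffMap A.subtype g) :
    coeffMap A.subtype g ∈ s18_chRing N ℓ A t := by
  classical
  obtain ⟨K₀, hK₀, hcK₀⟩ := s18_d1_exists_galois (c : Qb)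
  obtain ⟨K₁, hK₁, h01, hlev⟩ := s37_rc_exists_level_finset (N := N) (ℓ := ℓ) (t := t) A K₀ hK₀
    {y} (by
      intro x hx
      rw [Finset.mem_singleton] at hx
      rw [hx]
      exact hy)
  obtain ⟨y₁, hy₁, hy₁y⟩ := hlev y (Finset.mem_singleton_self y)
  haveI : FiniteDimensional ℚ K₁ := hK₁.1
  haveI : IsGalois ℚ K₁ := hK₁.2
  haveI : IsDiscreteValuationRing (s18_A1 A K₁) := s18_a1_dvr A hA K₁
  obtain ⟨π, hπ⟩ := IsDiscreteValuationRing.exists_irreducible (s18_A1 A K₁)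
  have hR : s18_ResBasis ℓ (s18_A1 A K₁) π := s18_a1_resbasis A hA K₁ π hπ
  -- `c` at the level `K₁`
  have hcK₁ : (c : Qb) ∈ K₁ := h01 hcK₀
  have hcA₁ : (⟨(c : Qb), hcK₁⟩ : K₁) ∈ s18_A1 A K₁ := c.2
  set c₁ : s18_A1 A K₁ := ⟨⟨(c : Qb), hcK₁⟩, hcA₁⟩ with hc₁def
  have hc₁0 : c₁ ≠ 0 := by
    intro h0
    apply hc
    have h1 : ((c₁ : s18_A1 A K₁) : K₁) = 0 := by rw [h0]; rfl
    have h2 : (c : Qb) = 0 := congrArg (algebraMap K₁ Qb) h1
    exact Subtype.ext h2
  have hCc₁ : (HahnSeries.C ((s18_A1 A K₁).subtype c₁) : LaurentSeries K₁) ≠ 0 :=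
    s18_C_ne_zero (K := K₁) hc₁0
  have hCc : (HahnSeries.C (A.subtype c) : LaurentSeries Qb) ≠ 0 := s18_C_ne_zero (K := Qb) hc
  -- `z₁ = y₁ / c₁`
  set z₁ : LaurentSeries K₁ := (HahnSeries.C ((s18_A1 A K₁).subtype c₁))⁻¹ * y₁ with hz₁def
  have hz₁F : z₁ ∈ s18_F1 K₁ N := by
    refine mul_mem (inv_mem ?_) (s37_rc_chRing_le _ hy₁)
    rw [HahnSeries.C_apply, ← algebraMap_laurentSeries_eq_single]
    exact (s18_F1 K₁ N).algebraMap_mem _
  have hz₁g : coeffMap (algebraMap K₁ Qb) z₁ = coeffMap A.subtype g := by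
    rw [hz₁def, map_mul, map_inv₀, s37_rc_coeffMap_C, hy₁y, hg]
    have e : algebraMap K₁ Qb ((s18_A1 A K₁).subtype c₁) = A.subtype c := rfl
    rw [e, inv_mul_cancel_left₀ hCc]
  obtain ⟨w, hw⟩ := s18_d1_descend_coeff K₁ A z₁ g hz₁g
  have hz₁W : z₁ ∈ s18_W (s18_A1 A K₁).subtype (IsLocalRing.residue (s18_A1 A K₁)) := by
    rw [← hw]
    exact s18_coeffMap_mem_W _ _ w
  -- `c₁ = u π ^ m`
  obtain ⟨m, u, hu⟩ := IsDiscreteValuationRing.eq_unit_mul_pow_irreducible hc₁0 hπ
  have hk : (algebraMap (s18_A1 A K₁) (s18_F1 K₁ N) π) ^ m * (⟨z₁, hz₁F⟩ : s18_F1 K₁ N) ∈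
      s18_chAlg N ℓ (s18_A1 A K₁) t := by
    rw [s18_mem_chAlg]
    have e1 : ((((algebraMap (s18_A1 A K₁) (s18_F1 K₁ N) π) ^ m * (⟨z₁, hz₁F⟩ : s18_F1 K₁ N) :
        s18_F1 K₁ N)) : LaurentSeries K₁) =
        HahnSeries.C ((s18_A1 A K₁).subtype π) ^ m * z₁ := by
      rw [← s18_coe_algebraMap (N := N)]
      rfl
    have e2 : HahnSeries.C ((s18_A1 A K₁).subtype π) ^ m * z₁ =
        HahnSeries.C ((s18_A1 A K₁).subtype ((u⁻¹ : (s18_A1 A K₁)ˣ) : s18_A1 A K₁)) * y₁ := by
      have e3 : (HahnSeries.C ((s18_A1 A K₁).subtype c₁) : LaurentSeries K₁) =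
          HahnSeries.C ((s18_A1 A K₁).subtype (u : s18_A1 A K₁)) *
            HahnSeries.C ((s18_A1 A K₁).subtype π) ^ m := by
        rw [hu, map_mul, map_mul, map_pow, map_pow]
      have e4 : (HahnSeries.C ((s18_A1 A K₁).subtype ((u⁻¹ : (s18_A1 A K₁)ˣ) : s18_A1 A K₁)) :
          LaurentSeries K₁) * HahnSeries.C ((s18_A1 A K₁).subtype (u : s18_A1 A K₁)) = 1 := by
        rw [← map_mul, ← map_mul, Units.inv_mul, map_one, map_one]
      have e5 : HahnSeries.C ((s18_A1 A K₁).subtype c₁) * z₁ = y₁ := by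
        rw [hz₁def, mul_inv_cancel_left₀ hCc₁]
      calc HahnSeries.C ((s18_A1 A K₁).subtype π) ^ m * z₁
          = (HahnSeries.C ((s18_A1 A K₁).subtype ((u⁻¹ : (s18_A1 A K₁)ˣ) : s18_A1 A K₁)) *
              HahnSeries.C ((s18_A1 A K₁).subtype (u : s18_A1 A K₁))) *
              (HahnSeries.C ((s18_A1 A K₁).subtype π) ^ m * z₁) := by rw [e4, one_mul]
        _ = HahnSeries.C ((s18_A1 A K₁).subtype ((u⁻¹ : (s18_A1 A K₁)ˣ) : s18_A1 A K₁)) *
              (HahnSeries.C ((s18_A1 A K₁).subtype c₁) * z₁) := by rw [e3]; ring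
        _ = _ := by rw [e5]
    rw [e1, e2]
    exact Subring.mul_mem _ (s18_const_mem_chSpan (ι₁ := (s18_A1 A K₁).subtype) _) hy₁
  have hmem := s37_rc_sat1 hR h hB (⟨z₁, hz₁F⟩ : s18_F1 K₁ N) hz₁W m hk
  rw [← hz₁g]
  exact s37_rc_chRing_map (s37_rc_A1_comap A K₁) hmem

end Bar

end Fermat.Agent.S37
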