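import Fermat.Agent.S37.RLocal
import Fermat.Agent.S37.RDict
import Fermat.Agent.S37.RRat
import Fermat.Agent.S37.RcNorm

/-!
# S37, block R, leaf (PT): the local computation at the kernel of a `κ`-point

`s37_rp_point` : for a `κ`-point `x` of the special fibre of the chart of `t` over a valuation
ring `A` of `Q̄` above `ℓ`, and a finite Galois level `K₁`, the kernel `𝔪` of the evaluation
`B₁ → κ` of the `K₁`-chart `B₁` at `x` is a maximal ideal containing the uniformizer; applying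
(LOC) `s37_rl_local` at `𝔪` through the dictionary (DICT) `s37_rd_sum` gives: if the zeros and
poles of `a / b` through `𝔪` are `K₁`-rational with orders summing to zero, then `a / b` is a
unit at `x` modulo `π`.
-/

set_option autoImplicit false
set_option synthInstance.maxHeartbeats 400000
set_option linter.unusedSectionVars false
set_option linter.unusedVariables false

open ModularCurve ModularCurve.IgusaScheme AlgebraicCurve Fermat.Agent.S28 Fermat.Agent.S18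
  Polynomial

noncomputable section

namespace Fermat.Agent.S37

local notation "Qb" => AlgebraicClosure ℚ

/-- Every nonzero element of the residue field of a valuation ring of `Q̄` above `ℓ` is a root of
unity. -/
theorem s37_rp_res_torsion {ℓ : ℕ} [Fact ℓ.Prime] (A : ValuationSubring Qb)
    (hA : A.LiesOverPrime ℓ) (u : IsLocalRing.ResidueField A) (hu : u ≠ 0) :
    ∃ m : ℕ, 0 < m ∧ u ^ m = 1 := by
  obtain ⟨a, rfl⟩ := IsLocalRing.residue_surjective u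
  obtain ⟨K₂, hK₂, haK₂⟩ := s18_d1_exists_galois (a : Qb)
  have : FiniteDimensional ℚ K₂ := hK₂.1
  have : IsDiscreteValuationRing (s18_A1 A K₂) := s18_a1_dvr A hA K₂
  obtain ⟨π₂, hπ₂⟩ := IsDiscreteValuationRing.exists_irreducible (s18_A1 A K₂)
  have hR : s18_ResBasis ℓ (s18_A1 A K₂) π₂ := s18_a1_resbasis A hA K₂ π₂ hπ₂
  have : Finite (IsLocalRing.ResidueField (s18_A1 A K₂)) := s18_sep_finite_res hR
  have haA₂ : (⟨(a : Qb), haK₂⟩ : K₂) ∈ s18_A1 A K₂ := a.2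
  have hcomap := s37_rc_A1_comap A K₂
  have h1 : s37_rc_cmpRes hcomap
      (IsLocalRing.residue (s18_A1 A K₂) ⟨⟨(a : Qb), haK₂⟩, haA₂⟩) = IsLocalRing.residue A a := by
    rw [s37_rc_cmpRes_residue]
    rfl
  obtain ⟨u₂, hu₂⟩ : ∃ u₂ : IsLocalRing.ResidueField (s18_A1 A K₂),
      u₂ = IsLocalRing.residue (s18_A1 A K₂) ⟨⟨(a : Qb), haK₂⟩, haA₂⟩ := ⟨_, rfl⟩
  rw [← hu₂] at h1
  have hu₂0 : u₂ ≠ 0 := by
    intro h0
    apply hu
    rw [← h1, h0, map_zero]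
  obtain ⟨m, hm, hpow⟩ := (isOfFinOrder_of_finite (Units.mk0 u₂ hu₂0)).exists_pow_eq_one
  refine ⟨m, hm, ?_⟩
  have h2 : u₂ ^ m = 1 := by
    have h3 := congrArg Units.val hpow
    rwa [Units.val_pow_eq_pow_val, Units.val_mk0, Units.val_one] at h3
  rw [← h1, ← map_pow, h2, map_one]

/-- Nonunits of the preimage of a valuation ring under a field homomorphism. -/
theorem s37_rp_nonunits_comap {F F' : Type*} [Field F] [Field F'] (ι : F →+* F')
    (V : ValuationSubring F') (w : F) : w ∈ (V.comap ι).nonunits ↔ ι w ∈ V.nonunits := by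
  rw [ValuationSubring.mem_nonunits_iff_or, ValuationSubring.mem_nonunits_iff_or,
    ValuationSubring.mem_comap, map_inv₀, map_eq_zero]

/-- The abstract form of (PT): (LOC) at the kernel of a ring homomorphism from the chart to a
field all of whose nonzero elements are roots of unity. -/
theorem s37_rp_abs {A₀ K₁ F κ : Type*} [CommRing A₀] [IsDomain A₀] [IsDiscreteValuationRing A₀]
    [Field K₁] [Algebra A₀ K₁] [IsFractionRing A₀ K₁] [Field F] [Algebra A₀ F] [Algebra K₁ F]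
    [IsScalarTower A₀ K₁ F] [Field κ] (htors : ∀ u : κ, u ≠ 0 → ∃ m : ℕ, 0 < m ∧ u ^ m = 1)
    {π : A₀} (hπ : Irreducible π) {B : Subalgebra A₀ F}
    (hB : s18_Chart (algebraMap A₀ F π) B.toSubring) (ev : B.toSubring →+* κ)
    (hevπ : ev ⟨algebraMap A₀ F π, hB.ϖ_mem⟩ = 0) (a b : F) (ha : a ∈ B) (hb : b ∈ B)
    (haπ : (algebraMap A₀ F π)⁻¹ * a ∉ B) (hbπ : (algebraMap A₀ F π)⁻¹ * b ∉ B)
    (S : Finset (Place K₁ F))
    (hS : ∀ Q : Place K₁ F, Q ∈ S ↔ ((∀ x ∈ B, x ∈ Q.toValuationSubring) ∧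
      (∀ x : B.toSubring, (x : F) ∈ Q.toValuationSubring.nonunits → ev x = 0) ∧
      Q.ord (a / b) ≠ 0))
    (hrat : ∀ Q ∈ S, ∀ w ∈ Q.toValuationSubring,
      ∃ c : K₁, w - algebraMap K₁ F c ∈ Q.toValuationSubring.nonunits)
    (hbal : ∑ Q ∈ S, Q.ord (a / b) = 0) :
    ∃ c d : B.toSubring, ev c ≠ 0 ∧ ev d ≠ 0 ∧ (algebraMap A₀ F π)⁻¹ * (a * d - b * c) ∈ B := by
  have h𝔪 : (RingHom.ker ev).IsMaximal := by
    rw [Ideal.isMaximal_iff]
    refine ⟨?_, ?_⟩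
    · intro h1
      have h2 : ev 1 = 0 := RingHom.mem_ker.mp h1
      rw [map_one] at h2
      exact one_ne_zero h2
    · intro J z hJ hz hzJ
      have hz' : ev z ≠ 0 := fun h0 => hz (RingHom.mem_ker.mpr h0)
      obtain ⟨m, hm, hpow⟩ := htors _ hz'
      have h1 : z ^ m - 1 ∈ RingHom.ker ev := by
        rw [RingHom.mem_ker, map_sub, map_pow, hpow, map_one, sub_self]
      have h2 : z ^ m ∈ J := by
        obtain ⟨k, rfl⟩ : ∃ k, m = k + 1 := ⟨m - 1, by omega⟩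
        rw [pow_succ]
        exact J.mul_mem_left _ hzJ
      have h3 : (1 : B.toSubring) = z ^ m - (z ^ m - 1) := (sub_sub_cancel _ _).symm
      rw [h3]
      exact J.sub_mem h2 (hJ h1)
  have hS' : ∀ Q : Place K₁ F, Q ∈ S ↔ ((∀ x ∈ B, x ∈ Q.toValuationSubring) ∧
      (∀ x : B.toSubring, (x : F) ∈ Q.toValuationSubring.nonunits → x ∈ RingHom.ker ev) ∧
      Q.ord (a / b) ≠ 0) := hS
  obtain ⟨c, d, hc, hd, hcd⟩ := s37_rl_local hπ hB (RingHom.ker ev) h𝔪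
    (RingHom.mem_ker.mpr hevπ) a b ha hb haπ hbπ S hS' hrat hbal
  exact ⟨c, d, fun h0 => hc (RingHom.mem_ker.mpr h0), fun h0 => hd (RingHom.mem_ker.mpr h0), hcd⟩

set_option maxHeartbeats 1000000 in
/-- (PT) The local computation at the kernel of a `κ`-point of the special fibre. -/
theorem s37_rp_point (N ℓ : ℕ) [NeZero N] [Fact ℓ.Prime] (A : ValuationSubring Qb)
    (hA : A.LiesOverPrime ℓ) {t : modularFunctionFieldFull N}
    (hW : s18_chRing N ℓ A t ≤ s18_W A.subtype (IsLocalRing.residue A))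
    (K₁ : IntermediateField ℚ Qb) (hK₁ : s18_d1_IsGaloisNF K₁) (π : s18_A1 A K₁)
    (hπ : Irreducible π)
    (hCh : s18_Chart (algebraMap (s18_A1 A K₁) (s18_F1 K₁ N) π)
      (s18_chAlg N ℓ (s18_A1 A K₁) t).toSubring)
    (a b : s18_chAlg N ℓ (s18_A1 A K₁) t)
    (ha : (algebraMap (s18_A1 A K₁) (s18_F1 K₁ N) π)⁻¹ * (a : s18_F1 K₁ N) ∉
      s18_chAlg N ℓ (s18_A1 A K₁) t)
    (hb : (algebraMap (s18_A1 A K₁) (s18_F1 K₁ N) π)⁻¹ * (b : s18_F1 K₁ N) ∉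
      s18_chAlg N ℓ (s18_A1 A K₁) t)
    (hfix : ∀ P : Place Qb (modularFunctionFieldBar N),
      P.ord (s18_baseIncl K₁ N ((a : s18_F1 K₁ N) / b)) ≠ 0 →
      ∀ σ : Qb ≃ₐ[ℚ] Qb, (∀ c ∈ K₁, σ c = c) →
        arithmeticGalois (modularFunctionFieldFull N) σ • P = P)
    (x : s37_rc_pt N ℓ A t) (T : Finset (Place Qb (modularFunctionFieldBar N)))
    (hT : ∀ P, P ∈ T ↔ P.ord (s18_baseIncl K₁ N ((a : s18_F1 K₁ N) / b)) ≠ 0 ∧
      (∀ z : s18_chAlg N ℓ (s18_A1 A K₁) t,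
        s18_baseIncl K₁ N (z : s18_F1 K₁ N) ∈ P.toValuationSubring) ∧
      (∀ z : s18_chAlg N ℓ (s18_A1 A K₁) t,
        s18_baseIncl K₁ N (z : s18_F1 K₁ N) ∈ P.toValuationSubring.nonunits →
          x (s37_rc_red hW (s37_rc_lvl N ℓ A t K₁ z)) = 0))
    (hsum : ∑ P ∈ T, P.ord (s18_baseIncl K₁ N ((a : s18_F1 K₁ N) / b)) = 0) :
    ∃ c d : s18_chAlg N ℓ (s18_A1 A K₁) t,
      x (s37_rc_red hW (s37_rc_lvl N ℓ A t K₁ c)) ≠ 0 ∧
      x (s37_rc_red hW (s37_rc_lvl N ℓ A t K₁ d)) ≠ 0 ∧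
      (algebraMap (s18_A1 A K₁) (s18_F1 K₁ N) π)⁻¹ * ((a : s18_F1 K₁ N) * d - b * c) ∈
        s18_chAlg N ℓ (s18_A1 A K₁) t := by
  classical
  have : FiniteDimensional ℚ K₁ := hK₁.1
  have : IsDiscreteValuationRing (s18_A1 A K₁) := s18_a1_dvr A hA K₁
  have : IsScalarTower (s18_A1 A K₁) K₁ (s18_F1 K₁ N) :=
    IsScalarTower.of_algebraMap_eq fun _ => rfl
  -- the evaluation of the `K₁`-chart at the point `x`
  obtain ⟨ev, hev⟩ : ∃ ev : (s18_chAlg N ℓ (s18_A1 A K₁) t).toSubring →+*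
      IsLocalRing.ResidueField A, ∀ z : (s18_chAlg N ℓ (s18_A1 A K₁) t).toSubring,
        ev z = x (s37_rc_red hW (s37_rc_lvl N ℓ A t K₁ ⟨(z : s18_F1 K₁ N), z.2⟩)) :=
    ⟨((x : s37_rc_fib N ℓ A t →+* IsLocalRing.ResidueField A).comp
      ((s37_rc_red hW).comp (s37_rc_lvl N ℓ A t K₁))).comp
        (RingHom.codRestrict (s18_chAlg N ℓ (s18_A1 A K₁) t).toSubring.subtype
          (s18_chAlg N ℓ (s18_A1 A K₁) t) (fun z => z.2)), fun z => rfl⟩
  -- the uniformizer lies in the kernel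
  have hevπ : ev ⟨algebraMap (s18_A1 A K₁) (s18_F1 K₁ N) π, hCh.ϖ_mem⟩ = 0 := by
    have h1 : s37_rc_lvl N ℓ A t K₁ ⟨algebraMap (s18_A1 A K₁) (s18_F1 K₁ N) π, hCh.ϖ_mem⟩ =
        algebraMap A (s18_chAlg N ℓ A t) (s37_rc_cmpA (s18_A1 A K₁) A (algebraMap K₁ Qb)
          (s37_rc_cmp_mem (s37_rc_A1_comap A K₁)) π) := by
      apply Subtype.ext
      rw [s37_rc_lvl_coe]
      exact s18_baseIncl_algebraMap K₁ N (π : K₁)
    have h2 : IsLocalRing.residue A (s37_rc_cmpA (s18_A1 A K₁) A (algebraMap K₁ Qb)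
        (s37_rc_cmp_mem (s37_rc_A1_comap A K₁)) π) = 0 := by
      rw [← s37_rc_cmpRes_residue (s37_rc_A1_comap A K₁), s18_residue_uniformizer hπ, map_zero]
    have h3 := hev ⟨algebraMap (s18_A1 A K₁) (s18_F1 K₁ N) π, hCh.ϖ_mem⟩
    rw [h1, s37_rc_red_algebraMap, AlgHom.commutes, h2, map_zero] at h3
    exact h3
  -- the dictionary
  have hab0 : ((a : s18_F1 K₁ N) / b) ≠ 0 :=
    div_ne_zero (fun h0 => ha (by rw [h0, mul_zero]; exact zero_mem _))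
      (fun h0 => hb (by rw [h0, mul_zero]; exact zero_mem _))
  obtain ⟨C, hC⟩ : ∃ C : ValuationSubring (s18_F1 K₁ N) → Prop, ∀ W, C W ↔
      ((∀ z ∈ s18_chAlg N ℓ (s18_A1 A K₁) t, z ∈ W) ∧
        (∀ z : (s18_chAlg N ℓ (s18_A1 A K₁) t).toSubring,
          (z : s18_F1 K₁ N) ∈ W.nonunits → ev z = 0)) := ⟨_, fun _ => Iff.rfl⟩
  have hrat : ∀ P : Place Qb (modularFunctionFieldBar N),
      P.ord (s18_baseIncl K₁ N ((a : s18_F1 K₁ N) / b)) ≠ 0 →
      ∀ w : s18_F1 K₁ N, s18_baseIncl K₁ N w ∈ P.toValuationSubring →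
        ∃ c : K₁, s37_r_val P (s18_baseIncl K₁ N w) = algebraMap K₁ Qb c :=
    fun P hP w hw => s37_rr_val_mem N K₁ P (hfix P hP) w hw
  have hT' : ∀ P, P ∈ T ↔ P.ord (s18_baseIncl K₁ N ((a : s18_F1 K₁ N) / b)) ≠ 0 ∧
      C (P.toValuationSubring.comap (s18_baseIncl K₁ N)) := by
    intro P
    refine (hT P).trans (and_congr_right fun _ => ((hC _).trans ?_).symm)
    constructor
    · rintro ⟨h1, h2⟩
      refine ⟨fun z => ValuationSubring.mem_comap.mp (h1 z z.2), fun z hz => ?_⟩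
      exact (hev ⟨(z : s18_F1 K₁ N), z.2⟩).symm.trans
        (h2 ⟨(z : s18_F1 K₁ N), z.2⟩ ((s37_rp_nonunits_comap _ _ _).mpr hz))
    · rintro ⟨h1, h2⟩
      refine ⟨fun z hz => ValuationSubring.mem_comap.mpr (h1 ⟨z, hz⟩), fun z hz => ?_⟩
      exact (hev z).trans
        (h2 ⟨(z : s18_F1 K₁ N), z.2⟩ ((s37_rp_nonunits_comap _ _ _).mp hz))
  obtain ⟨S, hS, hSrat, hSsum⟩ := s37_rd_sum N K₁ ((a : s18_F1 K₁ N) / b) hab0 hrat C T hT'
  have hS' : ∀ Q : Place K₁ (s18_F1 K₁ N), Q ∈ S ↔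
      ((∀ z ∈ s18_chAlg N ℓ (s18_A1 A K₁) t, z ∈ Q.toValuationSubring) ∧
        (∀ z : (s18_chAlg N ℓ (s18_A1 A K₁) t).toSubring,
          (z : s18_F1 K₁ N) ∈ Q.toValuationSubring.nonunits → ev z = 0) ∧
        Q.ord ((a : s18_F1 K₁ N) / b) ≠ 0) := by
    intro Q
    exact (hS Q).trans ((and_congr_left fun _ => hC _).trans and_assoc)
  have hbal : ∑ Q ∈ S, Q.ord ((a : s18_F1 K₁ N) / b) = 0 := hSsum.trans hsum
  obtain ⟨c, d, hc, hd, hcd⟩ := s37_rp_abs (A₀ := s18_A1 A K₁) (K₁ := K₁)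
    (F := s18_F1 K₁ N) (s37_rp_res_torsion A hA) hπ (B := s18_chAlg N ℓ (s18_A1 A K₁) t) hCh ev
    hevπ (a : s18_F1 K₁ N) (b : s18_F1 K₁ N) a.2 b.2 ha hb S hS' hSrat hbal
  exact ⟨⟨(c : s18_F1 K₁ N), c.2⟩, ⟨(d : s18_F1 K₁ N), d.2⟩,
    fun h0 => hc ((hev c).trans h0), fun h0 => hd ((hev d).trans h0), hcd⟩

end Fermat.Agent.S37
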