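import Fermat.Agent.S37.RcCenter
import Fermat.Agent.S37.RKappa
import Fermat.Agent.S37.RGen
import Fermat.Agent.S37.RFix
import Fermat.Agent.S37.RHaupt
import Fermat.Agent.S37.RLevel
import Fermat.Agent.S37.RPoint

/-!
# S37, block R: (R2) conservation — a ratio of Gauss-primitive functions whose divisor has
trivial reduction reduces to a constant

Assembly of (LOC) + (DICT) + (PT) (helper8, helper24), (GLOB) + (KCH) (helper18, helper8),
(GEN) (helper22), (RAT) (helper15, helper24) and the profile side `RcCenter.lean`.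
-/

set_option autoImplicit false
set_option synthInstance.maxHeartbeats 400000
set_option maxHeartbeats 1000000
set_option linter.unusedSectionVars false
set_option linter.unusedVariables false

open ModularCurve ModularCurve.IgusaScheme AlgebraicCurve Fermat.Agent.S28 Fermat.Agent.S18
  Polynomial

noncomputable section

namespace Fermat.Agent.S37

section Cons

variable {N : ℕ} [NeZero N] {ℓ : ℕ} [Fact ℓ.Prime]
variable (A : ValuationSubring (AlgebraicClosure ℚ)) {t t' : modularFunctionFieldFull N}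
variable (K₁ : IntermediateField ℚ (AlgebraicClosure ℚ))

local notation "Qb" => AlgebraicClosure ℚ
local notation "Fb" => modularFunctionFieldBar N
local notation "κ" => IsLocalRing.ResidueField A
local notation "WA" => s18_W A.subtype (IsLocalRing.residue A)

/-- The reduction of an element of the chart of level `K₁`, as a series over the residue field
of `A`. -/
def s37_rc_rser (hW : s18_chRing N ℓ A t ≤ WA) (z : s18_chAlg N ℓ (s18_A1 A K₁) t) :
    LaurentSeries κ :=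
  ((s37_rc_red hW (s37_rc_lvl N ℓ A t K₁ z) : s37_rc_fib N ℓ A t) : LaurentSeries κ)

theorem s37_rc_rser_eq (hW : s18_chRing N ℓ A t ≤ WA) (z : s18_chAlg N ℓ (s18_A1 A K₁) t)
    (hmem : coeffMap (algebraMap K₁ Qb) ((z : s18_F1 K₁ N) : LaurentSeries K₁) ∈ WA) :
    s37_rc_rser A K₁ hW z =
      s37_rc_gred A ⟨coeffMap (algebraMap K₁ Qb) ((z : s18_F1 K₁ N) : LaurentSeries K₁), hmem⟩ :=
  rfl

/-- Cross relation between the reductions on two charts. -/
theorem s37_rc_cross (hW : s18_chRing N ℓ A t ≤ WA) (hW' : s18_chRing N ℓ A t' ≤ WA)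
    (a b : s18_chAlg N ℓ (s18_A1 A K₁) t) (a' b' : s18_chAlg N ℓ (s18_A1 A K₁) t')
    (hab : (a' : s18_F1 K₁ N) * (b : s18_F1 K₁ N) = (b' : s18_F1 K₁ N) * (a : s18_F1 K₁ N)) :
    s37_rc_rser A K₁ hW' a' * s37_rc_rser A K₁ hW b =
      s37_rc_rser A K₁ hW' b' * s37_rc_rser A K₁ hW a := by
  have hm : ∀ z : s18_chAlg N ℓ (s18_A1 A K₁) t,
      coeffMap (algebraMap K₁ Qb) ((z : s18_F1 K₁ N) : LaurentSeries K₁) ∈ WA := fun z =>
    hW (s37_rc_lvl N ℓ A t K₁ z).2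
  have hm' : ∀ z : s18_chAlg N ℓ (s18_A1 A K₁) t',
      coeffMap (algebraMap K₁ Qb) ((z : s18_F1 K₁ N) : LaurentSeries K₁) ∈ WA := fun z =>
    hW' (s37_rc_lvl N ℓ A t' K₁ z).2
  rw [s37_rc_rser_eq A K₁ hW' a' (hm' a'), s37_rc_rser_eq A K₁ hW b (hm b),
    s37_rc_rser_eq A K₁ hW' b' (hm' b'), s37_rc_rser_eq A K₁ hW a (hm a), ← map_mul, ← map_mul]
  congr 1
  apply Subtype.ext
  show coeffMap (algebraMap K₁ Qb) ((a' : s18_F1 K₁ N) : LaurentSeries K₁) *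
      coeffMap (algebraMap K₁ Qb) ((b : s18_F1 K₁ N) : LaurentSeries K₁) =
    coeffMap (algebraMap K₁ Qb) ((b' : s18_F1 K₁ N) : LaurentSeries K₁) *
      coeffMap (algebraMap K₁ Qb) ((a : s18_F1 K₁ N) : LaurentSeries K₁)
  rw [← map_mul, ← map_mul]
  exact congrArg (coeffMap (algebraMap K₁ Qb)) (congrArg Subtype.val hab)

/-- The relation between the reductions of `y₁, y₂` and of `a, b` when `y₁ / y₂ = a / b`. -/
theorem s37_rc_final_rel (hW : s18_chRing N ℓ A t ≤ WA)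
    (a b : s18_chAlg N ℓ (s18_A1 A K₁) t) (y₁ y₂ : LaurentSeries A)
    (hrel : coeffMap A.subtype y₁ *
        coeffMap (algebraMap K₁ Qb) ((b : s18_F1 K₁ N) : LaurentSeries K₁) =
      coeffMap A.subtype y₂ *
        coeffMap (algebraMap K₁ Qb) ((a : s18_F1 K₁ N) : LaurentSeries K₁)) :
    coeffMap (IsLocalRing.residue A) y₁ * s37_rc_rser A K₁ hW b =
      coeffMap (IsLocalRing.residue A) y₂ * s37_rc_rser A K₁ hW a := by
  have hm : ∀ z : s18_chAlg N ℓ (s18_A1 A K₁) t,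
      coeffMap (algebraMap K₁ Qb) ((z : s18_F1 K₁ N) : LaurentSeries K₁) ∈ WA := fun z =>
    hW (s37_rc_lvl N ℓ A t K₁ z).2
  have e1 : coeffMap (IsLocalRing.residue A) y₁ =
      s37_rc_gred A ⟨coeffMap A.subtype y₁, s18_coeffMap_mem_W _ _ y₁⟩ :=
    (s18_red_coeffMap _ y₁ _).symm
  have e2 : coeffMap (IsLocalRing.residue A) y₂ =
      s37_rc_gred A ⟨coeffMap A.subtype y₂, s18_coeffMap_mem_W _ _ y₂⟩ :=
    (s18_red_coeffMap _ y₂ _).symm
  rw [e1, e2, s37_rc_rser_eq A K₁ hW b (hm b), s37_rc_rser_eq A K₁ hW a (hm a), ← map_mul,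
    ← map_mul]
  congr 1
  exact Subtype.ext hrel

/-- **Local step**: at a `κ`-point `x` of the special fibre of the chart of `t`, the ratio
`red a / red b` is a ratio of two elements of the fibre ring which do not vanish at `x`, provided
the orders of the divisor sum to zero over the places through `x`. -/
theorem s37_rc_step (hℓN : ¬ ℓ ∣ N) (hA : A.LiesOverPrime ℓ) (h : s18_cz_Coord N ℓ t)
    (hW : s18_chRing N ℓ A t ≤ WA) (hK₁ : s18_d1_IsGaloisNF K₁) (π : s18_A1 A K₁)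
    (hπ : Irreducible π)
    (hCh : s18_Chart (algebraMap (s18_A1 A K₁) (s18_F1 K₁ N) π)
      (s18_chAlg N ℓ (s18_A1 A K₁) t).toSubring)
    (a b : s18_chAlg N ℓ (s18_A1 A K₁) t)
    (ha : (algebraMap (s18_A1 A K₁) (s18_F1 K₁ N) π)⁻¹ * (a : s18_F1 K₁ N) ∉
      s18_chAlg N ℓ (s18_A1 A K₁) t)
    (hb : (algebraMap (s18_A1 A K₁) (s18_F1 K₁ N) π)⁻¹ * (b : s18_F1 K₁ N) ∉
      s18_chAlg N ℓ (s18_A1 A K₁) t)
    (D : Place Qb Fb →₀ ℤ)
    (hDab : ∀ P, D P = P.ord (s18_baseIncl K₁ N ((a : s18_F1 K₁ N) / b)))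
    (hfix : ∀ P : Place Qb Fb, D P ≠ 0 → ∀ σ : Qb ≃ₐ[ℚ] Qb, (∀ c ∈ K₁, σ c = c) →
      arithmeticGalois (modularFunctionFieldFull N) σ • P = P)
    (x : s37_rc_pt N ℓ A t)
    (hsum : ∀ T : Finset (Place Qb Fb), (∀ P, P ∈ T ↔ D P ≠ 0 ∧
      (∀ z : s18_chAlg N ℓ (s18_A1 A K₁) t,
        s18_baseIncl K₁ N (z : s18_F1 K₁ N) ∈ P.toValuationSubring) ∧
      (∀ z : s18_chAlg N ℓ (s18_A1 A K₁) t,
        s18_baseIncl K₁ N (z : s18_F1 K₁ N) ∈ P.toValuationSubring.nonunits →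
          x (s37_rc_red hW (s37_rc_lvl N ℓ A t K₁ z)) = 0)) → ∑ P ∈ T, D P = 0) :
    ∃ c d : s37_rc_fib N ℓ A t, x c ≠ 0 ∧ x d ≠ 0 ∧
      s37_rc_rser A K₁ hW a * (d : LaurentSeries κ) =
        s37_rc_rser A K₁ hW b * (c : LaurentSeries κ) := by
  classical
  let Tx : Finset (Place Qb Fb) := D.support.filter (fun P =>
    (∀ z : s18_chAlg N ℓ (s18_A1 A K₁) t,
      s18_baseIncl K₁ N (z : s18_F1 K₁ N) ∈ P.toValuationSubring) ∧
    (∀ z : s18_chAlg N ℓ (s18_A1 A K₁) t,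
      s18_baseIncl K₁ N (z : s18_F1 K₁ N) ∈ P.toValuationSubring.nonunits →
        x (s37_rc_red hW (s37_rc_lvl N ℓ A t K₁ z)) = 0))
  have hTx : ∀ P, P ∈ Tx ↔ D P ≠ 0 ∧
      (∀ z : s18_chAlg N ℓ (s18_A1 A K₁) t,
        s18_baseIncl K₁ N (z : s18_F1 K₁ N) ∈ P.toValuationSubring) ∧
      (∀ z : s18_chAlg N ℓ (s18_A1 A K₁) t,
        s18_baseIncl K₁ N (z : s18_F1 K₁ N) ∈ P.toValuationSubring.nonunits →
          x (s37_rc_red hW (s37_rc_lvl N ℓ A t K₁ z)) = 0) := by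
    intro P
    rw [Finset.mem_filter, Finsupp.mem_support_iff]
  have hs := hsum Tx hTx
  have hTx' : ∀ P, P ∈ Tx ↔ P.ord (s18_baseIncl K₁ N ((a : s18_F1 K₁ N) / b)) ≠ 0 ∧
      (∀ z : s18_chAlg N ℓ (s18_A1 A K₁) t,
        s18_baseIncl K₁ N (z : s18_F1 K₁ N) ∈ P.toValuationSubring) ∧
      (∀ z : s18_chAlg N ℓ (s18_A1 A K₁) t,
        s18_baseIncl K₁ N (z : s18_F1 K₁ N) ∈ P.toValuationSubring.nonunits →
          x (s37_rc_red hW (s37_rc_lvl N ℓ A t K₁ z)) = 0) := by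
    intro P
    rw [hTx P, hDab P]
  have hs' : ∑ P ∈ Tx, P.ord (s18_baseIncl K₁ N ((a : s18_F1 K₁ N) / b)) = 0 := by
    rw [← hs]
    exact Finset.sum_congr rfl (fun P _ => (hDab P).symm)
  obtain ⟨c, d, hc, hd, hcd⟩ := s37_rp_point N ℓ A hA hW K₁ hK₁ π hπ hCh a b ha hb
    (fun P hP σ hσ => hfix P (by rw [hDab P]; exact hP) σ hσ) x Tx hTx' hs'
  refine ⟨s37_rc_red hW (s37_rc_lvl N ℓ A t K₁ c), s37_rc_red hW (s37_rc_lvl N ℓ A t K₁ d),
    hc, hd, ?_⟩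
  have h0 : s37_rc_red hW (s37_rc_lvl N ℓ A t K₁ (a * d - b * c)) = 0 :=
    (s37_rq_red_eq_zero_iff N ℓ hℓN A hA h hW K₁ hK₁ π hπ (a * d - b * c)).mpr hcd
  rw [map_sub, map_sub, map_mul, map_mul, map_mul, map_mul, sub_eq_zero] at h0
  exact congrArg Subtype.val h0

omit [Fact ℓ.Prime] in
/-- An `A`-integral series with nonzero reduction is nonzero. -/
theorem s37_rc_ne_zero_of_red (y : LaurentSeries A)
    (hne : coeffMap (IsLocalRing.residue A) y ≠ 0) : coeffMap A.subtype y ≠ 0 := by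
  intro h0
  apply hne
  have hy : y = 0 := s18_coeffMap_injective A.subtype (s37_rc_subtype_injective A)
    (by rw [h0, map_zero])
  rw [hy, map_zero]

/-- **(R2) for a coordinate `t` with the two-chart data at all finite levels.** -/
theorem s37_rc_cons_coord (hℓN : ¬ ℓ ∣ N) (hA : A.LiesOverPrime ℓ) (h : s18_cz_Coord N ℓ t)
    (T T' : LaurentSeries ℤ) (hTT' : T * T' = 1)
    (hT : (t : LaurentSeries ℚ) = coeffMap (Int.castRingHom ℚ) T)
    (e : ℤ) (he : e = 1 ∨ e = -1) (hlead : IsLeading T e 1)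
    (hTC : ∀ (K₁ : IntermediateField ℚ Qb), s18_d1_IsGaloisNF K₁ → ∀ π : s18_A1 A K₁,
      Irreducible π → s18_TwoChart π (s18_coord K₁ t) (s18_chAlg N ℓ (s18_A1 A K₁) t)
        (s18_chAlg N ℓ (s18_A1 A K₁) t⁻¹))
    (y₁ y₂ : LaurentSeries A) (h₁ : coeffMap A.subtype y₁ ∈ Fb) (h₂ : coeffMap A.subtype y₂ ∈ Fb)
    (hne₁ : coeffMap (IsLocalRing.residue A) y₁ ≠ 0)
    (hne₂ : coeffMap (IsLocalRing.residue A) y₂ ≠ 0)
    (D : Place Qb Fb →₀ ℤ) (hD : ∀ P, D P = P.ord ((⟨_, h₁⟩ : Fb) / ⟨_, h₂⟩))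
    (hr : Finsupp.mapDomain (s37_red N A (s18_coord Qb t)) D = 0) :
    ∃ c : κ, c ≠ 0 ∧
      coeffMap (IsLocalRing.residue A) y₁ = HahnSeries.C c * coeffMap (IsLocalRing.residue A) y₂ := by
  classical
  obtain ⟨B, hB⟩ := core N ℓ hℓN
  have hℓ : ((ℓ : Qb))⁻¹ ∉ A := s18_res_inv_notMem_bar A ℓ hA
  have hW : s18_chRing N ℓ A t ≤ WA := s18_chRing_le_W hℓ h hB
  have hW' : s18_chRing N ℓ A t⁻¹ ≤ WA := s18_chRing_le_W hℓ h.inv hB
  have hY₁ : coeffMap A.subtype y₁ ≠ 0 := s37_rc_ne_zero_of_red A y₁ hne₁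
  have hY₂ : coeffMap A.subtype y₂ ≠ 0 := s37_rc_ne_zero_of_red A y₂ hne₂
  set f : Fb := (⟨_, h₁⟩ : Fb) / ⟨_, h₂⟩ with hf
  have hfy : (f : LaurentSeries Qb) * coeffMap A.subtype y₂ = coeffMap A.subtype y₁ := by
    show coeffMap A.subtype y₁ / coeffMap A.subtype y₂ * coeffMap A.subtype y₂ = _
    exact div_mul_cancel₀ _ hY₂
  -- a level fixing all the places of the divisor
  obtain ⟨K₀, hK₀, hfix₀⟩ := s37_rf_exists_fixing N D.support
  -- Gauss normal form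
  obtain ⟨K₁, hK₁, h01, π, a₀, b₀, hπ, ha₀, hb₀, haπ, hbπ, hfab⟩ :=
    s37_rn_ratio A hA hℓN h f y₁ y₂ hfy hne₁ hne₂ K₀ hK₀
  set a : s18_chAlg N ℓ (s18_A1 A K₁) t := ⟨a₀, ha₀⟩ with hadef
  set b : s18_chAlg N ℓ (s18_A1 A K₁) t := ⟨b₀, hb₀⟩ with hbdef
  have hDab : ∀ P, D P = P.ord (s18_baseIncl K₁ N ((a : s18_F1 K₁ N) / b)) := by
    intro P
    rw [hD P, hfab, map_div₀]
  have hfix : ∀ P : Place Qb Fb, D P ≠ 0 → ∀ σ : Qb ≃ₐ[ℚ] Qb, (∀ c ∈ K₁, σ c = c) →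
      arithmeticGalois (modularFunctionFieldFull N) σ • P = P := fun P hP σ hσ =>
    hfix₀ P (Finsupp.mem_support_iff.mpr hP) σ (fun c hc => hσ c (h01 hc))
  have hrat : ∀ P : Place Qb Fb, D P ≠ 0 → ∀ z : s18_F1 K₁ N,
      s18_baseIncl K₁ N z ∈ P.toValuationSubring →
        ∃ c : K₁, s37_r_val P (s18_baseIncl K₁ N z) = algebraMap K₁ Qb c := fun P hP z hz =>
    s37_rr_val_mem N K₁ P (hfix P hP) z hz
  have hTC₁ := hTC K₁ hK₁ π hπ
  -- the reductions of `a`, `b`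
  have hared : s37_rc_rser A K₁ hW a ≠ 0 := by
    intro h0
    apply haπ
    have h1 : s37_rc_red hW (s37_rc_lvl N ℓ A t K₁ a) = 0 := Subtype.ext h0
    exact (s37_rq_red_eq_zero_iff N ℓ hℓN A hA h hW K₁ hK₁ π hπ a).mp h1
  have hbred : s37_rc_rser A K₁ hW b ≠ 0 := by
    intro h0
    apply hbπ
    have h1 : s37_rc_red hW (s37_rc_lvl N ℓ A t K₁ b) = 0 := Subtype.ext h0
    exact (s37_rq_red_eq_zero_iff N ℓ hℓN A hA h hW K₁ hK₁ π hπ b).mp h1
  -- (KCH)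
  obtain ⟨c₀, hc₀⟩ := s37_rk_const N ℓ hℓN A hA h T T' hTT' hT e he hlead
    (s37_rc_rser A K₁ hW a / s37_rc_rser A K₁ hW b) (by
      intro x
      obtain ⟨c, d, hc, hd, hcd⟩ := s37_rc_step A K₁ hℓN hA h hW hK₁ π hπ hTC₁.chart0 a b haπ hbπ
        D hDab hfix x (fun Tx hTx => s37_rc_hsum0 A K₁ hℓ h hB hW x D hr hrat Tx hTx)
      refine ⟨c, d, hc, hd, ?_⟩
      rw [div_mul_eq_mul_div, hcd]
      exact mul_div_cancel_left₀ _ hbred) (by
      intro x hx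
      obtain ⟨a', b', ha', hb', hab'⟩ := s37_rq_glue_pair N ℓ hℓN A hA h K₁ hK₁ π hπ
        a b haπ hbπ
      have hb'ne : s37_rc_rser A K₁ hW' b' ≠ 0 := by
        intro h0
        apply hb'
        have h1 : s37_rc_red hW' (s37_rc_lvl N ℓ A t⁻¹ K₁ b') = 0 := Subtype.ext h0
        exact (s37_rq_red_eq_zero_iff N ℓ hℓN A hA h.inv hW' K₁ hK₁ π hπ b').mp h1
      have hb0 : (b : s18_F1 K₁ N) ≠ 0 := by
        intro h0
        apply hbπ
        have h0' : b₀ = 0 := h0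
        rw [h0', mul_zero]
        exact zero_mem _
      have hb'0 : (b' : s18_F1 K₁ N) ≠ 0 := by
        intro h0
        apply hb'
        rw [h0, mul_zero]
        exact zero_mem _
      have hquot : (a' : s18_F1 K₁ N) / (b' : s18_F1 K₁ N) = (a : s18_F1 K₁ N) / b := by
        rw [div_eq_div_iff hb'0 hb0, hab', mul_comm]
      have hDab' : ∀ P, D P = P.ord (s18_baseIncl K₁ N ((a' : s18_F1 K₁ N) / b')) := by
        intro P
        rw [hquot]
        exact hDab P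
      have hT' : ((t⁻¹ : modularFunctionFieldFull N) : LaurentSeries ℚ) =
          coeffMap (Int.castRingHom ℚ) T' := by
        have h1 : (t : LaurentSeries ℚ) * coeffMap (Int.castRingHom ℚ) T' = 1 := by
          rw [hT, ← map_mul, hTT', map_one]
        have h2 : ((t⁻¹ : modularFunctionFieldFull N) : LaurentSeries ℚ) =
            ((t : modularFunctionFieldFull N) : LaurentSeries ℚ)⁻¹ := rfl
        rw [h2]
        exact inv_eq_of_mul_eq_one_right h1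
      have hx0 : x (s37_rc_red hW' ⟨s18_coord Qb t⁻¹, s18_coord_mem t⁻¹⟩) = 0 :=
        hx _ (s37_rk_gred_coord hW' T' hT')
      obtain ⟨c, d, hc, hd, hcd⟩ := s37_rc_step A K₁ hℓN hA h.inv hW' hK₁ π hπ hTC₁.chartInf
        a' b' ha' hb' D hDab' hfix x
        (fun Tx hTx => s37_rc_hsumInf A K₁ hℓ h hB hW' x hx0 D hr hrat Tx hTx)
      refine ⟨c, d, hc, hd, ?_⟩
      have hcross := s37_rc_cross A K₁ hW hW' a b a' b' hab'
      have e1 : s37_rc_rser A K₁ hW a / s37_rc_rser A K₁ hW b =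
          s37_rc_rser A K₁ hW' a' / s37_rc_rser A K₁ hW' b' := by
        rw [div_eq_div_iff hbred hb'ne, hcross, mul_comm]
      rw [e1, div_mul_eq_mul_div, hcd]
      exact mul_div_cancel_left₀ _ hb'ne)
  -- conclusion
  have hc₀0 : c₀ ≠ 0 := by
    intro h0
    rw [h0, map_zero] at hc₀
    exact hared ((div_eq_zero_iff.mp hc₀).resolve_right hbred)
  refine ⟨c₀, hc₀0, ?_⟩
  have hared_eq : s37_rc_rser A K₁ hW a = HahnSeries.C c₀ * s37_rc_rser A K₁ hW b := by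
    rw [← hc₀, div_mul_cancel₀ _ hbred]
  have hrel : coeffMap A.subtype y₁ *
      coeffMap (algebraMap K₁ Qb) ((b : s18_F1 K₁ N) : LaurentSeries K₁) =
      coeffMap A.subtype y₂ *
        coeffMap (algebraMap K₁ Qb) ((a : s18_F1 K₁ N) : LaurentSeries K₁) := by
    have hb0 : coeffMap (algebraMap K₁ Qb) ((b : s18_F1 K₁ N) : LaurentSeries K₁) ≠ 0 := by
      intro h0
      apply hbπ
      have h1 : ((b : s18_F1 K₁ N) : LaurentSeries K₁) = 0 :=
        s18_coeffMap_injective _ (algebraMap K₁ Qb).injective (by rw [h0, map_zero])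
      have h2 : b₀ = 0 := Subtype.ext h1
      rw [h2, mul_zero]
      exact zero_mem _
    have h3 : (f : LaurentSeries Qb) =
        coeffMap (algebraMap K₁ Qb) ((a : s18_F1 K₁ N) : LaurentSeries K₁) /
          coeffMap (algebraMap K₁ Qb) ((b : s18_F1 K₁ N) : LaurentSeries K₁) := by
      rw [hfab]
      rfl
    rw [← hfy, h3]
    field_simp
  have hfin := s37_rc_final_rel A K₁ hW a b y₁ y₂ hrel
  rw [hared_eq] at hfin
  have h4 : coeffMap (IsLocalRing.residue A) y₁ * s37_rc_rser A K₁ hW b =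
      (HahnSeries.C c₀ * coeffMap (IsLocalRing.residue A) y₂) * s37_rc_rser A K₁ hW b := by
    rw [hfin]
    ring
  exact mul_right_cancel₀ hbred h4

end Cons

/-- **(R2) = (CONS)**: a ratio of Gauss-primitive functions whose divisor has trivial reduction
(`r_* div = 0`) reduces to a constant. -/
theorem s37_r_cons (N ℓ M : ℕ) [NeZero N] (hℓ : ℓ.Prime) (hℓN : ¬ ℓ ∣ N) (hℓM : ℓ ≠ M)
    (hMN : M ∣ N) (A : ValuationSubring (AlgebraicClosure ℚ)) (hA : A.LiesOverPrime ℓ)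
    (t : modularFunctionFieldBar N) (ht : s37_IsHaupt M t)
    (y₁ y₂ : LaurentSeries A)
    (h₁ : coeffMap A.subtype y₁ ∈ modularFunctionFieldBar N)
    (h₂ : coeffMap A.subtype y₂ ∈ modularFunctionFieldBar N)
    (hne₁ : coeffMap (IsLocalRing.residue A) y₁ ≠ 0)
    (hne₂ : coeffMap (IsLocalRing.residue A) y₂ ≠ 0)
    (D : Divisor (AlgebraicClosure ℚ) (modularFunctionFieldBar N))
    (hD : ∀ P, D P = P.ord ((⟨_, h₁⟩ : modularFunctionFieldBar N) / ⟨_, h₂⟩))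
    (hr : Finsupp.mapDomain (s37_red N A t) D = 0) :
    ∃ c : IsLocalRing.ResidueField A, c ≠ 0 ∧
      coeffMap (IsLocalRing.residue A) y₁ =
        HahnSeries.C c * coeffMap (IsLocalRing.residue A) y₂ := by
  haveI : Fact ℓ.Prime := ⟨hℓ⟩
  obtain ⟨t₀, T, T', e, h, rfl, hTT', hT, he, hlead, hTC⟩ :=
    s37_rh_data N ℓ M hℓN hℓM hMN A hA t ht
  exact s37_rc_cons_coord A hℓN hA h T T' hTT' hT e he hlead hTC y₁ y₂ h₁ h₂ hne₁ hne₂ D hD hr

end Fermat.Agent.S37
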