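import Fermat.Agent.S24
import Fermat.Agent.S18.NormDescent

/-!
# S37, block TR: the function field of `X₀(K₀)` is the compositum of those of `X₀(a)`, `X₀(b)`
when `lcm(a, b) = K₀` (helper18)

Galois theory inside the Galois closure `ModL K₀` of S24: the subgroup of `SL₂(ℤ)` fixing
`F̄(a) · F̄(b)` is `Γ₀(a) ∩ Γ₀(b) = Γ₀(K₀)`.
-/

set_option synthInstance.maxHeartbeats 200000
set_option autoImplicit false
set_option linter.unusedSectionVars false
set_option linter.style.haveILetI false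

open ModularCurve

noncomputable section

namespace Fermat.Agent.S37

open Fermat.Agent.S24 Fermat.Agent.S18 CongruenceSubgroup
open scoped MatrixGroups IntermediateField

attribute [local instance] Fermat.Agent.S24.algKC

/-- `J(dτ)` in `ModL K₀` is the image of `j(q^d)`. -/
theorem s37_tr_embF_Jelt (K₀ d : ℕ) [NeZero K₀] [NeZero d] (hd : d ∣ K₀)
    (hmem : coeffEmb Kbar (qExpand ℚ d jq) ∈ modularFunctionFieldBar K₀) :
    embF K₀ ⟨_, hmem⟩ = algebraMap (modRing K₀) (ModL K₀) (Jelt K₀ d hd) := by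
  rw [embF_eq_iff, expL_algebraMap, modfield_expHom_Jelt]

/-- An element of `SL₂(ℤ)` fixing `J(dτ)` lies in `Γ₀(d)`. -/
theorem s37_tr_mem_Gamma0_of_smul (K₀ d : ℕ) [NeZero K₀] [NeZero d] (hd : d ∣ K₀)
    (γ : SL(2, ℤ))
    (h : γ • algebraMap (modRing K₀) (ModL K₀) (Jelt K₀ d hd)
      = algebraMap (modRing K₀) (ModL K₀) (Jelt K₀ d hd)) : γ ∈ Gamma0 d := by
  rw [smul_algebraMap_modL] at h
  have h1 : γ • Jelt K₀ d hd = Jelt K₀ d hd := IsFractionRing.injective (modRing K₀) (ModL K₀) h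
  apply mem_Gamma0_of_smul_Jelt d γ
  apply Subtype.ext
  have h2 : ((γ • Jelt K₀ d hd : modRing K₀) : UpperHalfPlane → ℂ)
      = (Jelt K₀ d hd : UpperHalfPlane → ℂ) := congrArg Subtype.val h1
  exact h2

/-- The function field of level `K₀ = lcm(a, b)` is contained in every field containing the
function fields of levels `a` and `b`. -/
theorem s37_tr_compositum (a b K₀ : ℕ) [NeZero a] [NeZero b] [NeZero K₀] (ha : a ∣ K₀)
    (hb : b ∣ K₀) (hlcm : ∀ c : ℤ, (a : ℤ) ∣ c → (b : ℤ) ∣ c → (K₀ : ℤ) ∣ c)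
    (C : IntermediateField Kbar (LaurentSeries Kbar))
    (hCa : modularFunctionFieldBar a ≤ C) (hCb : modularFunctionFieldBar b ≤ C)
    (hC : C ≤ modularFunctionFieldBar K₀) : modularFunctionFieldBar K₀ ≤ C := by
  classical
  let eC : ↥C →ₐ[Kbar] ModL K₀ := (embF K₀).comp (IntermediateField.inclusion hC)
  letI : Algebra ↥C (ModL K₀) := eC.toRingHom.toAlgebra
  have halg : ∀ c : ↥C, algebraMap ↥C (ModL K₀) c = embF K₀ ⟨(c : LaurentSeries Kbar), hC c.2⟩ :=
    fun c => rfl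
  -- `G`-invariants come from `C`
  have hG : ∀ x : ModL K₀, (∀ g : GG K₀, g • x = x) → x ∈ Set.range (algebraMap ↥C (ModL K₀)) := by
    intro x hx
    have h1 : x ∈ Kbar⟮jL K₀⟯ := modL_fixed K₀ x (fun γ => hx (rho K₀ γ))
    have hle : Kbar⟮jL K₀⟯ ≤ eC.fieldRange := by
      rw [IntermediateField.adjoin_simple_le_iff]
      refine ⟨⟨((jF a : modularFunctionFieldBar a) : LaurentSeries Kbar), hCa (jF a).2⟩, ?_⟩
      rw [← embF_jF]
      rfl
    obtain ⟨c, hc⟩ := hle h1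
    exact ⟨c, hc⟩
  let H : Subgroup (GG K₀) := fixingSubgroup (GG K₀) (Set.range (algebraMap ↥C (ModL K₀)))
  have hH : ∀ g : GG K₀, g ∈ H ↔
      ∀ f : ↥C, g • algebraMap ↥C (ModL K₀) f = algebraMap ↥C (ModL K₀) f := by
    intro g
    show g ∈ fixingSubgroup (GG K₀) (Set.range (algebraMap ↥C (ModL K₀))) ↔ _
    rw [mem_fixingSubgroup_iff]
    constructor
    · intro h f
      exact h _ ⟨f, rfl⟩
    · rintro h _ ⟨f, rfl⟩
      exact h f
  intro y hy
  have hx : ∀ h ∈ H, h • embF K₀ ⟨y, hy⟩ = embF K₀ ⟨y, hy⟩ := by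
    intro h hh
    obtain ⟨γ, rfl⟩ := rho_surjective K₀ h
    have hfix := (hH _).mp hh
    have hJa : coeffEmb Kbar (qExpand ℚ a jq) ∈ modularFunctionFieldBar a :=
      coeffEmb_mem_laurentBaseChange Kbar (jqd_mem_full a dvd_rfl)
    have hJb : coeffEmb Kbar (qExpand ℚ b jq) ∈ modularFunctionFieldBar b :=
      coeffEmb_mem_laurentBaseChange Kbar (jqd_mem_full b dvd_rfl)
    have hγa : γ ∈ Gamma0 a := by
      apply s37_tr_mem_Gamma0_of_smul K₀ a ha γ
      have h1 := hfix ⟨_, hCa hJa⟩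
      rw [halg, s37_tr_embF_Jelt K₀ a ha] at h1
      exact h1
    have hγb : γ ∈ Gamma0 b := by
      apply s37_tr_mem_Gamma0_of_smul K₀ b hb γ
      have h1 := hfix ⟨_, hCb hJb⟩
      rw [halg, s37_tr_embF_Jelt K₀ b hb] at h1
      exact h1
    have hγ : γ ∈ Gamma0 K₀ := by
      rw [p1_mem_Gamma0_iff] at hγa hγb ⊢
      exact hlcm _ hγa hγb
    exact (embF_stab K₀ γ).mpr hγ ⟨y, hy⟩
  obtain ⟨c, hc⟩ := cnt_fixed_mem hG H hH (embF K₀ ⟨y, hy⟩) hx
  rw [halg] at hc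
  have h2 : (⟨(c : LaurentSeries Kbar), hC c.2⟩ : modularFunctionFieldBar K₀) = ⟨y, hy⟩ :=
    (embF K₀).toRingHom.injective hc
  have h3 : (c : LaurentSeries Kbar) = y := congrArg Subtype.val h2
  rw [← h3]
  exact c.2

end Fermat.Agent.S37
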