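import Mathlib

/-!
# S37, block TR: characteristic polynomials under base change of fields (helper18)

If `E` is generated as a field by `F₁` and the image of `F₂`, and `[E : F₁] = [F₂ : F]`, then a
basis of `F₂ / F` maps to a basis of `E / F₁`, and the characteristic polynomial of
multiplication by `g : F₂` is preserved.
-/

set_option autoImplicit false

namespace Fermat.Agent.S37

open Polynomial

theorem s37_tr_charpoly_baseChange {F F₁ F₂ E : Type*} [Field F] [Field F₁] [Field F₂] [Field E]
    [Algebra F F₂] [Algebra F₁ E] [FiniteDimensional F F₂] [FiniteDimensional F₁ E]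
    (u₁ : F →+* F₁) (v₂ : F₂ →+* E)
    (hcomm : ∀ c : F, v₂ (algebraMap F F₂ c) = algebraMap F₁ E (u₁ c))
    (hrank : Module.finrank F₁ E = Module.finrank F F₂)
    (hgen : ∀ T : Subfield E, (∀ c, algebraMap F₁ E c ∈ T) → (∀ y, v₂ y ∈ T) → T = ⊤)
    (g : F₂) :
    (LinearMap.mulLeft F₁ (v₂ g)).charpoly = (LinearMap.mulLeft F g).charpoly.map u₁ := by
  classical
  let b := Module.finBasis F F₂
  let b' : Fin (Module.finrank F F₂) → E := fun i => v₂ (b i)
  have hv₂mem : ∀ y : F₂, v₂ y ∈ Submodule.span F₁ (Set.range b') := by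
    intro y
    rw [← b.sum_repr y, map_sum]
    refine Submodule.sum_mem _ fun i _ => ?_
    rw [Algebra.smul_def, map_mul, hcomm, ← Algebra.smul_def]
    exact Submodule.smul_mem _ _ (Submodule.subset_span ⟨i, rfl⟩)
  have hS'le : Subalgebra.toSubmodule (Algebra.adjoin F₁ (Set.range v₂))
      ≤ Submodule.span F₁ (Set.range b') := by
    rw [Algebra.adjoin_eq_span, Submodule.span_le]
    intro z hz
    have hcl : Submonoid.closure (Set.range v₂) = MonoidHom.mrange (v₂ : F₂ →* E) := by
      rw [← Submonoid.closure_eq (MonoidHom.mrange (v₂ : F₂ →* E))]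
      rfl
    rw [hcl] at hz
    obtain ⟨y, rfl⟩ := hz
    exact hv₂mem y
  let T : Subfield E :=
    { (Algebra.adjoin F₁ (Set.range v₂)).toSubring with
      inv_mem' := fun x hx =>
        (Algebra.adjoin F₁ (Set.range v₂)).inv_mem_of_algebraic
          (x := ⟨x, hx⟩) (Algebra.IsAlgebraic.isAlgebraic x) }
  have hT : T = ⊤ := hgen T (fun c => (Algebra.adjoin F₁ (Set.range v₂)).algebraMap_mem c)
    (fun y => Algebra.subset_adjoin ⟨y, rfl⟩)
  have hspan : ⊤ ≤ Submodule.span F₁ (Set.range b') := by
    intro x _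
    have hx : x ∈ T := by
      rw [hT]
      exact Subfield.mem_top x
    exact hS'le hx
  have hcard : Fintype.card (Fin (Module.finrank F F₂)) = Module.finrank F₁ E := by
    rw [Fintype.card_fin, hrank]
  let B' : Module.Basis (Fin (Module.finrank F F₂)) F₁ E :=
    basisOfTopLeSpanOfCardEqFinrank b' hspan hcard
  have hB' : ∀ i, B' i = v₂ (b i) := fun i => by
    show (basisOfTopLeSpanOfCardEqFinrank b' hspan hcard) i = v₂ (b i)
    rw [coe_basisOfTopLeSpanOfCardEqFinrank]
  have hmat : Algebra.leftMulMatrix B' (v₂ g) = (Algebra.leftMulMatrix b g).map u₁ := by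
    ext i j
    rw [Matrix.map_apply, Algebra.leftMulMatrix_eq_repr_mul, Algebra.leftMulMatrix_eq_repr_mul]
    have h1 : v₂ g * B' j = ∑ k, u₁ (b.repr (g * b j) k) • B' k := by
      rw [hB', ← map_mul]
      conv_lhs => rw [← b.sum_repr (g * b j)]
      rw [map_sum]
      refine Finset.sum_congr rfl fun k _ => ?_
      rw [Algebra.smul_def, map_mul, hcomm, ← Algebra.smul_def, hB']
    rw [h1, B'.repr_sum_self]
  have e1 : (LinearMap.mulLeft F₁ (v₂ g)).charpoly = (Algebra.leftMulMatrix B' (v₂ g)).charpoly := by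
    rw [Algebra.leftMulMatrix_apply, LinearMap.charpoly_toMatrix]
    rfl
  have e2 : (LinearMap.mulLeft F g).charpoly = (Algebra.leftMulMatrix b g).charpoly := by
    rw [Algebra.leftMulMatrix_apply, LinearMap.charpoly_toMatrix]
    rfl
  rw [e1, e2, hmat, Matrix.charpoly_map]

end Fermat.Agent.S37
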