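import Fermat.Agent.S37.TrBase
import Fermat.Agent.S37.TrLin

/-!
# S37, block TR: characteristic polynomials in a square of intermediate fields (helper18)

`A ≤ B ≤ D`, `A ≤ C ≤ D` intermediate fields of `𝕃 / K` with `D = B · C` and `[D : C] = [B : A]`:
the characteristic polynomial of `g ∈ B` over `A` maps to the one of `g` over `C`.
-/

set_option autoImplicit false
set_option linter.unusedSectionVars false
set_option linter.style.haveILetI false

namespace Fermat.Agent.S37

open AlgebraicCurve Polynomial

section Incl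

variable {K 𝕃 : Type*} [Field K] [Field 𝕃] [Algebra K 𝕃]

/-- The degree along an inclusion of intermediate fields is the relative rank. -/
theorem s37_tr_finrankAlong_inclusion {A B : IntermediateField K 𝕃} (h : A ≤ B) :
    finrankAlong K (IntermediateField.inclusion h) = A.relfinrank B := by
  rw [IntermediateField.relfinrank_eq_finrank_of_le h]
  unfold finrankAlong
  letI := algebraAlong (IntermediateField.inclusion h)
  let e : ↥B ≃ₗ[↥A] ↥(IntermediateField.extendScalars h) :=
    { toFun := fun x => ⟨x.1, x.2⟩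
      invFun := fun x => ⟨x.1, x.2⟩
      map_add' := fun _ _ => rfl
      map_smul' := fun _ _ => rfl
      left_inv := fun _ => rfl
      right_inv := fun _ => rfl }
  exact e.finrank_eq

/-- Characteristic polynomials in a "tensor" square of intermediate fields. -/
theorem s37_tr_chi_inclusion {A B C D : IntermediateField K 𝕃}
    (hAB : A ≤ B) (hAC : A ≤ C) (hBD : B ≤ D) (hCD : C ≤ D)
    (hrank : C.relfinrank D = A.relfinrank B)
    (hgen : ∀ C' : IntermediateField K 𝕃, B ≤ C' → C ≤ C' → C' ≤ D → D ≤ C')
    (hfin₂ : FiniteAlong K (IntermediateField.inclusion hAB))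
    (hfin₁ : FiniteAlong K (IntermediateField.inclusion hCD)) (g : B) :
    s37_tr_chi (IntermediateField.inclusion hCD) hfin₁ (IntermediateField.inclusion hBD g)
      = (s37_tr_chi (IntermediateField.inclusion hAB) hfin₂ g).map
          (IntermediateField.inclusion hAC).toRingHom := by
  have hr1 := s37_tr_finrankAlong_inclusion (K := K) hAB
  have hr2 := s37_tr_finrankAlong_inclusion (K := K) hCD
  unfold finrankAlong at hr1 hr2
  unfold s37_tr_chi
  letI := algebraAlong (IntermediateField.inclusion hAB)
  letI := algebraAlong (IntermediateField.inclusion hCD)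
  haveI : Module.Finite ↥A ↥B := hfin₂
  haveI : Module.Finite ↥C ↥D := hfin₁
  refine s37_tr_charpoly_baseChange (F := ↥A) (F₁ := ↥C) (F₂ := ↥B) (E := ↥D)
    (IntermediateField.inclusion hAC).toRingHom (IntermediateField.inclusion hBD).toRingHom
    (fun c => rfl) (by rw [hr2, hr1, hrank]) ?_ g
  intro T hT1 hT2
  have halg : ∀ x : K, algebraMap K 𝕃 x ∈ T.map (D.val : ↥D →+* 𝕃) := by
    intro x
    rw [Subfield.mem_map]
    exact ⟨IntermediateField.inclusion hBD (algebraMap K ↥B x), hT2 _, rfl⟩
  have hle := hgen ((T.map (D.val : ↥D →+* 𝕃)).toIntermediateField halg)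
    (fun x hx => by
      show x ∈ T.map (D.val : ↥D →+* 𝕃)
      rw [Subfield.mem_map]
      exact ⟨IntermediateField.inclusion hBD ⟨x, hx⟩, hT2 _, rfl⟩)
    (fun x hx => by
      show x ∈ T.map (D.val : ↥D →+* 𝕃)
      rw [Subfield.mem_map]
      exact ⟨IntermediateField.inclusion hCD ⟨x, hx⟩, hT1 ⟨x, hx⟩, rfl⟩)
    (fun x hx => by
      have hx' : x ∈ T.map (D.val : ↥D →+* 𝕃) := hx
      rw [Subfield.mem_map] at hx'
      obtain ⟨t, -, rfl⟩ := hx'
      exact t.2)
  rw [eq_top_iff]
  intro x _
  have hx : (x : 𝕃) ∈ T.map (D.val : ↥D →+* 𝕃) := hle x.2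
  rw [Subfield.mem_map] at hx
  obtain ⟨t, ht, htx⟩ := hx
  have : t = x := Subtype.ext htx
  rw [← this]
  exact ht

end Incl

end Fermat.Agent.S37
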