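import Fermat.Agent.S37.TrPic
import Fermat.Agent.S37.TrIncl
import Fermat.Agent.S37.TrComp

/-!
# S37, block TR: transfer between the levels `N` and `N * M` (helper18)

`s37_transfer`: for a prime `M ∤ N` and a prime `ℓ ∤ N * M`, the pull-back
`π : J₀(N) → J₀(N * M)` along the inclusion of function fields is Galois-equivariant,
commutes with `T_ℓ`, and its kernel is killed by `M + 1`.
-/

set_option synthInstance.maxHeartbeats 400000
set_option autoImplicit false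
set_option linter.unusedSectionVars false
set_option linter.style.haveILetI false

open scoped Pointwise

namespace Fermat.Agent.S37

open ModularCurve AlgebraicCurve Polynomial

noncomputable section

local notation "Qb" => AlgebraicClosure ℚ
local notation "Γ" => (AlgebraicClosure ℚ ≃ₐ[ℚ] AlgebraicClosure ℚ)

section IsFF

variable {K F F₁ : Type*} [Field K] [Field F] [Field F₁] [Algebra K F] [Algebra K F₁]
  [IsAlgClosed K] [CharZero K] [HasPrincipalDivisors K F₁]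

theorem s37_tr_fundamentalIdentityAlong (hF : s37_h_IsFF K F) (hF₁ : s37_h_IsFF K F₁)
    (φ : F →ₐ[K] F₁) (hφ : φ.toRingHom.IsIntegral) : FundamentalIdentityAlong K φ hφ := by
  obtain ⟨x, hx, hfd⟩ := hF
  obtain ⟨x₁, hx₁, hfd₁⟩ := hF₁
  exact s37_h_fundamentalIdentityAlong φ hφ x hx x₁ hx₁

theorem s37_tr_normFormulaAlong (hF : s37_h_IsFF K F) (φ : F →ₐ[K] F₁)
    (hfin : FiniteAlong K φ) : NormFormulaAlong K φ hfin := by
  obtain ⟨x, hx, hfd⟩ := hF
  exact s37_h_normFormulaAlong φ hfin x hx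

omit [IsAlgClosed K] [CharZero K] in
theorem s37_tr_pullbackAlong_congr {φ φ' : F →ₐ[K] F₁} (h : φ = φ')
    (hφ : φ.toRingHom.IsIntegral) (hφ' : φ'.toRingHom.IsIntegral) (D : Divisor K F) :
    Divisor.pullbackAlong φ hφ D = Divisor.pullbackAlong φ' hφ' D := by
  subst h
  rfl

end IsFF

/-- The inclusion of function fields `F̄(N) ⊆ F̄(N')` for `N ∣ N'`. -/
def s37_tr_incl {N N' : ℕ} [NeZero N] [NeZero N'] (h : N ∣ N') :
    modularFunctionFieldBar N →ₐ[Qb] modularFunctionFieldBar N' :=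
  IntermediateField.inclusion (Fermat.Agent.S18.s18_d5_le h)

theorem s37_tr_coe_incl {N N' : ℕ} [NeZero N] [NeZero N'] (h : N ∣ N')
    (x : modularFunctionFieldBar N) : (s37_tr_incl h x : LaurentSeries Qb) = x :=
  IntermediateField.coe_inclusion _ x

theorem s37_tr_heckeAlphaBar_eq (N ℓ : ℕ) [NeZero N] [NeZero ℓ] :
    heckeAlphaBar Qb N ℓ = s37_tr_incl (dvd_mul_right N ℓ) := rfl

/-- The arithmetic Galois actions on `F̄(N)` and `F̄(N * M)` are intertwined by the inclusion. -/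
theorem s37_tr_intertwines (N M : ℕ) [NeZero N] [NeZero M] (σ : Γ) :
    SemilinearAut.IntertwinesAlong (heckeAlphaBar Qb N M).toRingHom
      (arithmeticGalois (modularFunctionFieldFull N) σ)
      (arithmeticGalois (modularFunctionFieldFull (N * M)) σ) := by
  intro x
  apply Subtype.ext
  change ((arithmeticGalois (modularFunctionFieldFull (N * M)) σ • (heckeAlphaBar Qb N M x)
      : modularFunctionFieldBar (N * M)) : LaurentSeries Qb)
    = ((heckeAlphaBar Qb N M (arithmeticGalois (modularFunctionFieldFull N) σ • x)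
      : modularFunctionFieldBar (N * M)) : LaurentSeries Qb)
  rw [coe_arithmeticGalois_smul, coe_heckeAlphaBar, coe_heckeAlphaBar, coe_arithmeticGalois_smul]

/-- `lcm(N * M, N * ℓ) = N * M * ℓ` for distinct primes `M`, `ℓ`. -/
theorem s37_tr_lcm (N M ℓ : ℕ) (hM : M.Prime) (hℓ : ℓ.Prime) (hMℓ : M ≠ ℓ) (c : ℤ)
    (h1 : ((N * M : ℕ) : ℤ) ∣ c) (h2 : ((N * ℓ : ℕ) : ℤ) ∣ c) : ((N * M * ℓ : ℕ) : ℤ) ∣ c := by
  rw [Int.natCast_dvd] at h1 h2 ⊢
  have h3 := Nat.lcm_dvd h1 h2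
  have hcop : Nat.Coprime M ℓ := (Nat.coprime_primes hM hℓ).mpr hMℓ
  rw [Nat.lcm_mul_left, hcop.lcm_eq_mul, ← mul_assoc] at h3
  exact h3

theorem s37_tr_dvd (N M ℓ : ℕ) : N * ℓ ∣ N * M * ℓ := ⟨M, by ring⟩

/-- The characteristic polynomial identity in the square of levels `N, N * ℓ, N * M, N * M * ℓ`. -/
theorem s37_tr_chi_modular (N M ℓ : ℕ) [NeZero N] [NeZero M] [NeZero ℓ] (hM : M.Prime)
    (hMN : ¬ M ∣ N) (hℓ : ℓ.Prime) (hℓN : ¬ ℓ ∣ N * M)
    (hfin₂ : FiniteAlong Qb (heckeAlphaBar Qb N M))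
    (hfin₁ : FiniteAlong Qb (s37_tr_incl (s37_tr_dvd N M ℓ)))
    (g : modularFunctionFieldBar (N * M)) :
    s37_tr_chi (s37_tr_incl (s37_tr_dvd N M ℓ)) hfin₁ (heckeAlphaBar Qb (N * M) ℓ g)
      = (s37_tr_chi (heckeAlphaBar Qb N M) hfin₂ g).map (heckeAlphaBar Qb N ℓ).toRingHom := by
  have hMℓ : M ≠ ℓ := by
    rintro rfl
    exact hℓN (dvd_mul_left M N)
  have hMNℓ : ¬ M ∣ N * ℓ := by
    intro h
    rcases (Nat.Prime.dvd_mul hM).mp h with h | h
    · exact hMN h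
    · exact hMℓ ((Nat.prime_dvd_prime_iff_eq hM hℓ).mp h)
  have hrank : (modularFunctionFieldBar (N * ℓ)).relfinrank (modularFunctionFieldBar (N * M * ℓ))
      = (modularFunctionFieldBar N).relfinrank (modularFunctionFieldBar (N * M)) := by
    rw [Fermat.Agent.S18.s18_d5_relfinrank_mul_prime N M hM hMN]
    have h1 := Fermat.Agent.S18.s18_d5_relfinrank_mul_prime (N * ℓ) M hM hMNℓ
    rw [Nat.mul_right_comm N ℓ M] at h1
    exact h1
  exact s37_tr_chi_inclusion (K := Qb)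
    (Fermat.Agent.S18.s18_d5_le (dvd_mul_right N M))
    (Fermat.Agent.S18.s18_d5_le (dvd_mul_right N ℓ))
    (Fermat.Agent.S18.s18_d5_le (dvd_mul_right (N * M) ℓ))
    (Fermat.Agent.S18.s18_d5_le (s37_tr_dvd N M ℓ)) hrank
    (fun C' hB hC hD => s37_tr_compositum (N * M) (N * ℓ) (N * M * ℓ) (dvd_mul_right (N * M) ℓ)
      (s37_tr_dvd N M ℓ) (s37_tr_lcm N M ℓ hM hℓ hMℓ) C' hB hC hD)
    hfin₂ hfin₁ g

/-- (TR-i) Galois equivariance of the pull-back. -/
theorem s37_tr_galois (N M : ℕ) [NeZero N] [NeZero M]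
    [HasPrincipalDivisors Qb (modularFunctionFieldBar (N * M))]
    (ha : (heckeAlphaBar Qb N M).toRingHom.IsIntegral)
    (hFIa : FundamentalIdentityAlong Qb (heckeAlphaBar Qb N M) ha) (σ : Γ) (x : JZero N) :
    s37_tr_pic0Pull (heckeAlphaBar Qb N M) ha hFIa (σ • x)
      = σ • s37_tr_pic0Pull (heckeAlphaBar Qb N M) ha hFIa x := by
  rw [galois_smul_pic0_def, galois_smul_pic0_def]
  exact s37_tr_pic0Pull_smul (heckeAlphaBar Qb N M) ha _ _ (s37_tr_intertwines N M σ) hFIa x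

theorem s37_tr_comm_alpha (N M ℓ : ℕ) [NeZero N] [NeZero M] [NeZero ℓ] :
    (s37_tr_incl (s37_tr_dvd N M ℓ)).comp (heckeAlphaBar Qb N ℓ)
      = (heckeAlphaBar Qb (N * M) ℓ).comp (heckeAlphaBar Qb N M) := by
  apply AlgHom.ext
  intro x
  apply Subtype.ext
  rw [AlgHom.comp_apply, AlgHom.comp_apply, coe_heckeAlphaBar, coe_heckeAlphaBar,
    s37_tr_coe_incl, coe_heckeAlphaBar]

theorem s37_tr_comm_beta (N M ℓ : ℕ) [NeZero N] [NeZero M] [NeZero ℓ] :
    (s37_tr_incl (s37_tr_dvd N M ℓ)).comp (heckeBetaBar Qb N ℓ)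
      = (heckeBetaBar Qb (N * M) ℓ).comp (heckeAlphaBar Qb N M) := by
  apply AlgHom.ext
  intro x
  apply Subtype.ext
  rw [AlgHom.comp_apply, AlgHom.comp_apply, coe_heckeBetaBar, coe_heckeAlphaBar,
    s37_tr_coe_incl, coe_heckeBetaBar]

/-- (TR-ii), divisor level: `π^* ∘ T_ℓ = T_ℓ ∘ π^*`. -/
theorem s37_tr_hecke_div (N M ℓ : ℕ) [NeZero N] [NeZero M] [NeZero ℓ] (hM : M.Prime)
    (hMN : ¬ M ∣ N) (hℓ : ℓ.Prime) (hℓN : ¬ ℓ ∣ N * M)
    [HasPrincipalDivisors Qb (modularFunctionFieldBar (N * M))]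
    [HasPrincipalDivisors Qb (modularFunctionFieldBar (N * ℓ))]
    [HasPrincipalDivisors Qb (modularFunctionFieldBar (N * M * ℓ))]
    (ha : (heckeAlphaBar Qb N M).toRingHom.IsIntegral)
    (hα : (heckeAlphaBar Qb N ℓ).toRingHom.IsIntegral)
    (hβ : (heckeBetaBar Qb N ℓ).toRingHom.IsIntegral)
    (hα' : (heckeAlphaBar Qb (N * M) ℓ).toRingHom.IsIntegral)
    (hβ' : (heckeBetaBar Qb (N * M) ℓ).toRingHom.IsIntegral)
    (D : Divisor Qb (modularFunctionFieldBar N)) :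
    Divisor.pullbackAlong (heckeAlphaBar Qb N M) ha
        (Divisor.correspondence (heckeBetaBar Qb N ℓ) (heckeAlphaBar Qb N ℓ) hβ hα D)
      = Divisor.correspondence (heckeBetaBar Qb (N * M) ℓ) (heckeAlphaBar Qb (N * M) ℓ) hβ' hα'
          (Divisor.pullbackAlong (heckeAlphaBar Qb N M) ha D) := by
  have hF := s37_h_isFF_bar N
  have hF₁ := s37_h_isFF_bar (N * ℓ)
  have hF₂ := s37_h_isFF_bar (N * M)
  have hE := s37_h_isFF_bar (N * M * ℓ)
  have hfina := hF.finiteAlong hF₂ (heckeAlphaBar Qb N M)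
  have haℓ := hF₁.isIntegral hE (s37_tr_incl (s37_tr_dvd N M ℓ))
  have hfinaℓ := hF₁.finiteAlong hE (s37_tr_incl (s37_tr_dvd N M ℓ))
  have hc1 := hF.isIntegral hE ((s37_tr_incl (s37_tr_dvd N M ℓ)).comp (heckeBetaBar Qb N ℓ))
  have hc2 := hF.isIntegral hE ((heckeBetaBar Qb (N * M) ℓ).comp (heckeAlphaBar Qb N M))
  rw [Divisor.correspondence_apply, Divisor.correspondence_apply,
    s37_tr_baseChange (heckeAlphaBar Qb N ℓ) (heckeAlphaBar Qb N M)
      (s37_tr_incl (s37_tr_dvd N M ℓ)) (heckeAlphaBar Qb (N * M) ℓ) (s37_tr_comm_alpha N M ℓ)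
      hα ha haℓ hα' hF hF₁ hF₂ hE hfina hfinaℓ
      (fun g => s37_tr_chi_modular N M ℓ hM hMN hℓ hℓN hfina hfinaℓ g),
    ← s37_h_pullbackAlong_comp (heckeBetaBar Qb N ℓ) (s37_tr_incl (s37_tr_dvd N M ℓ)) hβ haℓ
      hc1,
    ← s37_h_pullbackAlong_comp (heckeAlphaBar Qb N M) (heckeBetaBar Qb (N * M) ℓ) ha hβ' hc2,
    s37_tr_pullbackAlong_congr (s37_tr_comm_beta N M ℓ) hc1 hc2]

/-- (TR-ii) on `Pic⁰`: the pull-back commutes with `T_ℓ`. -/
theorem s37_tr_hecke (N M ℓ : ℕ) [NeZero N] [NeZero M] [NeZero ℓ] (hM : M.Prime)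
    (hMN : ¬ M ∣ N) (hℓ : ℓ.Prime) (hℓN : ¬ ℓ ∣ N * M)
    [HasPrincipalDivisors Qb (modularFunctionFieldBar (N * M))]
    [HasPrincipalDivisors Qb (modularFunctionFieldBar (N * ℓ))]
    [HasPrincipalDivisors Qb (modularFunctionFieldBar (N * M * ℓ))]
    (ha : (heckeAlphaBar Qb N M).toRingHom.IsIntegral)
    (hFIa : FundamentalIdentityAlong Qb (heckeAlphaBar Qb N M) ha) (x : JZero N) :
    s37_tr_pic0Pull (heckeAlphaBar Qb N M) ha hFIa (heckeOperatorAlong Qb N ℓ x)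
      = heckeOperatorAlong Qb (N * M) ℓ (s37_tr_pic0Pull (heckeAlphaBar Qb N M) ha hFIa x) := by
  obtain ⟨hα, hβ, hP, hfin, hFI, hNF⟩ := s37_h_heckeInputsAlong N ℓ
  obtain ⟨hα', hβ', hP', hfin', hFI', hNF'⟩ := s37_h_heckeInputsAlong (N * M) ℓ
  rw [heckeOperatorAlong_eq hα hβ hFI hfin hNF, heckeOperatorAlong_eq hα' hβ' hFI' hfin' hNF']
  obtain ⟨D, rfl⟩ := Pic0.mk_surjective x
  rw [s37_tr_pic0Pull_mk]
  unfold heckePic0Bar
  change (heckeAlphaBar Qb N ℓ).toRingHom.IsIntegral at hα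
  change (heckeBetaBar Qb N ℓ).toRingHom.IsIntegral at hβ
  change (heckeAlphaBar Qb (N * M) ℓ).toRingHom.IsIntegral at hα'
  change (heckeBetaBar Qb (N * M) ℓ).toRingHom.IsIntegral at hβ'
  rw [Pic0.correspondence_mk, Pic0.correspondence_mk, s37_tr_pic0Pull_mk]
  refine congrArg Pic0.mk (Subtype.ext ?_)
  rw [s37_tr_coe_degZeroPull, Pic0.coe_degZeroCorrespondence, Pic0.coe_degZeroCorrespondence,
    s37_tr_coe_degZeroPull]
  exact s37_tr_hecke_div N M ℓ hM hMN hℓ hℓN ha hα hβ hα' hβ' D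

/-- **(TR)** pull-back from level `N` to level `N * M` (`M` prime, `M ∤ N`): Galois- and
`T_ℓ`-equivariant, with kernel killed by `M + 1`. -/
theorem s37_transfer (N M ℓ : ℕ) [NeZero N] [NeZero M] [NeZero ℓ] (hM : M.Prime) (hMN : ¬ M ∣ N)
    (hℓ : ℓ.Prime) (hℓN : ¬ ℓ ∣ N * M) :
    ∃ π : JZero N →+ JZero (N * M),
      (∀ (σ : Γ) (x : JZero N), π (σ • x) = σ • π x) ∧
      (∀ x : JZero N, π (heckeOperatorAlong Qb N ℓ x) = heckeOperatorAlong Qb (N * M) ℓ (π x)) ∧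
      (∀ x : JZero N, π x = 0 → (M + 1) • x = 0) := by
  have hF := s37_h_isFF_bar N
  have hF₁ := s37_h_isFF_bar (N * ℓ)
  have hF₂ := s37_h_isFF_bar (N * M)
  have hE := s37_h_isFF_bar (N * M * ℓ)
  haveI hP₁ := hF₁.hasPrincipalDivisors
  haveI hP₂ := hF₂.hasPrincipalDivisors
  haveI hPE := hE.hasPrincipalDivisors
  have ha := hF.isIntegral hF₂ (heckeAlphaBar Qb N M)
  have hfina := hF.finiteAlong hF₂ (heckeAlphaBar Qb N M)
  have hFIa := s37_tr_fundamentalIdentityAlong hF hF₂ (heckeAlphaBar Qb N M) ha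
  have hNa := s37_tr_normFormulaAlong hF (heckeAlphaBar Qb N M) hfina
  refine ⟨s37_tr_pic0Pull (heckeAlphaBar Qb N M) ha hFIa,
    fun σ x => s37_tr_galois N M ha hFIa σ x,
    fun x => s37_tr_hecke N M ℓ hM hMN hℓ hℓN ha hFIa x, fun x hx => ?_⟩
  have h1 := s37_tr_pic0Pull_ker hF hF₂ (heckeAlphaBar Qb N M) ha hFIa hfina hNa x hx
  have h2 : finrankAlong Qb (heckeAlphaBar Qb N M) = M + 1 := by
    rw [← Fermat.Agent.S18.s18_d5_relfinrank_mul_prime N M hM hMN]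
    exact s37_tr_finrankAlong_inclusion (Fermat.Agent.S18.s18_d5_le (dvd_mul_right N M))
  rw [h2] at h1
  exact h1

end

end Fermat.Agent.S37
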