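import Mathlib
import Fermat.Agent.S37.DetLevel
import Fermat.Agent.S37.EsPoint
import Fermat.Agent.S37.EpInertia
import Fermat.Agent.S37.RcCons
import Fermat.Agent.S37.RGen
import Fermat.Agent.S37.TrMain

/-!
# S37: the detector

`s37_detector` : for every prime `ℓ ∤ N p`, every valuation ring `A` of `ℚ̄` over `ℓ` and every
Frobenius `σ0` at `A`, there is a homomorphism `ψ` from `J₀(N)(ℚ̄)` to an abelian group which
is invariant under inertia, kills the Eichler–Shimura expression and is injective on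
`p`-power torsion.  This is the hypothesis `hdet` of `s37_of_detector`.
-/

set_option autoImplicit false
set_option synthInstance.maxHeartbeats 400000

namespace Fermat.Agent.S37

open ModularCurve AlgebraicCurve

noncomputable section

local notation "Qb" => AlgebraicClosure ℚ
local notation "Γ" => (AlgebraicClosure ℚ ≃ₐ[ℚ] AlgebraicClosure ℚ)

/-- (DET') the detector at every level `N` divisible by `M ∈ {2,3}` -/
theorem s37_detector_level (N ℓ M : ℕ) [NeZero N] [NeZero ℓ] (hℓ : ℓ.Prime) (hℓN : ¬ ℓ ∣ N)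
    (hℓM : ℓ ≠ M) (hM : M = 2 ∨ M = 3) (hMN : M ∣ N)
    (A : ValuationSubring Qb) (hA : A.LiesOverPrime ℓ) (σ0 : Γ) (hσ0 : A.IsFrobeniusAt σ0 ℓ) :
    ∃ (M' : Type) (_ : AddCommGroup M') (ψ : JZero N →+ M'),
      (∀ τ ∈ A.inertiaSubgroupIn ℚ, ∀ x : JZero N, ψ (τ • x) = ψ x) ∧
      (∀ x : JZero N, ψ (σ0 • σ0 • x - heckeOperatorAlong Qb N ℓ (σ0 • x) + ℓ • x) = 0) ∧
      (∀ (x : JZero N) (m : ℕ), ¬ ℓ ∣ m → m • x = 0 → ψ x = 0 → x = 0) := by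
  obtain ⟨t, ht⟩ := s37_dl_haupt_exists N M hM hMN
  exact s37_dl_level N ℓ hℓ hℓN A hA σ0 (s37_red N A t)
    (fun τ hτ P => s37_ep_red_inertia N ℓ M hℓ hℓN hℓM hMN A hA t ht τ hτ P)
    (fun hα hβ _ P => s37_es_pointwise N ℓ M hℓ hℓN hℓM hMN A hA t ht hα hβ σ0 hσ0 P)
    (fun y₁ y₂ h₁ h₂ hne₁ hne₂ D hD hr =>
      s37_r_cons N ℓ M hℓ hℓN hℓM hMN A hA t ht y₁ y₂ h₁ h₂ hne₁ hne₂ D hD hr)
    (fun f hf => s37_rn_r_gen N ℓ A hA f hf)

/-- the detector at level `N` obtained from the auxiliary level `M ∈ {2,3}`, `M ≠ ℓ` -/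
theorem s37_detector_aux (N ℓ M : ℕ) [NeZero N] [NeZero ℓ] (hℓ : ℓ.Prime) (hℓN : ¬ ℓ ∣ N)
    (hℓM : ℓ ≠ M) (hM : M = 2 ∨ M = 3)
    (A : ValuationSubring Qb) (hA : A.LiesOverPrime ℓ) (σ0 : Γ) (hσ0 : A.IsFrobeniusAt σ0 ℓ) :
    ∃ (M' : Type) (_ : AddCommGroup M') (ψ : JZero N →+ M'),
      (∀ τ ∈ A.inertiaSubgroupIn ℚ, ∀ x : JZero N, ψ (τ • x) = ψ x) ∧
      (∀ x : JZero N, ψ (σ0 • σ0 • x - heckeOperatorAlong Qb N ℓ (σ0 • x) + ℓ • x) = 0) ∧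
      (∀ (x : JZero N) (m : ℕ), ¬ ℓ ∣ m → m • x = 0 → ψ x = 0 → (M + 1) • x = 0) := by
  have hMprime : M.Prime := by
    rcases hM with rfl | rfl
    · exact Nat.prime_two
    · exact Nat.prime_three
  have : NeZero M := ⟨hMprime.ne_zero⟩
  by_cases hMN : M ∣ N
  · obtain ⟨M', i, ψ, h1, h2, h3⟩ := s37_detector_level N ℓ M hℓ hℓN hℓM hM hMN A hA σ0 hσ0
    refine ⟨M', i, ψ, h1, h2, fun x m hm hmx hψ => ?_⟩
    rw [h3 x m hm hmx hψ, smul_zero]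
  · have hℓNM : ¬ ℓ ∣ N * M := by
      intro h
      rcases (Nat.Prime.dvd_mul hℓ).mp h with h | h
      · exact hℓN h
      · exact hℓM ((Nat.prime_dvd_prime_iff_eq hℓ hMprime).mp h)
    have : NeZero (N * M) := ⟨Nat.mul_ne_zero (NeZero.ne N) (NeZero.ne M)⟩
    obtain ⟨π, hπ1, hπ2, hπ3⟩ := s37_transfer N M ℓ hMprime hMN hℓ hℓNM
    obtain ⟨M', i, ψ, h1, h2, h3⟩ :=
      s37_detector_level (N * M) ℓ M hℓ hℓNM hℓM hM (dvd_mul_left M N) A hA σ0 hσ0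
    refine ⟨M', i, ψ.comp π, ?_, ?_, ?_⟩
    · intro τ hτ x
      rw [AddMonoidHom.comp_apply, AddMonoidHom.comp_apply, hπ1, h1 τ hτ]
    · intro x
      rw [AddMonoidHom.comp_apply, map_add, map_sub, map_nsmul, hπ1, hπ1, hπ2, hπ1]
      exact h2 (π x)
    · intro x m hm hmx hψ
      have h4 : m • π x = 0 := by rw [← map_nsmul, hmx, map_zero]
      exact hπ3 x (h3 (π x) m hm h4 hψ)

/-- **The detector** (hypothesis `hdet` of `s37_of_detector`). -/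
theorem s37_detector (N p : ℕ) [NeZero N] (ℓ : ℕ) (hℓ : ℓ.Prime) (hℓNp : ¬ ℓ ∣ N * p)
    (A : ValuationSubring Qb) (hA : A.LiesOverPrime ℓ) (σ0 : Γ) (hσ0 : A.IsFrobeniusAt σ0 ℓ) :
    ∃ (M : Type) (_ : AddCommGroup M) (ψ : JZero N →+ M),
      (∀ τ ∈ A.inertiaSubgroupIn ℚ, ∀ x : JZero N, ψ (τ • x) = ψ x) ∧
      (∀ x : JZero N,
        ψ (σ0 • σ0 • x - heckeOperatorBar N ⟨ℓ, hℓ⟩ (σ0 • x) + ℓ • x) = 0) ∧
      (∀ x : JZero N, (∃ n : ℕ, p ^ n • x = 0) → ψ x = 0 → x = 0) := by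
  have : NeZero ℓ := ⟨hℓ.ne_zero⟩
  have hℓN : ¬ ℓ ∣ N := fun h => hℓNp (Dvd.dvd.mul_right h p)
  have hℓp : ¬ ℓ ∣ p := fun h => hℓNp (Dvd.dvd.mul_left h N)
  have hℓpn : ∀ n : ℕ, ¬ ℓ ∣ p ^ n := fun n h => hℓp (hℓ.dvd_of_dvd_pow h)
  have hT : ∀ y : JZero N, heckeOperatorBar N ⟨ℓ, hℓ⟩ y = heckeOperatorAlong Qb N ℓ y :=
    fun y => rfl
  -- a torsion point killed by two coprime integers vanishes
  have hcop : ∀ (x : JZero N) (a b : ℕ), Nat.Coprime a b → a • x = 0 → b • x = 0 → x = 0 := by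
    intro x a b hab ha hb
    have h1 : addOrderOf x ∣ a := addOrderOf_dvd_iff_nsmul_eq_zero.mpr ha
    have h2 : addOrderOf x ∣ b := addOrderOf_dvd_iff_nsmul_eq_zero.mpr hb
    have h3 : addOrderOf x ∣ 1 := by
      have := Nat.dvd_gcd h1 h2
      rwa [hab.gcd_eq_one] at this
    exact AddMonoid.addOrderOf_eq_one_iff.mp (Nat.dvd_one.mp h3)
  by_cases h2 : ℓ = 2
  · -- ℓ = 2: auxiliary level 3
    obtain ⟨M, i, ψ, h1, hP2, h3⟩ :=
      s37_detector_aux N ℓ 3 hℓ hℓN (by omega) (Or.inr rfl) A hA σ0 hσ0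
    refine ⟨M, i, ψ, h1, fun x => by rw [hT]; exact hP2 x, ?_⟩
    rintro x ⟨n, hn⟩ hψ
    have h4 : (3 + 1) • x = 0 := h3 x (p ^ n) (hℓpn n) hn hψ
    have hodd : Nat.Coprime (p ^ n) (3 + 1) := by
      have h5 : Nat.Coprime p 2 := by
        rw [Nat.coprime_comm, Nat.Prime.coprime_iff_not_dvd Nat.prime_two]
        exact h2 ▸ hℓp
      have h6 : Nat.Coprime (p ^ n) (2 ^ 2) := Nat.Coprime.pow n 2 h5
      exact h6
    exact hcop x _ _ hodd hn h4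
  by_cases h3' : ℓ = 3
  · -- ℓ = 3: auxiliary level 2
    obtain ⟨M, i, ψ, h1, hP2, h3⟩ :=
      s37_detector_aux N ℓ 2 hℓ hℓN (by omega) (Or.inl rfl) A hA σ0 hσ0
    refine ⟨M, i, ψ, h1, fun x => by rw [hT]; exact hP2 x, ?_⟩
    rintro x ⟨n, hn⟩ hψ
    have h4 : (2 + 1) • x = 0 := h3 x (p ^ n) (hℓpn n) hn hψ
    have hcop3 : Nat.Coprime (p ^ n) (2 + 1) := by
      have h5 : Nat.Coprime p 3 := by
        rw [Nat.coprime_comm, Nat.Prime.coprime_iff_not_dvd Nat.prime_three]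
        exact h3' ▸ hℓp
      exact Nat.Coprime.pow_left n h5
    exact hcop x _ _ hcop3 hn h4
  · -- ℓ ≥ 5: both auxiliary levels
    obtain ⟨M2, i2, ψ2, h12, hP22, h32⟩ :=
      s37_detector_aux N ℓ 2 hℓ hℓN h2 (Or.inl rfl) A hA σ0 hσ0
    obtain ⟨M3, i3, ψ3, h13, hP23, h33⟩ :=
      s37_detector_aux N ℓ 3 hℓ hℓN h3' (Or.inr rfl) A hA σ0 hσ0
    refine ⟨M2 × M3, inferInstance, ψ2.prod ψ3, ?_, ?_, ?_⟩
    · intro τ hτ x
      rw [AddMonoidHom.prod_apply, AddMonoidHom.prod_apply, h12 τ hτ, h13 τ hτ]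
    · intro x
      rw [AddMonoidHom.prod_apply, hT, hP22, hP23]
      rfl
    · rintro x ⟨n, hn⟩ hψ
      rw [AddMonoidHom.prod_apply, Prod.mk_eq_zero] at hψ
      have h4 : (2 + 1) • x = 0 := h32 x (p ^ n) (hℓpn n) hn hψ.1
      have h5 : (3 + 1) • x = 0 := h33 x (p ^ n) (hℓpn n) hn hψ.2
      exact hcop x (2 + 1) (3 + 1) (by norm_num) h4 h5

end

end Fermat.Agent.S37
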