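import Mathlib
import Fermat.Prelude.Def_ModularCurve_HeckeModule
import Fermat.Prelude.Def_ModularCurve_ReductionModL

/-!
# S37: shared definitions

* `s37_val P g` : the value of a function `g` at a place `P` (the constant `c` with
  `g - c ∈ 𝔪_P`; junk value `0` if there is none).
* `s37_coeffAut φ N` : the semilinear automorphism of the function field
  `modularFunctionFieldFullC k N = k(j(q^d) : d ∣ N) ⊆ k((q))` acting on coefficients through a
  ring automorphism `φ` of `k` (for `φ` = Frobenius this is the arithmetic Frobenius of the
  special fibre).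
-/

set_option autoImplicit false

open scoped Pointwise

namespace Fermat.Agent.S37

open AlgebraicCurve ModularCurve HahnSeries

noncomputable section

section Val

variable {K F : Type*} [Field K] [Field F] [Algebra K F]

open Classical in
/-- The value of `g` at the place `P`: the constant `c` with `g - c ∈ 𝔪_P` (`0` if none). -/
def s37_val (P : Place K F) (g : F) : K :=
  if h : ∃ c : K, g - algebraMap K F c ∈ P.toValuationSubring.nonunits then h.choose else 0

theorem s37_val_spec (P : Place K F) (g : F)
    (h : ∃ c : K, g - algebraMap K F c ∈ P.toValuationSubring.nonunits) :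
    g - algebraMap K F (s37_val P g) ∈ P.toValuationSubring.nonunits := by
  rw [s37_val, dif_pos h]
  exact h.choose_spec

/-- a non-zero constant is a unit at every place -/
theorem s37_const_not_mem_nonunits (P : Place K F) {c : K} (hc : c ≠ 0) :
    algebraMap K F c ∉ P.toValuationSubring.nonunits := by
  intro h
  rw [ValuationSubring.mem_nonunits_iff] at h
  have h1 : P.toValuationSubring.valuation (algebraMap K F c⁻¹) ≤ 1 :=
    (ValuationSubring.valuation_le_one_iff _ _).mpr (P.algebraMap_mem' c⁻¹)
  have h2 : P.toValuationSubring.valuation (algebraMap K F c * algebraMap K F c⁻¹) = 1 := by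
    rw [← map_mul, mul_inv_cancel₀ hc, map_one, map_one]
  rw [map_mul] at h2
  have h3 : P.toValuationSubring.valuation (algebraMap K F c) *
      P.toValuationSubring.valuation (algebraMap K F c⁻¹) < 1 := by
    calc _ ≤ P.toValuationSubring.valuation (algebraMap K F c) * 1 := by gcongr
      _ < 1 := by rwa [mul_one]
  exact absurd h2 (ne_of_lt h3)

theorem s37_val_eq (P : Place K F) {g : F} {c : K}
    (hc : g - algebraMap K F c ∈ P.toValuationSubring.nonunits) : s37_val P g = c := by
  have h := s37_val_spec P g ⟨c, hc⟩
  by_contra hne
  have h1 : algebraMap K F (c - s37_val P g) ∈ P.toValuationSubring.nonunits := by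
    have h2 : algebraMap K F (c - s37_val P g) =
        (g - algebraMap K F (s37_val P g)) - (g - algebraMap K F c) := by
      rw [map_sub]; ring
    rw [h2]
    exact P.toValuationSubring.nonunits.sub_mem h hc
  exact s37_const_not_mem_nonunits P (sub_ne_zero.mpr (Ne.symm hne)) h1

theorem s37_val_algebraMap (P : Place K F) (c : K) : s37_val P (algebraMap K F c) = c :=
  s37_val_eq P (by rw [sub_self]; exact (ValuationSubring.mem_nonunits_iff _).mpr (by simp))

end Val

section CoeffAut

variable {k : Type*} [Field k] (φ : k ≃+* k) (N : ℕ)

theorem s37_coeffMap_mem_full {φ : k →+* k} {x : LaurentSeries k}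
    (hx : x ∈ modularFunctionFieldFullC k N) :
    coeffMap φ x ∈ modularFunctionFieldFullC k N := by
  have key : ∀ y ∈ Subfield.closure
      (Set.range (algebraMap k (LaurentSeries k)) ∪ divisorExpansionsC k N),
      coeffMap φ y ∈ modularFunctionFieldFullC k N := by
    intro y hy
    induction hy using Subfield.closure_induction with
    | mem y hy =>
        rcases hy with ⟨a, rfl⟩ | ⟨d, hd, hdN, rfl⟩
        · rw [coeffMap_algebraMap]
          exact (modularFunctionFieldFullC k N).algebraMap_mem _
        · have h1 : coeffMap φ (qExpand k d (jqModC k)) = qExpand k d (jqModC k) := by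
            have := coeffMap_jqNModC φ d
            simpa [jqNModC] using this
          rw [h1]
          exact jqModCd_mem_full k N hdN
    | one => rw [map_one]; exact one_mem _
    | add a b _ _ ha hb => rw [map_add]; exact add_mem ha hb
    | neg a _ ha => rw [map_neg]; exact neg_mem ha
    | inv a _ ha => rw [map_inv₀]; exact inv_mem ha
    | mul a b _ _ ha hb => rw [map_mul]; exact mul_mem ha hb
  exact key x hx

/-- coefficientwise action of a ring automorphism of `k` on `k(j(q^d) : d ∣ N)` -/
def s37_coeffRingAut :
    (modularFunctionFieldFullC k N) ≃+* (modularFunctionFieldFullC k N) where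
  toFun x := ⟨coeffMap (φ : k →+* k) (x : LaurentSeries k), s37_coeffMap_mem_full N x.2⟩
  invFun x := ⟨coeffMap (φ.symm : k →+* k) (x : LaurentSeries k), s37_coeffMap_mem_full N x.2⟩
  left_inv x := Subtype.ext <| by
    show coeffMap (φ.symm : k →+* k) (coeffMap (φ : k →+* k) (x : LaurentSeries k))
      = (x : LaurentSeries k)
    rw [coeffMap_coeffMap,
      coeffMap_congr (g := RingHom.id k) (RingHom.ext fun a => φ.symm_apply_apply a)
        (x : LaurentSeries k), coeffMap_id]
  right_inv x := Subtype.ext <| by
    show coeffMap (φ : k →+* k) (coeffMap (φ.symm : k →+* k) (x : LaurentSeries k))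
      = (x : LaurentSeries k)
    rw [coeffMap_coeffMap,
      coeffMap_congr (g := RingHom.id k) (RingHom.ext fun a => φ.apply_symm_apply a)
        (x : LaurentSeries k), coeffMap_id]
  map_mul' x y :=
    Subtype.ext (map_mul (coeffMap (φ : k →+* k)) (x : LaurentSeries k) (y : LaurentSeries k))
  map_add' x y :=
    Subtype.ext (map_add (coeffMap (φ : k →+* k)) (x : LaurentSeries k) (y : LaurentSeries k))

@[simp]
theorem s37_coe_coeffRingAut_apply (x : modularFunctionFieldFullC k N) :
    (s37_coeffRingAut φ N x : LaurentSeries k) = coeffMap (φ : k →+* k) (x : LaurentSeries k) :=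
  rfl

/-- the semilinear automorphism of `k(j(q^d) : d ∣ N)` over `φ` -/
def s37_coeffAut : SemilinearAut k (modularFunctionFieldFullC k N) :=
  ⟨(s37_coeffRingAut φ N, φ), fun a => Subtype.ext (coeffMap_algebraMap (φ : k →+* k) a)⟩

@[simp]
theorem s37_toRingAut_coeffAut :
    SemilinearAut.toRingAut (s37_coeffAut φ N) = s37_coeffRingAut φ N := rfl

@[simp]
theorem s37_baseAut_coeffAut : SemilinearAut.baseAut (s37_coeffAut φ N) = φ := rfl

theorem s37_coe_coeffAut_smul (x : modularFunctionFieldFullC k N) :
    ((s37_coeffAut φ N • x : modularFunctionFieldFullC k N) : LaurentSeries k)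
      = coeffMap (φ : k →+* k) (x : LaurentSeries k) := rfl

end CoeffAut

section ValSemilinear

variable {K F : Type*} [Field K] [Field F] [Algebra K F]

/-- semilinear automorphisms transport values: `(g • f)(g • P) = g(f(P))` -/
theorem s37_val_smul (g : SemilinearAut K F) (P : Place K F) (f : F) {c : K}
    (hc : f - algebraMap K F c ∈ P.toValuationSubring.nonunits) :
    (g • f) - algebraMap K F (SemilinearAut.baseAut g c) ∈
      (g • P).toValuationSubring.nonunits := by
  have h1 : (g • f) - algebraMap K F (SemilinearAut.baseAut g c) = g • (f - algebraMap K F c) := by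
    rw [smul_sub, SemilinearAut.smul_algebraMap]
  rw [h1]
  set x := f - algebraMap K F c with hx
  -- `x` is a non-unit of `P`; transport along the ring isomorphism
  rw [ValuationSubring.mem_nonunits_iff_exists_mem_maximalIdeal] at hc ⊢
  obtain ⟨hxP, hxm⟩ := hc
  have hmem : g • x ∈ (g • P).toValuationSubring :=
    ValuationSubring.smul_mem_pointwise_smul g x P.toValuationSubring hxP
  refine ⟨hmem, ?_⟩
  rw [IsLocalRing.mem_maximalIdeal, mem_nonunits_iff] at hxm ⊢
  intro hu
  apply hxm
  set e := SemilinearAut.smulValuationSubringEquiv g P.toValuationSubring with he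
  have h2 : e ⟨x, hxP⟩ = ⟨g • x, hmem⟩ := rfl
  rw [← h2] at hu
  exact (MulEquiv.isUnit_map e).mp hu

end ValSemilinear

end

end Fermat.Agent.S37
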