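import Fermat.Agent.S37.DetInj
import Fermat.Agent.S37.HHecke

/-!
# S37: the (P2) clause of the detector from the pointwise Eichler–Shimura relation

For any place map `r`, the pointwise Eichler–Shimura relation
`r_*(T_ℓ P) = [r(σ0 P)] + ℓ [r(σ0⁻¹ P)]` (conclusion of `s37_es_pointwise`) implies that the
detector `ψ = s37_di_det r` kills `σ0² x - T_ℓ (σ0 x) + ℓ x` for every `x ∈ J₀(N)`.
-/

set_option autoImplicit false
set_option synthInstance.maxHeartbeats 400000

open ModularCurve AlgebraicCurve

noncomputable section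

namespace Fermat.Agent.S37

local notation "Qb" => AlgebraicClosure ℚ
local notation "Γ" => (AlgebraicClosure ℚ ≃ₐ[ℚ] AlgebraicClosure ℚ)

/-- generic: a correspondence-type relation on single places extends to all divisors -/
theorem s37_de_div_gen {K F : Type*} [Field K] [Field F] [Algebra K F] {Y : Type*}
    (r : Place K F → Y) (g : SemilinearAut K F) (T : Divisor K F →+ Divisor K F) (ℓ : ℕ)
    (hES : ∀ P : Place K F,
      Finsupp.mapDomain r (T (Finsupp.single P 1)) =
        Finsupp.single (r (g • P)) 1 + Finsupp.single (r (g⁻¹ • P)) (ℓ : ℤ))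
    (D : Divisor K F) :
    Finsupp.mapDomain r (T (g • D)) =
      Finsupp.mapDomain r (g • g • D) + ℓ • Finsupp.mapDomain r D := by
  have hs : ∀ (P : Place K F) (n : ℤ), Finsupp.mapDomain r (T (Finsupp.single P n)) =
      Finsupp.single (r (g • P)) n + Finsupp.single (r (g⁻¹ • P)) (n * ℓ) := by
    intro P n
    have h1 : (Finsupp.single P n : Divisor K F) = n • Finsupp.single P 1 := by
      rw [Finsupp.smul_single, smul_eq_mul, mul_one]
    rw [h1, map_zsmul, Finsupp.mapDomain_smul, hES P, smul_add, Finsupp.smul_single,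
      Finsupp.smul_single, smul_eq_mul, smul_eq_mul, mul_one]
  induction D using Finsupp.induction_linear with
  | zero =>
      rw [smul_zero, smul_zero, map_zero, Finsupp.mapDomain_zero, smul_zero, add_zero]
  | add D E hD hE =>
      have e1 : g • (D + E) = g • D + g • E := smul_add g D E
      have e2 : g • g • (D + E) = g • g • D + g • g • E := by
        rw [smul_add, smul_add]
      rw [e2, e1, map_add, Finsupp.mapDomain_add, hD, hE, Finsupp.mapDomain_add,
        Finsupp.mapDomain_add, nsmul_add]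
      abel
  | single P n =>
      rw [SemilinearAut.smul_single, SemilinearAut.smul_single, hs (g • P) n, inv_smul_smul,
        Finsupp.mapDomain_single, Finsupp.mapDomain_single, Finsupp.smul_single, nsmul_eq_mul,
        mul_comm]

/-- generic Pic0 form: the detector of `r` kills `g² x - T (g x) + ℓ x`, for a degree-zero
preserving endomorphism `T₀` of divisors inducing `T` on `Pic0`. -/
theorem s37_de_glue_gen {K F : Type*} [Field K] [Field F] [Algebra K F] {Y : Type*}
    (r : Place K F → Y) (g : SemilinearAut K F) (T : Divisor K F →+ Divisor K F) (ℓ : ℕ)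
    (hES : ∀ P : Place K F,
      Finsupp.mapDomain r (T (Finsupp.single P 1)) =
        Finsupp.single (r (g • P)) 1 + Finsupp.single (r (g⁻¹ • P)) (ℓ : ℤ))
    (T0 : Divisor.degZero (K := K) (F := F) →+ Divisor.degZero (K := K) (F := F))
    (hT0 : ∀ D, (T0 D : Divisor K F) = T (D : Divisor K F))
    (TP : Pic0 K F →+ Pic0 K F) (hTP : ∀ D, TP (Pic0.mk D) = Pic0.mk (T0 D))
    (x : Pic0 K F) :
    s37_di_det r (g • g • x - TP (g • x) + ℓ • x) = 0 := by
  obtain ⟨D, rfl⟩ := Pic0.mk_surjective x
  rw [SemilinearAut.pic0_smul_mk, SemilinearAut.pic0_smul_mk, hTP, map_add, map_sub, map_nsmul,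
    s37_di_det_mk, s37_di_det_mk, s37_di_det_mk, hT0, SemilinearAut.coe_degZeroSMulHom,
    SemilinearAut.coe_degZeroSMulHom, s37_de_div_gen r g T ℓ hES (D : Divisor K F),
    QuotientAddGroup.mk_add, QuotientAddGroup.mk_nsmul]
  abel

/-- **(P2) from the pointwise Eichler–Shimura relation**: the detector of `r` kills
`σ0² x - T_ℓ (σ0 x) + ℓ x`. -/
theorem s37_de_glue (N ℓ : ℕ) [NeZero N] [NeZero ℓ] {Y : Type*}
    (r : Place Qb (modularFunctionFieldBar N) → Y) (σ0 : Γ)
    (hα : HeckeAlphaBarIntegral Qb N ℓ) (hβ : HeckeBetaBarIntegral Qb N ℓ)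
    [HasPrincipalDivisors Qb (modularFunctionFieldBar (N * ℓ))]
    (hES : ∀ P : Place Qb (modularFunctionFieldBar N),
      Finsupp.mapDomain r (heckeDivBar hα hβ (Finsupp.single P 1)) =
        Finsupp.single (r (arithmeticGalois (modularFunctionFieldFull N) σ0 • P)) 1 +
          Finsupp.single (r (arithmeticGalois (modularFunctionFieldFull N) σ0⁻¹ • P)) (ℓ : ℤ))
    (x : JZero N) :
    s37_di_det r (σ0 • σ0 • x - heckeOperatorAlong Qb N ℓ (σ0 • x) + ℓ • x) = 0 := by
  obtain ⟨hα', hβ', hP', hfin, hFI, hN⟩ := s37_h_heckeInputsAlong N ℓ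
  have hT : heckeOperatorAlong Qb N ℓ = heckePic0Bar hα hβ hFI hfin hN :=
    heckeOperatorAlong_eq hα hβ hFI hfin hN
  have hginv : arithmeticGalois (modularFunctionFieldFull N) σ0⁻¹ =
      (arithmeticGalois (modularFunctionFieldFull N) σ0)⁻¹ := map_inv _ σ0
  rw [hT, galois_smul_pic0_def, galois_smul_pic0_def]
  exact s37_de_glue_gen r (arithmeticGalois (modularFunctionFieldFull N) σ0)
    (heckeDivBar hα hβ) ℓ (fun P => by rw [← hginv]; exact hES P)
    (Pic0.degZeroCorrespondence (heckeBetaBar Qb N ℓ) (heckeAlphaBar Qb N ℓ) hβ hα hFI)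
    (fun D => rfl) (heckePic0Bar hα hβ hFI hfin hN) (fun D => rfl) x

end Fermat.Agent.S37
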