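import Fermat.Agent.S18.Inj
import Fermat.Agent.S24.PlaceBasic

/-!
# S37: the detector of a place map and its injectivity on torsion prime to `ℓ`

* Generic part: for any map `r : Place K F → Y`, the group
  `s37_di_group r = (Y →₀ ℤ) ⧸ r_*(principal divisors)` and the additive map
  `s37_di_det r : Pic0 K F →+ s37_di_group r`, `[D] ↦ [r_* D]`
  (well defined by construction).
* `s37_di_inj_core` / `s37_di_inj` : for the modular function field of a level `N` prime to `ℓ`
  and any `r` satisfying (CONS) (a ratio of Gauss-primitive functions whose divisor has trivial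
  `r`-image reduces to a constant) and (GEN) (every nonzero function is a constant times a ratio
  of Gauss-primitive functions): the detector is injective on the `m`-torsion, `ℓ ∤ m`
  (via `s18_inj`).
-/

set_option autoImplicit false
set_option synthInstance.maxHeartbeats 400000

open ModularCurve AlgebraicCurve HahnSeries

noncomputable section

namespace Fermat.Agent.S37

open Fermat.Agent.S18 Fermat.Agent.S24

section Generic

variable {K F : Type*} [Field K] [Field F] [Algebra K F] {Y : Type*} (r : Place K F → Y)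

/-- The relations of the detector group: the `r`-images of the principal divisors. -/
def s37_di_rel : AddSubgroup (Y →₀ ℤ) :=
  (Divisor.principal (K := K) (F := F)).map (Finsupp.mapDomain.addMonoidHom r)

/-- The detector group `(Y →₀ ℤ) ⧸ r_*(principal divisors)`. -/
abbrev s37_di_group : Type _ := (Y →₀ ℤ) ⧸ s37_di_rel r

/-- The detector `[D] ↦ [r_* D]`. -/
def s37_di_det : Pic0 K F →+ s37_di_group r :=
  QuotientAddGroup.map _ _
    ((Finsupp.mapDomain.addMonoidHom r).comp (Divisor.degZero (K := K) (F := F)).subtype) (by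
      rintro ⟨D, hD0⟩ hD
      rw [AddSubgroup.mem_addSubgroupOf] at hD
      exact ⟨D, hD, rfl⟩)

theorem s37_di_det_mk (D : Divisor.degZero (K := K) (F := F)) :
    s37_di_det r (Pic0.mk D) =
      QuotientAddGroup.mk (Finsupp.mapDomain r (D : Divisor K F)) := rfl

theorem s37_di_det_mk_eq_zero_iff (D : Divisor.degZero (K := K) (F := F)) :
    s37_di_det r (Pic0.mk D) = 0 ↔
      ∃ E ∈ Divisor.principal (K := K) (F := F),
        Finsupp.mapDomain r (D : Divisor K F) = Finsupp.mapDomain r E := by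
  rw [s37_di_det_mk, QuotientAddGroup.eq_zero_iff]
  constructor
  · rintro ⟨E, hE, hEr⟩
    exact ⟨E, hE, hEr.symm⟩
  · rintro ⟨E, hE, hEr⟩
    exact ⟨E, hE, hEr.symm⟩

/-- The detector kills the class of `D` as soon as `r_* D = 0`. -/
theorem s37_di_det_mk_eq_zero_of_map_eq_zero (D : Divisor.degZero (K := K) (F := F))
    (h : Finsupp.mapDomain r (D : Divisor K F) = 0) : s37_di_det r (Pic0.mk D) = 0 := by
  rw [s37_di_det_mk, h]
  rfl

/-- Equality of detector values from equality of the `r`-images of the divisors. -/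
theorem s37_di_det_mk_eq_of_map_eq (D E : Divisor.degZero (K := K) (F := F))
    (h : Finsupp.mapDomain r (D : Divisor K F) = Finsupp.mapDomain r (E : Divisor K F)) :
    s37_di_det r (Pic0.mk D) = s37_di_det r (Pic0.mk E) := by
  rw [s37_di_det_mk, s37_di_det_mk, h]

end Generic

section Modular

local notation "Qb" => AlgebraicClosure ℚ

/-- **Injectivity of the detector on torsion prime to `ℓ`, divisor form.**  `r` is any map on
the places of the modular function field of level `N` (`ℓ ∤ N`) satisfying (CONS) and (GEN);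
if `m • D` is principal (`ℓ ∤ m`) and `r_* D = r_* E` for a principal divisor `E`, then `D` is
principal. -/
theorem s37_di_inj_core (N : ℕ) [NeZero N] {ℓ : ℕ} [Fact ℓ.Prime] (hℓN : ¬ ℓ ∣ N)
    (A : ValuationSubring Qb) (hA : A.LiesOverPrime ℓ) {Y : Type*}
    (r : Place Qb (modularFunctionFieldBar N) → Y)
    (hcons : ∀ (y₁ y₂ : LaurentSeries A)
      (h₁ : coeffMap A.subtype y₁ ∈ modularFunctionFieldBar N)
      (h₂ : coeffMap A.subtype y₂ ∈ modularFunctionFieldBar N),
      coeffMap (IsLocalRing.residue A) y₁ ≠ 0 → coeffMap (IsLocalRing.residue A) y₂ ≠ 0 →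
      ∀ D : Divisor Qb (modularFunctionFieldBar N),
        (∀ P, D P = P.ord ((⟨_, h₁⟩ : modularFunctionFieldBar N) / ⟨_, h₂⟩)) →
        Finsupp.mapDomain r D = 0 →
        ∃ c : IsLocalRing.ResidueField A, c ≠ 0 ∧
          coeffMap (IsLocalRing.residue A) y₁ =
            HahnSeries.C c * coeffMap (IsLocalRing.residue A) y₂)
    (hgen : ∀ f : modularFunctionFieldBar N, f ≠ 0 →
      ∃ (c : Qb) (y₁ y₂ : LaurentSeries A)
        (h₁ : coeffMap A.subtype y₁ ∈ modularFunctionFieldBar N)
        (h₂ : coeffMap A.subtype y₂ ∈ modularFunctionFieldBar N),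
        c ≠ 0 ∧ coeffMap (IsLocalRing.residue A) y₁ ≠ 0 ∧
        coeffMap (IsLocalRing.residue A) y₂ ≠ 0 ∧
        f = algebraMap Qb (modularFunctionFieldBar N) c *
          ((⟨_, h₁⟩ : modularFunctionFieldBar N) / ⟨_, h₂⟩))
    (m : ℕ) (hm : ¬ ℓ ∣ m) (D : Divisor Qb (modularFunctionFieldBar N))
    (hmD : m • D ∈ Divisor.principal (K := Qb) (F := modularFunctionFieldBar N))
    (hrD : ∃ E ∈ Divisor.principal (K := Qb) (F := modularFunctionFieldBar N),
      Finsupp.mapDomain r D = Finsupp.mapDomain r E) :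
    D ∈ Divisor.principal (K := Qb) (F := modularFunctionFieldBar N) := by
  have hm0 : 0 < m := Nat.pos_of_ne_zero (fun h0 => hm (h0 ▸ dvd_zero ℓ))
  obtain ⟨E, hE, hrE⟩ := hrD
  -- `D' = D - E` has `m • D'` principal and `r_* D' = 0`
  have hmD' : m • (D - E) ∈
      Divisor.principal (K := Qb) (F := modularFunctionFieldBar N) := by
    rw [smul_sub]
    exact sub_mem hmD (nsmul_mem hE m)
  obtain ⟨f', hf'0, hf'⟩ := hmD'
  obtain ⟨c, y₁, y₂, h₁, h₂, hc0, hne₁, hne₂, hfeq⟩ := hgen f' hf'0
  have hq0 : (⟨_, h₁⟩ : modularFunctionFieldBar N) / ⟨_, h₂⟩ ≠ 0 := by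
    intro h0
    rw [h0, mul_zero] at hfeq
    exact hf'0 hfeq
  have hcF : algebraMap Qb (modularFunctionFieldBar N) c ≠ 0 := (_root_.map_ne_zero _).mpr hc0
  have hD'' : ∀ P : Place Qb (modularFunctionFieldBar N),
      (m • (D - E)) P = P.ord ((⟨_, h₁⟩ : modularFunctionFieldBar N) / ⟨_, h₂⟩) := by
    intro P
    rw [hf' P, hfeq, P.ord_mul hcF hq0, ord_algebraMap, zero_add]
  have hr0 : Finsupp.mapDomain r (m • (D - E)) = 0 := by
    rw [Finsupp.mapDomain_smul, Finsupp.mapDomain_sub, hrE, sub_self, smul_zero]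
  obtain ⟨cb, hcb0, hcb⟩ := hcons y₁ y₂ h₁ h₂ hne₁ hne₂ _ hD'' hr0
  obtain ⟨a, rfl⟩ := IsLocalRing.residue_surjective cb
  have ha0 : (a : Qb) ≠ 0 := by
    intro h0
    apply hcb0
    have : a = 0 := Subtype.ext h0
    rw [this, map_zero]
  have haF : algebraMap Qb (modularFunctionFieldBar N) (a : Qb) ≠ 0 :=
    (_root_.map_ne_zero _).mpr ha0
  -- replace `y₂` by `a * y₂`
  have h₂'eq : coeffMap A.subtype (HahnSeries.single 0 a * y₂) =
      algebraMap Qb (LaurentSeries Qb) (a : Qb) * coeffMap A.subtype y₂ := by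
    rw [map_mul, coeffMap_single, algebraMap_laurentSeries_eq_single]
    rfl
  have h₂' : coeffMap A.subtype (HahnSeries.single 0 a * y₂) ∈ modularFunctionFieldBar N := by
    rw [h₂'eq]
    exact mul_mem ((modularFunctionFieldBar N).algebraMap_mem _) h₂
  have hred : coeffMap (IsLocalRing.residue A) y₁ =
      coeffMap (IsLocalRing.residue A) (HahnSeries.single 0 a * y₂) := by
    rw [hcb, map_mul, coeffMap_single, HahnSeries.C_apply]
  have hne : coeffMap (IsLocalRing.residue A) (HahnSeries.single 0 a * y₂) ≠ 0 := by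
    rw [← hred]
    exact hne₁
  have hy₂' : (⟨_, h₂'⟩ : modularFunctionFieldBar N) =
      algebraMap Qb (modularFunctionFieldBar N) (a : Qb) * ⟨_, h₂⟩ :=
    Subtype.ext h₂'eq
  have hy₂0 : (⟨_, h₂⟩ : modularFunctionFieldBar N) ≠ 0 := by
    intro h0
    rw [h0, div_zero] at hq0
    exact hq0 rfl
  have hquot : (⟨_, h₁⟩ : modularFunctionFieldBar N) / ⟨_, h₂'⟩ =
      ((⟨_, h₁⟩ : modularFunctionFieldBar N) / ⟨_, h₂⟩) *
        (algebraMap Qb (modularFunctionFieldBar N) (a : Qb))⁻¹ := by
    rw [hy₂']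
    field_simp
  have hordq : ∀ P : Place Qb (modularFunctionFieldBar N),
      P.ord ((⟨_, h₁⟩ : modularFunctionFieldBar N) / ⟨_, h₂'⟩) = m * (D - E) P := by
    intro P
    rw [hquot, P.ord_mul hq0 (inv_ne_zero haF), P.ord_inv, ord_algebraMap, neg_zero, add_zero,
      ← hD'' P, Finsupp.smul_apply, nsmul_eq_mul]
  obtain ⟨x, hx⟩ := s18_inj N hℓN A hA m hm0 hm y₁ (HahnSeries.single 0 a * y₂) h₁ h₂' hred hne
    (fun P => by rw [hordq P]; exact dvd_mul_right _ _)
  have hx0 : x ≠ 0 := by
    intro h0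
    rw [h0, zero_pow hm0.ne', hquot] at hx
    exact mul_ne_zero hq0 (inv_ne_zero haF) hx.symm
  -- `D - E` is the divisor of `x`
  have hDE : D - E ∈ Divisor.principal (K := Qb) (F := modularFunctionFieldBar N) := by
    refine ⟨x, hx0, fun P => ?_⟩
    have h1 := congrArg P.ord hx
    rw [ord_pow, hordq P] at h1
    have hm' : (m : ℤ) ≠ 0 := Nat.cast_ne_zero.mpr hm0.ne'
    exact (mul_left_cancel₀ hm' h1).symm
  have := add_mem hDE hE
  rwa [sub_add_cancel] at this

/-- **Injectivity of the detector on torsion prime to `ℓ`** (the third clause of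
`s37_detector_level` for `ψ = s37_di_det r`). -/
theorem s37_di_inj (N : ℕ) [NeZero N] {ℓ : ℕ} [Fact ℓ.Prime] (hℓN : ¬ ℓ ∣ N)
    (A : ValuationSubring Qb) (hA : A.LiesOverPrime ℓ) {Y : Type*}
    (r : Place Qb (modularFunctionFieldBar N) → Y)
    (hcons : ∀ (y₁ y₂ : LaurentSeries A)
      (h₁ : coeffMap A.subtype y₁ ∈ modularFunctionFieldBar N)
      (h₂ : coeffMap A.subtype y₂ ∈ modularFunctionFieldBar N),
      coeffMap (IsLocalRing.residue A) y₁ ≠ 0 → coeffMap (IsLocalRing.residue A) y₂ ≠ 0 →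
      ∀ D : Divisor Qb (modularFunctionFieldBar N),
        (∀ P, D P = P.ord ((⟨_, h₁⟩ : modularFunctionFieldBar N) / ⟨_, h₂⟩)) →
        Finsupp.mapDomain r D = 0 →
        ∃ c : IsLocalRing.ResidueField A, c ≠ 0 ∧
          coeffMap (IsLocalRing.residue A) y₁ =
            HahnSeries.C c * coeffMap (IsLocalRing.residue A) y₂)
    (hgen : ∀ f : modularFunctionFieldBar N, f ≠ 0 →
      ∃ (c : Qb) (y₁ y₂ : LaurentSeries A)
        (h₁ : coeffMap A.subtype y₁ ∈ modularFunctionFieldBar N)
        (h₂ : coeffMap A.subtype y₂ ∈ modularFunctionFieldBar N),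
        c ≠ 0 ∧ coeffMap (IsLocalRing.residue A) y₁ ≠ 0 ∧
        coeffMap (IsLocalRing.residue A) y₂ ≠ 0 ∧
        f = algebraMap Qb (modularFunctionFieldBar N) c *
          ((⟨_, h₁⟩ : modularFunctionFieldBar N) / ⟨_, h₂⟩))
    (x : JZero N) (m : ℕ) (hm : ¬ ℓ ∣ m) (hmx : m • x = 0) (hψ : s37_di_det r x = 0) :
    x = 0 := by
  obtain ⟨D, rfl⟩ := Pic0.mk_surjective x
  have hmD : m • (D : Divisor Qb (modularFunctionFieldBar N)) ∈
      Divisor.principal (K := Qb) (F := modularFunctionFieldBar N) := by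
    have h1 : (QuotientAddGroup.mk (m • D) : JZero N) = 0 := by
      rw [QuotientAddGroup.mk_nsmul]
      exact hmx
    have h2 := (QuotientAddGroup.eq_zero_iff _).mp h1
    rw [AddSubgroup.mem_addSubgroupOf] at h2
    exact h2
  have hrD := (s37_di_det_mk_eq_zero_iff r D).mp hψ
  have hD := s37_di_inj_core N hℓN A hA r hcons hgen m hm _ hmD hrD
  exact (QuotientAddGroup.eq_zero_iff _).mpr (AddSubgroup.mem_addSubgroupOf.mpr hD)

end Modular

end Fermat.Agent.S37
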