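import Fermat.Agent.S24.ModEmb

/-!
# S37, block ES1 (W), analytic part: the Atkin–Lehner map on the upper half plane

For coprime `ℓ, N` choose integers `b, d'` with `ℓ d' - N b = 1`, put
`γ₀ = (1 b; N ℓd') ∈ SL₂(ℤ)` and `w τ = γ₀ • (ℓ τ)`.  Then for `N = d n`:
`J(d · w τ) = J(d ℓ τ)` and `J(d ℓ · w τ) = J(d τ)`.
-/

set_option autoImplicit false

open UpperHalfPlane ModularCurve
open scoped MatrixGroups

noncomputable section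

namespace Fermat.Agent.S37

open Fermat.Agent.S28 (Jfun scaleH)
open Fermat.Agent.S24

/-- The matrix `(x y; z t)` of determinant one as an element of `SL₂(ℤ)`. -/
def s37_es_mk (x y z t : ℤ) (h : x * t - y * z = 1) : SL(2, ℤ) :=
  ⟨!![x, y; z, t], by rw [Matrix.det_fin_two_of]; exact h⟩

theorem s37_es_coe_mk_smul (x y z t : ℤ) (h : x * t - y * z = 1) (τ : ℍ) :
    ((s37_es_mk x y z t h • τ : ℍ) : ℂ) = ((x : ℂ) * τ + (y : ℂ)) / ((z : ℂ) * τ + (t : ℂ)) := by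
  rw [Fermat.Agent.S28.hermite_coe_smul]
  rfl

theorem s37_es_denom_ne_zero (x y z t : ℤ) (h : x * t - y * z = 1) (τ : ℍ) :
    (z : ℂ) * τ + (t : ℂ) ≠ 0 :=
  Fermat.Agent.S28.hermite_denom_ne_zero (s37_es_mk x y z t h) τ

/-- The Atkin–Lehner map `τ ↦ γ₀ • (ℓ τ)`, `γ₀ = (1 b; N ℓd')`. -/
def s37_es_w (N ℓ : ℕ) [NeZero ℓ] (b d' : ℤ) (h : (ℓ : ℤ) * d' - N * b = 1) (τ : ℍ) : ℍ :=
  s37_es_mk 1 b N (ℓ * d') (by linarith) • scaleH ℓ τ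

theorem s37_es_coe_w (N ℓ : ℕ) [NeZero ℓ] (b d' : ℤ) (h : (ℓ : ℤ) * d' - N * b = 1) (τ : ℍ) :
    (s37_es_w N ℓ b d' h τ : ℂ) =
      ((ℓ : ℂ) * τ + (b : ℂ)) / ((N : ℂ) * ((ℓ : ℂ) * τ) + (ℓ : ℂ) * (d' : ℂ)) := by
  unfold s37_es_w
  rw [s37_es_coe_mk_smul, Fermat.Agent.S28.coe_scaleH]
  push_cast
  ring

theorem s37_es_w_denom_ne_zero (N ℓ : ℕ) [NeZero ℓ] (b d' : ℤ) (h : (ℓ : ℤ) * d' - N * b = 1)
    (τ : ℍ) : (N : ℂ) * ((ℓ : ℂ) * τ) + (ℓ : ℂ) * (d' : ℂ) ≠ 0 := by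
  have h1 := s37_es_denom_ne_zero 1 b N (ℓ * d') (by linarith) (scaleH ℓ τ)
  rw [Fermat.Agent.S28.coe_scaleH] at h1
  push_cast at h1
  exact h1

/-- `J(d · w τ) = J(d ℓ τ)` for `N = d n`. -/
theorem s37_es_J_scale_w (N ℓ : ℕ) [NeZero ℓ] (b d' : ℤ) (h : (ℓ : ℤ) * d' - N * b = 1)
    (d n : ℕ) [NeZero d] [NeZero (d * ℓ)] (hdn : N = d * n) (τ : ℍ) :
    Jfun (scaleH d (s37_es_w N ℓ b d' h τ)) = Jfun (scaleH (d * ℓ) τ) := by
  have hdet : (1 : ℤ) * (ℓ * d') - (d * b) * n = 1 := by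
    have : (N : ℤ) = d * n := by exact_mod_cast hdn
    rw [this] at h
    linarith
  have key : scaleH d (s37_es_w N ℓ b d' h τ) =
      s37_es_mk 1 (d * b) n (ℓ * d') hdet • scaleH (d * ℓ) τ := by
    apply UpperHalfPlane.ext
    rw [Fermat.Agent.S28.coe_scaleH, s37_es_coe_w, s37_es_coe_mk_smul,
      Fermat.Agent.S28.coe_scaleH]
    have h1 := s37_es_w_denom_ne_zero N ℓ b d' h τ
    have h2 := s37_es_denom_ne_zero 1 (d * b) n (ℓ * d') hdet (scaleH (d * ℓ) τ)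
    rw [Fermat.Agent.S28.coe_scaleH] at h2
    have hN : (N : ℂ) = (d : ℂ) * (n : ℂ) := by exact_mod_cast congrArg (Nat.cast : ℕ → ℂ) hdn
    push_cast at h2 ⊢
    rw [hN] at h1 ⊢
    rw [mul_div_assoc', div_eq_div_iff h1 h2]
    ring
  rw [key, Fermat.Agent.S28.Jfun_smul]

/-- `J(d ℓ · w τ) = J(d τ)` for `N = d n`. -/
theorem s37_es_J_scale_mul_w (N ℓ : ℕ) [NeZero ℓ] (b d' : ℤ) (h : (ℓ : ℤ) * d' - N * b = 1)
    (d n : ℕ) [NeZero d] [NeZero (d * ℓ)] (hdn : N = d * n) (τ : ℍ) :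
    Jfun (scaleH (d * ℓ) (s37_es_w N ℓ b d' h τ)) = Jfun (scaleH d τ) := by
  have hdet : (ℓ : ℤ) * d' - (d * b) * n = 1 := by
    have : (N : ℤ) = d * n := by exact_mod_cast hdn
    rw [this] at h
    linarith
  have hℓ : (ℓ : ℂ) ≠ 0 := Nat.cast_ne_zero.mpr (NeZero.ne ℓ)
  have key : scaleH (d * ℓ) (s37_es_w N ℓ b d' h τ) =
      s37_es_mk ℓ (d * b) n d' hdet • scaleH d τ := by
    apply UpperHalfPlane.ext
    rw [Fermat.Agent.S28.coe_scaleH, s37_es_coe_w, s37_es_coe_mk_smul,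
      Fermat.Agent.S28.coe_scaleH]
    have h1 := s37_es_w_denom_ne_zero N ℓ b d' h τ
    have h2 := s37_es_denom_ne_zero ℓ (d * b) n d' hdet (scaleH d τ)
    rw [Fermat.Agent.S28.coe_scaleH] at h2
    have hN : (N : ℂ) = (d : ℂ) * (n : ℂ) := by exact_mod_cast congrArg (Nat.cast : ℕ → ℂ) hdn
    push_cast at h2 ⊢
    rw [hN] at h1 ⊢
    rw [mul_div_assoc', div_eq_div_iff h1 h2]
    ring
  rw [key, Fermat.Agent.S28.Jfun_smul]

end Fermat.Agent.S37
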