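import Mathlib
import Fermat.Prelude.Def_AlgebraicCurve_DivisorPushPull
import Fermat.Agent.S24.PlaceBasic

/-!
# S37, block H: the dictionary between primes of a Dedekind domain and places (helper18)

`R` a Dedekind domain with fraction field `F`, and a `K`-algebra.  Every height one prime `w` of `R`
gives a place `s37_h_place K w` of `F/K`; its order function is `-log` of the `w`-adic valuation,
the order of `d ∈ R` is the multiplicity of `w` in `(d)`, and every place whose valuation ring
contains `R` arises in this way.  (Generic version of the dictionary of `S24/FFSetup.lean`,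
`S24/Fiber.lean`.)
-/

set_option autoImplicit false
set_option linter.unusedSectionVars false
set_option linter.style.haveILetI false

namespace Fermat.Agent.S37

open AlgebraicCurve IsDedekindDomain

section Dict

variable (K : Type*) {F : Type*} [Field K] [Field F] [Algebra K F]
variable {R : Type*} [CommRing R] [IsDedekindDomain R] [Algebra R F] [IsFractionRing R F]
  [Algebra K R] [IsScalarTower K R F]

/-- The place attached to a height one prime of a Dedekind domain with fraction field `F`. -/
noncomputable def s37_h_place (w : HeightOneSpectrum R) : Place K F :=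
  Place.ofHeightOneSpectrum (K := K) w

theorem s37_h_place_toValuationSubring (w : HeightOneSpectrum R) :
    (s37_h_place K (F := F) w).toValuationSubring = (w.valuation F).valuationSubring := rfl

theorem s37_h_place_injective : Function.Injective (s37_h_place K (F := F) (R := R)) := by
  intro w w' h
  have h1 : (w.valuation F).valuationSubring = (w'.valuation F).valuationSubring :=
    congrArg Place.toValuationSubring h
  exact HeightOneSpectrum.eq_of_valuation_isEquiv_valuation
    ((Valuation.isEquiv_iff_valuationSubring _ _).mpr h1)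

/-- Every place whose valuation ring contains `R` comes from a prime of `R`. -/
theorem s37_h_exists_place_eq (v : Place K F)
    (hv : ∀ b : R, algebraMap R F b ∈ v.toValuationSubring) :
    ∃ w : HeightOneSpectrum R, s37_h_place K w = v := by
  classical
  let ι : R →+* v.toValuationSubring :=
    (algebraMap R F).codRestrict v.toValuationSubring.toSubring hv
  have hι : ∀ b : R, ((ι b : v.toValuationSubring) : F) = algebraMap R F b := fun b => rfl
  let P : Ideal R := Ideal.comap ι (IsLocalRing.maximalIdeal v.toValuationSubring)
  have hPprime : P.IsPrime := Ideal.comap_isPrime ι _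
  have hunit : ∀ b : R, b ∉ P → (algebraMap R F b)⁻¹ ∈ v.toValuationSubring := by
    intro b hb
    have hu : IsUnit (ι b) := by
      by_contra hnu
      exact hb ((IsLocalRing.mem_maximalIdeal _).mpr hnu)
    obtain ⟨u, hu⟩ := hu
    have : (algebraMap R F b)⁻¹ = ((u⁻¹ : (v.toValuationSubring)ˣ) : v.toValuationSubring) := by
      rw [← hι b, ← hu]
      rw [eq_comm, ← mul_eq_one_iff_eq_inv₀]
      · rw [← Subring.coe_mul]; simp
      · intro h0
        have : (u : v.toValuationSubring) = 0 := Subtype.ext h0
        exact u.ne_zero this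
    rw [this]
    exact Subtype.mem _
  have hPne : P ≠ ⊥ := by
    intro hP
    apply v.ne_top'
    refine SetLike.ext fun f => ⟨fun _ => ValuationSubring.mem_top f, fun _ => ?_⟩
    obtain ⟨a, s, hs, rfl⟩ := IsFractionRing.div_surjective (A := R) f
    have hs0 : s ≠ 0 := nonZeroDivisors.ne_zero hs
    have hsP : s ∉ P := by rw [hP]; simpa using hs0
    rw [div_eq_mul_inv]
    exact mul_mem (hv a) (hunit s hsP)
  let w : HeightOneSpectrum R := ⟨P, hPprime, hPne⟩
  refine ⟨w, Place.ext ?_⟩
  rw [s37_h_place_toValuationSubring,
    ← HeightOneSpectrum.valuationSubringAtPrime_eq_valuationSubring]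
  refine ValuationSubring.eq_of_le_of_ne_top _ ?_ v.ne_top'
  rintro x ⟨a, s, hs, rfl⟩
  exact mul_mem (hv a) (hunit s hs)

theorem s37_h_val_unit (w : HeightOneSpectrum R)
    (u : ((s37_h_place K (F := F) w).toValuationSubring)ˣ) :
    w.valuation F ((u : (s37_h_place K (F := F) w).toValuationSubring) : F) = 1 := by
  have h1 : w.valuation F ((u : (s37_h_place K (F := F) w).toValuationSubring) : F) ≤ 1 :=
    (u : (s37_h_place K (F := F) w).toValuationSubring).2
  have h2 : w.valuation F (((u⁻¹ : ((s37_h_place K (F := F) w).toValuationSubring)ˣ) :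
      (s37_h_place K (F := F) w).toValuationSubring) : F) ≤ 1 :=
    ((u⁻¹ : ((s37_h_place K (F := F) w).toValuationSubring)ˣ) :
      (s37_h_place K (F := F) w).toValuationSubring).2
  have h3 : ((u : (s37_h_place K (F := F) w).toValuationSubring) : F)
      * (((u⁻¹ : ((s37_h_place K (F := F) w).toValuationSubring)ˣ) :
          (s37_h_place K (F := F) w).toValuationSubring) : F) = 1 := by
    rw [← Subring.coe_mul]; simp
  have h4 := congrArg (w.valuation F) h3
  rw [map_mul, map_one] at h4
  refine le_antisymm h1 ?_
  by_contra hlt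
  rw [not_le] at hlt
  exact absurd h4 (ne_of_lt (mul_lt_one_of_lt_of_le hlt h2))

/-- The valuation of an irreducible element of the valuation ring of `w` is `exp (-1)`. -/
theorem s37_h_val_irreducible (w : HeightOneSpectrum R)
    (π : (s37_h_place K (F := F) w).toValuationSubring) (hπ : Irreducible π) :
    w.valuation F (π : F) = WithZero.exp (-1 : ℤ) := by
  have hπ0 : (π : F) ≠ 0 := by
    intro h0
    exact hπ.ne_zero (Subtype.ext h0)
  have hπle : w.valuation F (π : F) ≤ 1 := π.2
  have hπlt : w.valuation F (π : F) < 1 := by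
    refine lt_of_le_of_ne hπle fun h1 => ?_
    apply hπ.not_isUnit
    have hinv : (π : F)⁻¹ ∈ (s37_h_place K (F := F) w).toValuationSubring := by
      show w.valuation F (π : F)⁻¹ ≤ 1
      rw [map_inv₀, h1, inv_one]
    refine IsUnit.of_mul_eq_one ⟨(π : F)⁻¹, hinv⟩ ?_
    apply Subtype.ext
    show (π : F) * (π : F)⁻¹ = 1
    exact mul_inv_cancel₀ hπ0
  have hπne : w.valuation F (π : F) ≠ 0 := (Valuation.ne_zero_iff _).mpr hπ0
  obtain ⟨ϖ, hϖ⟩ := w.valuation_exists_uniformizer F
  have hϖ0 : ϖ ≠ 0 := by
    intro h0
    rw [h0, map_zero] at hϖ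
    exact WithZero.exp_ne_zero.symm hϖ
  obtain ⟨u, hu⟩ := (s37_h_place K (F := F) w).exists_unit_mul_zpow hϖ0 hπ
  have h5 := congrArg (w.valuation F) hu
  rw [map_mul, s37_h_val_unit K w u, one_mul, map_zpow₀, hϖ] at h5
  set m := WithZero.log (w.valuation F (π : F)) with hm
  have hexp : w.valuation F (π : F) = WithZero.exp m := (WithZero.exp_log hπne).symm
  have hmneg : m < 0 := by
    have : WithZero.exp m < WithZero.exp (0 : ℤ) := by
      rw [← hexp]; simpa using hπlt
    exact WithZero.exp_lt_exp.mp this
  rw [hexp, ← WithZero.exp_zsmul] at h5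
  have h6 : (-1 : ℤ) = (s37_h_place K (F := F) w).ord ϖ • m := WithZero.exp_injective h5
  rw [smul_eq_mul] at h6
  have hm1 : m = -1 := by
    have hdvd : m ∣ 1 := ⟨-((s37_h_place K (F := F) w).ord ϖ), by linarith⟩
    have := Int.natAbs_dvd_natAbs.mpr hdvd
    have habs : m.natAbs = 1 := by simpa using this
    omega
  rw [hexp, hm1]

/-- The order at the place of `w` is `-log` of the `w`-adic valuation. -/
theorem s37_h_place_ord (w : HeightOneSpectrum R) (f : F) :
    (s37_h_place K (F := F) w).ord f = -(WithZero.log (w.valuation F f)) := by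
  rcases eq_or_ne f 0 with rfl | hf
  · simp
  obtain ⟨π, hπ⟩ := IsDiscreteValuationRing.exists_irreducible
    (s37_h_place K (F := F) w).toValuationSubring
  obtain ⟨u, hu⟩ := (s37_h_place K (F := F) w).exists_unit_mul_zpow hf hπ
  have h5 := congrArg (w.valuation F) hu
  rw [map_mul, s37_h_val_unit K w u, one_mul, map_zpow₀, s37_h_val_irreducible K w π hπ,
    ← WithZero.exp_zsmul] at h5
  rw [h5, WithZero.log_exp]
  simp

theorem s37_h_mem_place_iff (w : HeightOneSpectrum R) (f : F) :
    f ∈ (s37_h_place K (F := F) w).toValuationSubring ↔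
      ∃ b u : R, u ∉ w.asIdeal ∧ f = algebraMap R F b / algebraMap R F u := by
  constructor
  · intro hf
    have hf' : w.valuation F f ≤ 1 := hf
    obtain ⟨n, d, hnd⟩ := HeightOneSpectrum.exists_primeCompl_mul_eq_of_integer w f hf'
    refine ⟨n, d, d.2, ?_⟩
    have hd0 : algebraMap R F (d : R) ≠ 0 := by
      intro h0
      have : (d : R) = 0 := (IsFractionRing.injective R F) (by rw [h0, map_zero])
      exact d.2 (this ▸ Ideal.zero_mem _)
    rw [eq_div_iff hd0]
    exact hnd
  · rintro ⟨b, u, hu, rfl⟩
    show w.valuation F (algebraMap R F b / algebraMap R F u) ≤ 1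
    rw [map_div₀]
    have h1 : w.valuation F (algebraMap R F u) = 1 :=
      (HeightOneSpectrum.valuation_eq_one_iff_notMem (K := F) w).mpr hu
    rw [h1, div_one]
    exact w.valuation_le_one b

/-- Positivity of the order of an element of `R` at the place attached to a prime. -/
theorem s37_h_place_ord_pos_iff (w : HeightOneSpectrum R) (d : R) (hd : d ≠ 0) :
    0 < (s37_h_place K (F := F) w).ord (algebraMap R F d) ↔ d ∈ w.asIdeal := by
  rw [s37_h_place_ord]
  have h0 : HeightOneSpectrum.valuation F w (algebraMap R F d) ≠ 0 := by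
    rw [Valuation.ne_zero_iff]
    intro h
    exact hd ((IsFractionRing.injective R F) (by rw [h, map_zero]))
  rw [neg_pos, ← WithZero.log_one, WithZero.log_lt_log h0 one_ne_zero]
  exact HeightOneSpectrum.valuation_lt_one_iff_mem (K := F) w d

/-- The order of `d ∈ R` at the place attached to a prime is the multiplicity of the prime in the
factorisation of `(d)`. -/
theorem s37_h_place_ord_eq_count (w : HeightOneSpectrum R) (d : R) (hd : d ≠ 0) :
    (s37_h_place K (F := F) w).ord (algebraMap R F d) =
      (Multiset.count w.asIdeal (UniqueFactorizationMonoid.normalizedFactors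
        (Ideal.span {d})) : ℤ) := by
  classical
  rw [s37_h_place_ord]
  have h1 : HeightOneSpectrum.valuation F w (algebraMap R F d) = w.intValuation d :=
    w.valuation_of_algebraMap d
  have h2 : Ideal.span {d} ≠ 0 := by
    rw [Ne, Ideal.zero_eq_bot, Ideal.span_singleton_eq_bot]
    exact hd
  rw [h1, w.intValuation_def, if_neg hd, WithZero.log_exp, neg_neg,
    Ideal.count_associates_factors_eq h2 w.isPrime w.ne_bot]

end Dict

end Fermat.Agent.S37
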