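import Fermat.Agent.S37.HDict
import Fermat.Agent.S24.Fiber

/-!
# S37, block H: the local dictionary over a place `v` (helper18)

`v` a place of `F/K`, `F'/F` an algebraic extension, `S` a model of the integral closure of the
valuation ring `O_v` in `F'`, assumed to be a Dedekind domain with fraction field `F'`
(e.g. `S = integralClosure v.toValuationSubring F'` for `F'/F` finite separable, see
`s37_h_loc_*` instances at the end).  Then the places of `F'` over `v` are exactly the places
`s37_h_place K q` attached to the height one primes `q` of `S`.
-/

set_option autoImplicit false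
set_option linter.unusedSectionVars false
set_option linter.style.haveILetI false

namespace Fermat.Agent.S37

open AlgebraicCurve IsDedekindDomain
open scoped IntermediateField

section Local

variable {K F F' : Type*} [Field K] [Field F] [Field F'] [Algebra K F] [Algebra K F']
  [Algebra F F'] [IsScalarTower K F F'] [Algebra.IsIntegral F F']
  (v : Place K F)
  (S : Type*) [CommRing S] [IsDedekindDomain S] [Algebra S F'] [IsFractionRing S F']
  [Algebra K S] [IsScalarTower K S F']
  [Algebra v.toValuationSubring S] [IsScalarTower v.toValuationSubring S F']
  [IsIntegralClosure S v.toValuationSubring F']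

/-- Compatibility of the algebra maps `O_v → S → F'` and `O_v → F → F'`. -/
theorem s37_h_loc_algebraMap (r : v.toValuationSubring) :
    algebraMap S F' (algebraMap v.toValuationSubring S r) = algebraMap F F' (r : F) := by
  rw [← IsScalarTower.algebraMap_apply v.toValuationSubring S F',
    IsScalarTower.algebraMap_apply v.toValuationSubring F F']
  rfl

include F' in
/-- The image of a non-zero element of `O_v` in `S` is non-zero. -/
theorem s37_h_loc_algebraMap_ne_zero {r : v.toValuationSubring} (hr : r ≠ 0) :
    algebraMap v.toValuationSubring S r ≠ 0 := by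
  intro h0
  have h1 := s37_h_loc_algebraMap (F' := F') v S r
  rw [h0, map_zero] at h1
  have h2 : (r : F) = 0 := (algebraMap F F').injective (by rw [← h1, map_zero])
  exact hr (Subtype.ext h2)

/-- The place attached to a prime of `S` lies over `v`. -/
theorem s37_h_loc_restrict (q : HeightOneSpectrum S) :
    (s37_h_place K (F := F') q).restrict F = v := by
  refine (Place.ext ?_).symm
  refine ValuationSubring.eq_of_le_of_ne_top _ ?_ ((s37_h_place K (F := F') q).restrict F).ne_top'
  intro f hf
  rw [Place.restrict_toValuationSubring, ValuationSubring.mem_comap]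
  have h1 : algebraMap S F' (algebraMap v.toValuationSubring S ⟨f, hf⟩)
      ∈ (s37_h_place K (F := F') q).toValuationSubring :=
    HeightOneSpectrum.valuation_le_one _ _
  rwa [s37_h_loc_algebraMap] at h1

/-- Elements of `S` are integral at every place over `v`. -/
theorem s37_h_loc_mem (w : Place K F') (hw : w.restrict F = v) (s : S) :
    algebraMap S F' s ∈ w.toValuationSubring := by
  have hRw : ∀ r : v.toValuationSubring, algebraMap F F' (r : F) ∈ w.toValuationSubring := by
    intro r
    have h1 : (r : F) ∈ (w.restrict F).toValuationSubring := by
      rw [hw]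
      exact r.2
    exact h1
  have hint : IsIntegral v.toValuationSubring (algebraMap S F' s) :=
    (IsIntegralClosure.isIntegral v.toValuationSubring F' s).algebraMap
  let φ : v.toValuationSubring →+* w.toValuationSubring :=
    (algebraMap v.toValuationSubring F').codRestrict w.toValuationSubring.toSubring
      (fun r => hRw r)
  have h2 : IsIntegral w.toValuationSubring (algebraMap S F' s) :=
    IsIntegral.map_of_comp_eq φ (RingHom.id F') (by ext r; rfl) hint
  obtain ⟨y, hy⟩ :=
    (IsIntegrallyClosed.isIntegral_iff (R := w.toValuationSubring) (K := F')).mp h2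
  rw [← hy]
  exact y.2

/-- Every place over `v` is attached to a prime of `S`. -/
theorem s37_h_loc_exists (w : Place K F') (hw : w.restrict F = v) :
    ∃ q : HeightOneSpectrum S, s37_h_place K q = w :=
  s37_h_exists_place_eq K w (s37_h_loc_mem v S w hw)

/-- The order of a uniformiser of `v` at the place of `q` is the ramification index. -/
theorem s37_h_loc_ord_irreducible (q : HeightOneSpectrum S) {π : v.toValuationSubring}
    (hπ : Irreducible π) :
    (s37_h_place K (F := F') q).ord (algebraMap S F' (algebraMap v.toValuationSubring S π))
      = ((s37_h_place K (F := F') q).ramificationIndex F : ℤ) := by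
  rw [s37_h_loc_algebraMap, (s37_h_place K (F := F') q).ord_restrict, s37_h_loc_restrict v S q,
    v.ord_coe_irreducible hπ, mul_one]

include K F' in
/-- Every height one prime of `S` lies over the maximal ideal of `O_v`. -/
theorem s37_h_loc_liesOver (q : HeightOneSpectrum S) :
    q.asIdeal.LiesOver (IsLocalRing.maximalIdeal v.toValuationSubring) := by
  obtain ⟨π, hπ⟩ := IsDiscreteValuationRing.exists_irreducible v.toValuationSubring
  have hπS := s37_h_loc_algebraMap_ne_zero (F' := F') v S hπ.ne_zero
  have hπq : algebraMap v.toValuationSubring S π ∈ q.asIdeal := by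
    rw [← s37_h_place_ord_pos_iff K (F := F') q _ hπS, s37_h_loc_ord_irreducible v S q hπ]
    have := (s37_h_place K (F := F') q).ramificationIndex_pos (F := F)
    omega
  have hle : IsLocalRing.maximalIdeal v.toValuationSubring
      ≤ q.asIdeal.under v.toValuationSubring := by
    rw [hπ.maximalIdeal_eq, Ideal.span_le, Set.singleton_subset_iff]
    exact hπq
  have hne : q.asIdeal.under v.toValuationSubring ≠ ⊤ :=
    (Ideal.IsPrime.under _ q.asIdeal).ne_top
  exact ⟨(IsLocalRing.maximalIdeal.isMaximal _).eq_of_le hne hle⟩

/-- The ramification index of the place of `q` is the ramification index of `q`. -/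
theorem s37_h_loc_ramificationIndex (q : HeightOneSpectrum S) :
    ((s37_h_place K (F := F') q).ramificationIndex F : ℤ)
      = (q.asIdeal.ramificationIdx v.toValuationSubring : ℤ) := by
  classical
  obtain ⟨π, hπ⟩ := IsDiscreteValuationRing.exists_irreducible v.toValuationSubring
  have hπS := s37_h_loc_algebraMap_ne_zero (F' := F') v S hπ.ne_zero
  haveI := s37_h_loc_liesOver (K := K) (F' := F') v S q
  have hmap : (IsLocalRing.maximalIdeal v.toValuationSubring).map
      (algebraMap v.toValuationSubring S) = Ideal.span {algebraMap v.toValuationSubring S π} := by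
    rw [hπ.maximalIdeal_eq, Ideal.map_span, Set.image_singleton]
  have hmap0 : (IsLocalRing.maximalIdeal v.toValuationSubring).map
      (algebraMap v.toValuationSubring S) ≠ ⊥ := by
    rw [hmap, Ne, Ideal.span_singleton_eq_bot]
    exact hπS
  rw [Ideal.IsDedekindDomain.ramificationIdx_eq_normalizedFactors_count
    (IsLocalRing.maximalIdeal v.toValuationSubring) q.asIdeal hmap0, hmap,
    ← s37_h_loc_ord_irreducible v S q hπ]
  exact s37_h_place_ord_eq_count K (F := F') q _ hπS

include K F' in
/-- Residue constants: the inertia degree of every prime of `S` is one. -/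
theorem s37_h_loc_inertiaDeg [IsScalarTower K v.toValuationSubring S]
    (hres : ∀ (w : Place K F') (f : F'), f ∈ w.toValuationSubring →
      ∃ c : K, f - algebraMap K F' c ∈ w.toValuationSubring.nonunits)
    (q : HeightOneSpectrum S) : q.asIdeal.inertiaDeg v.toValuationSubring = 1 := by
  haveI hqp : q.asIdeal.IsPrime := q.isPrime
  haveI := s37_h_loc_liesOver (K := K) (F' := F') v S q
  haveI hqmax : q.asIdeal.IsMaximal := hqp.isMaximal q.ne_bot
  have hSinj : Function.Injective (algebraMap S F') := IsFractionRing.injective S F'
  rw [Ideal.inertiaDeg_eq_of_isMaximal (IsLocalRing.maximalIdeal v.toValuationSubring) q.asIdeal]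
  let _ := Ideal.Quotient.field (IsLocalRing.maximalIdeal v.toValuationSubring)
  have hone : (1 : S ⧸ q.asIdeal) ≠ 0 := by
    intro h
    have h' : (Ideal.Quotient.mk q.asIdeal) 1 = 0 := h
    rw [Ideal.Quotient.eq_zero_iff_mem] at h'
    exact hqp.ne_top ((Ideal.eq_top_iff_one _).mpr h')
  rw [finrank_eq_one_iff_of_nonzero' (1 : S ⧸ q.asIdeal) hone]
  intro z
  obtain ⟨b, rfl⟩ := Ideal.Quotient.mk_surjective z
  obtain ⟨c, hc⟩ := hres (s37_h_place K (F := F') q) (algebraMap S F' b)
    (HeightOneSpectrum.valuation_le_one _ _)
  have hd : b - algebraMap K S c ∈ q.asIdeal := by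
    by_cases h0 : b - algebraMap K S c = 0
    · rw [h0]
      exact q.asIdeal.zero_mem
    · have hcoe : algebraMap S F' (b - algebraMap K S c)
          = algebraMap S F' b - algebraMap K F' c := by
        rw [map_sub, ← IsScalarTower.algebraMap_apply K S F']
      have h0' : algebraMap S F' b - algebraMap K F' c ≠ 0 := by
        rw [← hcoe]
        intro h
        exact h0 (hSinj (by rw [h, map_zero]))
      have h1 := (Fermat.Agent.S24.mem_nonunits_iff_ord_pos (s37_h_place K (F := F') q) h0').mp hc
      rw [← hcoe] at h1
      exact (s37_h_place_ord_pos_iff K (F := F') q _ h0).mp h1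
  refine ⟨Ideal.Quotient.mk _ (algebraMap K v.toValuationSubring c), ?_⟩
  rw [Algebra.smul_def, mul_one]
  symm
  rw [← sub_eq_zero]
  have h3 : (Ideal.Quotient.mk q.asIdeal) b
      - (algebraMap (v.toValuationSubring ⧸ IsLocalRing.maximalIdeal v.toValuationSubring)
          (S ⧸ q.asIdeal))
        ((Ideal.Quotient.mk _) (algebraMap K v.toValuationSubring c))
      = Ideal.Quotient.mk q.asIdeal (b - algebraMap K S c) := by
    rw [map_sub, IsScalarTower.algebraMap_apply K v.toValuationSubring S]
    rfl
  rw [h3]
  exact Ideal.Quotient.eq_zero_iff_mem.mpr hd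

variable [HasPrincipalDivisors K F']

theorem s37_h_loc_mem_fiber (q : HeightOneSpectrum S) :
    s37_h_place K (F := F') q ∈ v.fiber F' :=
  Place.mem_fiber.mpr (s37_h_loc_restrict v S q)

include K F' v in
/-- `S` has finitely many primes. -/
theorem s37_h_loc_finite : Finite (HeightOneSpectrum S) :=
  Finite.of_injective
    (fun q : HeightOneSpectrum S =>
      (⟨s37_h_place K (F := F') q, s37_h_loc_mem_fiber v S q⟩ : v.fiber F'))
    (fun _ _ h => s37_h_place_injective K (congrArg Subtype.val h))

/-- Sums over the fibre of `v` are sums over the primes of `S`. -/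
theorem s37_h_loc_sum_fiber [Fintype (HeightOneSpectrum S)] {M : Type*} [AddCommMonoid M]
    (f : Place K F' → M) :
    ∑ w ∈ v.fiber F', f w = ∑ q : HeightOneSpectrum S, f (s37_h_place K (F := F') q) := by
  symm
  refine Finset.sum_bij (fun q _ => s37_h_place K (F := F') q)
    (fun q _ => s37_h_loc_mem_fiber v S q)
    (fun q₁ _ q₂ _ h => s37_h_place_injective K h) (fun w hw => ?_) (fun q _ => rfl)
  obtain ⟨q, hq⟩ := s37_h_loc_exists v S w (Place.mem_fiber.mp hw)
  exact ⟨q, Finset.mem_univ q, hq⟩

end Local

/-! ## The concrete model `S = integralClosure O_v F'` -/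

section Concrete

variable {K F : Type*} (F' : Type*) [Field K] [Field F] [Field F'] [Algebra K F] [Algebra K F']
  [Algebra F F'] [IsScalarTower K F F'] (v : Place K F)

/-- The `K`-algebra structure of the integral closure of `O_v` in `F'`
(to be used as a local instance: `letI := s37_h_locAlgebra F' v`). -/
@[reducible] noncomputable def s37_h_locAlgebra :
    Algebra K (integralClosure v.toValuationSubring F') :=
  ((algebraMap v.toValuationSubring (integralClosure v.toValuationSubring F')).comp
    (algebraMap K v.toValuationSubring)).toAlgebra

theorem s37_h_loc_isScalarTower_left :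
    letI := s37_h_locAlgebra F' v
    IsScalarTower K v.toValuationSubring (integralClosure v.toValuationSubring F') :=
  letI := s37_h_locAlgebra F' v
  IsScalarTower.of_algebraMap_eq (fun _ => rfl)

theorem s37_h_loc_isScalarTower_right :
    letI := s37_h_locAlgebra F' v
    IsScalarTower K (integralClosure v.toValuationSubring F') F' :=
  letI := s37_h_locAlgebra F' v
  IsScalarTower.of_algebraMap_eq (fun c => by
    rw [IsScalarTower.algebraMap_apply K F F']
    rfl)

variable [CharZero F] [FiniteDimensional F F']

theorem s37_h_loc_isDedekindDomain :
    IsDedekindDomain (integralClosure v.toValuationSubring F') :=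
  integralClosure.isDedekindDomain v.toValuationSubring F F'

theorem s37_h_loc_isFractionRing :
    IsFractionRing (integralClosure v.toValuationSubring F') F' :=
  integralClosure.isFractionRing_of_finite_extension F F'

theorem s37_h_loc_moduleFinite :
    Module.Finite v.toValuationSubring (integralClosure v.toValuationSubring F') :=
  IsIntegralClosure.finite v.toValuationSubring F F' (integralClosure v.toValuationSubring F')

theorem s37_h_loc_faithfulSMul : FaithfulSMul v.toValuationSubring F' := by
  rw [faithfulSMul_iff_algebraMap_injective]
  intro a b hab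
  rw [IsScalarTower.algebraMap_apply v.toValuationSubring F F',
    IsScalarTower.algebraMap_apply v.toValuationSubring F F'] at hab
  exact Subtype.ext ((algebraMap F F').injective hab)

theorem s37_h_loc_isTorsionFree :
    Module.IsTorsionFree v.toValuationSubring (integralClosure v.toValuationSubring F') := by
  haveI := s37_h_loc_faithfulSMul F' v
  haveI : Module.IsTorsionFree v.toValuationSubring F' := inferInstance
  exact Function.Injective.moduleIsTorsionFree
    (algebraMap (integralClosure v.toValuationSubring F') F') Subtype.val_injective
    (fun _ _ => rfl)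

theorem s37_h_loc_finrank :
    Module.finrank v.toValuationSubring (integralClosure v.toValuationSubring F')
      = Module.finrank F F' := by
  haveI := s37_h_loc_faithfulSMul F' v
  exact IsIntegralClosure.rank v.toValuationSubring F F' (integralClosure v.toValuationSubring F')

end Concrete

end Fermat.Agent.S37
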