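import Fermat.Agent.S18.WrapGeneral
import Fermat.Agent.S18.Inj
import Fermat.Agent.S18.ConstBar
import Fermat.Prelude.Def_AlgebraicCurve_Correspondence

/-!
# S37, block INJ: injectivity of the detector on torsion prime to `ℓ`

* `s37_inj_general` : the S18 theorem for an ARBITRARY place reduction map `r` at a level `N'`
  prime to `ℓ` (hypothesis-free: `s18_inj` plugged into `s18_w_general`).
* `s37_inj_level` : for `M ∈ {2, 3}` and `N' = lcm N M`: if `m • D` is principal at level `N`
  (`ℓ ∤ m`) and the reduction of the pullback of `D` to level `N'` is principal, then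
  `(M + 1) • D` is principal at level `N`.
* `s37_inj_level_mk` : the same for classes in `JZero N`.
-/

set_option autoImplicit false
set_option synthInstance.maxHeartbeats 400000

open ModularCurve AlgebraicCurve HahnSeries

noncomputable section

namespace Fermat.Agent.S37

open Fermat.Agent.S18 Fermat.Agent.S24

/-- **S18 for an arbitrary place reduction map** at a level `N'` prime to `ℓ`: a divisor `D` with
`m • D` principal (`ℓ ∤ m`) and `r_* D` principal is principal. -/
theorem s37_inj_general (N' : ℕ) [NeZero N'] {ℓ : ℕ} [Fact ℓ.Prime] (hℓN : ¬ ℓ ∣ N')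
    (A : ValuationSubring (AlgebraicClosure ℚ)) (hA : A.LiesOverPrime ℓ)
    (r : Place (AlgebraicClosure ℚ) (modularFunctionFieldBar N') →
      Place (IsLocalRing.ResidueField A)
        (modularFunctionFieldFullC (IsLocalRing.ResidueField A) N'))
    (hr : ModularCurve.IsPlaceReductionModL A N' r)
    (hgen : ModularCurve.PrincipalGeneratedByIntegral A (IsLocalRing.residue A) N')
    (m : ℕ) (hm : ¬ ℓ ∣ m)
    (D : Divisor (AlgebraicClosure ℚ) (modularFunctionFieldBar N'))
    (hmD : m • D ∈
      Divisor.principal (K := AlgebraicClosure ℚ) (F := modularFunctionFieldBar N'))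
    (hrD : Finsupp.mapDomain r D ∈
      Divisor.principal (K := IsLocalRing.ResidueField A)
        (F := modularFunctionFieldFullC (IsLocalRing.ResidueField A) N')) :
    D ∈ Divisor.principal (K := AlgebraicClosure ℚ) (F := modularFunctionFieldBar N') :=
  s18_w_general N' hℓN A hA
    (fun m hm0 hm y₁ y₂ h₁ h₂ hred hne hdiv =>
      s18_inj N' hℓN A hA m hm0 hm y₁ y₂ h₁ h₂ hred hne hdiv)
    r hr hgen m hm D hmD hrD

/-- **Partial injectivity at the auxiliary level** `N' = lcm N M`, `M ∈ {2, 3}`: if `m • D` is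
principal at level `N` (`0 < m`, `ℓ ∤ m`) and the image under `r` of the pullback of `D` to level
`N'` is principal, then `(M + 1) • D` is principal at level `N`. -/
theorem s37_inj_level (N M : ℕ) [NeZero N] (hM : M = 2 ∨ M = 3) [NeZero (Nat.lcm N M)]
    {ℓ : ℕ} [Fact ℓ.Prime] (hℓN' : ¬ ℓ ∣ Nat.lcm N M)
    (A : ValuationSubring (AlgebraicClosure ℚ)) (hA : A.LiesOverPrime ℓ)
    [HasPrincipalDivisors (AlgebraicClosure ℚ) (modularFunctionFieldBar (Nat.lcm N M))]
    (hφ : (IntermediateField.inclusion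
      (s18_d5_le (Nat.dvd_lcm_left N M))).toRingHom.IsIntegral)
    (r : Place (AlgebraicClosure ℚ) (modularFunctionFieldBar (Nat.lcm N M)) →
      Place (IsLocalRing.ResidueField A)
        (modularFunctionFieldFullC (IsLocalRing.ResidueField A) (Nat.lcm N M)))
    (hr : ModularCurve.IsPlaceReductionModL A (Nat.lcm N M) r)
    (hgen : ModularCurve.PrincipalGeneratedByIntegral A (IsLocalRing.residue A) (Nat.lcm N M))
    (m : ℕ) (hm0 : 0 < m) (hm : ¬ ℓ ∣ m)
    (D : Divisor (AlgebraicClosure ℚ) (modularFunctionFieldBar N))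
    (hmD : m • D ∈
      Divisor.principal (K := AlgebraicClosure ℚ) (F := modularFunctionFieldBar N))
    (hrD : Finsupp.mapDomain r
        (Divisor.pullbackAlong
          (IntermediateField.inclusion (s18_d5_le (Nat.dvd_lcm_left N M))) hφ D) ∈
      Divisor.principal (K := IsLocalRing.ResidueField A)
        (F := modularFunctionFieldFullC (IsLocalRing.ResidueField A) (Nat.lcm N M))) :
    (M + 1) • D ∈
      Divisor.principal (K := AlgebraicClosure ℚ) (F := modularFunctionFieldBar N) := by
  set φ := IntermediateField.inclusion (s18_d5_le (Nat.dvd_lcm_left N M)) with hφdef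
  -- `m • π^* D` is principal
  have hmpull : m • Divisor.pullbackAlong φ hφ D ∈
      Divisor.principal (K := AlgebraicClosure ℚ)
        (F := modularFunctionFieldBar (Nat.lcm N M)) := by
    rw [← map_nsmul]
    exact Divisor.isPrincipal_pullbackAlong φ hφ hmD
  -- hence `π^* D` is principal (S18 at level `N'`)
  obtain ⟨g, hg0, hg⟩ := s37_inj_general (Nat.lcm N M) hℓN' A hA r hr hgen m hm
    (Divisor.pullbackAlong φ hφ D) hmpull hrD
  obtain ⟨u, hu0, hu⟩ := hmD
  -- `φ u` and `g ^ m` have the same divisor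
  have hord : ∀ P' : Place (AlgebraicClosure ℚ) (modularFunctionFieldBar (Nat.lcm N M)),
      P'.ord (φ u) = P'.ord (g ^ m) := by
    intro P'
    rw [Place.ord_restrictAlong φ hφ P' u, ← hu, ord_pow, ← hg, Divisor.pullbackAlong_apply,
      Finsupp.smul_apply, nsmul_eq_mul]
    ring
  have hφu0 : φ u ≠ 0 := (map_ne_zero φ).mpr hu0
  obtain ⟨c, hc0, hc⟩ := s18_eq_const_mul_of_ord_eq (Nat.lcm N M) (φ u) (g ^ m) hφu0
    (pow_ne_zero m hg0) hord
  obtain ⟨c', hc'⟩ := IsAlgClosed.exists_pow_nat_eq c hm0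
  -- `x = c' g` is an `m`-th root of `u` at level `N'`
  set x : modularFunctionFieldBar (Nat.lcm N M) :=
    algebraMap (AlgebraicClosure ℚ) (modularFunctionFieldBar (Nat.lcm N M)) c' * g with hx
  have hxm : x ^ m = φ u := by
    rw [hx, mul_pow, ← map_pow, hc', hc]
  have hxm' : (x : LaurentSeries (AlgebraicClosure ℚ)) ^ m =
      (u : LaurentSeries (AlgebraicClosure ℚ)) := by
    rw [← IntermediateField.coe_pow, hxm, hφdef]
    exact IntermediateField.coe_inclusion _ u
  obtain ⟨y, hy, hym⟩ := s18_descent_pow N M hM m (u : LaurentSeries (AlgebraicClosure ℚ)) u.2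
    (x : LaurentSeries (AlgebraicClosure ℚ)) x.2 hxm'
  have hym' : (⟨y, hy⟩ : modularFunctionFieldBar N) ^ m = u ^ (M + 1) :=
    Subtype.ext (by simpa using hym)
  have hy0 : (⟨y, hy⟩ : modularFunctionFieldBar N) ≠ 0 := by
    intro h0
    rw [h0, zero_pow hm0.ne'] at hym'
    exact pow_ne_zero (M + 1) hu0 hym'.symm
  refine ⟨⟨y, hy⟩, hy0, fun P => ?_⟩
  have h1 := congrArg P.ord hym'
  rw [ord_pow, ord_pow, ← hu, Finsupp.smul_apply, nsmul_eq_mul] at h1
  have hm' : (m : ℤ) ≠ 0 := Nat.cast_ne_zero.mpr hm0.ne'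
  have h2 : (m : ℤ) * P.ord (⟨y, hy⟩ : modularFunctionFieldBar N) =
      (m : ℤ) * (((M + 1 : ℕ) : ℤ) * D P) := by
    rw [h1]; push_cast; ring
  rw [Finsupp.smul_apply, nsmul_eq_mul]
  exact (mul_left_cancel₀ hm' h2).symm

/-- `s37_inj_level` for classes: if `m • [D] = 0` in `JZero N` (`0 < m`, `ℓ ∤ m`) and the image
under `r` of the pullback of `D` to level `lcm N M` is principal, then `(M + 1) • [D] = 0`. -/
theorem s37_inj_level_mk (N M : ℕ) [NeZero N] (hM : M = 2 ∨ M = 3) [NeZero (Nat.lcm N M)]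
    {ℓ : ℕ} [Fact ℓ.Prime] (hℓN' : ¬ ℓ ∣ Nat.lcm N M)
    (A : ValuationSubring (AlgebraicClosure ℚ)) (hA : A.LiesOverPrime ℓ)
    [HasPrincipalDivisors (AlgebraicClosure ℚ) (modularFunctionFieldBar (Nat.lcm N M))]
    (hφ : (IntermediateField.inclusion
      (s18_d5_le (Nat.dvd_lcm_left N M))).toRingHom.IsIntegral)
    (r : Place (AlgebraicClosure ℚ) (modularFunctionFieldBar (Nat.lcm N M)) →
      Place (IsLocalRing.ResidueField A)
        (modularFunctionFieldFullC (IsLocalRing.ResidueField A) (Nat.lcm N M)))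
    (hr : ModularCurve.IsPlaceReductionModL A (Nat.lcm N M) r)
    (hgen : ModularCurve.PrincipalGeneratedByIntegral A (IsLocalRing.residue A) (Nat.lcm N M))
    (m : ℕ) (hm0 : 0 < m) (hm : ¬ ℓ ∣ m)
    (D : Divisor.degZero (K := AlgebraicClosure ℚ) (F := modularFunctionFieldBar N))
    (hmD : m • (Pic0.mk D : JZero N) = 0)
    (hrD : Finsupp.mapDomain r
        (Divisor.pullbackAlong
          (IntermediateField.inclusion (s18_d5_le (Nat.dvd_lcm_left N M))) hφ
          (D : Divisor (AlgebraicClosure ℚ) (modularFunctionFieldBar N))) ∈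
      Divisor.principal (K := IsLocalRing.ResidueField A)
        (F := modularFunctionFieldFullC (IsLocalRing.ResidueField A) (Nat.lcm N M))) :
    (M + 1) • (Pic0.mk D : JZero N) = 0 := by
  have hmD' : m • (D : Divisor (AlgebraicClosure ℚ) (modularFunctionFieldBar N)) ∈
      Divisor.principal (K := AlgebraicClosure ℚ) (F := modularFunctionFieldBar N) := by
    have h1 : (QuotientAddGroup.mk (m • D) : JZero N) = 0 := by
      rw [QuotientAddGroup.mk_nsmul]
      exact hmD
    have h2 := (QuotientAddGroup.eq_zero_iff _).mp h1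
    rw [AddSubgroup.mem_addSubgroupOf] at h2
    exact h2
  have h := s37_inj_level N M hM hℓN' A hA hφ r hr hgen m hm0 hm _ hmD' hrD
  have h3 : (QuotientAddGroup.mk ((M + 1) • D) : JZero N) = 0 :=
    (QuotientAddGroup.eq_zero_iff _).mpr (AddSubgroup.mem_addSubgroupOf.mpr h)
  rw [QuotientAddGroup.mk_nsmul] at h3
  exact h3

end Fermat.Agent.S37
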