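import Mathlib
import Fermat.Prelude.Def_ModularCurve_HeckeModule

/-!
# S37, block INJ: combining the detectors of the auxiliary levels

In the frozen statement S37 the number `p` is an arbitrary natural number, so one cannot choose a
single auxiliary prime `M ∈ {2, 3}` with `p` prime to `M + 1`.  Instead each auxiliary level
`lcm N M` (`M ∈ {2, 3}`, `M ≠ ℓ`) gives a detector `ψ_M` which is injective on `p`-power torsion
up to multiplication by `M + 1`, and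

* `ℓ = 2` : `ψ_3` is injective on `p`-power torsion (`p` is odd);
* `ℓ = 3` : `ψ_2` is injective on `p`-power torsion (`3 ∤ p`);
* `ℓ ≥ 5` : the product `ψ_2 × ψ_3` is injective on `p`-power torsion (`3 x = 0 = 4 x`).

`s37_inj_combine` is the abstract statement, `s37_inj_detector` the statement in the exact shape
of the hypothesis `hdet` of `s37_of_detector`.
-/

set_option autoImplicit false

namespace Fermat.Agent.S37

open ModularCurve

/-- If `a • x = 0`, `b • x = 0` and `a`, `b` are coprime, then `x = 0`. -/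
theorem s37_inj_eq_zero_of_coprime {J : Type*} [AddCommGroup J] {a b : ℕ} (hab : Nat.Coprime a b)
    {x : J} (ha : a • x = 0) (hb : b • x = 0) : x = 0 := by
  have h := Nat.gcd_eq_gcd_ab a b
  rw [hab.gcd_eq_one] at h
  have h1 : ((a : ℤ) * Nat.gcdA a b + (b : ℤ) * Nat.gcdB a b) • x = x := by
    rw [← h]; simp
  rw [← h1, add_smul, mul_comm (a : ℤ), mul_comm (b : ℤ), mul_smul, mul_smul, natCast_zsmul,
    natCast_zsmul, ha, hb, smul_zero, smul_zero, add_zero]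

/-- **Combination of the detectors of the auxiliary levels** (abstract form).  `K` is the set of
elements every detector has to kill, `T` the set (of `p`-power torsion elements) on which
injectivity is required. -/
theorem s37_inj_combine {J : Type*} [AddCommGroup J] (K T : Set J) (ℓ p : ℕ) (hℓ : ℓ.Prime)
    (hℓp : ¬ ℓ ∣ p) (hT : ∀ x ∈ T, ∃ n : ℕ, p ^ n • x = 0)
    (hdet : ∀ M : ℕ, (M = 2 ∨ M = 3) → M ≠ ℓ →
      ∃ (Mod : Type) (_ : AddCommGroup Mod) (ψ : J →+ Mod),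
        (∀ y ∈ K, ψ y = 0) ∧ (∀ x ∈ T, ψ x = 0 → (M + 1) • x = 0)) :
    ∃ (Mod : Type) (_ : AddCommGroup Mod) (ψ : J →+ Mod),
      (∀ y ∈ K, ψ y = 0) ∧ (∀ x ∈ T, ψ x = 0 → x = 0) := by
  have hcop : Nat.Coprime ℓ p := (Nat.Prime.coprime_iff_not_dvd hℓ).mpr hℓp
  by_cases h2 : ℓ = 2
  · obtain ⟨Mod, i, ψ, hK, hinj⟩ := hdet 3 (Or.inr rfl) (by omega)
    refine ⟨Mod, i, ψ, hK, fun x hx hψ => ?_⟩
    obtain ⟨n, hn⟩ := hT x hx
    have h4 := hinj x hx hψ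
    have hc : Nat.Coprime (p ^ n) (3 + 1) := by
      subst h2
      have : Nat.Coprime p 2 := hcop.symm
      exact (this.pow_left n).pow_right 2
    exact s37_inj_eq_zero_of_coprime hc hn h4
  by_cases h3 : ℓ = 3
  · obtain ⟨Mod, i, ψ, hK, hinj⟩ := hdet 2 (Or.inl rfl) (by omega)
    refine ⟨Mod, i, ψ, hK, fun x hx hψ => ?_⟩
    obtain ⟨n, hn⟩ := hT x hx
    have h4 := hinj x hx hψ
    have hc : Nat.Coprime (p ^ n) (2 + 1) := by
      subst h3
      have : Nat.Coprime p 3 := hcop.symm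
      exact this.pow_left n
    exact s37_inj_eq_zero_of_coprime hc hn h4
  · obtain ⟨Mod₂, i₂, ψ₂, hK₂, hinj₂⟩ := hdet 2 (Or.inl rfl) (fun h => h2 h.symm)
    obtain ⟨Mod₃, i₃, ψ₃, hK₃, hinj₃⟩ := hdet 3 (Or.inr rfl) (fun h => h3 h.symm)
    refine ⟨Mod₂ × Mod₃, inferInstance, ψ₂.prod ψ₃, fun y hy => ?_, fun x hx hψ => ?_⟩
    · rw [AddMonoidHom.prod_apply, hK₂ y hy, hK₃ y hy]
      rfl
    · rw [AddMonoidHom.prod_apply, Prod.mk_eq_zero] at hψ
      have ha := hinj₂ x hx hψ.1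
      have hb := hinj₃ x hx hψ.2
      exact s37_inj_eq_zero_of_coprime (by norm_num : Nat.Coprime (2 + 1) (3 + 1)) ha hb

/-- **The detector from the detectors of the auxiliary levels**, in the exact shape of the
hypothesis `hdet` of `s37_of_detector`: it suffices to give, for every `M ∈ {2, 3}` with `M ≠ ℓ`,
a detector which is inertia invariant, kills `σ0² x - T_ℓ σ0 x + ℓ x`, and satisfies
`p ^ n • x = 0 → ψ x = 0 → (M + 1) • x = 0`. -/
theorem s37_inj_detector (N p : ℕ) [NeZero N] (ℓ : ℕ) (hℓ : ℓ.Prime) (hℓNp : ¬ ℓ ∣ N * p)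
    (A : ValuationSubring (AlgebraicClosure ℚ))
    (σ0 : AlgebraicClosure ℚ ≃ₐ[ℚ] AlgebraicClosure ℚ)
    (h : ∀ M : ℕ, (M = 2 ∨ M = 3) → M ≠ ℓ →
      ∃ (Mod : Type) (_ : AddCommGroup Mod) (ψ : JZero N →+ Mod),
        (∀ τ ∈ A.inertiaSubgroupIn ℚ, ∀ x : JZero N, ψ (τ • x) = ψ x) ∧
        (∀ x : JZero N,
          ψ (σ0 • σ0 • x - heckeOperatorBar N ⟨ℓ, hℓ⟩ (σ0 • x) + ℓ • x) = 0) ∧
        (∀ x : JZero N, (∃ n : ℕ, p ^ n • x = 0) → ψ x = 0 → (M + 1) • x = 0)) :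
    ∃ (Mod : Type) (_ : AddCommGroup Mod) (ψ : JZero N →+ Mod),
      (∀ τ ∈ A.inertiaSubgroupIn ℚ, ∀ x : JZero N, ψ (τ • x) = ψ x) ∧
      (∀ x : JZero N,
        ψ (σ0 • σ0 • x - heckeOperatorBar N ⟨ℓ, hℓ⟩ (σ0 • x) + ℓ • x) = 0) ∧
      (∀ x : JZero N, (∃ n : ℕ, p ^ n • x = 0) → ψ x = 0 → x = 0) := by
  have hℓp : ¬ ℓ ∣ p := fun hd => hℓNp (Dvd.dvd.mul_left hd N)
  obtain ⟨Mod, i, ψ, hK, hinj⟩ := s37_inj_combine (J := JZero N)
    ({y | ∃ τ ∈ A.inertiaSubgroupIn ℚ, ∃ x : JZero N, y = τ • x - x} ∪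
      {y | ∃ x : JZero N,
        y = σ0 • σ0 • x - heckeOperatorBar N ⟨ℓ, hℓ⟩ (σ0 • x) + ℓ • x})
    {x | ∃ n : ℕ, p ^ n • x = 0} ℓ p hℓ hℓp (fun x hx => hx)
    (fun M hM hMℓ => by
      obtain ⟨Mod, i, ψ, h1, h2, h3⟩ := h M hM hMℓ
      refine ⟨Mod, i, ψ, ?_, fun x hx hψ => h3 x hx hψ⟩
      rintro y (⟨τ, hτ, x, rfl⟩ | ⟨x, rfl⟩)
      · rw [map_sub, h1 τ hτ x, sub_self]
      · exact h2 x)
  refine ⟨Mod, i, ψ, fun τ hτ x => ?_, fun x => ?_, fun x hx hψ => hinj x hx hψ⟩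
  · have := hK (τ • x - x) (Or.inl ⟨τ, hτ, x, rfl⟩)
    rw [map_sub, sub_eq_zero] at this
    exact this
  · exact hK _ (Or.inr ⟨x, rfl⟩)

end Fermat.Agent.S37
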