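import Fermat.Agent.S37.DetInj

/-!
# S37: (P3) — injectivity on prime-to-`ℓ` torsion for an abstract reduction map

`s37_p3` (helper3's exact leaf statement): (GEN) + (CONS) + `s18_inj` imply that a divisor `D`
with `m • D` principal (`ℓ ∤ m`) and `r_* D = 0` is principal.  It is the case `E = 0` of
`s37_di_inj_core`.
-/

set_option autoImplicit false
set_option synthInstance.maxHeartbeats 400000

namespace Fermat.Agent.S37

open ModularCurve AlgebraicCurve Polynomial

noncomputable section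

local notation "Qb" => AlgebraicClosure ℚ

/-- (P3) injectivity on prime-to-`ℓ` torsion, from (GEN) + (CONS) + `s18_inj`; the reduction
map `r` is abstract. -/
theorem s37_p3 (N ℓ : ℕ) [NeZero N] (hℓ : ℓ.Prime) (hℓN : ¬ ℓ ∣ N)
    (A : ValuationSubring Qb) (hA : A.LiesOverPrime ℓ)
    {Y : Type*} (r : Place Qb (modularFunctionFieldBar N) → Y)
    (hgen : ∀ f : modularFunctionFieldBar N, f ≠ 0 →
      ∃ (c : Qb) (y₁ y₂ : LaurentSeries A)
        (h₁ : coeffMap A.subtype y₁ ∈ modularFunctionFieldBar N)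
        (h₂ : coeffMap A.subtype y₂ ∈ modularFunctionFieldBar N),
        c ≠ 0 ∧ coeffMap (IsLocalRing.residue A) y₁ ≠ 0 ∧
        coeffMap (IsLocalRing.residue A) y₂ ≠ 0 ∧
        f = algebraMap Qb (modularFunctionFieldBar N) c *
          ((⟨_, h₁⟩ : modularFunctionFieldBar N) / ⟨_, h₂⟩))
    (hcons : ∀ (y₁ y₂ : LaurentSeries A)
      (h₁ : coeffMap A.subtype y₁ ∈ modularFunctionFieldBar N)
      (h₂ : coeffMap A.subtype y₂ ∈ modularFunctionFieldBar N),
      coeffMap (IsLocalRing.residue A) y₁ ≠ 0 → coeffMap (IsLocalRing.residue A) y₂ ≠ 0 →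
      ∀ D : Divisor Qb (modularFunctionFieldBar N),
        (∀ P, D P = P.ord ((⟨_, h₁⟩ : modularFunctionFieldBar N) / ⟨_, h₂⟩)) →
        Finsupp.mapDomain r D = 0 →
        ∃ c : IsLocalRing.ResidueField A, c ≠ 0 ∧
          coeffMap (IsLocalRing.residue A) y₁ =
            HahnSeries.C c * coeffMap (IsLocalRing.residue A) y₂)
    (D : Divisor Qb (modularFunctionFieldBar N)) (m : ℕ) (hm : ¬ ℓ ∣ m)
    (hmD : m • D ∈ Divisor.principal (K := Qb) (F := modularFunctionFieldBar N))
    (hr : Finsupp.mapDomain r D = 0) :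
    D ∈ Divisor.principal (K := Qb) (F := modularFunctionFieldBar N) := by
  haveI : Fact ℓ.Prime := ⟨hℓ⟩
  exact s37_di_inj_core N hℓN A hA r hcons hgen m hm D hmD
    ⟨0, zero_mem _, by rw [hr, Finsupp.mapDomain_zero]⟩

end

end Fermat.Agent.S37
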