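import Fermat.Agent.S18.ChConc
import Fermat.Agent.S18.ChartZ

/-!
# S37-R (GEN), part 1: chart elements have integral `q`-expansions

`ℤ_(ℓ)((q))` is integrally closed (power series over a principal ideal domain form a UFD), the
elements of the middle `j`-chart are integral over it and lie in its fraction field (the Gauss ring
`W`), hence their `q`-expansions have coefficients in `ℤ_(ℓ)`.  Consequently every element of the
`A`-chart `s18_chRing N ℓ A t` has coefficients in `A`.
-/

set_option autoImplicit false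
set_option synthInstance.maxHeartbeats 400000
set_option linter.unusedSectionVars false
set_option linter.unusedVariables false

open ModularCurve ModularCurve.IgusaScheme Fermat.Agent.S28 Fermat.Agent.S18 Polynomial

noncomputable section

namespace Fermat.Agent.S37

/-- An element of a field which is integral over an integrally closed domain `R` and is a fraction
of elements of `R` lies in (the image of) `R`. -/
theorem s37_rn_mem_range_of_integral {R L : Type*} [CommRing R] [IsDomain R]
    [IsIntegrallyClosed R] [Field L] (φ : R →+* L) (hφ : Function.Injective φ) (x : L)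
    (hint : φ.IsIntegralElem x) (s y : R) (hs : s ≠ 0) (hsy : φ s * x = φ y) :
    ∃ r : R, φ r = x := by
  let _ : Algebra R L := φ.toAlgebra
  have hinj : Function.Injective (algebraMap R L) := hφ
  let ψ : FractionRing R →ₐ[R] L := IsFractionRing.liftAlgHom (g := Algebra.ofId R L) hinj
  have hψ : Function.Injective ψ := (ψ : FractionRing R →+* L).injective
  set z : FractionRing R := algebraMap R (FractionRing R) y / algebraMap R (FractionRing R) s
    with hz
  have hφs : φ s ≠ 0 := fun h0 => hs (hφ (by rw [h0, map_zero]))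
  have hψz : ψ z = x := by
    rw [hz, map_div₀, AlgHom.commutes, AlgHom.commutes]
    show φ y / φ s = x
    rw [← hsy, mul_div_cancel_left₀ _ hφs]
  have hint' : IsIntegral R (ψ z) := by
    rw [hψz]
    exact hint
  have hzint : IsIntegral R z := (isIntegral_algHom_iff ψ hψ).mp hint'
  obtain ⟨r, hr⟩ := IsIntegrallyClosed.isIntegral_iff.mp hzint
  refine ⟨r, ?_⟩
  rw [← hψz, ← hr, AlgHom.commutes]
  rfl

/-- Laurent series over a principal ideal domain are integrally closed. -/
theorem s37_rn_isIntegrallyClosed_laurent (A : Type*) [CommRing A] [IsDomain A]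
    [IsPrincipalIdealRing A] : IsIntegrallyClosed (LaurentSeries A) :=
  isIntegrallyClosed_of_isLocalization (LaurentSeries A)
    (Submonoid.powers (PowerSeries.X : PowerSeries A))
    (Submonoid.powers_le.mpr (mem_nonZeroDivisors_of_ne_zero PowerSeries.X_ne_zero))

section ZLevel

variable {N : ℕ} [NeZero N] {ℓ : ℕ} [Fact ℓ.Prime]

/-- Elements of the finite `j`-chart have `ℤ_(ℓ)`-integral `q`-expansions. -/
theorem s37_rn_fin_integral {B : Subring (LaurentSeries ℚ)} (hB : CoreData N ℓ B)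
    (x : modularFunctionFieldFull N) (hx : x ∈ chartAlgFin N ℓ) :
    ∃ y : LaurentSeries (GaloisRep.ratLocalizedAt ℓ), incL ℓ y = (x : LaurentSeries ℚ) := by
  have := s37_rn_isIntegrallyClosed_laurent (GaloisRep.ratLocalizedAt ℓ)
  obtain ⟨P, hPm, hP⟩ := (mem_chartAlgFin_iff N ℓ x).mp hx
  obtain ⟨s, y, hs, hsy⟩ := hB.coe_mem_Wring_of_mem_chartAlgFin x hx
  have hev : evJ ℓ = (incL ℓ).comp (kerEvJ (GaloisRep.ratLocalizedAt ℓ)) :=
    RingHom.ext (fun c => (incL_kerEvJ ℓ c).symm)
  refine s37_rn_mem_range_of_integral (incL ℓ) (incL_injective ℓ) _ ?_ s y ?_ hsy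
  · refine ⟨P.map (kerEvJ (GaloisRep.ratLocalizedAt ℓ)), hPm.map _, ?_⟩
    rw [Polynomial.eval₂_map, ← hev]
    exact hP
  · rintro rfl
    exact hs (map_zero _)

/-- `1 / j` has a `ℤ_(ℓ)`-integral `q`-expansion. -/
theorem s37_rn_jq_inv_integral (ℓ : ℕ) [Fact ℓ.Prime] :
    ∃ y : LaurentSeries (GaloisRep.ratLocalizedAt ℓ), incL ℓ y = (jq⁻¹ : LaurentSeries ℚ) := by
  have hlead : IsLeading (jqModC (GaloisRep.ratLocalizedAt ℓ)) (-1)
      (((1 : (GaloisRep.ratLocalizedAt ℓ)ˣ) : GaloisRep.ratLocalizedAt ℓ)) := by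
    have h := formal_isLeading_single_mul (-1 : ℤ)
      (jNum.map (Int.castRingHom (GaloisRep.ratLocalizedAt ℓ)))
    have h1 : PowerSeries.constantCoeff (jNum.map (Int.castRingHom (GaloisRep.ratLocalizedAt ℓ)))
        = 1 := by
      rw [← PowerSeries.coeff_zero_eq_constantCoeff_apply, PowerSeries.coeff_map,
        PowerSeries.coeff_zero_eq_constantCoeff_apply, constantCoeff_jNum, map_one]
    rw [h1] at h
    exact h
  obtain ⟨s', hs', -⟩ := hlead.exists_inv 1
  refine ⟨s', ?_⟩
  have h2 : incL ℓ (jqModC (GaloisRep.ratLocalizedAt ℓ)) = jq := by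
    rw [incL, coeffMap_jqModC]
    rfl
  have h3 : jq * incL ℓ s' = 1 := by
    rw [← h2, ← map_mul, hs', map_one]
  exact eq_inv_of_mul_eq_one_right h3

/-- Elements of the middle `j`-chart have `ℤ_(ℓ)`-integral `q`-expansions. -/
theorem s37_rn_mid_integral {B : Subring (LaurentSeries ℚ)} (hB : CoreData N ℓ B)
    (x : modularFunctionFieldFull N) (hx : x ∈ chartAlgMid N ℓ) :
    ∃ y : LaurentSeries (GaloisRep.ratLocalizedAt ℓ), incL ℓ y = (x : LaurentSeries ℚ) := by
  obtain ⟨n, hn⟩ := exists_pow_mul_mem_fin N ℓ x hx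
  obtain ⟨y₁, hy₁⟩ := s37_rn_fin_integral hB _ hn
  obtain ⟨y₂, hy₂⟩ := s37_rn_jq_inv_integral ℓ
  refine ⟨y₂ ^ n * y₁, ?_⟩
  rw [map_mul, map_pow, hy₁, hy₂]
  show jq⁻¹ ^ n * (jq ^ n * (x : LaurentSeries ℚ)) = _
  rw [← mul_assoc, ← mul_pow, inv_mul_cancel₀ jq_ne_zero, one_pow, one_mul]

/-- Elements of the `ℤ_(ℓ)`-chart of a coordinate `t` have `ℤ_(ℓ)`-integral `q`-expansions. -/
theorem s37_rn_czRing_integral {t : modularFunctionFieldFull N} (h : s18_cz_Coord N ℓ t)
    {B : Subring (LaurentSeries ℚ)} (hB : CoreData N ℓ B) (z : LaurentSeries ℚ)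
    (hz : z ∈ s18_czRing N ℓ t) :
    ∃ y : LaurentSeries (GaloisRep.ratLocalizedAt ℓ), incL ℓ y = z := by
  obtain ⟨x, hx, rfl⟩ := s18_mem_czRing.mp hz
  exact s37_rn_mid_integral hB x (h.chart_le_mid hx)

end ZLevel

section ALevel

variable {N : ℕ} [NeZero N] {ℓ : ℕ} [Fact ℓ.Prime]
variable {K : Type*} [Field K] [Algebra ℚ K] {A : ValuationSubring K}
variable {t : modularFunctionFieldFull N}

/-- **Chart elements have integral `q`-expansions**: every element of the `A`-chart of a
coordinate `t` has coefficients in `A` (for an arbitrary valuation ring `A` in which `ℓ` is not a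
unit). -/
theorem s37_rn_chRing_integral (hℓ : ((ℓ : K))⁻¹ ∉ A) (h : s18_cz_Coord N ℓ t)
    {B : Subring (LaurentSeries ℚ)} (hB : CoreData N ℓ B) (z : LaurentSeries K)
    (hz : z ∈ s18_chRing N ℓ A t) :
    ∃ y : LaurentSeries A, coeffMap A.subtype y = z := by
  refine s18_chSpan_induction (P := fun z => ∃ y : LaurentSeries A, coeffMap A.subtype y = z)
    ?_ ?_ ?_ ?_ hz
  · intro r x hx
    obtain ⟨y₀, rfl⟩ := s37_rn_czRing_integral h hB x hx
    refine ⟨HahnSeries.C r * coeffMap (s18_zToA ℓ A hℓ) y₀, ?_⟩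
    rw [map_mul, coeffMap_coeffMap, ← s18_comp_sub ℓ A hℓ, HahnSeries.C_apply, coeffMap_single,
      ← HahnSeries.C_apply, incL, coeffMap_coeffMap]
  · exact ⟨0, map_zero _⟩
  · rintro y y' ⟨a, rfl⟩ ⟨b, rfl⟩
    exact ⟨a + b, map_add _ _ _⟩
  · rintro y ⟨a, rfl⟩
    exact ⟨-a, map_neg _ _⟩

end ALevel

end Fermat.Agent.S37
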