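import Fermat.Agent.S18.AsUfd
import Fermat.Prelude.Def_AlgebraicCurve_DivisorClassGroup

/-!
# S37, block R, leaf (LOC): the local computation at a closed point of a chart

`s37_rl_local` : let `B` be a chart (`s18_Chart`) over a discrete valuation ring `A₀` with
uniformizer `π`, `𝔪 ∋ π` a maximal ideal of `B`, and `a, b ∈ B` not divisible by `π`.  If all the
places of the generic fibre through `𝔪` at which `a / b` has nonzero order are rational, and the
orders of `a / b` at these places sum to zero, then `a / b` is congruent modulo `π` to a unit of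
`B_𝔪`: there are `c, d ∈ B ∖ 𝔪` with `π ∣ a d - b c`.

The proof works in the regular two-dimensional local ring `R = B_𝔪` (a UFD): every place through
`𝔪` in the support is cut out by a prime element `g_Q = s - π e` of `R`, where `(π, s)` is the
maximal ideal; `a / b = u ∏ g_Q ^ n_Q` with `u` a unit of `R`; and `∏ g_Q ^ n_Q ≡ s ^ (∑ n_Q) = 1`
modulo `π`.
-/

set_option autoImplicit false

namespace Fermat.Agent.S37

open IsLocalRing AlgebraicCurve Fermat.Agent.S18

section ValSub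

variable {F : Type*} [Field F] (W : ValuationSubring F)

theorem s37_rl_inv_mem {x : F} (hx : x ∈ W) (hx' : x ∉ W.nonunits) : x⁻¹ ∈ W := by
  rw [ValuationSubring.mem_nonunits_iff, not_lt] at hx'
  have h1 : W.valuation x = 1 := le_antisymm ((W.valuation_le_one_iff x).mpr hx) hx'
  rw [← W.valuation_le_one_iff, map_inv₀, h1, inv_one]

theorem s37_rl_not_nonunit {x : F} (hx0 : x ≠ 0) (hx : x ∈ W.nonunits) (hx' : x⁻¹ ∈ W) : False := by
  rw [ValuationSubring.mem_nonunits_iff] at hx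
  rw [← W.valuation_le_one_iff, map_inv₀] at hx'
  have h0 : W.valuation x ≠ 0 := (Valuation.ne_zero_iff _).mpr hx0
  have h1 : W.valuation x * (W.valuation x)⁻¹ = 1 := mul_inv_cancel₀ h0
  have h2 : W.valuation x * (W.valuation x)⁻¹ < 1 := mul_lt_one_of_lt_of_le hx hx'
  exact absurd h1 h2.ne

theorem s37_rl_mul_nonunit {x y : F} (hx : x ∈ W.nonunits) (hy : y ∈ W) : x * y ∈ W.nonunits := by
  rw [ValuationSubring.mem_nonunits_iff] at hx ⊢
  rw [map_mul]
  exact mul_lt_one_of_lt_of_le hx ((W.valuation_le_one_iff y).mpr hy)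

theorem s37_rl_val_eq_one {x : F} (hx0 : x ≠ 0) (hx : x ∈ W) (hx' : x⁻¹ ∈ W) :
    W.valuation x = 1 := by
  have h1 := (W.valuation_le_one_iff x).mpr hx
  have h2 := (W.valuation_le_one_iff _).mpr hx'
  rw [map_inv₀] at h2
  have h0 : W.valuation x ≠ 0 := (Valuation.ne_zero_iff _).mpr hx0
  refine le_antisymm h1 ?_
  by_contra h3
  rw [not_le] at h3
  have h4 : W.valuation x * (W.valuation x)⁻¹ = 1 := mul_inv_cancel₀ h0
  have h5 : W.valuation x * (W.valuation x)⁻¹ < 1 := mul_lt_one_of_lt_of_le h3 h2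
  exact absurd h4 h5.ne

theorem s37_rl_mem_of_val_eq_one {x : F} (hx : W.valuation x = 1) : x ∈ W ∧ x⁻¹ ∈ W := by
  constructor
  · rw [← W.valuation_le_one_iff, hx]
  · rw [← W.valuation_le_one_iff, map_inv₀, hx, inv_one]

end ValSub

/-- (Krull) In a noetherian local ring with maximal ideal `(ϖ, g)`, a prime ideal containing `g`
but not `ϖ` is `(g)`. -/
theorem s37_rl_prime_eq_span {R : Type*} [CommRing R] [IsNoetherianRing R] [IsLocalRing R]
    (ϖ g : R) (hm : maximalIdeal R = Ideal.span {ϖ, g}) (P : Ideal R) [hP : P.IsPrime]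
    (hg : g ∈ P) (hϖ : ϖ ∉ P) : P = Ideal.span {g} := by
  apply le_antisymm
  · intro x hx
    have key : ∀ n : ℕ, ∀ x ∈ P, ∃ y z : R, x = ϖ ^ n * y + g * z := by
      intro n
      induction n with
      | zero => intro x _; exact ⟨x, 0, by ring⟩
      | succ n ih =>
        intro x hx
        obtain ⟨y, z, hxyz⟩ := ih x hx
        have hy : y ∈ P := by
          have h1 : ϖ ^ n * y ∈ P := by
            have : ϖ ^ n * y = x - g * z := by rw [hxyz]; ring
            rw [this]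
            exact P.sub_mem hx (P.mul_mem_right _ hg)
          rcases hP.mem_or_mem h1 with h2 | h2
          · exact absurd (hP.mem_of_pow_mem n h2) hϖ
          · exact h2
        have hy' : y ∈ Ideal.span {ϖ, g} := by
          rw [← hm]
          exact IsLocalRing.le_maximalIdeal hP.ne_top hy
        obtain ⟨c, d, hcd⟩ := Ideal.mem_span_pair.mp hy'
        exact ⟨c, ϖ ^ n * d + z, by rw [hxyz, ← hcd]; ring⟩
    have hI : Ideal.span {ϖ} ≠ ⊤ := by
      intro h
      have h1 : Ideal.span {ϖ} ≤ maximalIdeal R := by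
        rw [hm]; exact Ideal.span_mono (by simp)
      rw [h] at h1
      exact (IsLocalRing.maximalIdeal.isMaximal R).ne_top (top_le_iff.mp h1)
    have hkr := Ideal.iInf_pow_smul_eq_bot_of_isLocalRing (R := R) (M := R ⧸ Ideal.span {g})
      (Ideal.span {ϖ}) hI
    have hmem : (Ideal.Quotient.mk (Ideal.span {g}) x) ∈
        (⨅ i : ℕ, (Ideal.span {ϖ}) ^ i • (⊤ : Submodule R (R ⧸ Ideal.span {g}))) := by
      rw [Submodule.mem_iInf]
      intro n
      obtain ⟨y, z, hxyz⟩ := key n x hx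
      have h1 : Ideal.Quotient.mk (Ideal.span {g}) x =
          ϖ ^ n • Ideal.Quotient.mk (Ideal.span {g}) y := by
        rw [hxyz, map_add, map_mul, map_mul]
        have h2 : Ideal.Quotient.mk (Ideal.span {g}) g = 0 :=
          Ideal.Quotient.eq_zero_iff_mem.mpr (Ideal.mem_span_singleton_self g)
        rw [h2, zero_mul, add_zero]
        rfl
      rw [h1]
      exact Submodule.smul_mem_smul (Ideal.pow_mem_pow (Ideal.mem_span_singleton_self ϖ) n)
        Submodule.mem_top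
    rw [hkr] at hmem
    exact Ideal.Quotient.eq_zero_iff_mem.mp ((Submodule.mem_bot R).mp hmem)
  · rw [Ideal.span_singleton_le_iff_mem]; exact hg

/-- DVR dichotomy: an element of the fraction field is in `π A₀` or has its inverse in `A₀`. -/
theorem s37_rl_dvr_dichotomy {A₀ K₁ : Type*} [CommRing A₀] [IsDomain A₀]
    [IsDiscreteValuationRing A₀] [Field K₁] [Algebra A₀ K₁] [IsFractionRing A₀ K₁] {π : A₀}
    (hπ : Irreducible π) (c : K₁) :
    (∃ e : A₀, c = algebraMap A₀ K₁ (π * e)) ∨ (∃ d : A₀, algebraMap A₀ K₁ d * c = 1) := by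
  by_cases hc : c = 0
  · left; exact ⟨0, by simp [hc]⟩
  obtain ⟨x, y, hy, rfl⟩ := IsFractionRing.div_surjective (A := A₀) c
  have hy0 : y ≠ 0 := nonZeroDivisors.ne_zero hy
  have hx0 : x ≠ 0 := by rintro rfl; simp at hc
  obtain ⟨m, u, rfl⟩ := IsDiscreteValuationRing.eq_unit_mul_pow_irreducible hx0 hπ
  obtain ⟨n, v, rfl⟩ := IsDiscreteValuationRing.eq_unit_mul_pow_irreducible hy0 hπ
  have hinj := IsFractionRing.injective A₀ K₁
  have hyK : algebraMap A₀ K₁ (↑v * π ^ n) ≠ 0 := fun h => hy0 (hinj (by rw [h, map_zero]))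
  have hxK : algebraMap A₀ K₁ (↑u * π ^ m) ≠ 0 := fun h => hx0 (hinj (by rw [h, map_zero]))
  have hv : ((v⁻¹ : A₀ˣ) : A₀) * (v : A₀) = 1 := Units.inv_mul v
  have hu : ((u⁻¹ : A₀ˣ) : A₀) * (u : A₀) = 1 := Units.inv_mul u
  rcases lt_or_ge n m with h | h
  · left
    obtain ⟨k, rfl⟩ : ∃ k, m = n + 1 + k := ⟨m - n - 1, by omega⟩
    refine ⟨(u : A₀) * ((v⁻¹ : A₀ˣ) : A₀) * π ^ k, ?_⟩
    rw [div_eq_iff hyK, ← map_mul]
    congr 1
    linear_combination (-(u : A₀) * π ^ (n + 1 + k)) * hv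
  · right
    obtain ⟨k, rfl⟩ : ∃ k, n = m + k := ⟨n - m, by omega⟩
    refine ⟨(v : A₀) * ((u⁻¹ : A₀ˣ) : A₀) * π ^ k, ?_⟩
    rw [mul_div_assoc', div_eq_iff hyK, one_mul, ← map_mul]
    congr 1
    linear_combination ((v : A₀) * π ^ (m + k)) * hu

section PrimeVal

variable {R F : Type*} [CommRing R] [IsDomain R] [WfDvdMonoid R] [Field F] [Algebra R F]
  [IsFractionRing R F]

theorem s37_rl_val_of_not_dvd {g : R} (hg : Prime g) {r : R} (hr : ¬ g ∣ r) :
    (as1_primeVal (F := F) g hg).valuation (algebraMap R F r) = 1 :=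
  s37_rl_val_eq_one _ (as1_algebraMap_ne_zero_of_not_dvd hr) (as1_algebraMap_mem_primeVal hg r)
    (as1_inv_mem_primeVal hg hr)

theorem s37_rl_dvd_of_val_lt {g : R} (hg : Prime g) {r : R}
    (hr : (as1_primeVal (F := F) g hg).valuation (algebraMap R F r) < 1) : g ∣ r := by
  by_contra h
  rw [s37_rl_val_of_not_dvd hg h] at hr
  exact lt_irrefl _ hr

theorem s37_rl_dvd_of_mem {g : R} (hg : Prime g) {a b : R} (hb0 : b ≠ 0)
    (h : algebraMap R F a / algebraMap R F b ∈ as1_primeVal (F := F) g hg) (hgb : g ∣ b) :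
    g ∣ a := by
  obtain ⟨r, c, hc, h⟩ := h
  have hinj := IsFractionRing.injective R F
  have hbF : algebraMap R F b ≠ 0 := fun h0 => hb0 (hinj (by rw [h0, map_zero]))
  have hcF := as1_algebraMap_ne_zero_of_not_dvd (F := F) hc
  rw [div_eq_div_iff hbF hcF] at h
  have h2 : a * c = r * b := hinj (by rw [map_mul, map_mul, h])
  have h3 : g ∣ a * c := by rw [h2]; exact Dvd.dvd.mul_left hgb r
  exact (hg.dvd_or_dvd h3).resolve_right hc

/-- Nonunits of the localization at `g` are multiples of `g`. -/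
theorem s37_rl_primeVal_nonunits {g : R} (hg : Prime g) {x : F}
    (hx : x ∈ (as1_primeVal (F := F) g hg).nonunits) :
    ∃ y ∈ as1_primeVal (F := F) g hg, x = algebraMap R F g * y := by
  by_cases hx0 : x = 0
  · exact ⟨0, zero_mem _, by rw [hx0, mul_zero]⟩
  obtain ⟨r, c, hc, hxrc⟩ := (as1_primeVal (F := F) g hg).nonunits_subset hx
  have hcF := as1_algebraMap_ne_zero_of_not_dvd (F := F) hc
  have hgr : g ∣ r := by
    by_contra hgr
    refine s37_rl_not_nonunit _ hx0 hx ⟨c, r, hgr, ?_⟩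
    rw [hxrc, inv_div]
  obtain ⟨r', rfl⟩ := hgr
  refine ⟨algebraMap R F r' / algebraMap R F c, ⟨r', c, hc, rfl⟩, ?_⟩
  rw [hxrc, map_mul, mul_div_assoc]

end PrimeVal

/-- In a UFD, an element of the fraction field which is a unit at all prime elements is a unit. -/
theorem s37_rl_unit_of_val {R F : Type*} [CommRing R] [IsDomain R] [UniqueFactorizationMonoid R]
    [Field F] [Algebra R F] [IsFractionRing R F] (z : F) (hz0 : z ≠ 0)
    (hz : ∀ (g : R) (hg : Prime g), (as1_primeVal (F := F) g hg).valuation z = 1) :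
    ∃ u : Rˣ, algebraMap R F (u : R) = z := by
  obtain ⟨a, b, hrel, hab⟩ := IsFractionRing.exists_reduced_fraction (A := R) (K := F) z
  rw [IsFractionRing.mk'_eq_div] at hab
  have hinj := IsFractionRing.injective R F
  have hb0 : (b : R) ≠ 0 := nonZeroDivisors.ne_zero b.2
  have ha0 : a ≠ 0 := by
    rintro rfl
    apply hz0
    rw [← hab, map_zero, zero_div]
  have hbu : IsUnit (b : R) := by
    by_contra hbu
    obtain ⟨i, hi, hib⟩ := WfDvdMonoid.exists_irreducible_factor hbu hb0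
    have hip : Prime i := UniqueFactorizationMonoid.irreducible_iff_prime.mp hi
    have h1 := (s37_rl_mem_of_val_eq_one _ (hz i hip)).1
    rw [← hab] at h1
    exact hi.not_isUnit (hrel (s37_rl_dvd_of_mem hip hb0 h1 hib) hib)
  have hau : IsUnit a := by
    by_contra hau
    obtain ⟨i, hi, hia⟩ := WfDvdMonoid.exists_irreducible_factor hau ha0
    have hip : Prime i := UniqueFactorizationMonoid.irreducible_iff_prime.mp hi
    have h1 := (s37_rl_mem_of_val_eq_one _ (hz i hip)).2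
    rw [← hab, inv_div] at h1
    exact hi.not_isUnit (hrel hia (s37_rl_dvd_of_mem hip ha0 h1 hia))
  refine ⟨hau.unit * hbu.unit⁻¹, ?_⟩
  rw [← hab, eq_div_iff (fun h0 => hb0 (hinj (by rw [h0, map_zero]))), ← map_mul]
  congr 1
  rw [Units.val_mul, IsUnit.unit_spec, mul_assoc]
  have : ((hbu.unit⁻¹ : Rˣ) : R) * (b : R) = 1 := by
    have := Units.inv_mul hbu.unit
    rwa [IsUnit.unit_spec] at this
  rw [this, mul_one]

/-- In a noetherian local domain with maximal ideal `(ϖ, g)`, a valuation ring `W ⊇ R[1/ϖ]` of the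
fraction field in which `g` is a nonunit (and some nonzero element of `R` is a nonunit) is the
localization of `R` at the prime element `g`. -/
theorem s37_rl_val_eq {R F : Type*} [CommRing R] [IsDomain R] [IsNoetherianRing R]
    [IsLocalRing R] [Field F] [Algebra R F] [IsFractionRing R F] (ϖ g : R) (hϖ0 : ϖ ≠ 0)
    (hm : maximalIdeal R = Ideal.span {ϖ, g}) (W : ValuationSubring F)
    (hRW : ∀ r : R, algebraMap R F r ∈ W) (hϖW : (algebraMap R F ϖ)⁻¹ ∈ W)
    (hgW : algebraMap R F g ∈ W.nonunits)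
    (hne : ∃ x : R, x ≠ 0 ∧ algebraMap R F x ∈ W.nonunits) :
    ∃ hg : Prime g, W = as1_primeVal (F := F) g hg := by
  have hinj := IsFractionRing.injective R F
  let φ : R →+* W := (algebraMap R F).codRestrict W.toSubring hRW
  let P : Ideal R := (maximalIdeal W).comap φ
  have hPmem : ∀ x : R, x ∈ P ↔ algebraMap R F x ∈ W.nonunits := by
    intro x
    rw [ValuationSubring.mem_nonunits_iff_exists_mem_maximalIdeal]
    exact ⟨fun h => ⟨hRW x, h⟩, fun ⟨_, h⟩ => h⟩
  have hPprime : P.IsPrime := Ideal.comap_isPrime φ _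
  have hgP : g ∈ P := (hPmem g).mpr hgW
  have hϖP : ϖ ∉ P := by
    intro h
    have hϖF : algebraMap R F ϖ ≠ 0 := fun h0 => hϖ0 (hinj (by rw [h0, map_zero]))
    exact s37_rl_not_nonunit W hϖF ((hPmem ϖ).mp h) hϖW
  have hPeq : P = Ideal.span {g} := s37_rl_prime_eq_span ϖ g hm P hgP hϖP
  have hg0 : g ≠ 0 := by
    rintro rfl
    obtain ⟨x, hx0, hxW⟩ := hne
    have hxP : x ∈ P := (hPmem x).mpr hxW
    rw [hPeq, Ideal.mem_span_singleton, zero_dvd_iff] at hxP
    exact hx0 hxP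
  have hg : Prime g := by
    rw [hPeq] at hPprime
    exact (Ideal.span_singleton_prime hg0).mp hPprime
  refine ⟨hg, ?_⟩
  have hle : as1_primeVal (F := F) g hg ≤ W := by
    rintro x ⟨r, c, hc, rfl⟩
    have hcP : c ∉ P := by rw [hPeq, Ideal.mem_span_singleton]; exact hc
    have hc1 : algebraMap R F c ∉ W.nonunits := fun h => hcP ((hPmem c).mpr h)
    rw [div_eq_mul_inv]
    exact W.mul_mem _ _ (hRW r) (s37_rl_inv_mem W (hRW c) hc1)
  refine le_antisymm ?_ hle
  intro x hx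
  rcases (as1_primeVal (F := F) g hg).mem_or_inv_mem x with h | h
  · exact h
  · by_cases hx0 : x = 0
    · rw [hx0]; exact zero_mem _
    obtain ⟨n, u, hu, hu', hxu⟩ := as1_primeVal_decomp hg (inv_ne_zero hx0) h
    rcases Nat.eq_zero_or_pos n with rfl | hn
    · rw [pow_zero, one_mul] at hxu
      have : x = u⁻¹ := by rw [← hxu, inv_inv]
      rw [this]; exact hu'
    · exfalso
      have h1 : x⁻¹ ∈ W.nonunits := by
        obtain ⟨m, rfl⟩ : ∃ m, n = m + 1 := ⟨n - 1, by omega⟩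
        rw [hxu, pow_succ', mul_assoc]
        exact s37_rl_mul_nonunit W hgW (W.mul_mem _ _ (W.pow_mem (hRW g) m) (hle hu))
      exact s37_rl_not_nonunit W (inv_ne_zero hx0) h1 (by rw [inv_inv]; exact hx)

section PlaceLemmas

variable {K F : Type*} [Field K] [Field F] [Algebra K F]

theorem s37_rl_ord_eq_one (Q : Place K F) (γ : F) (hγ : γ ∈ Q.toValuationSubring.nonunits)
    (h : ∀ x ∈ Q.toValuationSubring.nonunits, ∃ y ∈ Q.toValuationSubring, x = γ * y) :
    Q.ord γ = 1 := by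
  have hγO : γ ∈ Q.toValuationSubring := Q.toValuationSubring.nonunits_subset hγ
  have hirr : Irreducible (⟨γ, hγO⟩ : Q.toValuationSubring) := by
    rw [IsDiscreteValuationRing.irreducible_iff_uniformizer]
    apply le_antisymm
    · intro x hx
      have hx' : (x : F) ∈ Q.toValuationSubring.nonunits :=
        ValuationSubring.mem_nonunits_iff_exists_mem_maximalIdeal.mpr ⟨x.2, hx⟩
      obtain ⟨y, hy, hxy⟩ := h _ hx'
      rw [Ideal.mem_span_singleton]
      exact ⟨⟨y, hy⟩, Subtype.ext hxy⟩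
    · rw [Ideal.span_singleton_le_iff_mem]
      obtain ⟨_, h1⟩ := ValuationSubring.mem_nonunits_iff_exists_mem_maximalIdeal.mp hγ
      exact h1
  exact Q.ord_coe_irreducible hirr

theorem s37_rl_ord_eq_zero (Q : Place K F) (γ : F) (hγ : γ ∈ Q.toValuationSubring)
    (hγ' : γ ∉ Q.toValuationSubring.nonunits) : Q.ord γ = 0 := by
  have hu : IsUnit (⟨γ, hγ⟩ : Q.toValuationSubring) := by
    rw [← IsLocalRing.notMem_maximalIdeal]
    intro h
    exact hγ' (ValuationSubring.mem_nonunits_iff_exists_mem_maximalIdeal.mpr ⟨hγ, h⟩)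
  have := Q.ord_coe_unit hu.unit
  rwa [IsUnit.unit_spec] at this

theorem s37_rl_val_of_ord (Q : Place K F) {z : F} (hz0 : z ≠ 0) (hz : Q.ord z = 0) :
    Q.toValuationSubring.valuation z = 1 := by
  obtain ⟨π, hπ⟩ := IsDiscreteValuationRing.exists_irreducible Q.toValuationSubring
  obtain ⟨u, hu⟩ := Q.exists_unit_mul_zpow hz0 hπ
  rw [hz, zpow_zero, mul_one] at hu
  rw [hu]
  exact ValuationSubring.valuation_unit _ u

theorem s37_rl_ord_prod (Q : Place K F) {ι : Type*} (T : Finset ι) (f : ι → F)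
    (hf : ∀ i ∈ T, f i ≠ 0) : Q.ord (∏ i ∈ T, f i) = ∑ i ∈ T, Q.ord (f i) := by
  classical
  induction T using Finset.induction_on with
  | empty => simp
  | insert i T hi ih =>
    rw [Finset.prod_insert hi, Finset.sum_insert hi,
      Q.ord_mul (hf i (Finset.mem_insert_self i T))
        (Finset.prod_ne_zero_iff.mpr fun j hj => hf j (Finset.mem_insert_of_mem hj)),
      ih fun j hj => hf j (Finset.mem_insert_of_mem hj)]

end PlaceLemmas

/-- The abstract core of `s37_rl_local`, over a regular local ring `R` with maximal ideal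
`(ϖ, σ)`. -/
theorem s37_rl_core {R K₁ F : Type*} [CommRing R] [IsDomain R] [IsNoetherianRing R]
    [IsLocalRing R] [Field K₁] [Field F] [Algebra K₁ F] [Algebra R F] [IsFractionRing R F]
    (ϖ σ : R) (hϖ : Prime ϖ) (hm : maximalIdeal R = Ideal.span {ϖ, σ})
    (hϖK : ∃ c : K₁, algebraMap K₁ F c = algebraMap R F ϖ)
    (hK : ∀ W : ValuationSubring F, (∀ r : R, algebraMap R F r ∈ W) →
      (algebraMap R F ϖ)⁻¹ ∈ W → ∀ c : K₁, algebraMap K₁ F c ∈ W)
    (a b : R) (ha : ¬ ϖ ∣ a) (hb : ¬ ϖ ∣ b)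
    (S : Finset (Place K₁ F))
    (hS : ∀ Q : Place K₁ F, Q ∈ S ↔ ((∀ r : R, algebraMap R F r ∈ Q.toValuationSubring) ∧
      Q.ord (algebraMap R F a / algebraMap R F b) ≠ 0))
    (hgen : ∀ Q ∈ S, ∃ e : R, algebraMap R F (σ - ϖ * e) ∈ Q.toValuationSubring.nonunits)
    (hbal : ∑ Q ∈ S, Q.ord (algebraMap R F a / algebraMap R F b) = 0) :
    ∃ u : Rˣ, ϖ ∣ a - u * b := by
  classical
  have hinj := IsFractionRing.injective R F
  have hUFD : UniqueFactorizationMonoid R := as1_ufd_of_regular ϖ σ hϖ hm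
  have hϖF : algebraMap R F ϖ ≠ 0 := fun h0 => hϖ.ne_zero (hinj (by rw [h0, map_zero]))
  have haF : algebraMap R F a ≠ 0 := as1_algebraMap_ne_zero_of_not_dvd ha
  have hbF : algebraMap R F b ≠ 0 := as1_algebraMap_ne_zero_of_not_dvd hb
  have ha0 : a ≠ 0 := fun h => ha (h ▸ dvd_zero ϖ)
  have hb0 : b ≠ 0 := fun h => hb (h ▸ dvd_zero ϖ)
  -- `ϖ` is a unit at every place over `K₁`
  have hϖQ : ∀ Q : Place K₁ F, (algebraMap R F ϖ)⁻¹ ∈ Q.toValuationSubring := by
    intro Q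
    obtain ⟨c, hc⟩ := hϖK
    rw [← hc, ← map_inv₀]
    exact Q.algebraMap_mem' _
  -- per-place data: the prime element `g_Q`
  have hdata : ∀ Q ∈ S, ∃ g : R, Prime g ∧
      (∀ hg : Prime g, Q.toValuationSubring = as1_primeVal (F := F) g hg) ∧
      maximalIdeal R = Ideal.span {ϖ, g} ∧ ¬ ϖ ∣ g ∧ (∃ e : R, g = σ - ϖ * e) ∧
      algebraMap R F g ∈ Q.toValuationSubring.nonunits := by
    intro Q hQ
    obtain ⟨hRQ, hord⟩ := (hS Q).mp hQ
    obtain ⟨e, he⟩ := hgen Q hQ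
    have hm' : maximalIdeal R = Ideal.span {ϖ, σ - ϖ * e} := by
      rw [hm]
      apply le_antisymm
      · rw [Ideal.span_le]
        rintro x (rfl | rfl)
        · exact Ideal.subset_span (by simp)
        · exact Ideal.mem_span_pair.mpr ⟨e, 1, by ring⟩
      · rw [Ideal.span_le]
        rintro x (rfl | rfl)
        · exact Ideal.subset_span (by simp)
        · exact Ideal.mem_span_pair.mpr ⟨-e, 1, by ring⟩
    have hne : ∃ x : R, x ≠ 0 ∧ algebraMap R F x ∈ Q.toValuationSubring.nonunits := by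
      by_contra hcon
      push Not at hcon
      apply hord
      rw [div_eq_mul_inv, Q.ord_mul haF (inv_ne_zero hbF), Q.ord_inv,
        s37_rl_ord_eq_zero Q _ (hRQ a) (hcon a ha0), s37_rl_ord_eq_zero Q _ (hRQ b) (hcon b hb0)]
      simp
    obtain ⟨hg, hW⟩ := s37_rl_val_eq ϖ (σ - ϖ * e) hϖ.ne_zero hm' Q.toValuationSubring hRQ
      (hϖQ Q) he hne
    refine ⟨σ - ϖ * e, hg, fun _ => hW, hm', ?_, ⟨e, rfl⟩, he⟩
    intro hdvd
    obtain ⟨t, ht⟩ := hϖ.irreducible.dvd_symm hg.irreducible hdvd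
    have h1 : algebraMap R F ϖ ∈ Q.toValuationSubring.nonunits := by
      rw [ht, map_mul]
      exact s37_rl_mul_nonunit _ he (hRQ t)
    exact s37_rl_not_nonunit _ hϖF h1 (hϖQ Q)
  choose! gf hgp hgW hgm hgϖ hge hgn using hdata
  -- orders of `g_Q` at places through the closed point
  have hF : ∀ Q ∈ S, ∀ Q' : Place K₁ F, (∀ r : R, algebraMap R F r ∈ Q'.toValuationSubring) →
      Q'.ord (algebraMap R F (gf Q)) = if Q' = Q then 1 else 0 := by
    intro Q hQ Q' hRQ'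
    by_cases h : Q' = Q
    · subst h
      rw [if_pos rfl]
      apply s37_rl_ord_eq_one Q' _ (hgn Q' hQ)
      intro x hx
      rw [hgW Q' hQ (hgp Q' hQ)] at hx ⊢
      exact s37_rl_primeVal_nonunits (hgp Q' hQ) hx
    · rw [if_neg h]
      apply s37_rl_ord_eq_zero Q' _ (hRQ' _)
      intro hnon
      apply h
      obtain ⟨hg', hW'⟩ := s37_rl_val_eq ϖ (gf Q) hϖ.ne_zero (hgm Q hQ) Q'.toValuationSubring hRQ'
        (hϖQ Q') hnon ⟨gf Q, (hgp Q hQ).ne_zero, hnon⟩
      exact Place.ext (hW'.trans (hgW Q hQ hg').symm)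
  obtain ⟨n, hn⟩ : ∃ n : Place K₁ F → ℤ,
      ∀ Q, n Q = Q.ord (algebraMap R F a / algebraMap R F b) := ⟨_, fun _ => rfl⟩
  obtain ⟨γ, hγ⟩ : ∃ γ : Place K₁ F → F, ∀ Q, γ Q = algebraMap R F (gf Q) := ⟨_, fun _ => rfl⟩
  have hbal' : ∑ Q ∈ S, n Q = 0 := by
    rw [← hbal]
    exact Finset.sum_congr rfl fun Q _ => hn Q
  have hγ0 : ∀ Q ∈ S, γ Q ≠ 0 := by
    intro Q hQ h0
    rw [hγ] at h0
    exact (hgp Q hQ).ne_zero (hinj (by rw [h0, map_zero]))
  have hprod0 : ∏ Q ∈ S, γ Q ^ (-(n Q)) ≠ 0 :=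
    Finset.prod_ne_zero_iff.mpr fun Q hQ => zpow_ne_zero _ (hγ0 Q hQ)
  obtain ⟨z, hz⟩ : ∃ z : F, z = algebraMap R F a / algebraMap R F b * ∏ Q ∈ S, γ Q ^ (-(n Q)) :=
    ⟨_, rfl⟩
  have hz0 : z ≠ 0 := by
    rw [hz]
    exact mul_ne_zero (div_ne_zero haF hbF) hprod0
  -- `z` is a unit at all prime elements
  have hzval : ∀ (g : R) (hg : Prime g), (as1_primeVal (F := F) g hg).valuation z = 1 := by
    intro g hg
    by_cases hgϖ' : g ∣ ϖ
    · have hϖg : ϖ ∣ g := hg.irreducible.dvd_symm hϖ.irreducible hgϖ'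
      have h1 : ∀ r : R, ¬ ϖ ∣ r →
          (as1_primeVal (F := F) g hg).valuation (algebraMap R F r) = 1 :=
        fun r hr => s37_rl_val_of_not_dvd hg fun h => hr (hϖg.trans h)
      rw [hz, map_mul, map_div₀, map_prod, h1 a ha, h1 b hb, div_one, one_mul]
      apply Finset.prod_eq_one
      intro Q hQ
      rw [map_zpow₀, hγ, h1 _ (hgϖ Q hQ), one_zpow]
    · let Qg : Place K₁ F := ⟨as1_primeVal (F := F) g hg,
        hK _ (as1_algebraMap_mem_primeVal hg) (as1_inv_mem_primeVal hg hgϖ'),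
        fun h => as1_primeVal_inv_f_not_mem (F := F) hg (by rw [h]; exact ValuationSubring.mem_top _),
        inferInstance⟩
      have hRQg : ∀ r : R, algebraMap R F r ∈ Qg.toValuationSubring :=
        as1_algebraMap_mem_primeVal hg
      apply s37_rl_val_of_ord Qg hz0
      have h1 : Qg.ord (∏ Q ∈ S, γ Q ^ (-(n Q))) = ∑ Q ∈ S, if Qg = Q then -(n Q) else 0 := by
        rw [s37_rl_ord_prod Qg S _ (fun Q hQ => zpow_ne_zero _ (hγ0 Q hQ))]
        apply Finset.sum_congr rfl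
        intro Q hQ
        rw [Qg.ord_zpow, hγ, hF Q hQ Qg hRQg]
        split_ifs <;> simp
      rw [hz, Qg.ord_mul (div_ne_zero haF hbF) hprod0, h1, Finset.sum_ite_eq]
      by_cases hmem : Qg ∈ S
      · rw [if_pos hmem, hn]; ring
      · rw [if_neg hmem, add_zero]
        by_contra hcon
        exact hmem ((hS Qg).mpr ⟨hRQg, hcon⟩)
  obtain ⟨u, hu⟩ := s37_rl_unit_of_val z hz0 hzval
  -- the product of the `g_Q ^ n_Q` is `1` modulo `ϖ`
  have hvϖ : (as1_primeVal (F := F) ϖ hϖ).valuation (algebraMap R F ϖ) < 1 := by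
    rw [← ValuationSubring.mem_nonunits_iff, ValuationSubring.mem_nonunits_iff_or]
    exact Or.inr (as1_primeVal_inv_f_not_mem hϖ)
  obtain ⟨P, hP⟩ : ∃ P : F, P = ∏ Q ∈ S, γ Q ^ (n Q) := ⟨_, rfl⟩
  have hP0 : P ≠ 0 := by
    rw [hP]
    exact Finset.prod_ne_zero_iff.mpr fun Q hQ => zpow_ne_zero _ (hγ0 Q hQ)
  have hzP : z = algebraMap R F a / algebraMap R F b * P⁻¹ := by
    rw [hz, hP, ← Finset.prod_inv_distrib]
    congr 1
    apply Finset.prod_congr rfl
    intro Q _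
    rw [zpow_neg]
  have hrel : algebraMap R F a = algebraMap R F u * algebraMap R F b * P := by
    rw [hu, hzP]; field_simp
  have hPval : (as1_primeVal (F := F) ϖ hϖ).valuation (P - 1) < 1 := by
    rcases S.eq_empty_or_nonempty with hemp | ⟨Q₀, hQ₀⟩
    · have : P = 1 := by rw [hP, hemp, Finset.prod_empty]
      rw [this, sub_self, map_zero]; exact zero_lt_one
    · have hσ : ¬ ϖ ∣ σ := by
        intro hdvd
        obtain ⟨e, he⟩ := hge Q₀ hQ₀
        apply hgϖ Q₀ hQ₀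
        rw [he]
        exact dvd_sub hdvd (dvd_mul_right ϖ e)
      have hσF : algebraMap R F σ ≠ 0 := as1_algebraMap_ne_zero_of_not_dvd hσ
      have hσv : (as1_primeVal (F := F) ϖ hϖ).valuation (algebraMap R F σ) = 1 :=
        s37_rl_val_of_not_dvd hϖ hσ
      let σu : Fˣ := Units.mk0 _ hσF
      let γu : Place K₁ F → Fˣ := fun Q => if h : Q ∈ S then Units.mk0 (γ Q) (hγ0 Q h) else 1
      have hγu : ∀ Q ∈ S, ((γu Q : Fˣ) : F) = γ Q := by
        intro Q hQ; simp only [γu, dif_pos hQ, Units.val_mk0]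
      have hmemU : ∀ Q ∈ S, γu Q * σu⁻¹ ∈ (as1_primeVal (F := F) ϖ hϖ).principalUnitGroup := by
        intro Q hQ
        rw [ValuationSubring.mem_principalUnitGroup_iff]
        obtain ⟨e, he⟩ := hge Q hQ
        have h1 : ((γu Q * σu⁻¹ : Fˣ) : F) - 1 =
            -(algebraMap R F ϖ * algebraMap R F e) / algebraMap R F σ := by
          rw [Units.val_mul, hγu Q hQ, Units.val_inv_eq_inv_val, Units.val_mk0, hγ, he, map_sub,
            map_mul]
          field_simp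
          ring
        rw [h1, map_div₀, Valuation.map_neg, map_mul, hσv, div_one]
        exact mul_lt_one_of_lt_of_le hvϖ
          ((ValuationSubring.valuation_le_one_iff _ _).mpr (as1_algebraMap_mem_primeVal hϖ e))
      have hprodU : ∏ Q ∈ S, (γu Q * σu⁻¹) ^ (n Q) ∈
          (as1_primeVal (F := F) ϖ hϖ).principalUnitGroup :=
        Subgroup.prod_mem _ fun Q hQ => Subgroup.zpow_mem _ (hmemU Q hQ) _
      have hσpow : ∀ T : Finset (Place K₁ F),
          ∏ Q ∈ T, σu⁻¹ ^ (n Q) = σu⁻¹ ^ (∑ Q ∈ T, n Q) := by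
        intro T
        induction T using Finset.induction_on with
        | empty => simp
        | insert Q T hQ ih => rw [Finset.prod_insert hQ, Finset.sum_insert hQ, ih, zpow_add]
      have hprod_eq : ∏ Q ∈ S, (γu Q * σu⁻¹) ^ (n Q) = ∏ Q ∈ S, γu Q ^ (n Q) := by
        simp only [mul_zpow]
        rw [Finset.prod_mul_distrib, hσpow S, hbal', zpow_zero, mul_one]
      rw [hprod_eq, ValuationSubring.mem_principalUnitGroup_iff] at hprodU
      have hcoe : ((∏ Q ∈ S, γu Q ^ (n Q) : Fˣ) : F) = P := by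
        rw [Units.coe_prod, hP]
        apply Finset.prod_congr rfl
        intro Q hQ
        rw [Units.val_zpow_eq_zpow_val, hγu Q hQ]
      rwa [hcoe] at hprodU
  refine ⟨u, ?_⟩
  apply s37_rl_dvd_of_val_lt (F := F) hϖ
  have h1 : algebraMap R F (a - u * b) = algebraMap R F u * algebraMap R F b * (P - 1) := by
    rw [map_sub, map_mul, hrel]; ring
  rw [h1, map_mul, map_mul]
  have hu1 := (ValuationSubring.valuation_le_one_iff _ _).mpr
    (as1_algebraMap_mem_primeVal (F := F) hϖ (u : R))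
  have hb1 := (ValuationSubring.valuation_le_one_iff _ _).mpr
    (as1_algebraMap_mem_primeVal (F := F) hϖ b)
  rw [mul_comm]
  exact mul_lt_one_of_lt_of_le hPval (mul_le_one' hu1 hb1)

/-- `s37_rl_local` for a chart given as a subring, with the hypotheses on the base field
abstracted. -/
theorem s37_rl_local_aux {K₁ F : Type*} [Field K₁] [Field F] [Algebra K₁ F] {ϖ : F}
    {B : Subring F} (hB : s18_Chart ϖ B)
    (hϖK : ∃ c : K₁, algebraMap K₁ F c = ϖ)
    (hK : ∀ W : ValuationSubring F, B ≤ W.toSubring → ϖ⁻¹ ∈ W → ∀ c : K₁, algebraMap K₁ F c ∈ W)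
    (𝔪 : Ideal B) (h𝔪 : 𝔪.IsMaximal) (hϖ𝔪 : (⟨ϖ, hB.ϖ_mem⟩ : B) ∈ 𝔪)
    (a b : F) (ha : a ∈ B) (hb : b ∈ B) (haϖ : ϖ⁻¹ * a ∉ B) (hbϖ : ϖ⁻¹ * b ∉ B)
    (S : Finset (Place K₁ F))
    (hS : ∀ Q : Place K₁ F, Q ∈ S ↔ ((∀ x ∈ B, x ∈ Q.toValuationSubring) ∧
      (∀ x : B, (x : F) ∈ Q.toValuationSubring.nonunits → x ∈ 𝔪) ∧ Q.ord (a / b) ≠ 0))
    (hgen : ∀ Q ∈ S, ∀ s ∈ 𝔪, ∃ e : B, (s : F) - ϖ * (e : F) ∈ Q.toValuationSubring.nonunits)
    (hbal : ∑ Q ∈ S, Q.ord (a / b) = 0) :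
    ∃ c d : B, c ∉ 𝔪 ∧ d ∉ 𝔪 ∧ ϖ⁻¹ * (a * d - b * c) ∈ B := by
  classical
  have hprime𝔪 : 𝔪.IsPrime := h𝔪.isPrime
  have hBnoeth := hB.noeth
  have hfrac : IsFractionRing B F := by
    refine IsFractionRing.of_field B F fun z => ?_
    obtain ⟨x, hx, y, hy, hy0, rfl⟩ := hB.frac z
    exact ⟨⟨x, hx⟩, ⟨y, hy⟩, rfl⟩
  have hS' : 𝔪.primeCompl ≤ nonZeroDivisors B := Ideal.primeCompl_le_nonZeroDivisors 𝔪
  let R : Subalgebra B F := Localization.subalgebra.ofField F 𝔪.primeCompl hS'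
  have hmemR : ∀ x : F, x ∈ R ↔ x ∈ s18_loc B 𝔪 := by
    intro x
    constructor
    · rintro ⟨a, s, hs, rfl⟩
      exact ⟨a, s, hs, by rw [div_eq_mul_inv]; rfl⟩
    · rintro ⟨a, s, hs, rfl⟩
      exact ⟨a, s, hs, by rw [div_eq_mul_inv]; rfl⟩
  have hloc : IsLocalization.AtPrime R 𝔪 :=
    Localization.subalgebra.isLocalization_ofField F 𝔪.primeCompl hS'
  have hRnoeth : IsNoetherianRing R := IsLocalization.isNoetherianRing 𝔪.primeCompl R hBnoeth
  have hRlocal : IsLocalRing R := IsLocalization.AtPrime.isLocalRing R 𝔪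
  have hRfrac : IsFractionRing R F := Localization.subalgebra.isFractionRing_ofField F _ hS'
  let ι : B →+* R := algebraMap B R
  set ϖB : B := ⟨ϖ, hB.ϖ_mem⟩ with hϖB
  have hϖBprime : Prime ϖB := hB.prime_ϖ
  have hϖR : Prime (ι ϖB) := by
    have h1 : (Ideal.span {ϖB}).IsPrime := (Ideal.span_singleton_prime hϖBprime.ne_zero).mpr hϖBprime
    have hdisj : Disjoint (𝔪.primeCompl : Set B) (Ideal.span {ϖB} : Set B) := by
      rw [Set.disjoint_left]
      intro x hx hx'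
      exact hx ((Ideal.span_singleton_le_iff_mem 𝔪).mpr hϖ𝔪 hx')
    have h2 := IsLocalization.isPrime_of_isPrime_disjoint 𝔪.primeCompl R _ h1 hdisj
    rw [Ideal.map_span, Set.image_singleton] at h2
    have hne : ι ϖB ≠ 0 := by
      intro h0
      exact hB.ϖ_ne (congrArg Subtype.val h0)
    exact (Ideal.span_singleton_prime hne).mp h2
  obtain ⟨s, hs𝔪, hreg⟩ := hB.reg 𝔪 h𝔪 hϖ𝔪
  have hmax : maximalIdeal R = Ideal.span {ι ϖB, ι s} := by
    rw [← IsLocalization.AtPrime.map_eq_maximalIdeal 𝔪 R]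
    apply le_antisymm
    · rw [Ideal.map_le_iff_le_comap]
      intro x hx
      obtain ⟨u, hu, hux⟩ := hreg x hx
      have h1 : ι (u * x) ∈ Ideal.map ι (Ideal.span {ϖB, s}) := Ideal.mem_map_of_mem ι hux
      rw [Ideal.map_span, Set.image_pair, map_mul] at h1
      have hunit : IsUnit (ι u) := IsLocalization.map_units R (⟨u, hu⟩ : 𝔪.primeCompl)
      exact (Ideal.unit_mul_mem_iff_mem _ hunit).mp h1
    · rw [Ideal.span_le]
      rintro x (rfl | rfl)
      · exact Ideal.mem_map_of_mem _ hϖ𝔪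
      · exact Ideal.mem_map_of_mem _ hs𝔪
  have hnd : ∀ (c : F) (hc : c ∈ B), ϖ⁻¹ * c ∉ B → ¬ ι ϖB ∣ ι ⟨c, hc⟩ := by
    rintro c hc hcϖ ⟨d, hd⟩
    apply hcϖ
    have hd' : c = ϖ * (d : F) := congrArg Subtype.val hd
    have h1 : ϖ⁻¹ * c = (d : F) := by
      rw [hd', ← mul_assoc, inv_mul_cancel₀ hB.ϖ_ne, one_mul]
    have h2 : ϖ⁻¹ ^ 1 * c ∈ s18_gauss ϖ B := by
      rw [pow_one, h1]
      exact s18_loc_subset_gauss hB hϖ𝔪 ((hmemR _).mp d.2)
    have := s18_gauss_cap hB hc 1 h2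
    rwa [pow_one] at this
  -- places through `𝔪` are the places containing `R`
  have hW1 : ∀ Q : Place K₁ F, ((∀ x ∈ B, x ∈ Q.toValuationSubring) ∧
      (∀ x : B, (x : F) ∈ Q.toValuationSubring.nonunits → x ∈ 𝔪)) ↔
      ∀ r : R, algebraMap R F r ∈ Q.toValuationSubring := by
    intro Q
    constructor
    · rintro ⟨h1, h2⟩ r
      obtain ⟨x, y, hy, hr⟩ := (hmemR _).mp r.2
      show (r : F) ∈ _
      rw [hr, div_eq_mul_inv]
      exact Q.toValuationSubring.mul_mem _ _ (h1 _ x.2)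
        (s37_rl_inv_mem _ (h1 _ y.2) (fun h => hy (h2 y h)))
    · intro h
      refine ⟨fun x hx => h (ι ⟨x, hx⟩), fun x hx => ?_⟩
      by_contra hx𝔪
      have hx0 : (x : F) ≠ 0 := by
        intro h0
        apply hx𝔪
        have : x = 0 := Subtype.ext h0
        rw [this]; exact 𝔪.zero_mem
      have hinv : (x : F)⁻¹ ∈ R := (hmemR _).mpr ⟨1, x, hx𝔪, by simp⟩
      exact s37_rl_not_nonunit _ hx0 hx (h ⟨_, hinv⟩)
  have hS2 : ∀ Q : Place K₁ F, Q ∈ S ↔ ((∀ r : R, algebraMap R F r ∈ Q.toValuationSubring) ∧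
      Q.ord (algebraMap R F (ι ⟨a, ha⟩) / algebraMap R F (ι ⟨b, hb⟩)) ≠ 0) := by
    intro Q
    rw [hS Q, ← and_assoc, hW1 Q]
    rfl
  have hgen2 : ∀ Q ∈ S, ∃ e : R,
      algebraMap R F (ι s - ι ϖB * e) ∈ Q.toValuationSubring.nonunits := by
    intro Q hQ
    obtain ⟨e, he⟩ := hgen Q hQ s hs𝔪
    exact ⟨ι e, he⟩
  obtain ⟨u, r, hr⟩ := s37_rl_core (K₁ := K₁) (F := F) (ι ϖB) (ι s) hϖR hmax hϖK
    (fun W hRW hϖW c => hK W (fun x hx => hRW (ι ⟨x, hx⟩)) hϖW c) (ι ⟨a, ha⟩) (ι ⟨b, hb⟩)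
    (hnd a ha haϖ) (hnd b hb hbϖ) S hS2 hgen2 hbal
  -- clear denominators
  have hrF : a - ((u : R) : F) * b = ϖ * (r : F) := congrArg (Subtype.val : R → F) hr
  obtain ⟨a₁, s₁, hs₁, hu1⟩ := (hmemR _).mp (u : R).2
  obtain ⟨a₂, s₂, hs₂, hu2⟩ := (hmemR _).mp ((u⁻¹ : Rˣ) : R).2
  obtain ⟨a₃, s₃, hs₃, hr3⟩ := (hmemR _).mp r.2
  have hne : ∀ x : B, x ∉ 𝔪 → (x : F) ≠ 0 := by
    intro x hx h0
    apply hx
    have : x = 0 := Subtype.ext h0
    rw [this]; exact 𝔪.zero_mem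
  have hs₁0 := hne s₁ hs₁
  have hs₂0 := hne s₂ hs₂
  have hs₃0 := hne s₃ hs₃
  have ha₁ : a₁ ∉ 𝔪 := by
    intro h
    have h1 : ((u : R) : F) * (((u⁻¹ : Rˣ) : R) : F) = 1 :=
      congrArg (Subtype.val : R → F) (Units.mul_inv u)
    rw [hu1, hu2] at h1
    have h2 : a₁ * a₂ = s₁ * s₂ := by
      apply Subtype.ext
      show (a₁ : F) * (a₂ : F) = (s₁ : F) * (s₂ : F)
      field_simp at h1
      linear_combination h1
    have h3 : s₁ * s₂ ∈ 𝔪 := by rw [← h2]; exact 𝔪.mul_mem_right _ h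
    rcases hprime𝔪.mem_or_mem h3 with h4 | h4
    · exact hs₁ h4
    · exact hs₂ h4
  refine ⟨a₁ * s₃, s₁ * s₃, ?_, ?_, ?_⟩
  · intro h
    rcases hprime𝔪.mem_or_mem h with h | h
    exacts [ha₁ h, hs₃ h]
  · intro h
    rcases hprime𝔪.mem_or_mem h with h | h
    exacts [hs₁ h, hs₃ h]
  · have hfin : ϖ⁻¹ * (a * ((s₁ * s₃ : B) : F) - b * ((a₁ * s₃ : B) : F)) =
        ((s₁ * a₃ : B) : F) := by
      simp only [Subring.coe_mul]
      rw [hu1, hr3] at hrF
      have hϖ0 := hB.ϖ_ne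
      field_simp
      field_simp at hrF
      linear_combination hrF
    rw [hfin]
    exact (s₁ * a₃ : B).2

/-- (LOC) The local computation at a closed point `𝔪` of the special fibre of a chart: if the
places of the generic fibre through `𝔪` in the support of `a / b` are rational and the orders of
`a / b` at them sum to zero, then `a / b` is a unit of `B_𝔪` modulo `π`. -/
theorem s37_rl_local {A₀ K₁ F : Type*} [CommRing A₀] [IsDomain A₀] [IsDiscreteValuationRing A₀]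
    [Field K₁] [Algebra A₀ K₁] [IsFractionRing A₀ K₁] [Field F] [Algebra A₀ F] [Algebra K₁ F]
    [IsScalarTower A₀ K₁ F] {π : A₀} (hπ : Irreducible π) {B : Subalgebra A₀ F}
    (hB : s18_Chart (algebraMap A₀ F π) B.toSubring) (𝔪 : Ideal B.toSubring) (h𝔪 : 𝔪.IsMaximal)
    (hπ𝔪 : (⟨algebraMap A₀ F π, hB.ϖ_mem⟩ : B.toSubring) ∈ 𝔪) (a b : F) (ha : a ∈ B) (hb : b ∈ B)
    (haπ : (algebraMap A₀ F π)⁻¹ * a ∉ B) (hbπ : (algebraMap A₀ F π)⁻¹ * b ∉ B)
    (S : Finset (Place K₁ F))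
    (hS : ∀ Q : Place K₁ F, Q ∈ S ↔ ((∀ x ∈ B, x ∈ Q.toValuationSubring) ∧
      (∀ x : B.toSubring, (x : F) ∈ Q.toValuationSubring.nonunits → x ∈ 𝔪) ∧ Q.ord (a / b) ≠ 0))
    (hrat : ∀ Q ∈ S, ∀ w ∈ Q.toValuationSubring,
      ∃ c : K₁, w - algebraMap K₁ F c ∈ Q.toValuationSubring.nonunits)
    (hbal : ∑ Q ∈ S, Q.ord (a / b) = 0) :
    ∃ c d : B.toSubring, c ∉ 𝔪 ∧ d ∉ 𝔪 ∧ (algebraMap A₀ F π)⁻¹ * (a * d - b * c) ∈ B := by
  have hϖK : ∃ c : K₁, algebraMap K₁ F c = algebraMap A₀ F π :=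
    ⟨algebraMap A₀ K₁ π, (IsScalarTower.algebraMap_apply A₀ K₁ F π).symm⟩
  have hK : ∀ W : ValuationSubring F, B.toSubring ≤ W.toSubring → (algebraMap A₀ F π)⁻¹ ∈ W →
      ∀ c : K₁, algebraMap K₁ F c ∈ W := by
    intro W hBW hϖW c
    obtain ⟨x, y, hy, rfl⟩ := IsFractionRing.div_surjective (A := A₀) c
    have hy0 : y ≠ 0 := nonZeroDivisors.ne_zero hy
    obtain ⟨n, v, rfl⟩ := IsDiscreteValuationRing.eq_unit_mul_pow_irreducible hy0 hπ
    have hA : ∀ t : A₀, algebraMap A₀ F t ∈ W := fun t => hBW (B.algebraMap_mem t)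
    have h1 : algebraMap K₁ F (algebraMap A₀ K₁ x / algebraMap A₀ K₁ (↑v * π ^ n)) =
        algebraMap A₀ F x * algebraMap A₀ F ((v⁻¹ : A₀ˣ) : A₀) * ((algebraMap A₀ F π)⁻¹) ^ n := by
      rw [map_div₀, ← IsScalarTower.algebraMap_apply, ← IsScalarTower.algebraMap_apply, map_mul,
        map_pow]
      have hv : algebraMap A₀ F ((v⁻¹ : A₀ˣ) : A₀) * algebraMap A₀ F (v : A₀) = 1 := by
        rw [← map_mul, Units.inv_mul, map_one]
      have hv0 : algebraMap A₀ F (v : A₀) ≠ 0 := by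
        intro h0
        rw [h0, mul_zero] at hv
        exact zero_ne_one hv
      have hπ0 : algebraMap A₀ F π ≠ 0 := hB.ϖ_ne
      rw [inv_pow, div_eq_iff (mul_ne_zero hv0 (pow_ne_zero n hπ0))]
      have hπn : (algebraMap A₀ F π ^ n)⁻¹ * algebraMap A₀ F π ^ n = 1 :=
        inv_mul_cancel₀ (pow_ne_zero n hπ0)
      linear_combination (-(algebraMap A₀ F x)) * hv
        - (algebraMap A₀ F x * algebraMap A₀ F ((v⁻¹ : A₀ˣ) : A₀) * algebraMap A₀ F (v : A₀)) * hπn
    rw [h1]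
    exact W.mul_mem _ _ (W.mul_mem _ _ (hA x) (hA _)) (W.pow_mem hϖW n)
  have hgen : ∀ Q ∈ S, ∀ s ∈ 𝔪, ∃ e : B.toSubring,
      (s : F) - algebraMap A₀ F π * (e : F) ∈ Q.toValuationSubring.nonunits := by
    intro Q hQ s hs
    obtain ⟨hBQ, hcen, -⟩ := (hS Q).mp hQ
    obtain ⟨c, hc⟩ := hrat Q hQ (s : F) (hBQ _ s.2)
    rcases s37_rl_dvr_dichotomy hπ c with ⟨e, rfl⟩ | ⟨d, hd⟩
    · refine ⟨⟨algebraMap A₀ F e, B.algebraMap_mem e⟩, ?_⟩
      rw [← IsScalarTower.algebraMap_apply, map_mul] at hc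
      exact hc
    · exfalso
      let dB : B.toSubring := ⟨algebraMap A₀ F d, B.algebraMap_mem d⟩
      have h1 : ((dB * s - 1 : B.toSubring) : F) ∈ Q.toValuationSubring.nonunits := by
        have h2 : ((dB * s - 1 : B.toSubring) : F) =
            ((s : F) - algebraMap K₁ F c) * algebraMap A₀ F d := by
          have hd' : algebraMap A₀ F d * algebraMap K₁ F c = 1 := by
            rw [IsScalarTower.algebraMap_apply A₀ K₁ F, ← map_mul, hd, map_one]
          show algebraMap A₀ F d * (s : F) - 1 = _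
          linear_combination hd'
        rw [h2]
        exact s37_rl_mul_nonunit _ hc (hBQ _ (B.algebraMap_mem d))
      have h2 := hcen _ h1
      have h3 : (1 : B.toSubring) ∈ 𝔪 := by
        have : (1 : B.toSubring) = dB * s - (dB * s - 1) := by ring
        rw [this]; exact 𝔪.sub_mem (𝔪.mul_mem_left _ hs) h2
      exact h𝔪.ne_top ((Ideal.eq_top_iff_one 𝔪).mpr h3)
  exact s37_rl_local_aux hB hϖK hK 𝔪 h𝔪 hπ𝔪 a b ha hb haπ hbπ S hS hgen hbal

end Fermat.Agent.S37
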