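import Fermat.Agent.S37.RcWd
import Fermat.Agent.S37.RedProfile
import Fermat.Agent.S37.RInt
import Fermat.Agent.S37.RRat

/-!
# S37, block R: the centre of a place on a chart of finite level, and residue profiles

`K₁ ⊆ Q̄` a subfield, `B₁ = s18_chAlg N ℓ (s18_A1 A K₁) t` the chart of level `K₁`, `x` a `κ`-point
of the special fibre of the chart over `A`.  A place `P` of `Q̄ · F_N` "passes through `x` at the
level `K₁`" if `B₁ ⊆ O_P` and every element of `B₁ ∩ 𝔪_P` vanishes at `x`.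

* `s37_rc_center` : a `K₁`-rational place through `x` lies in the chart domain, and `x` is the
  residue of the evaluation at `P` on `B₁`;
* `s37_rc_transfer` : a place of the chart domain with the same residue profile passes through
  `x` as well;
* `s37_rc_sum_eq_zero` : a sum over a union of fibres of a divisor with trivial push-forward
  vanishes.
-/

set_option autoImplicit false
set_option synthInstance.maxHeartbeats 400000
set_option maxHeartbeats 1000000
set_option linter.unusedSectionVars false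
set_option linter.unusedVariables false

open ModularCurve ModularCurve.IgusaScheme AlgebraicCurve Fermat.Agent.S28 Fermat.Agent.S18
  Polynomial

noncomputable section

namespace Fermat.Agent.S37

/-- A sum of a finitely supported function with trivial push-forward over a union of fibres
vanishes. -/
theorem s37_rc_sum_eq_zero {α β : Type*} (D : α →₀ ℤ) (r : α → β)
    (hr : Finsupp.mapDomain r D = 0) (T : Finset α)
    (hT : ∀ P ∈ T, D P ≠ 0 ∧ ∀ P', D P' ≠ 0 → r P' = r P → P' ∈ T) :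
    ∑ P ∈ T, D P = 0 := by
  classical
  have hfib : ∀ v ∈ T.image r, ∑ P ∈ T.filter (fun P => r P = v), D P = 0 := by
    intro v hv
    obtain ⟨P₀, hP₀, rfl⟩ := Finset.mem_image.mp hv
    have h1 : T.filter (fun P => r P = r P₀) = D.support.filter (fun P => r P = r P₀) := by
      ext P
      simp only [Finset.mem_filter, Finsupp.mem_support_iff]
      constructor
      · rintro ⟨hP, hPr⟩
        exact ⟨(hT P hP).1, hPr⟩
      · rintro ⟨hP, hPr⟩
        exact ⟨(hT P₀ hP₀).2 P hP hPr, hPr⟩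
    rw [h1]
    have h2 := congrArg (fun E : β →₀ ℤ => E (r P₀)) hr
    simp only [Finsupp.coe_zero, Pi.zero_apply] at h2
    rw [Finsupp.mapDomain, Finsupp.sum_apply] at h2
    rw [Finset.sum_filter]
    rw [Finsupp.sum] at h2
    have h3 : ∑ a ∈ D.support, (if r a = r P₀ then D a else 0) =
        ∑ a ∈ D.support, (Finsupp.single (r a) (D a)) (r P₀) :=
      Finset.sum_congr rfl (fun P _ => by rw [Finsupp.single_apply])
    exact h3.trans h2
  rw [← Finset.sum_fiberwise_of_maps_to (g := r) (t := T.image r)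
    (fun P hP => Finset.mem_image_of_mem r hP)]
  exact Finset.sum_eq_zero hfib

section Center

variable {N : ℕ} [NeZero N] {ℓ : ℕ} [Fact ℓ.Prime]
variable (A : ValuationSubring (AlgebraicClosure ℚ)) {t : modularFunctionFieldFull N}
variable (K₁ : IntermediateField ℚ (AlgebraicClosure ℚ))

local notation "Qb" => AlgebraicClosure ℚ
local notation "Fb" => modularFunctionFieldBar N
local notation "WA" => s18_W A.subtype (IsLocalRing.residue A)

omit [Fact ℓ.Prime] in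
/-- The level map on constants. -/
theorem s37_rc_lvl_algebraMap [Fact ℓ.Prime] (a : s18_A1 A K₁) :
    s37_rc_lvl N ℓ A t K₁ (algebraMap (s18_A1 A K₁) (s18_chAlg N ℓ (s18_A1 A K₁) t) a) =
      algebraMap A (s18_chAlg N ℓ A t)
        (s37_rc_cmpA (s18_A1 A K₁) A (algebraMap K₁ Qb) (s37_rc_cmp_mem (s37_rc_A1_comap A K₁)) a) := by
  apply Subtype.ext
  exact s18_baseIncl_algebraMap K₁ N (a : K₁)

omit [Fact ℓ.Prime] in
/-- The coordinate of level `K₁` maps to the coordinate over `Q̄`. -/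
theorem s37_rc_baseIncl_coord (t : modularFunctionFieldFull N) :
    s18_baseIncl K₁ N (s18_coord K₁ t) = s18_coord Qb t := by
  apply Subtype.ext
  show coeffMap (algebraMap K₁ Qb) (coeffEmb K₁ (t : LaurentSeries ℚ)) =
    coeffEmb Qb (t : LaurentSeries ℚ)
  rw [coeffEmb, coeffEmb, coeffMap_coeffMap]
  exact coeffMap_congr (RingHom.ext_rat _ _) _

/-- **The centre of a rational place**: a `K₁`-rational place through the point `x` at the level
`K₁` has values in `A` on the chart of level `K₁`, `x` is the residue of its evaluation, and it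
lies in the chart domain. -/
theorem s37_rc_center (hW : s18_chRing N ℓ A t ≤ WA) (x : s37_rc_pt N ℓ A t) (P : Place Qb Fb)
    (hrat : ∀ z : s18_F1 K₁ N, s18_baseIncl K₁ N z ∈ P.toValuationSubring →
      ∃ c : K₁, s37_r_val P (s18_baseIncl K₁ N z) = algebraMap K₁ Qb c)
    (hP1 : ∀ z : s18_chAlg N ℓ (s18_A1 A K₁) t,
      s18_baseIncl K₁ N (z : s18_F1 K₁ N) ∈ P.toValuationSubring)
    (hP2 : ∀ z : s18_chAlg N ℓ (s18_A1 A K₁) t,
      s18_baseIncl K₁ N (z : s18_F1 K₁ N) ∈ P.toValuationSubring.nonunits →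
        x (s37_rc_red hW (s37_rc_lvl N ℓ A t K₁ z)) = 0) :
    (∀ z : s18_chAlg N ℓ (s18_A1 A K₁) t, s37_r_val P (s18_baseIncl K₁ N (z : s18_F1 K₁ N)) ∈ A) ∧
    (∀ z : s18_chAlg N ℓ (s18_A1 A K₁) t, x (s37_rc_red hW (s37_rc_lvl N ℓ A t K₁ z)) =
      s37_resQb A (s37_r_val P (s18_baseIncl K₁ N (z : s18_F1 K₁ N)))) ∧
    P ∈ s37_chartDom A (s18_coord Qb t) := by
  have hcomap := s37_rc_A1_comap A K₁
  -- the evaluation at `x` on the chart of level `K₁`
  obtain ⟨ev, hev⟩ : ∃ ev : s18_chAlg N ℓ (s18_A1 A K₁) t →+* IsLocalRing.ResidueField A,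
      ∀ z : s18_chAlg N ℓ (s18_A1 A K₁) t,
        x (s37_rc_red hW (s37_rc_lvl N ℓ A t K₁ z)) = ev z :=
    ⟨(x : s37_rc_fib N ℓ A t →+* IsLocalRing.ResidueField A).comp
      ((s37_rc_red hW).comp (s37_rc_lvl N ℓ A t K₁)), fun z => rfl⟩
  -- the reduction of a constant of level `K₁` at `x`
  have hconst : ∀ a : s18_A1 A K₁,
      ev (algebraMap (s18_A1 A K₁) (s18_chAlg N ℓ (s18_A1 A K₁) t) a) =
      IsLocalRing.residue A (s37_rc_cmpA (s18_A1 A K₁) A (algebraMap K₁ Qb)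
        (s37_rc_cmp_mem hcomap) a) := by
    intro a
    rw [← hev, s37_rc_lvl_algebraMap, s37_rc_red_algebraMap, AlgHom.commutes]
    rfl
  have hιconst : ∀ a : s18_A1 A K₁,
      s18_baseIncl K₁ N ((algebraMap (s18_A1 A K₁) (s18_chAlg N ℓ (s18_A1 A K₁) t) a :
        s18_chAlg N ℓ (s18_A1 A K₁) t) : s18_F1 K₁ N) =
      algebraMap Qb Fb (algebraMap K₁ Qb (a : K₁)) := fun a =>
    s18_baseIncl_algebraMap K₁ N (a : K₁)
  -- (1)
  have h1 : ∀ z : s18_chAlg N ℓ (s18_A1 A K₁) t,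
      s37_r_val P (s18_baseIncl K₁ N (z : s18_F1 K₁ N)) ∈ A := by
    intro z
    by_contra hv
    obtain ⟨c, hc⟩ := hrat z (hP1 z)
    have hcA : c ∉ s18_A1 A K₁ := fun hmem => hv (by rw [hc]; exact hmem)
    have hci : c⁻¹ ∈ s18_A1 A K₁ := ((s18_A1 A K₁).mem_or_inv_mem c).resolve_left hcA
    have hc0 : c ≠ 0 := fun h0 => hcA (h0 ▸ zero_mem _)
    set a' : s18_A1 A K₁ := ⟨c⁻¹, hci⟩ with ha'
    set w : s18_chAlg N ℓ (s18_A1 A K₁) t :=
      1 - algebraMap (s18_A1 A K₁) (s18_chAlg N ℓ (s18_A1 A K₁) t) a' * z with hw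
    have hιw : s18_baseIncl K₁ N (w : s18_F1 K₁ N) =
        1 - algebraMap Qb Fb (algebraMap K₁ Qb c⁻¹) * s18_baseIncl K₁ N (z : s18_F1 K₁ N) := by
      rw [hw]
      show s18_baseIncl K₁ N (1 - ((algebraMap (s18_A1 A K₁)
        (s18_chAlg N ℓ (s18_A1 A K₁) t) a' : s18_chAlg N ℓ (s18_A1 A K₁) t) : s18_F1 K₁ N) *
          (z : s18_F1 K₁ N)) = _
      rw [map_sub, map_one, map_mul, hιconst a']
    have hval : s37_r_val P (s18_baseIncl K₁ N (w : s18_F1 K₁ N)) = 0 := by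
      rw [hιw, s37_r_val_sub P (one_mem _) (mul_mem (P.algebraMap_mem' _) (hP1 z)), s37_r_val_one,
        s37_r_val_mul P (P.algebraMap_mem' _) (hP1 z), s37_r_val_algebraMap, hc, ← map_mul,
        inv_mul_cancel₀ hc0, map_one, sub_self]
    have hnu := (s37_r_val_eq_zero_iff P (hP1 w)).mp hval
    have h0 := hP2 w hnu
    rw [hev, hw, map_sub, map_one, map_mul, hconst a'] at h0
    have hres : IsLocalRing.residue A (s37_rc_cmpA (s18_A1 A K₁) A (algebraMap K₁ Qb)
        (s37_rc_cmp_mem hcomap) a') = 0 := by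
      rw [IsLocalRing.residue_eq_zero_iff, IsLocalRing.mem_maximalIdeal, mem_nonunits_iff]
      intro hu
      obtain ⟨u, hu⟩ := hu.exists_left_inv
      apply hv
      have h2 : ((u : A) : Qb) * algebraMap K₁ Qb c⁻¹ = 1 := congrArg Subtype.val hu
      rw [map_inv₀] at h2
      have h3 : ((u : A) : Qb) = algebraMap K₁ Qb c := by
        have := eq_inv_of_mul_eq_one_left h2
        rwa [inv_inv] at this
      rw [hc, ← h3]
      exact u.2
    rw [hres, zero_mul, sub_zero] at h0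
    exact one_ne_zero h0
  -- (2)
  have h2 : ∀ z : s18_chAlg N ℓ (s18_A1 A K₁) t, x (s37_rc_red hW (s37_rc_lvl N ℓ A t K₁ z)) =
      s37_resQb A (s37_r_val P (s18_baseIncl K₁ N (z : s18_F1 K₁ N))) := by
    intro z
    have hv := h1 z
    obtain ⟨c, hc⟩ := hrat z (hP1 z)
    have hcA : c ∈ s18_A1 A K₁ := by
      show algebraMap K₁ Qb c ∈ A
      rw [← hc]
      exact hv
    set a' : s18_A1 A K₁ := ⟨c, hcA⟩ with ha'
    set w : s18_chAlg N ℓ (s18_A1 A K₁) t :=
      z - algebraMap (s18_A1 A K₁) (s18_chAlg N ℓ (s18_A1 A K₁) t) a' with hw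
    have hιw : s18_baseIncl K₁ N (w : s18_F1 K₁ N) =
        s18_baseIncl K₁ N (z : s18_F1 K₁ N) - algebraMap Qb Fb (algebraMap K₁ Qb c) := by
      rw [hw]
      show s18_baseIncl K₁ N ((z : s18_F1 K₁ N) - ((algebraMap (s18_A1 A K₁)
        (s18_chAlg N ℓ (s18_A1 A K₁) t) a' : s18_chAlg N ℓ (s18_A1 A K₁) t) : s18_F1 K₁ N)) = _
      rw [map_sub, hιconst a']
    have hval : s37_r_val P (s18_baseIncl K₁ N (w : s18_F1 K₁ N)) = 0 := by
      rw [hιw, s37_r_val_sub P (hP1 z) (P.algebraMap_mem' _), s37_r_val_algebraMap, hc, sub_self]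
    have hnu := (s37_r_val_eq_zero_iff P (hP1 w)).mp hval
    have h0 := hP2 w hnu
    rw [hev, hw, map_sub, hconst a', sub_eq_zero] at h0
    rw [hev, h0, s37_resQb_of_mem A hv]
    congr 1
    exact Subtype.ext hc.symm
  refine ⟨h1, h2, ?_, ?_⟩
  · rw [← s37_rc_baseIncl_coord K₁ t]
    exact hP1 ⟨s18_coord K₁ t, s18_coord_mem t⟩
  · rw [← s37_rc_baseIncl_coord K₁ t]
    exact h1 ⟨s18_coord K₁ t, s18_coord_mem t⟩

/-- **Transfer along equal residue profiles**: a place of the chart domain with the same residue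
profile as `P` passes through `x` at the level `K₁` as well. -/
theorem s37_rc_transfer (hℓ : ((ℓ : Qb))⁻¹ ∉ A) (h : s18_cz_Coord N ℓ t)
    {B : Subring (LaurentSeries ℚ)} (hB : CoreData N ℓ B)
    (hW : s18_chRing N ℓ A t ≤ WA) (x : s37_rc_pt N ℓ A t) (P P' : Place Qb Fb)
    (hPx : ∀ z : s18_chAlg N ℓ (s18_A1 A K₁) t, x (s37_rc_red hW (s37_rc_lvl N ℓ A t K₁ z)) =
      s37_resQb A (s37_r_val P (s18_baseIncl K₁ N (z : s18_F1 K₁ N))))
    (hP' : P' ∈ s37_chartDom A (s18_coord Qb t))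
    (hprof : s37_profile N A (s18_coord Qb t) P' = s37_profile N A (s18_coord Qb t) P) :
    (∀ z : s18_chAlg N ℓ (s18_A1 A K₁) t,
      s18_baseIncl K₁ N (z : s18_F1 K₁ N) ∈ P'.toValuationSubring) ∧
    (∀ z : s18_chAlg N ℓ (s18_A1 A K₁) t,
      s18_baseIncl K₁ N (z : s18_F1 K₁ N) ∈ P'.toValuationSubring.nonunits →
        x (s37_rc_red hW (s37_rc_lvl N ℓ A t K₁ z)) = 0) := by
  have hbig : ∀ z : s18_chAlg N ℓ (s18_A1 A K₁) t,
      s18_baseIncl K₁ N (z : s18_F1 K₁ N) ∈ s18_chAlg N ℓ A t := fun z =>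
    (s37_rc_lvl N ℓ A t K₁ z).2
  refine ⟨fun z => (s37_rc_chart_val A hℓ h hB P' hP' _ (hbig z)).1, fun z hz => ?_⟩
  obtain ⟨g, hg⟩ := s37_rn_chRing_integral hℓ h hB _ (s18_mem_chAlg.mp (hbig z))
  have hGi := s37_rc_isChartFn A hℓ h hB _ (hbig z)
  have e1 := s37_pr_profile_eq (N := N) (A := A) P (s18_baseIncl K₁ N (z : s18_F1 K₁ N))
    hg.symm hGi
  have e2 := s37_pr_profile_eq (N := N) (A := A) P' (s18_baseIncl K₁ N (z : s18_F1 K₁ N))
    hg.symm hGi
  rw [hPx z, ← e1, ← hprof, e2, s37_r_val_of_mem_nonunits P' hz, s37_resQb_of_mem A (zero_mem _)]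
  exact map_zero _

/-- **The places through a point of the chart of `t` form a union of fibres of the reduction
map**, hence the orders of a divisor with trivial reduction sum to zero over them. -/
theorem s37_rc_hsum0 (hℓ : ((ℓ : Qb))⁻¹ ∉ A) (h : s18_cz_Coord N ℓ t)
    {B : Subring (LaurentSeries ℚ)} (hB : CoreData N ℓ B)
    (hW : s18_chRing N ℓ A t ≤ WA) (x : s37_rc_pt N ℓ A t)
    (D : Place Qb Fb →₀ ℤ)
    (hr : Finsupp.mapDomain (s37_red N A (s18_coord Qb t)) D = 0)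
    (hrat : ∀ P : Place Qb Fb, D P ≠ 0 → ∀ z : s18_F1 K₁ N,
      s18_baseIncl K₁ N z ∈ P.toValuationSubring →
        ∃ c : K₁, s37_r_val P (s18_baseIncl K₁ N z) = algebraMap K₁ Qb c)
    (T : Finset (Place Qb Fb))
    (hT : ∀ P, P ∈ T ↔ D P ≠ 0 ∧
      (∀ z : s18_chAlg N ℓ (s18_A1 A K₁) t,
        s18_baseIncl K₁ N (z : s18_F1 K₁ N) ∈ P.toValuationSubring) ∧
      (∀ z : s18_chAlg N ℓ (s18_A1 A K₁) t,
        s18_baseIncl K₁ N (z : s18_F1 K₁ N) ∈ P.toValuationSubring.nonunits →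
          x (s37_rc_red hW (s37_rc_lvl N ℓ A t K₁ z)) = 0)) :
    ∑ P ∈ T, D P = 0 := by
  refine s37_rc_sum_eq_zero D (s37_red N A (s18_coord Qb t)) hr T (fun P hP => ?_)
  obtain ⟨hDP, hP1, hP2⟩ := (hT P).mp hP
  refine ⟨hDP, fun P' hDP' hred => (hT P').mpr ⟨hDP', ?_⟩⟩
  obtain ⟨h1, h2, h3⟩ := s37_rc_center A K₁ hW x P (hrat P hDP) hP1 hP2
  rw [s37_red_of_mem N A _ P h3] at hred
  have hP' : P' ∈ s37_chartDom A (s18_coord Qb t) := by
    by_contra hcon
    rw [s37_red_of_not_mem N A _ P' hcon] at hred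
    exact Bool.false_ne_true (congrArg Prod.fst hred)
  rw [s37_red_of_mem N A _ P' hP'] at hred
  exact s37_rc_transfer A K₁ hℓ h hB hW x P P' h2 hP' (congrArg Prod.snd hred)

/-- **The places through a point at infinity of the chart of `t⁻¹`** (a point at which the
coordinate `t⁻¹` vanishes) form a union of fibres of the reduction map. -/
theorem s37_rc_hsumInf (hℓ : ((ℓ : Qb))⁻¹ ∉ A) (h : s18_cz_Coord N ℓ t)
    {B : Subring (LaurentSeries ℚ)} (hB : CoreData N ℓ B)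
    (hW : s18_chRing N ℓ A t⁻¹ ≤ WA) (x : s37_rc_pt N ℓ A t⁻¹)
    (hx0 : x (s37_rc_red hW ⟨s18_coord Qb t⁻¹, s18_coord_mem t⁻¹⟩) = 0)
    (D : Place Qb Fb →₀ ℤ)
    (hr : Finsupp.mapDomain (s37_red N A (s18_coord Qb t)) D = 0)
    (hrat : ∀ P : Place Qb Fb, D P ≠ 0 → ∀ z : s18_F1 K₁ N,
      s18_baseIncl K₁ N z ∈ P.toValuationSubring →
        ∃ c : K₁, s37_r_val P (s18_baseIncl K₁ N z) = algebraMap K₁ Qb c)
    (T : Finset (Place Qb Fb))
    (hT : ∀ P, P ∈ T ↔ D P ≠ 0 ∧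
      (∀ z : s18_chAlg N ℓ (s18_A1 A K₁) t⁻¹,
        s18_baseIncl K₁ N (z : s18_F1 K₁ N) ∈ P.toValuationSubring) ∧
      (∀ z : s18_chAlg N ℓ (s18_A1 A K₁) t⁻¹,
        s18_baseIncl K₁ N (z : s18_F1 K₁ N) ∈ P.toValuationSubring.nonunits →
          x (s37_rc_red hW (s37_rc_lvl N ℓ A t⁻¹ K₁ z)) = 0)) :
    ∑ P ∈ T, D P = 0 := by
  refine s37_rc_sum_eq_zero D (s37_red N A (s18_coord Qb t)) hr T (fun P hP => ?_)
  obtain ⟨hDP, hP1, hP2⟩ := (hT P).mp hP
  refine ⟨hDP, fun P' hDP' hred => (hT P').mpr ⟨hDP', ?_⟩⟩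
  obtain ⟨h1, h2, h3⟩ := s37_rc_center A K₁ hW x P (hrat P hDP) hP1 hP2
  have hinv : (s18_coord Qb t)⁻¹ = s18_coord Qb t⁻¹ := (s18_coord_inv t).symm
  -- the value of `t⁻¹` at `P` lies in the maximal ideal
  have hnu : s37_r_val P (s18_coord Qb t⁻¹) ∈ A.nonunits := by
    have h4 := h2 ⟨s18_coord K₁ t⁻¹, s18_coord_mem t⁻¹⟩
    have h5 : s37_rc_lvl N ℓ A t⁻¹ K₁ ⟨s18_coord K₁ t⁻¹, s18_coord_mem t⁻¹⟩ =
        ⟨s18_coord Qb t⁻¹, s18_coord_mem t⁻¹⟩ := Subtype.ext (s37_rc_baseIncl_coord K₁ t⁻¹)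
    rw [h5, hx0] at h4
    have h6 : s18_baseIncl K₁ N (s18_coord K₁ t⁻¹) = s18_coord Qb t⁻¹ :=
      s37_rc_baseIncl_coord K₁ t⁻¹
    rw [h6] at h4
    exact (s37_pr_resQb_eq_zero_iff A h3.2).mp h4.symm
  -- `P` is not in the chart domain of `t`
  have hPnot : P ∉ s37_chartDom A (s18_coord Qb t) := by
    rintro ⟨hmem, hval⟩
    have hne : s18_coord Qb t ≠ 0 := by
      intro h0
      apply h.ne_zero
      have h8 : coeffEmb Qb (t : LaurentSeries ℚ) = 0 := congrArg Subtype.val h0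
      have h9 : (t : LaurentSeries ℚ) = 0 := (coeffEmb Qb).injective (by rw [h8, map_zero])
      exact Subtype.ext h9
    have h7 : s37_r_val P (s18_coord Qb t) * s37_r_val P (s18_coord Qb t⁻¹) = 1 := by
      rw [← s37_r_val_mul P hmem h3.1, ← hinv, mul_inv_cancel₀ hne, s37_r_val_one]
    obtain ⟨hA', hmax⟩ := ValuationSubring.mem_nonunits_iff_exists_mem_maximalIdeal.mp hnu
    have hu : IsUnit (⟨_, hA'⟩ : A) :=
      IsUnit.of_mul_eq_one (⟨_, hval⟩ : A) (Subtype.ext (by rw [mul_comm]; exact h7))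
    exact (IsLocalRing.mem_maximalIdeal _).mp hmax hu
  rw [s37_red_of_not_mem N A _ P hPnot] at hred
  have hP'not : P' ∉ s37_chartDom A (s18_coord Qb t) := by
    intro hcon
    rw [s37_red_of_mem N A _ P' hcon] at hred
    exact Bool.false_ne_true (congrArg Prod.fst hred).symm
  rw [s37_red_of_not_mem N A _ P' hP'not, hinv] at hred
  have hP' : P' ∈ s37_chartDom A (s18_coord Qb t⁻¹) := by
    rcases s37_r_dichotomy P' A (s18_coord Qb t) with hd | hd
    · exact absurd hd hP'not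
    · rw [hinv] at hd
      exact ⟨hd.1, (ValuationSubring.mem_nonunits_iff_exists_mem_maximalIdeal.mp hd.2).1⟩
  exact s37_rc_transfer A K₁ hℓ h.inv hB hW x P P' h2 hP' (congrArg Prod.snd hred)

end Center

end Fermat.Agent.S37
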