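import Fermat.Agent.S37.RcFib
import Fermat.Agent.S18.A1Facts
import Fermat.Agent.S18.NumField

/-!
# S37, block R (chart side): comparison of charts along an extension of the base field

For `φ : K₁ →+* K₂` with `A₁ = A₂ ∩ K₁`:

* `s37_rc_cmpA`, `s37_rc_cmpRes` : the induced maps `A₁ → A₂`, `κ₁ → κ₂`;
* `s37_rc_chRing_map`, `s37_rc_W_map`, `s37_rc_gred_map` : `coeffMap φ` maps the chart ring, the
  Gauss ring into the chart ring, the Gauss ring, compatibly with the reductions;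
* `s37_rc_exists_level` : over `K₂ = Q̄`, every element of the chart ring comes from a finite
  Galois level `K₁`;
* `s37_rc_ker` : the kernel property of the reduction of the chart over a valuation ring of `Q̄`.
-/

set_option autoImplicit false
set_option synthInstance.maxHeartbeats 400000
set_option linter.unusedSectionVars false
set_option linter.unusedVariables false

open ModularCurve ModularCurve.IgusaScheme Fermat.Agent.S28 Fermat.Agent.S18 Polynomial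

noncomputable section

namespace Fermat.Agent.S37

section Compare

variable {K₁ K₂ : Type*} [Field K₁] [Field K₂]
variable (A₁ : ValuationSubring K₁) (A₂ : ValuationSubring K₂) (φ : K₁ →+* K₂)

/-- The map `A₁ → A₂` induced by `φ`. -/
def s37_rc_cmpA (h : ∀ r : A₁, φ (r : K₁) ∈ A₂) : A₁ →+* A₂ :=
  (φ.comp A₁.subtype).codRestrict A₂.toSubring h

variable {A₁ A₂ φ}

theorem s37_rc_cmp_iff (hA : A₁ = A₂.comap φ) (x : K₁) : x ∈ A₁ ↔ φ x ∈ A₂ := by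
  rw [hA]
  exact ValuationSubring.mem_comap

theorem s37_rc_cmp_mem (hA : A₁ = A₂.comap φ) (r : A₁) : φ (r : K₁) ∈ A₂ :=
  (s37_rc_cmp_iff hA _).mp r.2

theorem s37_rc_cmpA_isLocalHom (hA : A₁ = A₂.comap φ) :
    IsLocalHom (s37_rc_cmpA A₁ A₂ φ (s37_rc_cmp_mem hA)) := by
  refine ⟨fun a ha => ?_⟩
  obtain ⟨u, hu⟩ := ha
  have h1 : φ (a : K₁) * (((u⁻¹ : A₂ˣ) : A₂) : K₂) = 1 := by
    have h2 : s37_rc_cmpA A₁ A₂ φ (s37_rc_cmp_mem hA) a * ((u⁻¹ : A₂ˣ) : A₂) = 1 := by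
      rw [← hu]; exact Units.mul_inv u
    exact congrArg Subtype.val h2
  have h3 : φ ((a : K₁)⁻¹) ∈ A₂ := by
    rw [map_inv₀, inv_eq_of_mul_eq_one_right h1]
    exact ((u⁻¹ : A₂ˣ) : A₂).2
  have h4 : ((a : K₁))⁻¹ ∈ A₁ := (s37_rc_cmp_iff hA _).mpr h3
  have ha0 : (a : K₁) ≠ 0 := by
    intro h0
    rw [h0, map_zero, zero_mul] at h1
    exact zero_ne_one h1
  exact IsUnit.of_mul_eq_one ⟨(a : K₁)⁻¹, h4⟩ (Subtype.ext (mul_inv_cancel₀ ha0))

/-- The map of residue fields induced by `φ`. -/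
def s37_rc_cmpRes (hA : A₁ = A₂.comap φ) :
    IsLocalRing.ResidueField A₁ →+* IsLocalRing.ResidueField A₂ :=
  @IsLocalRing.ResidueField.map _ _ _ _ _ _ (s37_rc_cmpA A₁ A₂ φ (s37_rc_cmp_mem hA))
    (s37_rc_cmpA_isLocalHom hA)

theorem s37_rc_cmp_comp (hA : A₁ = A₂.comap φ) :
    φ.comp A₁.subtype = A₂.subtype.comp (s37_rc_cmpA A₁ A₂ φ (s37_rc_cmp_mem hA)) := rfl

theorem s37_rc_cmpRes_comp (hA : A₁ = A₂.comap φ) :
    (s37_rc_cmpRes hA).comp (IsLocalRing.residue A₁) =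
      (IsLocalRing.residue A₂).comp (s37_rc_cmpA A₁ A₂ φ (s37_rc_cmp_mem hA)) :=
  @IsLocalRing.ResidueField.map_comp_residue _ _ _ _ _ _
    (s37_rc_cmpA A₁ A₂ φ (s37_rc_cmp_mem hA)) (s37_rc_cmpA_isLocalHom hA)

theorem s37_rc_cmpRes_residue (hA : A₁ = A₂.comap φ) (a : A₁) :
    s37_rc_cmpRes hA (IsLocalRing.residue A₁ a) =
      IsLocalRing.residue A₂ (s37_rc_cmpA A₁ A₂ φ (s37_rc_cmp_mem hA) a) :=
  RingHom.congr_fun (s37_rc_cmpRes_comp hA) a

/-- `coeffMap φ` maps the Gauss ring of `A₁` into the Gauss ring of `A₂`. -/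
theorem s37_rc_W_map (hA : A₁ = A₂.comap φ) {x : LaurentSeries K₁}
    (hx : x ∈ s18_W A₁.subtype (IsLocalRing.residue A₁)) :
    coeffMap φ x ∈ s18_W A₂.subtype (IsLocalRing.residue A₂) :=
  s18_W_map (s37_rc_cmpA A₁ A₂ φ (s37_rc_cmp_mem hA)) φ (s37_rc_cmpRes hA)
    (s37_rc_cmp_comp hA) (s37_rc_cmpRes_comp hA) hx

/-- Compatibility of the reductions. -/
theorem s37_rc_gred_map (hA : A₁ = A₂.comap φ)
    (x : s18_W A₁.subtype (IsLocalRing.residue A₁)) :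
    s37_rc_gred A₂ ⟨coeffMap φ (x : LaurentSeries K₁), s37_rc_W_map hA x.2⟩ =
      coeffMap (s37_rc_cmpRes hA) (s37_rc_gred A₁ x) :=
  s18_red_map (s37_rc_subtype_injective A₁) (s37_rc_subtype_injective A₂)
    (s37_rc_cmpA A₁ A₂ φ (s37_rc_cmp_mem hA)) φ (s37_rc_cmpRes hA)
    (s37_rc_cmp_comp hA) (s37_rc_cmpRes_comp hA) x (s37_rc_W_map hA x.2)

theorem s37_rc_coeffMap_C {R S : Type*} [CommRing R] [CommRing S] (f : R →+* S) (r : R) :
    coeffMap f (HahnSeries.C r) = HahnSeries.C (f r) := by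
  rw [HahnSeries.C_apply, HahnSeries.C_apply, coeffMap_single]

end Compare

section CompareChart

variable {N : ℕ} [NeZero N] {ℓ : ℕ} [Fact ℓ.Prime]
variable {K₁ K₂ : Type*} [Field K₁] [Field K₂] [Algebra ℚ K₁] [Algebra ℚ K₂]
variable {A₁ : ValuationSubring K₁} {A₂ : ValuationSubring K₂} {φ : K₁ →+* K₂}
variable {t : modularFunctionFieldFull N}

/-- `coeffMap φ` maps the chart ring over `A₁` into the chart ring over `A₂`. -/
theorem s37_rc_chRing_map (hA : A₁ = A₂.comap φ) {z : LaurentSeries K₁}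
    (hz : z ∈ s18_chRing N ℓ A₁ t) : coeffMap φ z ∈ s18_chRing N ℓ A₂ t := by
  refine s18_chSpan_induction (P := fun z => coeffMap φ z ∈ s18_chRing N ℓ A₂ t) ?_ ?_ ?_ ?_ hz
  · intro r x hx
    rw [map_mul, s37_rc_coeffMap_C, coeffMap_coeffMap,
      coeffMap_congr (RingHom.ext_rat (φ.comp (algebraMap ℚ K₁)) (algebraMap ℚ K₂))]
    exact s18_gen_mem_chSpan (ι₁ := A₂.subtype) (s37_rc_cmpA A₁ A₂ φ (s37_rc_cmp_mem hA) r) hx
  · rw [map_zero]
    exact Subring.zero_mem _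
  · intro y y' hy hy'
    rw [map_add]
    exact Subring.add_mem _ hy hy'
  · intro y hy
    rw [map_neg]
    exact Subring.neg_mem _ hy

end CompareChart

section Bar

variable {N : ℕ} [NeZero N] {ℓ : ℕ} [Fact ℓ.Prime]
variable (A : ValuationSubring (AlgebraicClosure ℚ)) {t : modularFunctionFieldFull N}

local notation "Qb" => AlgebraicClosure ℚ

theorem s37_rc_A1_comap (K₁ : IntermediateField ℚ Qb) :
    s18_A1 A K₁ = A.comap (algebraMap K₁ Qb) := rfl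

theorem s37_rc_A1_comap_incl {K₁ K₂ : IntermediateField ℚ Qb} (h : K₁ ≤ K₂) :
    s18_A1 A K₁ = (s18_A1 A K₂).comap (IntermediateField.inclusion h : K₁ →+* K₂) := rfl

/-- Elements of the chart ring over `Q̄` coming from the level `K₁` come from every larger
level. -/
theorem s37_rc_level_mono {K₁ K₂ : IntermediateField ℚ Qb} (h : K₁ ≤ K₂) {y : LaurentSeries Qb}
    (hy : ∃ y₁ ∈ s18_chRing N ℓ (s18_A1 A K₁) t, coeffMap (algebraMap K₁ Qb) y₁ = y) :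
    ∃ y₂ ∈ s18_chRing N ℓ (s18_A1 A K₂) t, coeffMap (algebraMap K₂ Qb) y₂ = y := by
  obtain ⟨y₁, hy₁, rfl⟩ := hy
  refine ⟨coeffMap (IntermediateField.inclusion h : K₁ →+* K₂) y₁,
    s37_rc_chRing_map (s37_rc_A1_comap_incl A h) hy₁, ?_⟩
  rw [coeffMap_coeffMap]
  exact coeffMap_congr (RingHom.ext fun c => rfl) y₁

/-- Every element of the chart ring over a valuation ring of `Q̄` comes from a finite Galois
level. -/
theorem s37_rc_exists_level (y : LaurentSeries Qb) (hy : y ∈ s18_chRing N ℓ A t) :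
    ∃ K₁ : IntermediateField ℚ Qb, s18_d1_IsGaloisNF K₁ ∧
      ∃ y₁ ∈ s18_chRing N ℓ (s18_A1 A K₁) t, coeffMap (algebraMap K₁ Qb) y₁ = y := by
  refine s18_chSpan_induction (P := fun y => ∃ K₁ : IntermediateField ℚ Qb,
    s18_d1_IsGaloisNF K₁ ∧ ∃ y₁ ∈ s18_chRing N ℓ (s18_A1 A K₁) t,
      coeffMap (algebraMap K₁ Qb) y₁ = y) ?_ ?_ ?_ ?_ hy
  · intro r x hx
    obtain ⟨K₁, hK₁, hr⟩ := s18_d1_exists_galois (r : Qb)
    have hrA : (⟨(r : Qb), hr⟩ : K₁) ∈ s18_A1 A K₁ := r.2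
    refine ⟨K₁, hK₁, HahnSeries.C ((s18_A1 A K₁).subtype ⟨⟨(r : Qb), hr⟩, hrA⟩) *
      coeffMap (algebraMap ℚ K₁) x, s18_gen_mem_chSpan (ι₁ := (s18_A1 A K₁).subtype) _ hx, ?_⟩
    rw [map_mul, s37_rc_coeffMap_C, coeffMap_coeffMap,
      coeffMap_congr (RingHom.ext_rat ((algebraMap K₁ Qb).comp (algebraMap ℚ K₁))
        (algebraMap ℚ Qb))]
    rfl
  · obtain ⟨K₁, hK₁, -⟩ := s18_d1_exists_galois 0
    exact ⟨K₁, hK₁, 0, Subring.zero_mem _, map_zero _⟩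
  · rintro y y' ⟨K₁, hK₁, hy⟩ ⟨K₂, hK₂, hy'⟩
    obtain ⟨z, hz, rfl⟩ := s37_rc_level_mono A (le_sup_left : K₁ ≤ K₁ ⊔ K₂) hy
    obtain ⟨z', hz', rfl⟩ := s37_rc_level_mono A (le_sup_right : K₂ ≤ K₁ ⊔ K₂) hy'
    exact ⟨K₁ ⊔ K₂, hK₁.sup hK₂, z + z', Subring.add_mem _ hz hz', map_add _ _ _⟩
  · rintro y ⟨K₁, hK₁, y₁, hy₁, rfl⟩
    exact ⟨K₁, hK₁, -y₁, Subring.neg_mem _ hy₁, map_neg _ _⟩

/-- **The kernel of the reduction of the chart over a valuation ring of `Q̄`**: an element of the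
chart with zero reduction is divisible by an element of the maximal ideal. -/
theorem s37_rc_ker (hA : A.LiesOverPrime ℓ) (h : s18_cz_Coord N ℓ t)
    {B : Subring (LaurentSeries ℚ)} (hB : CoreData N ℓ B) : s37_rc_Ker N ℓ A t := by
  intro w hw hred
  obtain ⟨K₁, hK₁, y₁, hy₁, hy⟩ := s37_rc_exists_level A (w : LaurentSeries Qb) hw
  haveI : FiniteDimensional ℚ K₁ := hK₁.1
  haveI : IsDiscreteValuationRing (s18_A1 A K₁) := s18_a1_dvr A hA K₁
  obtain ⟨π, hπ⟩ := IsDiscreteValuationRing.exists_irreducible (s18_A1 A K₁)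
  have hR : s18_ResBasis ℓ (s18_A1 A K₁) π := s18_a1_resbasis A hA K₁ π hπ
  have hW₁ : y₁ ∈ s18_W (s18_A1 A K₁).subtype (IsLocalRing.residue (s18_A1 A K₁)) :=
    s18_chRing_le_W hR.unit h hB hy₁
  have hcomap := s37_rc_A1_comap A K₁
  have h1 := s37_rc_gred_map hcomap ⟨y₁, hW₁⟩
  have h2 : (⟨coeffMap (algebraMap K₁ Qb) y₁, s37_rc_W_map hcomap hW₁⟩ :
      s18_W A.subtype (IsLocalRing.residue A)) = w := Subtype.ext hy
  rw [h2, hred] at h1
  have h3 : s37_rc_gred (s18_A1 A K₁) ⟨y₁, hW₁⟩ = 0 :=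
    s18_coeffMap_injective _ (s37_rc_cmpRes hcomap).injective (by rw [← h1, map_zero])
  obtain ⟨y₁', hy₁', e⟩ := s18_chRing_kernel hR h hB y₁ hy₁ h3
  refine ⟨s37_rc_cmpA (s18_A1 A K₁) A (algebraMap K₁ Qb) (s37_rc_cmp_mem hcomap) π,
    coeffMap (algebraMap K₁ Qb) y₁', ?_, s37_rc_chRing_map hcomap hy₁', ?_⟩
  · rw [← s37_rc_cmpRes_residue hcomap, s18_residue_uniformizer hπ, map_zero]
  · rw [← hy, e, map_mul, s37_rc_coeffMap_C]
    rfl

end Bar

end Fermat.Agent.S37
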