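import Fermat.Agent.S18.ChAlgSep
import Fermat.Agent.S18.ChProps

/-!
# S37, block R (chart side): the special fibre of a chart

For a field `K` of characteristic `0` with a valuation subring `A` (residue field `κ`) and a
function `t` of the modular function field of level `N`:

* `s37_rc_fib N ℓ A t` : the special fibre ring of the chart of `t`, the `κ`-subalgebra of `κ((q))`
  of the reductions of the elements of the chart ring `s18_chRing N ℓ A t` (hypothesis-free
  definition: reductions of those elements of the chart which lie in the Gauss ring);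
* `s37_rc_red hW` : the (surjective) reduction map from the chart `s18_chAlg N ℓ A t`;
* `s37_rc_pt N ℓ A t` : the points of the special fibre, the `κ`-algebra homomorphisms to `κ`;
* `s37_rc_ptOf` : the point defined by an `A`-valued evaluation of the chart.
-/

set_option autoImplicit false
set_option synthInstance.maxHeartbeats 400000
set_option linter.unusedSectionVars false
set_option linter.unusedVariables false

open ModularCurve ModularCurve.IgusaScheme Fermat.Agent.S28 Fermat.Agent.S18 Polynomial

noncomputable section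

namespace Fermat.Agent.S37

section Fib

variable (N : ℕ) [NeZero N] (ℓ : ℕ) [Fact ℓ.Prime]
variable {K : Type*} [Field K] [Algebra ℚ K] (A : ValuationSubring K)
variable (t : modularFunctionFieldFull N)

local notation "κ" => IsLocalRing.ResidueField A
local notation "FK" => laurentBaseChange K (modularFunctionFieldFull N)
local notation "WA" => s18_W A.subtype (IsLocalRing.residue A)

omit [Algebra ℚ K] in
theorem s37_rc_subtype_injective : Function.Injective A.subtype := fun _ _ h => Subtype.ext h

omit [Algebra ℚ K] in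
/-- The reduction map of the Gauss ring of `A`. -/
def s37_rc_gred : WA →+* LaurentSeries κ :=
  s18_red (ρ := IsLocalRing.residue A) (s37_rc_subtype_injective A)

/-- The special fibre ring of the chart of `t`: the reductions of the elements of the chart. -/
def s37_rc_fib : Subalgebra κ (LaurentSeries κ) where
  carrier := {g | ∃ w : WA, (w : LaurentSeries K) ∈ s18_chRing N ℓ A t ∧ s37_rc_gred A w = g}
  mul_mem' := by
    rintro a b ⟨w, hw, rfl⟩ ⟨w', hw', rfl⟩
    exact ⟨w * w', Subring.mul_mem _ hw hw', map_mul _ _ _⟩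
  one_mem' := ⟨1, Subring.one_mem _, map_one _⟩
  add_mem' := by
    rintro a b ⟨w, hw, rfl⟩ ⟨w', hw', rfl⟩
    exact ⟨w + w', Subring.add_mem _ hw hw', map_add _ _ _⟩
  zero_mem' := ⟨0, Subring.zero_mem _, map_zero _⟩
  algebraMap_mem' := by
    intro c
    obtain ⟨a, rfl⟩ := IsLocalRing.residue_surjective c
    refine ⟨⟨HahnSeries.C (A.subtype a), s18_C_mem_W a⟩,
      s18_const_mem_chSpan (ι₁ := A.subtype) a, ?_⟩
    rw [algebraMap_laurentSeries_eq_single, ← HahnSeries.C_apply]
    exact s18_red_C _ a _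

variable {N ℓ A t}

theorem s37_rc_mem_fib {g : LaurentSeries κ} :
    g ∈ s37_rc_fib N ℓ A t ↔
      ∃ w : WA, (w : LaurentSeries K) ∈ s18_chRing N ℓ A t ∧ s37_rc_gred A w = g := Iff.rfl

/-- The reduction map of the chart, with values in `κ((q))`. -/
def s37_rc_redAux (hW : s18_chRing N ℓ A t ≤ WA) : s18_chAlg N ℓ A t →+* LaurentSeries κ :=
  (s37_rc_gred A).comp
    (RingHom.codRestrict
      (((laurentBaseChange K (modularFunctionFieldFull N)).toSubfield.subtype).comp
        (s18_chAlg N ℓ A t).val.toRingHom) WA (fun x => hW x.2))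

theorem s37_rc_redAux_apply (hW : s18_chRing N ℓ A t ≤ WA) (x : s18_chAlg N ℓ A t) :
    s37_rc_redAux hW x = s37_rc_gred A ⟨((x : FK) : LaurentSeries K), hW x.2⟩ := rfl

/-- The reduction map of the chart onto its special fibre ring. -/
def s37_rc_red (hW : s18_chRing N ℓ A t ≤ WA) : s18_chAlg N ℓ A t →+* s37_rc_fib N ℓ A t :=
  RingHom.codRestrict (s37_rc_redAux hW) (s37_rc_fib N ℓ A t)
    (fun x => ⟨⟨((x : FK) : LaurentSeries K), hW x.2⟩, x.2, rfl⟩)

theorem s37_rc_red_coe (hW : s18_chRing N ℓ A t ≤ WA) (x : s18_chAlg N ℓ A t) :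
    ((s37_rc_red hW x : s37_rc_fib N ℓ A t) : LaurentSeries κ) =
      s37_rc_gred A ⟨((x : FK) : LaurentSeries K), hW x.2⟩ := rfl

/-- The chart ring lies in `K · F_N`. -/
theorem s37_rc_chRing_le (z : LaurentSeries K) (hz : z ∈ s18_chRing N ℓ A t) : z ∈ FK := by
  refine s18_chSpan_induction (P := fun z => z ∈ FK) ?_ ?_ ?_ ?_ hz
  · intro r x hx
    obtain ⟨y, hy, rfl⟩ := s18_mem_czRing.mp hx
    refine mul_mem ?_ (coeffEmb_mem_laurentBaseChange K y.2)
    rw [HahnSeries.C_apply, ← algebraMap_laurentSeries_eq_single]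
    exact (laurentBaseChange K (modularFunctionFieldFull N)).algebraMap_mem _
  · exact zero_mem _
  · exact fun y y' hy hy' => add_mem hy hy'
  · exact fun y hy => neg_mem hy

theorem s37_rc_red_surjective (hW : s18_chRing N ℓ A t ≤ WA) :
    Function.Surjective (s37_rc_red (N := N) (ℓ := ℓ) (A := A) (t := t) hW) := by
  rintro ⟨g, w, hw, rfl⟩
  exact ⟨⟨⟨(w : LaurentSeries K), s37_rc_chRing_le _ hw⟩, hw⟩, rfl⟩

/-- The reduction of a constant. -/
theorem s37_rc_red_algebraMap (hW : s18_chRing N ℓ A t ≤ WA) (a : A) :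
    s37_rc_red hW (algebraMap A (s18_chAlg N ℓ A t) a) =
      algebraMap κ (s37_rc_fib N ℓ A t) (IsLocalRing.residue A a) := by
  apply Subtype.ext
  rw [s37_rc_red_coe]
  show _ = algebraMap κ (LaurentSeries κ) (IsLocalRing.residue A a)
  rw [algebraMap_laurentSeries_eq_single, ← HahnSeries.C_apply]
  have h1 : (((algebraMap A (s18_chAlg N ℓ A t) a : s18_chAlg N ℓ A t) : FK) :
      LaurentSeries K) = HahnSeries.C (A.subtype a) := s18_coe_algebraMap (N := N) a
  have h2 : (⟨(((algebraMap A (s18_chAlg N ℓ A t) a : s18_chAlg N ℓ A t) : FK) :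
      LaurentSeries K), hW (algebraMap A (s18_chAlg N ℓ A t) a).2⟩ : WA) =
      ⟨HahnSeries.C (A.subtype a), s18_C_mem_W a⟩ := Subtype.ext h1
  rw [h2]
  exact s18_red_C _ a _

variable (N ℓ A t) in
/-- The points of the special fibre of the chart of `t`. -/
abbrev s37_rc_pt : Type _ := s37_rc_fib N ℓ A t →ₐ[κ] κ

variable (N ℓ A t) in
/-- The kernel property of the reduction map of the chart: elements with zero reduction are
divisible by an element of the maximal ideal of `A`. -/
def s37_rc_Ker : Prop :=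
  ∀ w : WA, (w : LaurentSeries K) ∈ s18_chRing N ℓ A t → s37_rc_gred A w = 0 →
    ∃ (c : A) (y' : LaurentSeries K), IsLocalRing.residue A c = 0 ∧ y' ∈ s18_chRing N ℓ A t ∧
      (w : LaurentSeries K) = HahnSeries.C (A.subtype c) * y'

/-- The point of the special fibre defined by an `A`-algebra evaluation of the chart. -/
def s37_rc_ptOf (hW : s18_chRing N ℓ A t ≤ WA) (hker : s37_rc_Ker N ℓ A t)
    (e : s18_chAlg N ℓ A t →ₐ[A] A) : s37_rc_pt N ℓ A t :=
  have hle : RingHom.ker (s37_rc_red (N := N) (ℓ := ℓ) (A := A) (t := t) hW) ≤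
      RingHom.ker ((IsLocalRing.residue A).comp (e : s18_chAlg N ℓ A t →+* A)) := by
    intro x hx
    rw [RingHom.mem_ker] at hx ⊢
    have h0 : s37_rc_gred A ⟨((x : FK) : LaurentSeries K), hW x.2⟩ = 0 := by
      rw [← s37_rc_red_coe hW x, hx]
      rfl
    obtain ⟨c, y', hc, hy', hxy⟩ := hker ⟨_, hW x.2⟩ x.2 h0
    have hx' : x = algebraMap A (s18_chAlg N ℓ A t) c *
        ⟨⟨y', s37_rc_chRing_le _ hy'⟩, hy'⟩ := by
      apply Subtype.ext
      apply Subtype.ext
      show ((x : FK) : LaurentSeries K) =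
        (((algebraMap A (s18_chAlg N ℓ A t) c : s18_chAlg N ℓ A t) : FK) : LaurentSeries K) * y'
      rw [show (((algebraMap A (s18_chAlg N ℓ A t) c : s18_chAlg N ℓ A t) : FK) :
        LaurentSeries K) = HahnSeries.C (A.subtype c) from s18_coe_algebraMap (N := N) c]
      exact hxy
    rw [RingHom.comp_apply, hx']
    show IsLocalRing.residue A (e (algebraMap A (s18_chAlg N ℓ A t) c * _)) = 0
    rw [map_mul, AlgHom.commutes, map_mul]
    show IsLocalRing.residue A c * _ = 0
    rw [hc, zero_mul]
  { toRingHom := (s37_rc_red hW).liftOfSurjective (s37_rc_red_surjective hW)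
      ⟨(IsLocalRing.residue A).comp (e : s18_chAlg N ℓ A t →+* A), hle⟩
    commutes' := by
      intro c
      obtain ⟨a, rfl⟩ := IsLocalRing.residue_surjective c
      show (s37_rc_red hW).liftOfSurjective (s37_rc_red_surjective hW) _
        (algebraMap κ (s37_rc_fib N ℓ A t) (IsLocalRing.residue A a)) = _
      rw [← s37_rc_red_algebraMap hW a, RingHom.liftOfRightInverse_comp_apply]
      show IsLocalRing.residue A (e (algebraMap A (s18_chAlg N ℓ A t) a)) = _
      rw [AlgHom.commutes]
      rfl }

theorem s37_rc_ptOf_red (hW : s18_chRing N ℓ A t ≤ WA) (hker : s37_rc_Ker N ℓ A t)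
    (e : s18_chAlg N ℓ A t →ₐ[A] A) (x : s18_chAlg N ℓ A t) :
    s37_rc_ptOf hW hker e (s37_rc_red hW x) = IsLocalRing.residue A (e x) :=
  RingHom.liftOfRightInverse_comp_apply _ _ _ _ x

end Fib

end Fermat.Agent.S37
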