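import Fermat.Agent.S37.RcDesc

/-!
# S37, block R (chart side): semilinear action of automorphisms on the special fibre

For a field automorphism `σ` of `K` with `σ(A) = A` (`hσ : A = A.comap σ`, `hσ' : A = A.comap σ⁻¹`):

* `s37_rc_autRes hσ` : the induced endomorphism `σ̄` of the residue field `κ`;
* `s37_rc_chAut σ hσ` : the action of `σ` on the chart `s18_chAlg N ℓ A t` (coefficientwise);
* `s37_rc_red_chAut` : `red (σ b) = coeffMap σ̄ (red b)`;
* `s37_rc_ptSmul σ hσ hσ' x` : the point `σ̄ ∘ x ∘ (coeffMap σ̄)⁻¹` of the special fibre;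
* `s37_rc_ptOf_smul` : if the evaluations `e, e'` satisfy `e' (σ b) = σ (e b)` then the point of
  `e'` is `σ` applied to the point of `e`.
-/

set_option autoImplicit false
set_option synthInstance.maxHeartbeats 400000
set_option linter.unusedSectionVars false
set_option linter.unusedVariables false

open ModularCurve ModularCurve.IgusaScheme Fermat.Agent.S28 Fermat.Agent.S18 Polynomial

noncomputable section

namespace Fermat.Agent.S37

section Twist

variable {N : ℕ} [NeZero N] {ℓ : ℕ} [Fact ℓ.Prime]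
variable {K : Type*} [Field K] [Algebra ℚ K] {A : ValuationSubring K}
variable {t : modularFunctionFieldFull N}

local notation "κ" => IsLocalRing.ResidueField A
local notation "FK" => laurentBaseChange K (modularFunctionFieldFull N)
local notation "WA" => s18_W A.subtype (IsLocalRing.residue A)

/-- The endomorphism of the residue field induced by `σ`. -/
abbrev s37_rc_autRes {σ : K →+* K} (hσ : A = A.comap σ) : κ →+* κ := s37_rc_cmpRes hσ

theorem s37_rc_autRes_residue {σ : K →+* K} (hσ : A = A.comap σ) (a : A) :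
    s37_rc_autRes hσ (IsLocalRing.residue A a) =
      IsLocalRing.residue A ⟨σ (a : K), s37_rc_cmp_mem hσ a⟩ :=
  s37_rc_cmpRes_residue hσ a

/-- Mutually inverse automorphisms induce mutually inverse maps of the residue field. -/
theorem s37_rc_autRes_inv {σ τ : K →+* K} (hσ : A = A.comap σ) (hτ : A = A.comap τ)
    (hστ : ∀ x, σ (τ x) = x) (c : κ) : s37_rc_autRes hσ (s37_rc_autRes hτ c) = c := by
  obtain ⟨a, rfl⟩ := IsLocalRing.residue_surjective c
  rw [s37_rc_autRes_residue, s37_rc_autRes_residue]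
  congr 1
  exact Subtype.ext (hστ _)

/-- `coeffMap σ` preserves the field `K · F_N`. -/
theorem s37_rc_coeffMap_mem_FK (σ : K →+* K) {z : LaurentSeries K} (hz : z ∈ FK) :
    coeffMap σ z ∈ FK :=
  s18_d1_coeffMap_mem (modularFunctionFieldFull N) σ hz

/-- The action of `σ` on the chart. -/
def s37_rc_chAut (σ : K →+* K) (hσ : A = A.comap σ) :
    s18_chAlg N ℓ A t →+* s18_chAlg N ℓ A t where
  toFun b := ⟨⟨coeffMap σ ((b : FK) : LaurentSeries K), s37_rc_coeffMap_mem_FK σ (b : FK).2⟩,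
    s37_rc_chRing_map hσ b.2⟩
  map_one' := Subtype.ext (Subtype.ext (map_one (coeffMap σ)))
  map_mul' x y := Subtype.ext (Subtype.ext (map_mul (coeffMap σ) _ _))
  map_zero' := Subtype.ext (Subtype.ext (map_zero (coeffMap σ)))
  map_add' x y := Subtype.ext (Subtype.ext (map_add (coeffMap σ) _ _))

theorem s37_rc_chAut_coe (σ : K →+* K) (hσ : A = A.comap σ) (b : s18_chAlg N ℓ A t) :
    (((s37_rc_chAut σ hσ b : s18_chAlg N ℓ A t) : FK) : LaurentSeries K) =
      coeffMap σ ((b : FK) : LaurentSeries K) := rfl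

theorem s37_rc_chAut_inv {σ τ : K →+* K} (hσ : A = A.comap σ) (hτ : A = A.comap τ)
    (hστ : ∀ x, σ (τ x) = x) (b : s18_chAlg N ℓ A t) :
    s37_rc_chAut σ hσ (s37_rc_chAut τ hτ b) = b := by
  apply Subtype.ext
  apply Subtype.ext
  rw [s37_rc_chAut_coe, s37_rc_chAut_coe, coeffMap_coeffMap,
    coeffMap_congr (g := RingHom.id K) (RingHom.ext hστ), coeffMap_id]

theorem s37_rc_chAut_algebraMap (σ : K →+* K) (hσ : A = A.comap σ) (a : A) :
    s37_rc_chAut σ hσ (algebraMap A (s18_chAlg N ℓ A t) a) =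
      algebraMap A (s18_chAlg N ℓ A t) ⟨σ (a : K), s37_rc_cmp_mem hσ a⟩ := by
  apply Subtype.ext
  apply Subtype.ext
  rw [s37_rc_chAut_coe]
  rw [show (((algebraMap A (s18_chAlg N ℓ A t) a : s18_chAlg N ℓ A t) : FK) :
      LaurentSeries K) = HahnSeries.C (A.subtype a) from s18_coe_algebraMap (N := N) a,
    s37_rc_coeffMap_C]
  exact (s18_coe_algebraMap (N := N) (K := K) (⟨σ (a : K), s37_rc_cmp_mem hσ a⟩ : A)).symm

/-- The reduction of `σ b` is the coefficientwise `σ̄` of the reduction of `b`. -/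
theorem s37_rc_red_chAut (hW : s18_chRing N ℓ A t ≤ WA) (σ : K →+* K) (hσ : A = A.comap σ)
    (b : s18_chAlg N ℓ A t) :
    ((s37_rc_red hW (s37_rc_chAut σ hσ b) : s37_rc_fib N ℓ A t) : LaurentSeries κ) =
      coeffMap (s37_rc_autRes hσ) ((s37_rc_red hW b : s37_rc_fib N ℓ A t) : LaurentSeries κ) := by
  rw [s37_rc_red_coe, s37_rc_red_coe]
  exact s37_rc_gred_map hσ ⟨((b : FK) : LaurentSeries K), hW b.2⟩

/-- The special fibre ring is stable under `coeffMap σ̄`. -/
theorem s37_rc_fib_autRes (hW : s18_chRing N ℓ A t ≤ WA) {σ : K →+* K} (hσ : A = A.comap σ)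
    (g : LaurentSeries κ) (hg : g ∈ s37_rc_fib N ℓ A t) :
    coeffMap (s37_rc_autRes hσ) g ∈ s37_rc_fib N ℓ A t := by
  obtain ⟨b, hb⟩ := s37_rc_red_surjective hW ⟨g, hg⟩
  have h1 := s37_rc_red_chAut hW σ hσ b
  rw [hb] at h1
  rw [← h1]
  exact (s37_rc_red hW (s37_rc_chAut σ hσ b)).2

/-- The action of `σ` on the points of the special fibre: `σ̄ ∘ x ∘ (coeffMap σ̄)⁻¹`. -/
def s37_rc_ptSmul (hW : s18_chRing N ℓ A t ≤ WA) {σ τ : K →+* K} (hσ : A = A.comap σ)
    (hτ : A = A.comap τ) (hστ : ∀ x, σ (τ x) = x) (x : s37_rc_pt N ℓ A t) :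
    s37_rc_pt N ℓ A t where
  toFun g := s37_rc_autRes hσ (x ⟨coeffMap (s37_rc_autRes hτ) (g : LaurentSeries κ),
    s37_rc_fib_autRes hW hτ _ g.2⟩)
  map_one' := by
    have h1 : (⟨coeffMap (s37_rc_autRes hτ) ((1 : s37_rc_fib N ℓ A t) : LaurentSeries κ),
        s37_rc_fib_autRes hW hτ _ (1 : s37_rc_fib N ℓ A t).2⟩ : s37_rc_fib N ℓ A t) = 1 :=
      Subtype.ext (map_one (coeffMap (s37_rc_autRes hτ)))
    rw [h1, map_one, map_one]
  map_mul' g g' := by
    have h1 : (⟨coeffMap (s37_rc_autRes hτ) ((g * g' : s37_rc_fib N ℓ A t) : LaurentSeries κ),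
        s37_rc_fib_autRes hW hτ _ (g * g').2⟩ : s37_rc_fib N ℓ A t) =
        ⟨coeffMap (s37_rc_autRes hτ) (g : LaurentSeries κ), s37_rc_fib_autRes hW hτ _ g.2⟩ *
        ⟨coeffMap (s37_rc_autRes hτ) (g' : LaurentSeries κ), s37_rc_fib_autRes hW hτ _ g'.2⟩ :=
      Subtype.ext (map_mul (coeffMap (s37_rc_autRes hτ)) _ _)
    rw [h1, map_mul, map_mul]
  map_zero' := by
    have h1 : (⟨coeffMap (s37_rc_autRes hτ) ((0 : s37_rc_fib N ℓ A t) : LaurentSeries κ),
        s37_rc_fib_autRes hW hτ _ (0 : s37_rc_fib N ℓ A t).2⟩ : s37_rc_fib N ℓ A t) = 0 :=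
      Subtype.ext (map_zero (coeffMap (s37_rc_autRes hτ)))
    rw [h1, map_zero, map_zero]
  map_add' g g' := by
    have h1 : (⟨coeffMap (s37_rc_autRes hτ) ((g + g' : s37_rc_fib N ℓ A t) : LaurentSeries κ),
        s37_rc_fib_autRes hW hτ _ (g + g').2⟩ : s37_rc_fib N ℓ A t) =
        ⟨coeffMap (s37_rc_autRes hτ) (g : LaurentSeries κ), s37_rc_fib_autRes hW hτ _ g.2⟩ +
        ⟨coeffMap (s37_rc_autRes hτ) (g' : LaurentSeries κ), s37_rc_fib_autRes hW hτ _ g'.2⟩ :=
      Subtype.ext (map_add (coeffMap (s37_rc_autRes hτ)) _ _)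
    rw [h1, map_add, map_add]
  commutes' c := by
    have h1 : (⟨coeffMap (s37_rc_autRes hτ)
        ((algebraMap κ (s37_rc_fib N ℓ A t) c : s37_rc_fib N ℓ A t) : LaurentSeries κ),
        s37_rc_fib_autRes hW hτ _ (algebraMap κ (s37_rc_fib N ℓ A t) c).2⟩ :
        s37_rc_fib N ℓ A t) = algebraMap κ (s37_rc_fib N ℓ A t) (s37_rc_autRes hτ c) := by
      apply Subtype.ext
      show coeffMap (s37_rc_autRes hτ) (algebraMap κ (LaurentSeries κ) c) =
        algebraMap κ (LaurentSeries κ) (s37_rc_autRes hτ c)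
      rw [algebraMap_laurentSeries_eq_single, algebraMap_laurentSeries_eq_single, coeffMap_single]
    show s37_rc_autRes hσ (x _) = _
    rw [h1, AlgHom.commutes]
    exact s37_rc_autRes_inv hσ hτ hστ c

theorem s37_rc_ptSmul_apply (hW : s18_chRing N ℓ A t ≤ WA) {σ τ : K →+* K}
    (hσ : A = A.comap σ) (hτ : A = A.comap τ) (hστ : ∀ x, σ (τ x) = x)
    (x : s37_rc_pt N ℓ A t) (g : s37_rc_fib N ℓ A t) :
    s37_rc_ptSmul hW hσ hτ hστ x g =
      s37_rc_autRes hσ (x ⟨coeffMap (s37_rc_autRes hτ) (g : LaurentSeries κ),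
        s37_rc_fib_autRes hW hτ _ g.2⟩) := rfl

/-- The value of the translated point at the reduction of `σ b`. -/
theorem s37_rc_ptSmul_red (hW : s18_chRing N ℓ A t ≤ WA) {σ τ : K →+* K}
    (hσ : A = A.comap σ) (hτ : A = A.comap τ) (hστ : ∀ x, σ (τ x) = x) (hτσ : ∀ x, τ (σ x) = x)
    (x : s37_rc_pt N ℓ A t) (b : s18_chAlg N ℓ A t) :
    s37_rc_ptSmul hW hσ hτ hστ x (s37_rc_red hW (s37_rc_chAut σ hσ b)) =
      s37_rc_autRes hσ (x (s37_rc_red hW b)) := by
  rw [s37_rc_ptSmul_apply]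
  congr 2
  apply Subtype.ext
  show coeffMap (s37_rc_autRes hτ) _ = _
  rw [← s37_rc_red_chAut hW τ hτ, s37_rc_chAut_inv hτ hσ hτσ]

/-- **Transport of points**: if the evaluations `e`, `e'` of the chart satisfy
`e' (σ b) = σ (e b)`, then the point of `e'` is the `σ`-translate of the point of `e`. -/
theorem s37_rc_ptOf_smul (hW : s18_chRing N ℓ A t ≤ WA) (hker : s37_rc_Ker N ℓ A t)
    {σ τ : K →+* K} (hσ : A = A.comap σ) (hτ : A = A.comap τ) (hστ : ∀ x, σ (τ x) = x)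
    (hτσ : ∀ x, τ (σ x) = x) (e e' : s18_chAlg N ℓ A t →ₐ[A] A)
    (hee' : ∀ b : s18_chAlg N ℓ A t, ((e' (s37_rc_chAut σ hσ b) : A) : K) = σ ((e b : A) : K)) :
    s37_rc_ptOf hW hker e' = s37_rc_ptSmul hW hσ hτ hστ (s37_rc_ptOf hW hker e) := by
  apply AlgHom.ext
  intro g
  obtain ⟨b', rfl⟩ := s37_rc_red_surjective hW g
  have hb' : b' = s37_rc_chAut σ hσ (s37_rc_chAut τ hτ b') := (s37_rc_chAut_inv hσ hτ hστ b').symm
  rw [hb', s37_rc_ptSmul_red hW hσ hτ hστ hτσ, s37_rc_ptOf_red, s37_rc_ptOf_red,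
    s37_rc_autRes_residue]
  congr 1
  exact Subtype.ext (hee' _)

end Twist

end Fermat.Agent.S37
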