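import Fermat.Agent.S37.HFunct
import Fermat.Agent.S37.CpPlace

/-!
# S37, block TR, generic part 2: base change for divisors (helper18)

A commutative square of function fields of one variable over an algebraically closed field of
characteristic zero

```
F  --u₁-->  F₁
|u₂         |v₁
v           v
F₂ --v₂-->  E
```

in which `E` is the "tensor product" of `F₁` and `F₂` over `F` (hypothesis `hchi`: characteristic
polynomials of multiplications by elements of `F₂` are preserved) satisfies
`u₂^* ∘ u₁_* = v₂_* ∘ v₁^*` on divisors.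
-/

set_option autoImplicit false
set_option linter.unusedSectionVars false
set_option linter.style.haveILetI false

namespace Fermat.Agent.S37

open AlgebraicCurve IsDedekindDomain Polynomial
open scoped IntermediateField

/-! ## Small lemmas on valuation rings -/

theorem s37_tr_zero_mem_nonunits {F : Type*} [Field F] (A : ValuationSubring F) :
    (0 : F) ∈ A.nonunits := by
  rw [ValuationSubring.mem_nonunits_iff, map_zero]
  exact zero_lt_one

theorem s37_tr_sub_mem_nonunits {F : Type*} [Field F] (A : ValuationSubring F) {a b : F}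
    (ha : a ∈ A.nonunits) (hb : b ∈ A.nonunits) : a - b ∈ A.nonunits := by
  rw [ValuationSubring.mem_nonunits_iff] at ha hb ⊢
  exact Valuation.map_sub_lt _ ha hb

/-- A constant in the maximal ideal of a place vanishes. -/
theorem s37_tr_const_eq_zero {K F : Type*} [Field K] [Field F] [Algebra K F] (v : Place K F)
    (c : K) (h : algebraMap K F c ∈ v.toValuationSubring.nonunits) : c = 0 := by
  by_contra hc
  have hne : algebraMap K F c ≠ 0 := by
    intro h0
    exact hc ((algebraMap K F).injective (by rw [h0, map_zero]))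
  have h1 := (Fermat.Agent.S24.mem_nonunits_iff_ord_pos v hne).mp h
  rw [Fermat.Agent.S24.ord_algebraMap] at h1
  exact lt_irrefl _ h1

section Along

variable {K F F' : Type*} [Field K] [Field F] [Field F'] [Algebra K F] [Algebra K F']

/-- The maximal ideal of the place below maps into the maximal ideal. -/
theorem s37_tr_map_mem_nonunits (u : F →ₐ[K] F') (hu : u.toRingHom.IsIntegral) (w : Place K F')
    {x : F} (hx : x ∈ (w.restrictAlong u hu).toValuationSubring.nonunits) :
    u x ∈ w.toValuationSubring.nonunits := by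
  rcases eq_or_ne x 0 with rfl | hx0
  · rw [map_zero]
    exact s37_tr_zero_mem_nonunits _
  have hux : u x ≠ 0 := by
    intro h0
    exact hx0 (u.toRingHom.injective (by rw [AlgHom.toRingHom_eq_coe, RingHom.coe_coe, h0, map_zero]))
  rw [Fermat.Agent.S24.mem_nonunits_iff_ord_pos _ hux, Place.ord_restrictAlong u hu]
  have h1 := (Fermat.Agent.S24.mem_nonunits_iff_ord_pos _ hx0).mp hx
  have h2 : 0 < Place.ramificationIndexAlong u w := by
    letI := algebraAlong u
    haveI := isScalarTower_along u
    haveI := isIntegral_along u hu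
    exact Place.ramificationIndex_pos (F := F) w
  positivity

/-- The characteristic polynomial of multiplication by `g : F'` on `F'` over `F` (along `u`). -/
noncomputable def s37_tr_chi (u : F →ₐ[K] F') (hfin : FiniteAlong K u) (g : F') : Polynomial F :=
  letI := algebraAlong u
  haveI : Module.Finite F F' := hfin
  (LinearMap.mulLeft F g).charpoly

variable [IsAlgClosed K] [CharZero K] [HasPrincipalDivisors K F']

/-- (CP) along a homomorphism. -/
theorem s37_tr_cp (hF : s37_h_IsFF K F) (u : F →ₐ[K] F') (hu : u.toRingHom.IsIntegral)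
    (hfin : FiniteAlong K u) (v : Place K F) (g : F') (c : Place K F' → K)
    (hc : ∀ w ∈ Place.fiberAlong u hu v,
      g - algebraMap K F' (c w) ∈ w.toValuationSubring.nonunits) (i : ℕ) :
    (s37_tr_chi u hfin g).coeff i
      - algebraMap K F ((∏ w ∈ Place.fiberAlong u hu v,
          (X - C (c w)) ^ w.ramificationIndexAlong u).coeff i)
      ∈ v.toValuationSubring.nonunits := by
  obtain ⟨x, hx, hfd⟩ := hF
  letI := algebraAlong u
  haveI := isScalarTower_along u
  haveI := isIntegral_along u hu
  haveI : Module.Finite F F' := hfin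
  exact s37_cp_charpoly x hx v g c hc i

/-- A function with value `1` at a given place of a fibre and `0` at the other places of the
fibre. -/
theorem s37_tr_exists_sep (u : F →ₐ[K] F') (hu : u.toRingHom.IsIntegral)
    (hfin : FiniteAlong K u) (v : Place K F) (w₀ : Place K F')
    (hw₀ : w₀ ∈ Place.fiberAlong u hu v) :
    ∃ g : F', g - 1 ∈ w₀.toValuationSubring.nonunits ∧
      ∀ w ∈ Place.fiberAlong u hu v, w ≠ w₀ → g ∈ w.toValuationSubring.nonunits := by
  classical
  letI := algebraAlong u
  haveI := isScalarTower_along u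
  haveI := isIntegral_along u hu
  haveI : Module.Finite F F' := hfin
  haveI : CharZero F := charZero_of_injective_algebraMap (algebraMap K F).injective
  haveI : Algebra.IsSeparable F F' := inferInstance
  haveI : IsDedekindDomain (integralClosure v.toValuationSubring F') :=
    integralClosure.isDedekindDomain v.toValuationSubring F F'
  haveI : IsFractionRing (integralClosure v.toValuationSubring F') F' :=
    integralClosure.isFractionRing_of_finite_extension F F'
  letI : Algebra K (integralClosure v.toValuationSubring F') :=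
    ((algebraMap v.toValuationSubring (integralClosure v.toValuationSubring F')).comp
      (algebraMap K v.toValuationSubring)).toAlgebra
  haveI : IsScalarTower K v.toValuationSubring (integralClosure v.toValuationSubring F') :=
    IsScalarTower.of_algebraMap_eq (fun _ => rfl)
  haveI : IsScalarTower K (integralClosure v.toValuationSubring F') F' :=
    IsScalarTower.of_algebraMap_eq (fun c => by
      rw [IsScalarTower.algebraMap_apply K F F']
      rfl)
  haveI : Finite (HeightOneSpectrum (integralClosure v.toValuationSubring F')) :=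
    s37_h_loc_finite (K := K) (F' := F') v (integralClosure v.toValuationSubring F')
  cases nonempty_fintype (HeightOneSpectrum (integralClosure v.toValuationSubring F'))
  have hw₀' : w₀.restrict F = v := Place.mem_fiber.mp hw₀
  obtain ⟨q₀, hq₀⟩ := s37_h_loc_exists v (integralClosure v.toValuationSubring F') w₀ hw₀'
  -- elements of a prime lie in the maximal ideal of its place
  have key : ∀ (q : HeightOneSpectrum (integralClosure v.toValuationSubring F'))
      (d : integralClosure v.toValuationSubring F'), d ∈ q.asIdeal →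
      algebraMap (integralClosure v.toValuationSubring F') F' d
        ∈ (s37_h_place K (F := F') q).toValuationSubring.nonunits := by
    intro q d hd
    rcases eq_or_ne d 0 with rfl | hd0
    · rw [map_zero]
      exact s37_tr_zero_mem_nonunits _
    have hne : algebraMap (integralClosure v.toValuationSubring F') F' d ≠ 0 := by
      intro h0
      exact hd0 ((IsFractionRing.injective (integralClosure v.toValuationSubring F') F')
        (by rw [h0, map_zero]))
    rw [Fermat.Agent.S24.mem_nonunits_iff_ord_pos _ hne]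
    exact (s37_h_place_ord_pos_iff K (F := F') q d hd0).mpr hd
  obtain ⟨y, hy⟩ := IsDedekindDomain.exists_forall_sub_mem_ideal
    (s := (Finset.univ : Finset (HeightOneSpectrum (integralClosure v.toValuationSubring F'))))
    (fun q => q.asIdeal) (fun _ => 1) (fun q _ => q.prime)
    (fun q _ q' _ hne h => hne (HeightOneSpectrum.ext h))
    (fun q => if (q : HeightOneSpectrum (integralClosure v.toValuationSubring F')) = q₀
      then 1 else 0)
  refine ⟨algebraMap (integralClosure v.toValuationSubring F') F' y, ?_, ?_⟩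
  · have h1 := hy q₀ (Finset.mem_univ _)
    rw [pow_one, if_pos rfl] at h1
    have h2 := key q₀ _ h1
    rw [hq₀, map_sub, map_one] at h2
    exact h2
  · intro w hw hne
    obtain ⟨q, hq⟩ := s37_h_loc_exists v (integralClosure v.toValuationSubring F') w
      (Place.mem_fiber.mp hw)
    have hqq : q ≠ q₀ := by
      intro h
      apply hne
      rw [← hq, ← hq₀, h]
    have h1 := hy q (Finset.mem_univ _)
    rw [pow_one, if_neg hqq, sub_zero] at h1
    have h2 := key q _ h1
    rw [hq] at h2
    exact h2

end Along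

/-! ## A root count -/

open Classical in
/-- The multiplicity of the root `1` in `∏ (X - aᵢ) ^ eᵢ` with `aᵢ ∈ {0, 1}`. -/
theorem s37_tr_count_roots {K ι : Type*} [Field K] (s : Finset ι) (p : ι → Prop)
    [DecidablePred p] (e : ι → ℕ) :
    Multiset.count (1 : K) (∏ i ∈ s, (X - C (if p i then (1 : K) else 0)) ^ e i).roots
      = ∑ i ∈ s, if p i then e i else 0 := by
  classical
  have hne : (∏ i ∈ s, (X - C (if p i then (1 : K) else 0)) ^ e i) ≠ 0 :=
    Finset.prod_ne_zero_iff.mpr (fun i _ => pow_ne_zero _ (X_sub_C_ne_zero _))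
  rw [roots_prod _ _ hne, Multiset.count_bind]
  refine congrArg Multiset.sum (Multiset.map_congr rfl fun i _ => ?_)
  rw [roots_pow, roots_X_sub_C, Multiset.count_nsmul, Multiset.count_singleton]
  by_cases hp : p i
  · rw [if_pos hp, if_pos hp, if_pos rfl, mul_one]
  · rw [if_neg hp, if_neg hp, if_neg one_ne_zero, mul_zero]

/-! ## Base change -/

section Square

variable {K F F₁ F₂ E : Type*} [Field K] [Field F] [Field F₁] [Field F₂] [Field E]
  [Algebra K F] [Algebra K F₁] [Algebra K F₂] [Algebra K E]
  (u₁ : F →ₐ[K] F₁) (u₂ : F →ₐ[K] F₂) (v₁ : F₁ →ₐ[K] E) (v₂ : F₂ →ₐ[K] E)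
  (hcomm : v₁.comp u₁ = v₂.comp u₂)
  (hu₁ : u₁.toRingHom.IsIntegral) (hu₂ : u₂.toRingHom.IsIntegral)
  (hv₁ : v₁.toRingHom.IsIntegral) (hv₂ : v₂.toRingHom.IsIntegral)

include hcomm in
/-- The two ways of restricting a place of `E` to `F` agree. -/
theorem s37_tr_restrict_square (Q' : Place K E) :
    (Q'.restrictAlong v₂ hv₂).restrictAlong u₂ hu₂
      = (Q'.restrictAlong v₁ hv₁).restrictAlong u₁ hu₁ := by
  apply Place.ext
  ext x
  show v₂ (u₂ x) ∈ Q'.toValuationSubring ↔ v₁ (u₁ x) ∈ Q'.toValuationSubring
  rw [← AlgHom.comp_apply, ← AlgHom.comp_apply, hcomm]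

variable [IsAlgClosed K] [CharZero K] [HasPrincipalDivisors K F₂] [HasPrincipalDivisors K E]

open Classical in
include hcomm in
/-- The local degrees over `Q` of the places of `E` above a place `P'` of `F₂` add up to the
ramification index of `P'`. -/
theorem s37_tr_sum_ramification (hF : s37_h_IsFF K F) (hF₁ : s37_h_IsFF K F₁)
    (hfin₂ : FiniteAlong K u₂) (hfin₁ : FiniteAlong K v₁)
    (hchi : ∀ g : F₂, s37_tr_chi v₁ hfin₁ (v₂ g) = (s37_tr_chi u₂ hfin₂ g).map u₁.toRingHom)
    (Q : Place K F₁) (P' : Place K F₂)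
    (hP' : P'.restrictAlong u₂ hu₂ = Q.restrictAlong u₁ hu₁) :
    ∑ Q' ∈ Place.fiberAlong v₁ hv₁ Q,
        (if Q'.restrictAlong v₂ hv₂ = P' then Q'.ramificationIndexAlong v₁ else 0)
      = P'.ramificationIndexAlong u₂ := by
  have hP'mem : P' ∈ Place.fiberAlong u₂ hu₂ (Q.restrictAlong u₁ hu₁) :=
    Place.mem_fiberAlong.mpr hP'
  obtain ⟨g, hg1, hg0⟩ := s37_tr_exists_sep u₂ hu₂ hfin₂ (Q.restrictAlong u₁ hu₁) P' hP'mem
  have hc : ∀ w ∈ Place.fiberAlong u₂ hu₂ (Q.restrictAlong u₁ hu₁),
      g - algebraMap K F₂ (if w = P' then (1 : K) else 0) ∈ w.toValuationSubring.nonunits := by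
    intro w hw
    by_cases hwP : w = P'
    · rw [if_pos hwP, map_one, hwP]
      exact hg1
    · rw [if_neg hwP, map_zero, sub_zero]
      exact hg0 w hw hwP
  have hcp1 := s37_tr_cp hF u₂ hu₂ hfin₂ (Q.restrictAlong u₁ hu₁) g
    (fun w => if w = P' then (1 : K) else 0) hc
  have hc' : ∀ Q' ∈ Place.fiberAlong v₁ hv₁ Q,
      v₂ g - algebraMap K E (if Q'.restrictAlong v₂ hv₂ = P' then (1 : K) else 0)
        ∈ Q'.toValuationSubring.nonunits := by
    intro Q' hQ'
    have hQ'Q : Q'.restrictAlong v₁ hv₁ = Q := Place.mem_fiberAlong.mp hQ'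
    have hmem : Q'.restrictAlong v₂ hv₂ ∈ Place.fiberAlong u₂ hu₂ (Q.restrictAlong u₁ hu₁) := by
      rw [Place.mem_fiberAlong, s37_tr_restrict_square u₁ u₂ v₁ v₂ hcomm hu₁ hu₂ hv₁ hv₂, hQ'Q]
    have h1 := s37_tr_map_mem_nonunits v₂ hv₂ Q' (hc _ hmem)
    rw [map_sub, AlgHom.commutes] at h1
    exact h1
  have hcp2 := s37_tr_cp hF₁ v₁ hv₁ hfin₁ Q (v₂ g)
    (fun Q' => if Q'.restrictAlong v₂ hv₂ = P' then (1 : K) else 0) hc'
  have hpoly : (∏ w ∈ Place.fiberAlong u₂ hu₂ (Q.restrictAlong u₁ hu₁),
        (X - C (if w = P' then (1 : K) else 0)) ^ w.ramificationIndexAlong u₂)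
      = ∏ Q' ∈ Place.fiberAlong v₁ hv₁ Q,
        (X - C (if Q'.restrictAlong v₂ hv₂ = P' then (1 : K) else 0))
          ^ Q'.ramificationIndexAlong v₁ := by
    ext i
    have h1 := s37_tr_map_mem_nonunits u₁ hu₁ Q (hcp1 i)
    rw [map_sub, AlgHom.commutes] at h1
    have h2 := hcp2 i
    rw [hchi g, coeff_map, AlgHom.toRingHom_eq_coe, RingHom.coe_coe] at h2
    have h3 := s37_tr_sub_mem_nonunits _ h2 h1
    rw [sub_sub_sub_cancel_left, ← map_sub] at h3
    exact sub_eq_zero.mp (s37_tr_const_eq_zero Q _ h3)
  have hcount := congrArg (fun p : K[X] => Multiset.count (1 : K) p.roots) hpoly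
  beta_reduce at hcount
  rw [s37_tr_count_roots, s37_tr_count_roots, Finset.sum_ite_eq', if_pos hP'mem] at hcount
  exact hcount.symm

include hcomm in
/-- **Base change**: `u₂^* ∘ u₁_* = v₂_* ∘ v₁^*`. -/
theorem s37_tr_baseChange (hF : s37_h_IsFF K F) (hF₁ : s37_h_IsFF K F₁)
    (hF₂ : s37_h_IsFF K F₂) (hE : s37_h_IsFF K E)
    (hfin₂ : FiniteAlong K u₂) (hfin₁ : FiniteAlong K v₁)
    (hchi : ∀ g : F₂, s37_tr_chi v₁ hfin₁ (v₂ g) = (s37_tr_chi u₂ hfin₂ g).map u₁.toRingHom)
    (D : Divisor K F₁) :
    Divisor.pullbackAlong u₂ hu₂ (Divisor.pushforwardAlong u₁ hu₁ D)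
      = Divisor.pushforwardAlong v₂ hv₂ (Divisor.pullbackAlong v₁ hv₁ D) := by
  classical
  induction D using Finsupp.induction with
  | zero => simp
  | single_add Q n D _ _ ih =>
    rw [map_add, map_add, map_add, map_add, ih]
    congr 1
    rw [hF.pushforwardAlong_single hF₁ u₁ hu₁, Divisor.pullbackAlong_single,
      Divisor.pullbackAlong_single, map_sum]
    have h1 : ∀ Q' ∈ Place.fiberAlong v₁ hv₁ Q,
        Divisor.pushforwardAlong v₂ hv₂
            (Finsupp.single Q' (n * (Q'.ramificationIndexAlong v₁ : ℤ)))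
          = Finsupp.single (Q'.restrictAlong v₂ hv₂) (n * (Q'.ramificationIndexAlong v₁ : ℤ)) :=
      fun Q' _ => hF₂.pushforwardAlong_single hE v₂ hv₂ Q' _
    rw [Finset.sum_congr rfl h1]
    ext P'
    rw [Finsupp.finsetSum_apply, Finsupp.finsetSum_apply]
    simp only [Finsupp.single_apply]
    rw [Finset.sum_ite_eq']
    by_cases hP' : P'.restrictAlong u₂ hu₂ = Q.restrictAlong u₁ hu₁
    · rw [if_pos (Place.mem_fiberAlong.mpr hP')]
      have h2 := s37_tr_sum_ramification u₁ u₂ v₁ v₂ hcomm hu₁ hu₂ hv₁ hv₂ hF hF₁ hfin₂ hfin₁ hchi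
        Q P' hP'
      rw [← h2]
      push_cast
      rw [Finset.mul_sum]
      refine Finset.sum_congr rfl (fun Q' _ => ?_)
      by_cases hQ' : Q'.restrictAlong v₂ hv₂ = P'
      · rw [if_pos hQ', if_pos hQ']
      · rw [if_neg hQ', if_neg hQ', mul_zero]
    · rw [if_neg (by rwa [Place.mem_fiberAlong])]
      symm
      refine Finset.sum_eq_zero (fun Q' hQ' => ?_)
      rw [if_neg]
      intro hcon
      apply hP'
      rw [← hcon, s37_tr_restrict_square u₁ u₂ v₁ v₂ hcomm hu₁ hu₂ hv₁ hv₂,
        Place.mem_fiberAlong.mp hQ']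

end Square

end Fermat.Agent.S37
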