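import Fermat.Agent.S37.HFunct

/-!
# S37, block TR, generic part 1: pull-back on `Pic⁰` along a homomorphism of function fields
(helper18)

* `s37_tr_pic0Pull φ hφ hFI : Pic0 K F →+ Pic0 K F'`;
* equivariance for a pair of intertwining semilinear automorphisms;
* its kernel is killed by the degree.
-/

set_option autoImplicit false
set_option linter.unusedSectionVars false
set_option linter.style.haveILetI false

open scoped Pointwise

namespace Fermat.Agent.S37

open AlgebraicCurve

section Pull

variable {K F F' : Type*} [Field K] [Field F] [Field F'] [Algebra K F] [Algebra K F']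
  [HasPrincipalDivisors K F']
  (φ : F →ₐ[K] F') (hφ : φ.toRingHom.IsIntegral) (hFI : FundamentalIdentityAlong K φ hφ)

/-- Pull-back of degree zero divisors. -/
noncomputable def s37_tr_degZeroPull :
    Divisor.degZero (K := K) (F := F) →+ Divisor.degZero (K := K) (F := F') :=
  ((Divisor.pullbackAlong φ hφ).domRestrict (Divisor.degZero (K := K) (F := F))).codRestrict _
    (fun D => Divisor.pullbackAlong_mem_degZero φ hφ hFI D.2)

@[simp]
theorem s37_tr_coe_degZeroPull (D : Divisor.degZero (K := K) (F := F)) :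
    (s37_tr_degZeroPull φ hφ hFI D : Divisor K F') = Divisor.pullbackAlong φ hφ (D : Divisor K F) :=
  rfl

/-- Pull-back on `Pic⁰`. -/
noncomputable def s37_tr_pic0Pull : Pic0 K F →+ Pic0 K F' :=
  QuotientAddGroup.map _ _ (s37_tr_degZeroPull φ hφ hFI) (by
    rintro ⟨D, hD0⟩ hD
    simp only [AddSubgroup.mem_addSubgroupOf] at hD ⊢
    exact Divisor.isPrincipal_pullbackAlong φ hφ hD)

theorem s37_tr_pic0Pull_mk (D : Divisor.degZero (K := K) (F := F)) :
    s37_tr_pic0Pull φ hφ hFI (Pic0.mk D) = Pic0.mk (s37_tr_degZeroPull φ hφ hFI D) :=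
  rfl

end Pull

section Galois

variable {K F F' : Type*} [Field K] [Field F] [Field F'] [Algebra K F] [Algebra K F']
  (φ : F →ₐ[K] F') (hφ : φ.toRingHom.IsIntegral)
  (g : SemilinearAut K F) (g' : SemilinearAut K F')
  (h : SemilinearAut.IntertwinesAlong φ.toRingHom g g')

include h in
/-- Restriction of places commutes with intertwining semilinear automorphisms. -/
theorem s37_tr_restrictAlong_smul (w : Place K F') :
    (g' • w).restrictAlong φ hφ = g • (w.restrictAlong φ hφ) := by
  apply Place.ext
  ext x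
  have hinv := h.inv
  have h1 : g'⁻¹ • φ x = φ (g⁻¹ • x) := hinv x
  show φ x ∈ (g' • w.toValuationSubring : ValuationSubring F')
    ↔ x ∈ (g • (w.restrictAlong φ hφ).toValuationSubring : ValuationSubring F)
  rw [ValuationSubring.mem_pointwise_smul_iff_inv_smul_mem,
    ValuationSubring.mem_pointwise_smul_iff_inv_smul_mem, h1]
  rfl

include hφ h in
/-- Ramification indices are invariant under intertwining semilinear automorphisms. -/
theorem s37_tr_ramificationIndexAlong_smul (w : Place K F') :
    (g' • w).ramificationIndexAlong φ = w.ramificationIndexAlong φ := by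
  obtain ⟨π, hπ⟩ := IsDiscreteValuationRing.exists_irreducible
    (w.restrictAlong φ hφ).toValuationSubring
  have h0 := (w.restrictAlong φ hφ).ord_coe_irreducible hπ
  have h1 := Place.ord_restrictAlong φ hφ w (π : F)
  rw [h0, mul_one] at h1
  have h2 := Place.ord_restrictAlong φ hφ (g' • w) (g • (π : F))
  rw [s37_tr_restrictAlong_smul φ hφ g g' h w, SemilinearAut.ord_smul, h0, mul_one] at h2
  have h3 : φ (g • (π : F)) = g' • φ (π : F) := (h (π : F)).symm
  rw [h3, SemilinearAut.ord_smul, h1] at h2
  exact_mod_cast h2.symm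

variable [HasPrincipalDivisors K F']

include h in
/-- Pull-back of divisors commutes with intertwining semilinear automorphisms. -/
theorem s37_tr_pullbackAlong_smul (D : Divisor K F) :
    Divisor.pullbackAlong φ hφ (g • D) = g' • Divisor.pullbackAlong φ hφ D := by
  ext w
  have hinv := h.inv
  rw [Divisor.pullbackAlong_apply, SemilinearAut.divisor_smul_apply,
    SemilinearAut.divisor_smul_apply, Divisor.pullbackAlong_apply,
    s37_tr_restrictAlong_smul φ hφ g⁻¹ g'⁻¹ hinv w,
    s37_tr_ramificationIndexAlong_smul φ hφ g⁻¹ g'⁻¹ hinv w]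

include h in
/-- Pull-back on `Pic⁰` commutes with intertwining semilinear automorphisms. -/
theorem s37_tr_pic0Pull_smul (hFI : FundamentalIdentityAlong K φ hφ) (x : Pic0 K F) :
    s37_tr_pic0Pull φ hφ hFI (g • x) = g' • s37_tr_pic0Pull φ hφ hFI x := by
  obtain ⟨D, rfl⟩ := Pic0.mk_surjective x
  rw [SemilinearAut.pic0_smul_mk, s37_tr_pic0Pull_mk, s37_tr_pic0Pull_mk,
    SemilinearAut.pic0_smul_mk]
  refine congrArg Pic0.mk (Subtype.ext ?_)
  rw [s37_tr_coe_degZeroPull, SemilinearAut.coe_degZeroSMulHom, SemilinearAut.coe_degZeroSMulHom,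
    s37_tr_coe_degZeroPull]
  exact s37_tr_pullbackAlong_smul φ hφ g g' h _

end Galois

section Ker

variable {K F F' : Type*} [Field K] [Field F] [Field F'] [Algebra K F] [Algebra K F']
  [IsAlgClosed K] [CharZero K] [HasPrincipalDivisors K F']

/-- The kernel of the pull-back on `Pic⁰` is killed by the degree. -/
theorem s37_tr_pic0Pull_ker (hF : s37_h_IsFF K F) (hF' : s37_h_IsFF K F') (φ : F →ₐ[K] F')
    (hφ : φ.toRingHom.IsIntegral) (hFI : FundamentalIdentityAlong K φ hφ)
    (hfin : FiniteAlong K φ) (hN : NormFormulaAlong K φ hfin) (x : Pic0 K F)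
    (hx : s37_tr_pic0Pull φ hφ hFI x = 0) : finrankAlong K φ • x = 0 := by
  obtain ⟨D, rfl⟩ := Pic0.mk_surjective x
  rw [s37_tr_pic0Pull_mk] at hx
  have h1 : Divisor.IsPrincipal (Divisor.pullbackAlong φ hφ (D : Divisor K F)) := by
    have h2 := (QuotientAddGroup.eq_zero_iff _).mp hx
    rw [AddSubgroup.mem_addSubgroupOf] at h2
    exact h2
  have h3 := Divisor.isPrincipal_pushforwardAlong φ hφ hfin hN h1
  rw [s37_h_pushforwardAlong_pullbackAlong hF hF' φ hφ] at h3
  have h4 : finrankAlong K φ • Pic0.mk D = Pic0.mk (finrankAlong K φ • D) := rfl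
  rw [h4]
  refine (QuotientAddGroup.eq_zero_iff _).mpr ?_
  rw [AddSubgroup.mem_addSubgroupOf]
  have h5 : ((finrankAlong K φ • D : Divisor.degZero (K := K) (F := F)) : Divisor K F)
      = (finrankAlong K φ : ℤ) • (D : Divisor K F) := by
    rw [AddSubgroup.coe_nsmul, natCast_zsmul]
  rw [h5]
  exact h3

end Ker

end Fermat.Agent.S37
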